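import Mathlib
import Fermat.Prelude.Def_FLTPrelim_GaloisRep
import Fermat.Prelude.Def_FLTPrelim_CofixedLine
import Fermat.Prelude.Def_FLTPrelim_Ramification
import Fermat.Agent.S05.KerRed

/-!
# S13, transfer between a finite level `L` and the big field `Ω`

`F ⊆ L ⊆ Ω` fields, `W'` a Weierstrass curve over `F`.  If `L` is normal over `F` and contains the
coordinates of all `n`-torsion points of `W'` over `Ω`, then base change `L → Ω` identifies the
`n`-torsion over `L` with the `n`-torsion over `Ω`, compatibly with the Galois actions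
(`σ ↦ σ.restrictNormal L`).  Consequently the two frozen predicates `GaloisRepIsIrreducible` and
`HasGaloisStableCofixedLine` can be transferred between the two levels.

Also: the field generated by the coordinates of the torsion points (`exists_level`) and the
restriction of a valuation subring of `Ω` to `L` (`down`).
-/

set_option autoImplicit false

open WeierstrassCurve WeierstrassCurve.Affine WeierstrassCurve.Affine.Point

namespace Fermat.Agent.S13.FinLevel

section Transfer

variable {F L Ω : Type*} [Field F] [Field L] [Field Ω] [Algebra F L] [Algebra F Ω] [Algebra L Ω]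
  [IsScalarTower F L Ω] [DecidableEq L] [DecidableEq Ω] (W' : WeierstrassCurve.Affine F) (n : ℕ)

/-- Base change of points from `L` to `Ω`. -/
noncomputable def up : (W'⁄L).Point →+ (W'⁄Ω).Point :=
  Point.map (W' := W') (IsScalarTower.toAlgHom F L Ω)

lemma up_injective : Function.Injective (up (L := L) (Ω := Ω) W') :=
  Point.map_injective _

@[simp] lemma up_zero : up (L := L) (Ω := Ω) W' 0 = 0 := rfl

lemma up_some {x y : L} (h : (W'⁄L).Nonsingular x y) :
    up (Ω := Ω) W' (Point.some x y h) = Point.some (algebraMap L Ω x) (algebraMap L Ω y)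
      ((W'.baseChange_nonsingular (IsScalarTower.toAlgHom F L Ω).injective ..).mpr h) :=
  rfl

/-- Equivariance of base change. -/
lemma smul_up [Normal F L] (σ : Ω ≃ₐ[F] Ω) (T : (W'⁄L).Point) :
    σ • up (Ω := Ω) W' T = up W' (σ.restrictNormal L • T) := by
  have hcomp : σ.toAlgHom.comp (IsScalarTower.toAlgHom F L Ω) =
      (IsScalarTower.toAlgHom F L Ω).comp (σ.restrictNormal L).toAlgHom := by
    ext x
    exact (AlgEquiv.restrictNormal_commutes σ L x).symm
  rw [algEquiv_smul_def, algEquiv_smul_def]
  unfold up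
  rw [Point.map_map, Point.map_map, hcomp]

lemma up_mem_torsionBy {T : (W'⁄L).Point}
    (hT : T ∈ Submodule.torsionBy ℤ (W'⁄L).Point n) :
    up (Ω := Ω) W' T ∈ Submodule.torsionBy ℤ (W'⁄Ω).Point n := by
  rw [Submodule.mem_torsionBy_iff] at hT ⊢
  rw [← map_zsmul, hT, _root_.map_zero]

/-- Base change on the `n`-torsion. -/
noncomputable def torsHom :
    Submodule.torsionBy ℤ (W'⁄L).Point n →+ Submodule.torsionBy ℤ (W'⁄Ω).Point n where
  toFun x := ⟨up W' x.1, up_mem_torsionBy W' n x.2⟩
  map_zero' := Subtype.ext (_root_.map_zero _)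
  map_add' _ _ := Subtype.ext (_root_.map_add _ _ _)

lemma torsHom_coe (x : Submodule.torsionBy ℤ (W'⁄L).Point n) :
    ((torsHom (Ω := Ω) W' n x : Submodule.torsionBy ℤ (W'⁄Ω).Point n) : (W'⁄Ω).Point) =
      up W' x.1 := rfl

lemma torsHom_injective : Function.Injective (torsHom (L := L) (Ω := Ω) W' n) := by
  intro x y h
  apply Subtype.ext
  apply up_injective (Ω := Ω) W'
  exact congrArg Subtype.val h

/-- `L` contains the coordinates of all `n`-torsion points over `Ω`. -/
def Contains (L : Type*) {Ω : Type*} [Field L] [Field Ω] [Algebra F L] [Algebra F Ω] [Algebra L Ω]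
    [IsScalarTower F L Ω] [DecidableEq L] [DecidableEq Ω] (W' : WeierstrassCurve.Affine F)
    (n : ℕ) : Prop :=
  ∀ T : (W'⁄Ω).Point, T ∈ Submodule.torsionBy ℤ (W'⁄Ω).Point n →
    ∃ T' : (W'⁄L).Point, up W' T' = T

variable {W' n}

lemma torsHom_surjective (hL : Contains L (Ω := Ω) W' n) :
    Function.Surjective (torsHom (L := L) (Ω := Ω) W' n) := by
  rintro ⟨T, hT⟩
  obtain ⟨T', rfl⟩ := hL T hT
  refine ⟨⟨T', ?_⟩, rfl⟩
  rw [Submodule.mem_torsionBy_iff] at hT ⊢
  apply up_injective (Ω := Ω) W'
  rw [map_zsmul, hT, _root_.map_zero]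

/-- The identification of the `n`-torsion over `L` with the `n`-torsion over `Ω`. -/
noncomputable def torsEquiv (hL : Contains L (Ω := Ω) W' n) :
    Submodule.torsionBy ℤ (W'⁄L).Point n ≃ₗ[ZMod n] Submodule.torsionBy ℤ (W'⁄Ω).Point n :=
  LinearEquiv.ofBijective ((torsHom W' n).toZModLinearMap n)
    ⟨torsHom_injective W' n, torsHom_surjective hL⟩

lemma torsEquiv_coe (hL : Contains L (Ω := Ω) W' n)
    (x : Submodule.torsionBy ℤ (W'⁄L).Point n) :
    ((torsEquiv hL x : Submodule.torsionBy ℤ (W'⁄Ω).Point n) : (W'⁄Ω).Point) = up W' x.1 := rfl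

/-- Equivariance of `torsEquiv`. -/
lemma smul_torsEquiv [Normal F L] (hL : Contains L (Ω := Ω) W' n) (σ : Ω ≃ₐ[F] Ω)
    (x : Submodule.torsionBy ℤ (W'⁄L).Point n) :
    σ • torsEquiv hL x = torsEquiv hL (σ.restrictNormal L • x) :=
  Subtype.ext (smul_up W' σ x.1)

lemma card_torsion_level (hL : Contains L (Ω := Ω) W' n) :
    Nat.card (Submodule.torsionBy ℤ (W'⁄L).Point n) =
      Nat.card (Submodule.torsionBy ℤ (W'⁄Ω).Point n) :=
  Nat.card_congr (torsEquiv hL).toEquiv

/-- Irreducibility over `L` implies irreducibility over `Ω`. -/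
theorem irreducible_of_level [Normal F L] [Normal F Ω] (hL : Contains L (Ω := Ω) W' n)
    (h : GaloisRepIsIrreducible (K := L) F W' n) : GaloisRepIsIrreducible (K := Ω) F W' n := by
  obtain ⟨hnt, hN⟩ := h
  refine ⟨(torsEquiv hL).toEquiv.symm.nontrivial, fun N hNs => ?_⟩
  have hst : IsGaloisStable F (N.comap (torsEquiv hL).toLinearMap) := by
    intro τ x hx
    obtain ⟨σ, rfl⟩ := AlgEquiv.restrictNormalHom_surjective Ω τ
    rw [Submodule.mem_comap] at hx ⊢
    have := hNs σ _ hx
    rw [LinearEquiv.coe_coe] at this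
    rw [smul_torsEquiv] at this
    exact this
  rcases hN _ hst with h0 | h1
  · left
    rw [Submodule.eq_bot_iff]
    intro y hy
    obtain ⟨x, rfl⟩ := (torsEquiv hL).surjective y
    have hx : x ∈ N.comap (torsEquiv hL).toLinearMap := hy
    rw [h0, Submodule.mem_bot] at hx
    rw [hx, _root_.map_zero]
  · right
    rw [Submodule.eq_top_iff']
    intro y
    obtain ⟨x, rfl⟩ := (torsEquiv hL).surjective y
    have hx : x ∈ N.comap (torsEquiv hL).toLinearMap := by rw [h1]; trivial
    exact hx

/-- A Galois stable cofixed line over `L` gives one over `Ω`. -/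
theorem cofixed_of_level [Normal F L] (hL : Contains L (Ω := Ω) W' n)
    (h : HasGaloisStableCofixedLine (K := L) F W' n) :
    HasGaloisStableCofixedLine (K := Ω) F W' n := by
  obtain ⟨N, hst, hbot, htop, hcof⟩ := h
  refine ⟨N.map (torsEquiv hL).toLinearMap, ?_, ?_, ?_, ?_⟩
  · rintro σ y ⟨x, hx, rfl⟩
    exact ⟨σ.restrictNormal L • x, hst _ x hx, (smul_torsEquiv hL σ x).symm⟩
  · intro h0
    apply hbot
    rw [Submodule.eq_bot_iff]
    intro x hx
    have : torsEquiv hL x ∈ N.map (torsEquiv hL).toLinearMap := ⟨x, hx, rfl⟩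
    rw [h0, Submodule.mem_bot] at this
    exact (torsEquiv hL).injective (this.trans (_root_.map_zero _).symm)
  · intro h1
    apply htop
    rw [Submodule.eq_top_iff']
    intro x
    have : torsEquiv hL x ∈ N.map (torsEquiv hL).toLinearMap := by rw [h1]; trivial
    obtain ⟨x', hx', hxx⟩ := this
    have : x' = x := (torsEquiv hL).injective hxx
    exact this ▸ hx'
  · intro σ y
    obtain ⟨x, rfl⟩ := (torsEquiv hL).surjective y
    refine ⟨σ.restrictNormal L • x - x, hcof _ x, ?_⟩
    rw [LinearEquiv.coe_coe, map_sub, smul_torsEquiv]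

end Transfer

section Level

variable {F Ω : Type*} [Field F] [Field Ω] [Algebra F Ω] [DecidableEq Ω]
  (W' : WeierstrassCurve.Affine F) (n : ℕ)

/-- The coordinates of a point. -/
def coords : (W'⁄Ω).Point → Set Ω
  | .zero => ∅
  | .some x y _ => {x, y}

omit [DecidableEq Ω] in
lemma coords_finite (T : (W'⁄Ω).Point) : (coords W' T).Finite := by
  rcases T with _ | ⟨x, y, h⟩
  · exact Set.finite_empty
  · exact Set.toFinite {x, y}

lemma coords_smul (σ : Ω ≃ₐ[F] Ω) (T : (W'⁄Ω).Point) :
    σ '' coords W' T = coords W' (σ • T) := by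
  rcases T with _ | ⟨x, y, h⟩
  · exact Set.image_empty _
  · exact Set.image_pair _ _ _

/-- The field generated by the coordinates of the `n`-torsion points: it is finite and normal
over `F` and contains the coordinates of all `n`-torsion points. -/
theorem exists_level [Normal F Ω]
    (hfin : (Submodule.torsionBy ℤ (W'⁄Ω).Point n : Set (W'⁄Ω).Point).Finite) :
    ∃ L : IntermediateField F Ω, FiniteDimensional F L ∧ Normal F L ∧
      Contains (↥L) (Ω := Ω) W' n := by
  set V : Set (W'⁄Ω).Point := (Submodule.torsionBy ℤ (W'⁄Ω).Point n : Set (W'⁄Ω).Point) with hV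
  set S : Set Ω := ⋃ T ∈ V, coords W' T with hS
  have hSfin : S.Finite := Set.Finite.biUnion hfin (fun T _ => coords_finite W' T)
  have : Finite S := hSfin.to_subtype
  refine ⟨IntermediateField.adjoin F S, ?_, ?_, ?_⟩
  · exact IntermediateField.finiteDimensional_adjoin
      (fun x _ => (Normal.isIntegral (inferInstance : Normal F Ω) x))
  · rw [IntermediateField.normal_iff_forall_map_le' (L := Ω)]
    intro σ
    rw [IntermediateField.adjoin_map]
    apply IntermediateField.adjoin.mono
    rintro _ ⟨s, hs, rfl⟩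
    rw [hS, Set.mem_iUnion₂] at hs ⊢
    obtain ⟨T, hT, hsT⟩ := hs
    refine ⟨σ • T, smul_mem_torsionBy σ hT, ?_⟩
    rw [← coords_smul]
    exact ⟨s, hsT, rfl⟩
  · intro T hT
    rcases T with _ | ⟨x, y, h⟩
    · exact ⟨0, rfl⟩
    · have hx : x ∈ IntermediateField.adjoin F S :=
        IntermediateField.subset_adjoin F S
          (Set.mem_iUnion₂.mpr ⟨_, hT, Set.mem_insert x {y}⟩)
      have hy : y ∈ IntermediateField.adjoin F S :=
        IntermediateField.subset_adjoin F S
          (Set.mem_iUnion₂.mpr ⟨_, hT, Set.mem_insert_of_mem x rfl⟩)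
      have h' : (W'⁄(IntermediateField.adjoin F S)).Nonsingular ⟨x, hx⟩ ⟨y, hy⟩ :=
        (W'.baseChange_nonsingular (IsScalarTower.toAlgHom F (IntermediateField.adjoin F S) Ω).injective
          ⟨x, hx⟩ ⟨y, hy⟩).mp h
      exact ⟨Point.some _ _ h', rfl⟩

end Level

section Val

variable {L Ω : Type*} [Field L] [Field Ω] [Algebra L Ω] (A : ValuationSubring Ω)

/-- The restriction of a valuation subring of `Ω` to the subfield `L`. -/
def down : ValuationSubring L := A.comap (algebraMap L Ω)

variable {A}

lemma mem_down {z : L} : z ∈ down (L := L) A ↔ algebraMap L Ω z ∈ A := Iff.rfl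

lemma down_le_one_iff {z : L} :
    (down (L := L) A).valuation z ≤ 1 ↔ A.valuation (algebraMap L Ω z) ≤ 1 := by
  rw [ValuationSubring.valuation_le_one_iff, ValuationSubring.valuation_le_one_iff]
  exact mem_down

lemma one_le_valuation_iff {K : Type*} [Field K] (B : ValuationSubring K) {w : K} (hw : w ≠ 0) :
    1 ≤ B.valuation w ↔ B.valuation w⁻¹ ≤ 1 := by
  rw [map_inv₀]
  have : 0 < B.valuation w := zero_lt_iff.mpr ((Valuation.ne_zero_iff _).mpr hw)
  rw [inv_le_one₀ this]

lemma down_one_le_iff {z : L} :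
    1 ≤ (down (L := L) A).valuation z ↔ 1 ≤ A.valuation (algebraMap L Ω z) := by
  by_cases hz : z = 0
  · subst hz
    simp
  · have hz' : algebraMap L Ω z ≠ 0 := (map_ne_zero (algebraMap L Ω)).mpr hz
    rw [one_le_valuation_iff _ hz, one_le_valuation_iff _ hz', down_le_one_iff, map_inv₀]

lemma down_lt_one_iff {z : L} :
    (down (L := L) A).valuation z < 1 ↔ A.valuation (algebraMap L Ω z) < 1 := by
  rw [← not_le, ← not_le, down_one_le_iff]

lemma down_one_lt_iff {z : L} :
    1 < (down (L := L) A).valuation z ↔ 1 < A.valuation (algebraMap L Ω z) := by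
  rw [← not_le, ← not_le, down_le_one_iff]

lemma down_eq_one_iff {z : L} :
    (down (L := L) A).valuation z = 1 ↔ A.valuation (algebraMap L Ω z) = 1 := by
  rw [le_antisymm_iff, le_antisymm_iff, down_le_one_iff, down_one_le_iff]

lemma liesOverPrime_down {q : ℕ} : (down (L := L) A).LiesOverPrime q ↔ A.LiesOverPrime q := by
  unfold ValuationSubring.LiesOverPrime
  rw [ValuationSubring.mem_nonunits_iff, ValuationSubring.mem_nonunits_iff, down_lt_one_iff,
    map_natCast]

end Val

section Ker

open Fermat.Agent.S05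

variable {F L Ω : Type*} [Field F] [Field L] [Field Ω] [Algebra F L] [Algebra F Ω] [Algebra L Ω]
  [IsScalarTower F L Ω] [DecidableEq L] [DecidableEq Ω] (W' : WeierstrassCurve.Affine F)

lemma xc_up (T : (W'⁄L).Point) :
    KerRed.xc (W'⁄Ω) (up W' T) = algebraMap L Ω (KerRed.xc (W'⁄L) T) := by
  rcases T with _ | ⟨x, y, h⟩
  · exact (_root_.map_zero _).symm
  · rfl

/-- A point over `L` lies in the kernel of reduction for the restricted valuation iff its base
change does. -/
lemma inKer_up_iff (A : ValuationSubring Ω) (T : (W'⁄L).Point) :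
    KerRed.InKer A.valuation (W'⁄Ω) (up W' T) ↔
      KerRed.InKer (down (L := L) A).valuation (W'⁄L) T := by
  unfold KerRed.InKer
  rw [xc_up, down_one_lt_iff]

end Ker

section Reduce

universe u

variable {F : Type*} {Ω : Type u} [Field F] [Field Ω] [Algebra F Ω] [DecidableEq Ω]
  (W' : WeierstrassCurve.Affine F) (n : ℕ)

/-- **Reduction to a finite level**: to prove "reducible ⇒ cofixed line" over `Ω` it suffices to
prove it over every subfield `L` of `Ω` which is finite and normal over `F` and contains the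
coordinates of the `n`-torsion points (all instances on `L` are universally quantified). -/
theorem cofixed_of_forall_level [Normal F Ω]
    (hfin : (Submodule.torsionBy ℤ (W'⁄Ω).Point n : Set (W'⁄Ω).Point).Finite)
    (H : ∀ (L : Type u) [Field L] [DecidableEq L] [Algebra F L] [Algebra L Ω]
      [IsScalarTower F L Ω] [FiniteDimensional F L] [Normal F L], Contains L (Ω := Ω) W' n →
      ¬ GaloisRepIsIrreducible (K := L) F W' n → HasGaloisStableCofixedLine (K := L) F W' n)
    (hred : ¬ GaloisRepIsIrreducible (K := Ω) F W' n) :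
    HasGaloisStableCofixedLine (K := Ω) F W' n := by
  obtain ⟨L, hfd, hnorm, hL⟩ := exists_level W' n hfin
  exact cofixed_of_level hL (H L hL (fun h => hred (irreducible_of_level hL h)))

end Reduce

/-- `ℚ̄` is normal over `ℚ` (for the default `ℚ`-algebra structure). -/
theorem normal_rat_algebraicClosure : Normal ℚ (AlgebraicClosure ℚ) := by
  have h : (DivisionRing.toRatAlgebra : Algebra ℚ (AlgebraicClosure ℚ)) =
      AlgebraicClosure.instAlgebra ℚ := Subsingleton.elim _ _
  rw [h]
  infer_instance

/-- **Reduction of the frozen shape to number fields**: to prove "reducible ⇒ cofixed line" over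
`ℚ̄` it suffices to prove it over every number field `L`, Galois over `ℚ`, embedded in `ℚ̄` and
containing the coordinates of the `n`-torsion points.  Here `L` carries its DEFAULT `ℚ`-algebra
structure, so `NumberField`/`IsGalois ℚ L`/`L ≃ₐ[ℚ] L` are the standard ones. -/
theorem cofixed_of_forall_numberField (W' : WeierstrassCurve.Affine ℚ) (n : ℕ)
    (hfin : (Submodule.torsionBy ℤ (W'⁄(AlgebraicClosure ℚ)).Point n :
      Set (W'⁄(AlgebraicClosure ℚ)).Point).Finite)
    (H : ∀ (L : Type) [Field L] [NumberField L] [IsGalois ℚ L] [DecidableEq L]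
      [Algebra L (AlgebraicClosure ℚ)] [IsScalarTower ℚ L (AlgebraicClosure ℚ)],
      Contains L (Ω := AlgebraicClosure ℚ) W' n →
      ¬ GaloisRepIsIrreducible (K := L) ℚ W' n → HasGaloisStableCofixedLine (K := L) ℚ W' n)
    (hred : ¬ GaloisRepIsIrreducible (K := AlgebraicClosure ℚ) ℚ W' n) :
    HasGaloisStableCofixedLine (K := AlgebraicClosure ℚ) ℚ W' n := by
  have := normal_rat_algebraicClosure
  refine cofixed_of_forall_level W' n hfin ?_ hred
  intro L _ _ i _ _ _ _ hL hredL
  have hc : CharZero L := charZero_of_injective_algebraMap (algebraMap ℚ L).injective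
  obtain rfl : i = DivisionRing.toRatAlgebra := Subsingleton.elim _ _
  have hnf : NumberField L := { to_charZero := hc, to_finiteDimensional := inferInstance }
  have hgal : IsGalois ℚ L := { }
  exact H L hL hredL

/-- Every field of characteristic zero has a valuation subring lying over a given prime `q`
(Zorn: a valuation subring dominating the localisation of `ℤ` at `q`). -/
theorem exists_liesOverPrime (Ω : Type*) [Field Ω] [CharZero Ω] {q : ℕ} (hq : q.Prime) :
    ∃ A : ValuationSubring Ω, A.LiesOverPrime q := by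
  let Z : Subring Ω := (Int.castRingHom Ω).range
  have hqZ : (q : Ω) ∈ Z := ⟨(q : ℤ), by simp⟩
  let I : Ideal Z := Ideal.span {⟨(q : Ω), hqZ⟩}
  have hI : I ≠ ⊤ := by
    intro h
    have h1 : (1 : Z) ∈ I := by rw [h]; trivial
    obtain ⟨⟨a, m, rfl⟩, ha⟩ := Ideal.mem_span_singleton'.mp h1
    have h2 : ((m * q : ℤ) : Ω) = ((1 : ℤ) : Ω) := by
      have := congrArg Subtype.val ha
      push_cast
      simpa using this
    have h3 : (m * q : ℤ) = 1 := Int.cast_injective h2
    have h4 : (q : ℤ) ∣ 1 := Dvd.intro_left m h3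
    have h5 : q ∣ 1 := by exact_mod_cast h4
    exact hq.one_lt.ne' (Nat.dvd_one.mp h5)
  obtain ⟨B, -, hB⟩ := Ideal.image_subset_nonunits_valuationSubring I hI
  exact ⟨B, hB ⟨⟨(q : Ω), hqZ⟩, Ideal.subset_span rfl, rfl⟩⟩

/-- A valuation subring of `ℚ̄` over a given prime. -/
theorem exists_liesOverPrime_algebraicClosure {q : ℕ} (hq : q.Prime) :
    ∃ A : ValuationSubring (AlgebraicClosure ℚ), A.LiesOverPrime q :=
  exists_liesOverPrime (AlgebraicClosure ℚ) hq

end Fermat.Agent.S13.FinLevel
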