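import Mathlib
import Fermat.Agent.S05.BadCore
import Fermat.Agent.S05.BadKap

/-!
# S13 / AtP: an inertial endomorphism moves `p`-torsion points by the kernel of reduction

Setting: a valued field `(K, v)`, a Weierstrass curve `E` with `v`-integral coefficients and a ring
endomorphism `σ` of `K` which moves integral elements by elements of the maximal ideal
(`v z ≤ 1 → v (σ z - z) < 1`; e.g. an element of an inertia group).  For a `p`-torsion point
`T = (x, y)` and `σ T = (σ x, σ y)` we show that `σ T - T` is `O` or lies in the kernel of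
reduction `KerRed.InKer` (non-integral `x`-coordinate), **without** any hypothesis on `v p`:

* `sub_mem_kernel_of_inKer`: both points in the kernel of reduction;
* `good_sub_mem_kernel`: `T` integral with nonsingular reduction (step (D) of S05);
* `node_sub_mem_kernel`: a node `Y² = X³ + An X² + Bn X`, `v An = 1`, `v Bn = v u ^ p < 1`
  (the body of `S05.BadCore.node_fixed_coord` before its final step (F), plus the classification
  `S05.BadKap.node_torsion_val`);
* `frey_sub_mem_kernel`: the Frey curve at any odd prime `q` (in particular `q = p`).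

So for every inertial `σ` at an odd prime: `(σ - 1) E[p] ⊆ E[p] ∩ E₁(v)`.
-/

set_option autoImplicit false

namespace Fermat.Agent.S13.AtP

open WeierstrassCurve WeierstrassCurve.Affine Fermat.Agent.S05 Fermat.Agent.S05.XPair
  Fermat.Agent.S05.NodeModel Fermat.Agent.S05.KerRed

variable {K : Type*} [Field K] [DecidableEq K] {Γ₀ : Type*} [LinearOrderedCommGroupWithZero Γ₀]

omit [DecidableEq K] in
/-- From the coordinate form of "lies in the kernel of reduction" to `KerRed.InKer`. -/
theorem inKer_of_exists (v : Valuation K Γ₀) (W : WeierstrassCurve K) {P : W.toAffine.Point}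
    (h : P = 0 ∨ ∃ (X Y : K) (hXY : W.toAffine.Nonsingular X Y),
      P = Point.some X Y hXY ∧ 1 < v X) : P = 0 ∨ InKer v W P := by
  rcases h with h | ⟨X, Y, hXY, rfl, hX⟩
  · exact Or.inl h
  · exact Or.inr hX

/-- The difference of two points of the kernel of reduction is `O` or in the kernel. -/
theorem sub_mem_kernel_of_inKer {v : Valuation K Γ₀} {W : WeierstrassCurve K}
    (hW : IntCoeffs v W) {T T' : W.toAffine.Point} (hT : InKer v W T) (hT' : InKer v W T') :
    T' - T = 0 ∨ InKer v W (T' - T) := by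
  rw [sub_eq_add_neg]
  exact hT'.add hW hT.neg

omit [DecidableEq K] in
/-- An inertial endomorphism preserves non-integrality. -/
theorem one_lt_val_map (v : Valuation K Γ₀) (σ : K →+* K)
    (hσ : ∀ z : K, v z ≤ 1 → v (σ z - z) < 1) {x : K} (hx : 1 < v x) : 1 < v (σ x) := by
  have hx0 : x ≠ 0 := ne_zero_of_one_lt v hx
  have hinv : v x⁻¹ < 1 := v_inv_lt_one v hx
  have h1 : v (σ x⁻¹ - x⁻¹) < 1 := hσ _ hinv.le
  have h2 : v (σ x⁻¹) < 1 := by
    have e : σ x⁻¹ = (σ x⁻¹ - x⁻¹) + x⁻¹ := by ring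
    rw [e]
    exact v.map_add_lt h1 hinv
  rw [map_inv₀, map_inv₀] at h2
  have hσx0 : σ x ≠ 0 := (map_ne_zero σ).mpr hx0
  exact (inv_lt_one₀ (zero_lt_iff.mpr ((Valuation.ne_zero_iff v).mpr hσx0))).mp h2

/-- Non-integral points: `σ T - T` is `O` or in the kernel of reduction. -/
theorem sub_mem_kernel_of_one_lt {v : Valuation K Γ₀} {W : WeierstrassCurve K}
    (hW : IntCoeffs v W) (σ : K →+* K) (hσ : ∀ z : K, v z ≤ 1 → v (σ z - z) < 1)
    {x y : K} (h : W.toAffine.Nonsingular x y) (h' : W.toAffine.Nonsingular (σ x) (σ y))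
    (hx : 1 < v x) :
    (Point.some (σ x) (σ y) h' - Point.some x y h : W.toAffine.Point) = 0 ∨
      InKer v W (Point.some (σ x) (σ y) h' - Point.some x y h) :=
  sub_mem_kernel_of_inKer hW (T := Point.some x y h) (T' := Point.some (σ x) (σ y) h') hx
    (one_lt_val_map v σ hσ hx)

/-- Integral points with nonsingular reduction (step (D)): `σ T - T` is `O` or in the kernel of
reduction. -/
theorem good_sub_mem_kernel {v : Valuation K Γ₀} {W : WeierstrassCurve K}
    (hW : IntCoeffs v W) (σ : K →+* K) (hσ : ∀ z : K, v z ≤ 1 → v (σ z - z) < 1)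
    {x y : K} (h : W.toAffine.Nonsingular x y) (h' : W.toAffine.Nonsingular (σ x) (σ y))
    (hx : v x ≤ 1)
    (hns : v (W.a₁ * y - (3 * x ^ 2 + 2 * W.a₂ * x + W.a₄)) = 1 ∨
      v (2 * y + W.a₁ * x + W.a₃) = 1) :
    (Point.some (σ x) (σ y) h' - Point.some x y h : W.toAffine.Point) = 0 ∨
      InKer v W (Point.some (σ x) (σ y) h' - Point.some x y h) := by
  have hy : v y ≤ 1 := BadCore.val_y_le_one v W hW.a₁ hW.a₂ hW.a₃ hW.a₄ hW.a₆ h.1 hx
  exact inKer_of_exists v W
    (sub_mem_kernel_of_same_reduction v W hW.a₁ hW.a₂ hW.a₃ h h' hx hy (hσ x hx) (hσ y hy) hns)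

/-- **Inertia moves the `p`-torsion points at a node by the kernel of reduction.**
No hypothesis on `v p`; the point may be non-integral. -/
theorem node_sub_mem_kernel (v : Valuation K Γ₀) (E : WeierstrassCurve K)
    (hW : IntCoeffs v E) (h2 : v (2 : K) = 1)
    {r : K} (hr : dblDen E r = 0) (hvr : v r ≤ 1) (hA : v (An E r) = 1)
    {u : K} (hu1 : v u < 1) (hu0 : u ≠ 0) {p : ℕ} (hp : p.Prime) (hp2 : p ≠ 2)
    (hB : v (Bn E r) = v u ^ p)
    (σ : K →+* K) (hσ : ∀ z : K, v z ≤ 1 → v (σ z - z) < 1) (hσu : σ u = u) (hσr : σ r = r)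
    (hσa₁ : σ E.a₁ = E.a₁) (hσa₃ : σ E.a₃ = E.a₃)
    {x y : K} (h : E.toAffine.Nonsingular x y) (h' : E.toAffine.Nonsingular (σ x) (σ y))
    (hT : p • (Point.some x y h : E.toAffine.Point) = 0) :
    (Point.some (σ x) (σ y) h' - Point.some x y h : E.toAffine.Point) = 0 ∨
      InKer v E (Point.some (σ x) (σ y) h' - Point.some x y h) := by
  rcases lt_or_ge 1 (v x) with hxgt | hx
  · exact sub_mem_kernel_of_one_lt hW σ hσ h h' hxgt
  obtain ⟨h4, h8, h16⟩ := v_ofNat_pow v h2
  have hp0 : p ≠ 0 := hp.ne_zero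
  have hBlt : v (Bn E r) < 1 := by rw [hB]; exact pow_lt_one₀ zero_le hu1 hp0
  have hxr : v (x - r) ≤ 1 := v.map_sub_le hx hvr
  have hXle : v (4 * (x - r)) ≤ 1 := by rw [map_mul, h4, one_mul]; exact hxr
  have hT0 : (Point.some x y h : E.toAffine.Point) ≠ 0 := Point.some_ne_zero _
  have hκ := BadKap.node_torsion_val v E r h2 hr hA hu0 hu1 hp hp2 hB hT0 hT
  rw [Xn_some] at hκ
  rcases hκ with hX1 | ⟨hBX, hX1, j, hj⟩
  · -- off the node: nonsingular reduction
    have hX : v (4 * (x - r)) = 1 := le_antisymm hXle hX1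
    have hns := nonsing_of_Xn_unit v E h2 hW.a₁ hr hA hBlt h.1 hX
    exact good_sub_mem_kernel hW σ hσ h h' hx hns
  · -- in the annulus
    have hXj : v (4 * (x - r)) = v u ^ (2 * j) := by rw [hj, map_pow]
    have hdx : v (σ x - x) < 1 := hσ x hx
    have hx' : v (σ x) ≤ 1 := by
      have e : σ x = (σ x - x) + x := by ring
      rw [e]
      exact v.map_add_le hdx.le hx
    refine inKer_of_exists v E ?_
    set X := 4 * (x - r) with hXdef
    set η := 2 * y + E.a₁ * x + E.a₃ with hηdef
    have hXpos : 0 < v X := lt_of_le_of_lt zero_le hBX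
    have hsq : (4 * η) ^ 2 = Gn E r X := sq_eq_Gn E hr h.1
    have hfac : Gn E r X = X * (X ^ 2 + An E r * X + Bn E r) := by
      simp only [Gn]; ring
    -- `v (X² + An X + Bn) = v X`
    have hQ : v (X ^ 2 + An E r * X + Bn E r) = v X := by
      have hAX : v (An E r * X) = v X := by rw [map_mul, hA, one_mul]
      have hX2 : v (X ^ 2) < v (An E r * X) := by
        rw [hAX, map_pow, sq]
        calc v X * v X < v X * 1 := mul_lt_mul_of_pos_left hX1 hXpos
          _ = v X := mul_one _
      have hB' : v (Bn E r) < v (X ^ 2 + An E r * X) := by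
        rw [v.map_add_eq_of_lt_right hX2, hAX]
        exact hBX
      rw [v.map_add_eq_of_lt_left hB', v.map_add_eq_of_lt_right hX2, hAX]
    have hη : v η = v X := by
      have h5 := congrArg v hsq
      rw [hfac, map_pow, map_mul, h4, one_mul, map_mul, hQ, ← sq] at h5
      exact (pow_left_inj₀ zero_le zero_le (by norm_num)).mp h5
    have hηj : v η = v u ^ (2 * j) := hη.trans hXj
    have hxrj : v (x - r) = v u ^ (2 * j) := by
      have : v X = v (x - r) := by rw [hXdef, map_mul, h4, one_mul]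
      rw [← this]
      exact hXj
    have hd1 := BadCore.val_map_sub_lt v σ hσ hu0 hσu hxrj
    have hd2 := BadCore.val_map_sub_lt v σ hσ hu0 hσu hηj
    have e1 : σ (x - r) - (x - r) = σ x - x := by
      rw [map_sub, hσr]; ring
    have e2 : σ η - η = (2 * σ y + E.a₁ * σ x + E.a₃) - (2 * y + E.a₁ * x + E.a₃) := by
      rw [hηdef, map_add, map_add, map_mul, map_mul, hσa₁, hσa₃, map_ofNat]
    rw [e1, hxrj, ← hηj] at hd1
    rw [e2] at hd2
    exact sub_mem_kernel_of_mul_congr v E hW.a₁ hW.a₂ h2 h h' hx hx' hd1 hd2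

/-- **The Frey curve at an odd prime `q`** (in particular `q = p`): an inertial endomorphism moves
every `p`-torsion point by `O` or by an element of the kernel of reduction. -/
theorem frey_sub_mem_kernel (P : FreyPackage) [Algebra ℚ K] (v : Valuation K Γ₀) {q : ℕ}
    (hq : q.Prime) (hq2 : q ≠ 2) (hv : ∀ n : ℤ, v (n : K) < 1 ↔ (q : ℤ) ∣ n)
    (σ : K →+* K) (hσ : ∀ z : K, v z ≤ 1 → v (σ z - z) < 1)
    {x y : K} (h : (freyK P K).toAffine.Nonsingular x y)
    (h' : (freyK P K).toAffine.Nonsingular (σ x) (σ y))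
    (hT : P.p • (Point.some x y h : (freyK P K).toAffine.Point) = 0) :
    (Point.some (σ x) (σ y) h' - Point.some x y h : (freyK P K).toAffine.Point) = 0 ∨
      InKer v (freyK P K) (Point.some (σ x) (σ y) h' - Point.some x y h) := by
  obtain ⟨h₁, h₂, h₃, h₄, h₆⟩ := frey_integral P v hq hq2 hv
  have hW : IntCoeffs v (freyK P K) := ⟨h₁, h₂, h₃, h₄, h₆⟩
  have h2 : v (2 : K) = 1 := v_two v hq hq2 hv
  rcases lt_or_ge 1 (v x) with hxgt | hx
  · exact sub_mem_kernel_of_one_lt hW σ hσ h h' hxgt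
  by_cases hbad : (q : ℤ) ∣ P.a * P.b * P.c
  · obtain ⟨ρ, u, hr, hvr, hAn, hBn, hqu, hu0⟩ := exists_node P v hq hq2 hv hbad
    have hu1 : v ((u : ℤ) : K) < 1 := (hv u).mpr hqu
    have hu0' : ((u : ℤ) : K) ≠ 0 := by
      intro h0
      have hu0q : (u : ℚ) ≠ 0 := by exact_mod_cast hu0
      have h1 : ((u : ℤ) : K) = algebraMap ℚ K (u : ℚ) := by
        rw [eq_ratCast]; push_cast; rfl
      rw [h1] at h0
      exact hu0q ((map_eq_zero (algebraMap ℚ K)).mp h0)
    have hp2 : P.p ≠ 2 := by have := P.hp5; omega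
    have hσr : σ (algebraMap ℚ K ρ) = algebraMap ℚ K ρ := by
      rw [eq_ratCast, map_ratCast]
    refine node_sub_mem_kernel v (freyK P K) hW h2 hr hvr hAn hu1 hu0' P.pp hp2 hBn σ hσ
      (map_intCast σ u) hσr ?_ ?_ h h' hT
    · rw [frey_a₁]; exact map_one σ
    · rw [frey_a₃]; exact map_zero σ
  · have hns := frey_nonsing_of_good P v hq hq2 hv hbad h.1 hx
    exact good_sub_mem_kernel hW σ hσ h h' hx hns

end Fermat.Agent.S13.AtP
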