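import Mathlib
import Fermat.Prelude.Def_FLTPrelim_FreyPackage
import Fermat.Prelude.Def_FLTPrelim_GaloisRep
import Fermat.Prelude.Def_FLTPrelim_Ramification
import Fermat.Agent.S05.InertiaAPI
import Fermat.Agent.S05.KerRed
import Fermat.Agent.S05.NodeModel
import Fermat.Agent.S05.GoodRed
import Fermat.Agent.S05.BadCore
import Fermat.Agent.S05.NodeKapB
import Fermat.Agent.S13.AtP

/-!
# S13 (T11): the inertia groups at the primes `q ≠ 2, p` act trivially on the `p`-torsion of the
Frey curve, over an arbitrary field `L ⊇ ℚ`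

This is the content of S05, but for valuation subrings of an arbitrary extension field `L` of `ℚ`
(for instance the number field generated by the `p`-torsion points) instead of `ℚ̄`.

* `LevelL.smul_eq_of_node`: generic Galois glue at a node: for a Weierstrass curve with integral
  coefficients whose normal form at a 2-torsion abscissa `r` fixed by `σ` has `v An = 1`,
  `v Bn = v u ^ p < 1` with `u` fixed by `σ`, every `σ` in the inertia group fixes every
  `p`-torsion point.
* `LevelL.frey_smul_eq`: for the Frey curve over `L` and a valuation subring of `L` over a prime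
  `q ≠ 2, p`, every element of the inertia group fixes every `p`-torsion point.
-/

set_option autoImplicit false

namespace Fermat.Agent.S13.LevelL

open WeierstrassCurve WeierstrassCurve.Affine Fermat.Agent.S05

section Glue

variable {F K : Type*} [Field F] [Field K] [Algebra F K] [DecidableEq K]
  {W' : WeierstrassCurve.Affine F}

omit [DecidableEq K] in
/-- Elements of the Galois group fix the coefficients of the base change. -/
theorem apply_a₁ (σ : K ≃ₐ[F] K) : σ (W'⁄K).a₁ = (W'⁄K).a₁ :=
  σ.commutes W'.a₁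

omit [DecidableEq K] in
theorem apply_a₃ (σ : K ≃ₐ[F] K) : σ (W'⁄K).a₃ = (W'⁄K).a₃ :=
  σ.commutes W'.a₃

variable (A : ValuationSubring K) {σ : K ≃ₐ[F] K}

omit [DecidableEq K] in
/-- The working form of membership in the inertia group. -/
theorem val_apply_sub_lt (hσ : σ ∈ A.inertiaSubgroupIn F) {z : K} (hz : A.valuation z ≤ 1) :
    A.valuation (σ z - z) < 1 :=
  A.mem_nonunits_iff.mp
    (InertiaAPI.apply_sub_mem_nonunits hσ ((A.valuation_le_one_iff z).mp hz))

/-- **Inertia fixes the `p`-torsion at a node.** -/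
theorem smul_eq_of_node (hσ : σ ∈ A.inertiaSubgroupIn F)
    (h₁ : A.valuation (W'⁄K).a₁ ≤ 1) (h₂ : A.valuation (W'⁄K).a₂ ≤ 1)
    (h₃ : A.valuation (W'⁄K).a₃ ≤ 1) (h₄ : A.valuation (W'⁄K).a₄ ≤ 1)
    (h₆ : A.valuation (W'⁄K).a₆ ≤ 1) (h2 : A.valuation (2 : K) = 1)
    {p : ℕ} (hp : p.Prime) (hp5 : 5 ≤ p) (hvp : A.valuation (p : K) = 1)
    {r : K} (hr : XPair.dblDen (W'⁄K) r = 0) (hvr : A.valuation r ≤ 1) (hσr : σ r = r)
    (hA : A.valuation (NodeModel.An (W'⁄K) r) = 1)
    {u : K} (hu0 : u ≠ 0) (hu1 : A.valuation u < 1) (hσu : σ u = u)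
    (hB : A.valuation (NodeModel.Bn (W'⁄K) r) = A.valuation u ^ p)
    (T : (W'⁄K).Point) (htors : p • T = 0) : σ • T = T := by
  rcases T with _ | ⟨x, y, h⟩
  · rfl
  · have hx : A.valuation x ≤ 1 := by
      by_contra hx
      exact no_torsion_in_kernel A.valuation (W'⁄K) h₁ h₂ h₃ h₄ h₆ hp hp5 hvp h (not_le.mp hx)
        htors
    have hclass := NodeKapB.node_torsion_val (v := A.valuation) (E := (W'⁄K)) (r := r) h2 hr hA
      hu0 hu1 hp (by omega) hB (T := Point.some x y h) (Point.some_ne_zero _) htors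
    have h4 := (NodeModel.v_ofNat_pow A.valuation h2).1
    have hX : A.valuation (4 * (x - r)) ≤ 1 := by
      rw [map_mul, h4, one_mul]
      exact A.valuation.map_sub_le hx hvr
    have hκ : A.valuation (4 * (x - r)) = 1 ∨ ∃ j : ℕ,
        A.valuation (4 * (x - r)) = A.valuation u ^ j ∧
        A.valuation (NodeModel.Bn (W'⁄K) r) < A.valuation (4 * (x - r)) ∧
        A.valuation (4 * (x - r)) < 1 := by
      rcases hclass with h1 | ⟨hlt, hlt1, j, hj⟩
      · left
        exact le_antisymm hX h1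
      · right
        refine ⟨2 * j, ?_, hlt, hlt1⟩
        rw [← map_pow]
        exact hj
    have h' : (W'⁄K).Nonsingular (σ x) (σ y) :=
      (W'.baseChange_nonsingular (f := σ.toAlgHom) σ.injective x y).mpr h
    have htors' : p • (σ • (Point.some x y h : (W'⁄K).Point)) = 0 := by
      rw [← GoodRed.smul_nsmul, htors]
      rfl
    rw [GoodRed.smul_some] at htors' ⊢
    exact BadCore.node_fixed_coord A.valuation (W'⁄K) h₁ h₂ h₃ h₄ h₆ h2 hp hp5 hvp hr hvr hA hu1
      hu0 hB (σ : K →+* K) (fun z hz => val_apply_sub_lt A hσ hz)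
      hσu hσr (apply_a₁ σ) (apply_a₃ σ) h h' htors htors' hκ

end Glue

section Frey

variable (P : FreyPackage) {L : Type*} [Field L] [Algebra ℚ L] (A : ValuationSubring L) {q : ℕ}

omit [Algebra ℚ L] in
/-- the valuation of a valuation subring over `q` detects divisibility by `q` on integers. -/
theorem val_intCast_lt_one_iff (hq : q.Prime) (hA : A.LiesOverPrime q) (n : ℤ) :
    A.valuation (n : L) < 1 ↔ (q : ℤ) ∣ n := by
  rw [← A.mem_nonunits_iff]
  exact InertiaAPI.intCast_mem_nonunits_iff hq hA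

omit [Algebra ℚ L] in
/-- `p` is a unit at every prime `q ≠ p`. -/
theorem frey_val_p (hq : q.Prime) (hqp : q ≠ P.p) (hA : A.LiesOverPrime q) :
    A.valuation (P.p : L) = 1 := by
  have h : ¬ (q : ℤ) ∣ (P.p : ℤ) := by
    intro h
    have h' : q ∣ P.p := by exact_mod_cast h
    exact hqp ((Nat.prime_dvd_prime_iff_eq hq P.pp).mp h')
  have := NodeModel.v_intCast_eq_one A.valuation (val_intCast_lt_one_iff A hq hA) h
  simpa using this

variable [DecidableEq L]

/-- **(F) at level `L`**: the kernel of reduction at a prime `q ≠ 2, p` has no `p`-torsion. -/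
theorem frey_no_torsion_in_kernel (hq : q.Prime) (hq2 : q ≠ 2) (hqp : q ≠ P.p)
    (hA : A.LiesOverPrime q) {x y : L} (h : (P.freyCurve⁄L).Nonsingular x y)
    (hx : 1 < A.valuation x)
    (htors : P.p • (Point.some x y h : (P.freyCurve⁄L).Point) = 0) : False := by
  obtain ⟨h₁, h₂, h₃, h₄, h₆⟩ :=
    NodeModel.frey_integral P A.valuation hq hq2 (val_intCast_lt_one_iff A hq hA)
  exact no_torsion_in_kernel A.valuation _ h₁ h₂ h₃ h₄ h₆ P.pp P.hp5
    (frey_val_p P A hq hqp hA) h hx htors

/-- **S05 at level `L`.**  For a valuation subring `A` of an extension field `L` of `ℚ` lying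
over a prime `q ≠ 2, p`, every element of the inertia group of `A` fixes every `p`-torsion point
of the Frey curve over `L`. -/
theorem frey_smul_eq (hq : q.Prime) (hq2 : q ≠ 2) (hqp : q ≠ P.p) (hA : A.LiesOverPrime q)
    {σ : L ≃ₐ[ℚ] L} (hσ : σ ∈ A.inertiaSubgroupIn ℚ) (T : (P.freyCurve⁄L).Point)
    (hT : P.p • T = 0) : σ • T = T := by
  have := algebraRat.charZero L
  have hv := val_intCast_lt_one_iff A hq hA
  obtain ⟨h₁, h₂, h₃, h₄, h₆⟩ := NodeModel.frey_integral P A.valuation hq hq2 hv
  have h2 := NodeModel.v_two A.valuation hq hq2 hv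
  have hvp := frey_val_p P A hq hqp hA
  by_cases hbad : (q : ℤ) ∣ P.a * P.b * P.c
  · obtain ⟨ρ, u, hr, hvr, hAn, hBn, hqu, hu0⟩ :=
      NodeModel.exists_node P A.valuation hq hq2 hv hbad
    exact smul_eq_of_node A hσ h₁ h₂ h₃ h₄ h₆ h2 P.pp P.hp5 hvp hr hvr (σ.commutes ρ) hAn
      (Int.cast_ne_zero.mpr hu0) ((hv u).mpr hqu) (by simp) hBn T hT
  · refine GoodRed.smul_eq_of_good A hσ h₁ h₂ h₃ h₄ h₆
      (fun h hx ht => no_torsion_in_kernel A.valuation _ h₁ h₂ h₃ h₄ h₆ P.pp P.hp5 hvp h hx ht)
      (fun {x y} h hx => ?_) T hT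
    rw [evalEval_polynomialX, evalEval_polynomialY]
    exact NodeModel.frey_nonsing_of_good P A.valuation hq hq2 hv hbad h.1 hx

end Frey

section Kernel

variable (P : FreyPackage) {K : Type*} [Field K] [Algebra ℚ K] (A : ValuationSubring K) {q : ℕ}

/-- The coefficients of the Frey curve over `K` are integral at every odd prime. -/
theorem frey_intCoeffs (hq : q.Prime) (hq2 : q ≠ 2) (hA : A.LiesOverPrime q) :
    KerRed.IntCoeffs A.valuation (P.freyCurve⁄K) := by
  obtain ⟨h₁, h₂, h₃, h₄, h₆⟩ :=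
    NodeModel.frey_integral P A.valuation hq hq2 (val_intCast_lt_one_iff A hq hA)
  exact ⟨h₁, h₂, h₃, h₄, h₆⟩

variable [DecidableEq K]

/-- **Inertia moves `p`-torsion points by the kernel of reduction**, at every odd prime `q`
(including `q = p`): for `σ` in the inertia group of a valuation subring over `q` and a
`p`-torsion point `T` of the Frey curve, `σ • T - T` is zero or lies in the kernel of
reduction. -/
theorem frey_smul_sub_mem_kernel (hq : q.Prime) (hq2 : q ≠ 2) (hA : A.LiesOverPrime q)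
    {σ : K ≃ₐ[ℚ] K} (hσ : σ ∈ A.inertiaSubgroupIn ℚ) (T : (P.freyCurve⁄K).Point)
    (hT : P.p • T = 0) :
    σ • T - T = 0 ∨ KerRed.InKer A.valuation (P.freyCurve⁄K) (σ • T - T) := by
  rcases T with _ | ⟨x, y, h⟩
  · left
    exact sub_self _
  · rw [GoodRed.smul_some]
    exact AtP.frey_sub_mem_kernel P A.valuation hq hq2 (val_intCast_lt_one_iff A hq hA)
      (σ : K →+* K) (fun z hz => val_apply_sub_lt A hσ hz) h _ hT

end Kernel

end Fermat.Agent.S13.LevelL
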