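import Mathlib
import Fermat.Prelude.Def_FLTPrelim_Ramification
import Fermat.Agent.S05.InertiaAPI

/-!
# S13, module T12: Minkowski bridge at finite level

For a finite Galois extension `L/ℚ` and a normal subgroup `H` of `Gal(L/ℚ)`: if for every prime
`q` the inertia subgroup of SOME valuation subring of `L` over `q` is contained in `H`, then
`H = ⊤` (`eq_top_of_inertia_le`).

Proof: let `F` be the fixed field of `H`, Galois over `ℚ`. If `H ≠ ⊤` then `1 < [F : ℚ]` and
Minkowski's theorem gives a prime `ℓ` such that every prime of `𝓞 F` over `ℓ` is ramified. A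
valuation subring `A` of `L` over `ℓ` cuts out a prime `P` of `𝓞 L`, `A` is the localisation of
`𝓞 L` at `P`, and the inertia group of `P` lies in the inertia subgroup of `A`, hence in `H`.
So `e(P | ℓ) = #I(P | ℓ) = #(I(P | ℓ) ∩ H) = e(P | P ∩ 𝓞 F)` and `e(P ∩ 𝓞 F | ℓ) = 1`.
-/

set_option autoImplicit false

namespace Fermat.Agent.S13.Minkowski

open scoped Pointwise NumberField
open Fermat.Agent.S05

section Generic

variable {K L : Type*} [Field K] [Field L] [Algebra K L] {A : ValuationSubring L}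
  {σ : L ≃ₐ[K] L}

/-- Converse membership criterion for the inertia subgroup. -/
theorem mem_inertiaSubgroupIn (hσA : σ • A = A) (h : ∀ x ∈ A, σ x - x ∈ A.nonunits) :
    σ ∈ A.inertiaSubgroupIn K := by
  refine ⟨⟨σ, hσA⟩, ?_, rfl⟩
  change MulSemiringAction.toRingAut (A.decompositionSubgroup K) (IsLocalRing.ResidueField A)
    ⟨σ, hσA⟩ = 1
  ext z
  obtain ⟨a, rfl⟩ := IsLocalRing.residue_surjective z
  change (⟨σ, hσA⟩ : A.decompositionSubgroup K) • IsLocalRing.residue A a = IsLocalRing.residue A a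
  rw [← IsLocalRing.ResidueField.residue_smul]
  change Ideal.Quotient.mk _ _ = Ideal.Quotient.mk _ _
  rw [Ideal.Quotient.eq]
  have := h a.1 a.2
  exact ValuationSubring.coe_mem_nonunits_iff.mp this

end Generic

section NF

variable {L : Type*} [Field L] [NumberField L]

omit [NumberField L] in
theorem integer_mem (A : ValuationSubring L) (x : 𝓞 L) : (x : L) ∈ A := by
  have hx : IsIntegral ℤ (x : L) := x.2
  have h2 : IsIntegral A.valuation.integer (x : L) := hx.tower_top
  have := (Valuation.integer.integers A.valuation).mem_of_integral h2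
  exact (A.valuation_le_one_iff _).mp this

omit [NumberField L] in
theorem val_integer_le (A : ValuationSubring L) (x : 𝓞 L) : A.valuation (x : L) ≤ 1 :=
  (A.valuation_le_one_iff _).mpr (integer_mem A x)

/-- The prime ideal of `𝓞 L` cut out by a valuation subring. -/
def primeOf (A : ValuationSubring L) : Ideal (𝓞 L) where
  carrier := {x | A.valuation (x : L) < 1}
  add_mem' := by
    intro a b ha hb
    change A.valuation ((a + b : 𝓞 L) : L) < 1
    push_cast
    exact lt_of_le_of_lt (A.valuation.map_add _ _) (max_lt ha hb)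
  zero_mem' := by
    change A.valuation ((0 : 𝓞 L) : L) < 1
    simp
  smul_mem' := by
    intro c x hx
    change A.valuation ((c * x : 𝓞 L) : L) < 1
    push_cast
    rw [map_mul]
    exact lt_of_le_of_lt (mul_le_mul' (val_integer_le A c) le_rfl) (by rwa [one_mul])

omit [NumberField L] in
theorem mem_primeOf {A : ValuationSubring L} {x : 𝓞 L} :
    x ∈ primeOf A ↔ A.valuation (x : L) < 1 := Iff.rfl

theorem not_mem_primeOf {A : ValuationSubring L} {x : 𝓞 L} :
    x ∉ primeOf A ↔ A.valuation (x : L) = 1 := by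
  rw [mem_primeOf, not_lt]
  exact ⟨fun h => le_antisymm (val_integer_le A x) h, fun h => h.ge⟩

instance primeOf_isPrime (A : ValuationSubring L) : (primeOf A).IsPrime := by
  refine ⟨?_, ?_⟩
  · intro h
    have : (1 : 𝓞 L) ∈ primeOf A := by rw [h]; trivial
    rw [mem_primeOf] at this
    simp at this
  · intro x y hxy
    by_contra hcon
    push Not at hcon
    rw [not_mem_primeOf, not_mem_primeOf] at hcon
    rw [mem_primeOf] at hxy
    push_cast at hxy
    rw [map_mul, hcon.1, hcon.2, one_mul] at hxy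
    exact lt_irrefl _ hxy

theorem natCast_mem_primeOf {A : ValuationSubring L} {q : ℕ} (hA : A.LiesOverPrime q) :
    (q : 𝓞 L) ∈ primeOf A := by
  rw [mem_primeOf]
  push_cast
  exact A.mem_nonunits_iff.mp hA

theorem primeOf_ne_bot {A : ValuationSubring L} {q : ℕ} (hq : q.Prime)
    (hA : A.LiesOverPrime q) : primeOf A ≠ ⊥ := by
  intro h
  have h1 := natCast_mem_primeOf hA
  rw [h, Ideal.mem_bot] at h1
  have : (q : 𝓞 L) ≠ 0 := Nat.cast_ne_zero.mpr hq.ne_zero
  exact this h1

theorem primeOf_isMaximal {A : ValuationSubring L} {q : ℕ} (hq : q.Prime)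
    (hA : A.LiesOverPrime q) : (primeOf A).IsMaximal :=
  Ideal.IsPrime.isMaximal inferInstance (primeOf_ne_bot hq hA)

theorem primeOf_liesOver {A : ValuationSubring L} {q : ℕ} (hq : q.Prime)
    (hA : A.LiesOverPrime q) : (primeOf A).LiesOver (Ideal.span {(q : ℤ)}) := by
  constructor
  ext n
  rw [Ideal.mem_span_singleton, Ideal.under_def, Ideal.mem_comap, mem_primeOf]
  have : ((algebraMap ℤ (𝓞 L) n : 𝓞 L) : L) = (n : L) := by simp
  rw [this, ← A.mem_nonunits_iff, InertiaAPI.intCast_mem_nonunits_iff hq hA]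

theorem exists_frac {P : Ideal (𝓞 L)} [P.IsPrime] (hP : P ≠ ⊥) (a b : 𝓞 L) :
    ∃ c s : 𝓞 L, s ∉ P ∧ (a * c = b * s ∨ b * c = a * s) := by
  have : IsDiscreteValuationRing (Localization.AtPrime P) :=
    IsLocalization.AtPrime.isDiscreteValuationRing_of_dedekind_domain (𝓞 L) hP _
  obtain ⟨c, hc⟩ := ValuationRing.cond (algebraMap (𝓞 L) (Localization.AtPrime P) a)
    (algebraMap (𝓞 L) (Localization.AtPrime P) b)
  obtain ⟨c₀, s, rfl⟩ := IsLocalization.exists_mk'_eq P.primeCompl c
  refine ⟨c₀, s, s.2, ?_⟩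
  have hinj : Function.Injective (algebraMap (𝓞 L) (Localization.AtPrime P)) :=
    IsLocalization.injective _ P.primeCompl_le_nonZeroDivisors
  rcases hc with hc | hc
  · left
    apply hinj
    rw [map_mul, map_mul, ← hc, mul_assoc, IsLocalization.mk'_spec]
  · right
    apply hinj
    rw [map_mul, map_mul, ← hc, mul_assoc, IsLocalization.mk'_spec]

theorem exists_frac_of_mem {A : ValuationSubring L} {q : ℕ} (hq : q.Prime)
    (hA : A.LiesOverPrime q) {y : L} (hy : y ∈ A) :
    ∃ a s : 𝓞 L, s ∉ primeOf A ∧ y * (s : L) = (a : L) := by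
  obtain ⟨a, b, hb, rfl⟩ := IsFractionRing.div_surjective (A := 𝓞 L) y
  have hb0 : (algebraMap (𝓞 L) L b) ≠ 0 := by
    intro h
    rw [map_eq_zero_iff _ (IsFractionRing.injective (𝓞 L) L)] at h
    exact (nonZeroDivisors.ne_zero hb) h
  obtain ⟨c, s, hs, h | h⟩ := exists_frac (primeOf_ne_bot hq hA) a b
  · have h' : (algebraMap (𝓞 L) L a) * (algebraMap (𝓞 L) L c) =
        (algebraMap (𝓞 L) L b) * (algebraMap (𝓞 L) L s) := by
      rw [← map_mul, ← map_mul, h]
    have hyc : (algebraMap (𝓞 L) L a / algebraMap (𝓞 L) L b) * (algebraMap (𝓞 L) L c) =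
        algebraMap (𝓞 L) L s := by
      field_simp
      linear_combination h'
    by_cases hc : c ∈ primeOf A
    · exfalso
      have h1 : A.valuation (algebraMap (𝓞 L) L s) < 1 := by
        rw [← hyc, map_mul]
        exact lt_of_le_of_lt (mul_le_mul' ((A.valuation_le_one_iff _).mpr hy) le_rfl)
          (by rw [one_mul]; exact hc)
      exact hs h1
    · exact ⟨s, c, hc, hyc⟩
  · refine ⟨c, s, hs, ?_⟩
    have h' : (algebraMap (𝓞 L) L b) * (algebraMap (𝓞 L) L c) =
        (algebraMap (𝓞 L) L a) * (algebraMap (𝓞 L) L s) := by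
      rw [← map_mul, ← map_mul, h]
    change (algebraMap (𝓞 L) L a / algebraMap (𝓞 L) L b) * (algebraMap (𝓞 L) L s) =
        algebraMap (𝓞 L) L c
    field_simp
    linear_combination -h'

theorem inertia_le_inertiaSubgroupIn {A : ValuationSubring L} {q : ℕ} (hq : q.Prime)
    (hA : A.LiesOverPrime q) :
    (primeOf A).inertia (L ≃ₐ[ℚ] L) ≤ A.inertiaSubgroupIn ℚ := by
  have key : ∀ τ ∈ (primeOf A).inertia (L ≃ₐ[ℚ] L), ∀ y ∈ A,
      τ y ∈ A ∧ τ y - y ∈ A.nonunits := by
    intro τ hτ y hy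
    obtain ⟨a, s, hs, hys⟩ := exists_frac_of_mem hq hA hy
    have hτs : τ • s - s ∈ primeOf A := hτ s
    have hτa : τ • a - a ∈ primeOf A := hτ a
    have hs' : τ • s ∉ primeOf A := fun h => hs (by simpa using (primeOf A).sub_mem h hτs)
    have e1 : ((τ • s : 𝓞 L) : L) = τ (s : L) := rfl
    have e2 : ((τ • a : 𝓞 L) : L) = τ (a : L) := rfl
    rw [not_mem_primeOf] at hs hs'
    rw [e1] at hs'
    rw [mem_primeOf] at hτs hτa
    push_cast at hτs hτa
    replace hτs : A.valuation (τ (s : L) - (s : L)) < 1 := hτs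
    replace hτa : A.valuation (τ (a : L) - (a : L)) < 1 := hτa
    have hs0 : (s : L) ≠ 0 := by
      intro h
      rw [h, map_zero] at hs
      exact zero_ne_one hs
    have hτs0 : τ (s : L) ≠ 0 := by
      intro h
      rw [h, map_zero] at hs'
      exact zero_ne_one hs'
    have hτy : τ y * τ (s : L) = τ (a : L) := by rw [← map_mul, hys]
    have hy1 : A.valuation y ≤ 1 := (A.valuation_le_one_iff _).mpr hy
    have ha1 : A.valuation (a : L) ≤ 1 := val_integer_le A a
    constructor
    · rw [← A.valuation_le_one_iff]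
      have : A.valuation (τ y) * A.valuation (τ (s : L)) = A.valuation (τ (a : L)) := by
        rw [← map_mul, hτy]
      rw [hs', mul_one] at this
      rw [this]
      exact val_integer_le A (τ • a)
    · rw [A.mem_nonunits_iff]
      have hid : (τ y - y) * ((s : L) * τ (s : L)) =
          (τ (a : L) - (a : L)) * (s : L) - (a : L) * (τ (s : L) - (s : L)) := by
        rw [← hτy, ← hys]
        ring
      have h1 : A.valuation ((τ y - y) * ((s : L) * τ (s : L))) = A.valuation (τ y - y) := by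
        rw [map_mul, map_mul, hs, hs', mul_one, mul_one]
      rw [← h1, hid]
      refine lt_of_le_of_lt (A.valuation.map_sub _ _) (max_lt ?_ ?_)
      · rw [map_mul, hs, mul_one]
        exact hτa
      · rw [map_mul]
        exact lt_of_le_of_lt (mul_le_mul' ha1 le_rfl) (by rw [one_mul]; exact hτs)
  intro σ hσ
  have hσ' : σ⁻¹ ∈ (primeOf A).inertia (L ≃ₐ[ℚ] L) := Subgroup.inv_mem _ hσ
  refine mem_inertiaSubgroupIn ?_ (fun x hx => (key σ hσ x hx).2)
  ext x
  rw [ValuationSubring.mem_pointwise_smul_iff_inv_smul_mem]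
  constructor
  · intro h
    have := (key σ hσ _ h).1
    simpa using this
  · intro h
    exact (key σ⁻¹ hσ' x h).1

end NF

section Main

variable {L : Type*} [Field L] [NumberField L] [IsGalois ℚ L]

theorem eq_top_of_ideal_inertia_le (H : Subgroup (L ≃ₐ[ℚ] L)) [H.Normal]
    (hH : ∀ q : ℕ, q.Prime → ∃ P : Ideal (𝓞 L), P.IsPrime ∧ (q : 𝓞 L) ∈ P ∧
      P.inertia (L ≃ₐ[ℚ] L) ≤ H) :
    H = ⊤ := by
  classical
  by_contra hne
  let F : IntermediateField ℚ L := IntermediateField.fixedField H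
  have hfin : 1 < Module.finrank ℚ F := by
    by_contra h
    have h1 : Module.finrank ℚ F = 1 := le_antisymm (not_lt.mp h) Module.finrank_pos
    have hbot : F = ⊥ := IntermediateField.finrank_eq_one_iff.mp h1
    have : H = ⊤ := by
      have h2 := IntermediateField.fixingSubgroup_fixedField H
      rw [← h2]
      change F.fixingSubgroup = ⊤
      rw [hbot, IntermediateField.fixingSubgroup_bot]
    exact hne this
  have hgal : IsGalois ℚ F := IsGalois.of_fixedField_normal_subgroup H
  obtain ⟨ℓ, hℓ, hram⟩ :=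
    NumberField.exists_not_isUnramifiedAt_int_of_isGalois (K := F) (𝒪 := 𝓞 F) hfin
  obtain ⟨P, hP, hℓP, hIP⟩ := hH ℓ hℓ
  let P₀ : Ideal (𝓞 F) := P.under (𝓞 F)
  have hP₀ : P₀.IsPrime := inferInstance
  have hℓP₀ : (ℓ : 𝓞 F) ∈ P₀ := by
    change algebraMap (𝓞 F) (𝓞 L) (ℓ : 𝓞 F) ∈ P
    rw [map_natCast]
    exact hℓP
  apply hram P₀ hP₀ hℓP₀
  have hPP₀ : P.LiesOver P₀ := ⟨rfl⟩
  let p : Ideal ℤ := P.under ℤ
  have hPp : P.LiesOver p := ⟨rfl⟩
  have hP₀p : P₀.LiesOver p := Ideal.LiesOver.tower_bot P P₀ p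
  have c1 : Nat.card (P.inertia (L ≃ₐ[ℚ] L)) = P.ramificationIdx ℤ := by
    rw [Ideal.card_inertia_eq_ramificationIdxIn p P,
      Ideal.ramificationIdxIn_eq_ramificationIdx p P (L ≃ₐ[ℚ] L)]
  have hHFL : IsGaloisGroup H F L := IsGaloisGroup.subgroup (L ≃ₐ[ℚ] L) ℚ L H
  have hHOO : IsGaloisGroup H (𝓞 F) (𝓞 L) := IsGaloisGroup.of_isFractionRing H (𝓞 F) (𝓞 L) F L
  have c2 : Nat.card (P.inertia H) = P.ramificationIdx (𝓞 F) := by
    rw [Ideal.card_inertia_eq_ramificationIdxIn P₀ P,
      Ideal.ramificationIdxIn_eq_ramificationIdx P₀ P H]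
  have c3 : Nat.card (P.inertia H) = Nat.card (P.inertia (L ≃ₐ[ℚ] L)) := by
    exact Nat.card_congr (Subgroup.subgroupOfEquivOfLe hIP).toEquiv
  have tower := Ideal.ramificationIdx_tower (R := ℤ) P₀ P
  have hpos : 0 < P.ramificationIdx ℤ := Ideal.ramificationIdx_pos P ℤ
  have he : P₀.ramificationIdx ℤ = 1 := by
    rw [← c2, c3, c1] at tower
    have h1 : 1 * P.ramificationIdx ℤ = P₀.ramificationIdx ℤ * P.ramificationIdx ℤ := by
      rw [one_mul]; exact tower
    exact (Nat.eq_of_mul_eq_mul_right hpos h1).symm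
  exact Ideal.ramificationIdx_eq_one_iff.mp he


/-- **Minkowski bridge (T12).** Let `L/ℚ` be a finite Galois extension and `H` a normal subgroup
of `Gal(L/ℚ)`. If for every prime `q` the inertia subgroup of SOME valuation subring of `L` over
`q` is contained in `H`, then `H = ⊤`. -/
theorem eq_top_of_inertia_le (H : Subgroup (L ≃ₐ[ℚ] L)) [H.Normal]
    (hH : ∀ q : ℕ, q.Prime →
      ∃ A : ValuationSubring L, A.LiesOverPrime q ∧ A.inertiaSubgroupIn ℚ ≤ H) :
    H = ⊤ := by
  refine eq_top_of_ideal_inertia_le H fun q hq => ?_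
  obtain ⟨A, hA, hI⟩ := hH q hq
  exact ⟨primeOf A, inferInstance, natCast_mem_primeOf hA,
    (inertia_le_inertiaSubgroupIn hq hA).trans hI⟩

end Main

section AnyAlgebra

/-- **Minkowski bridge (T12), instance-robust form.** Same as `eq_top_of_inertia_le`, but for an
ARBITRARY `Algebra ℚ L` instance (e.g. the one of an `IntermediateField ℚ Ω`), with
`FiniteDimensional ℚ L` instead of `NumberField L`. -/
theorem eq_top_of_inertia_le' {L : Type*} [Field L] [inst : Algebra ℚ L] [FiniteDimensional ℚ L]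
    [IsGalois ℚ L] (H : Subgroup (L ≃ₐ[ℚ] L)) [H.Normal]
    (hH : ∀ q : ℕ, q.Prime →
      ∃ A : ValuationSubring L, A.LiesOverPrime q ∧ A.inertiaSubgroupIn ℚ ≤ H) :
    H = ⊤ := by
  have hchar : CharZero L := algebraRat.charZero L
  obtain rfl : inst = DivisionRing.toRatAlgebra := Subsingleton.elim _ _
  have hNF : NumberField L := ⟨⟩
  exact eq_top_of_inertia_le H hH

end AnyAlgebra

section Exists

/-- Over every prime there is a valuation subring (any field of characteristic zero). -/
theorem exists_liesOverPrime (L : Type*) [Field L] [CharZero L] {q : ℕ} (hq : q.Prime) :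
    ∃ A : ValuationSubring L, A.LiesOverPrime q := by
  let R : Subring L := (Int.castRingHom L).range
  let qR : R := ⟨(q : L), ⟨(q : ℤ), by simp⟩⟩
  have hI : Ideal.span {qR} ≠ ⊤ := by
    rw [Ne, Ideal.span_singleton_eq_top]
    intro hu
    obtain ⟨⟨b, n, rfl⟩, hb⟩ := isUnit_iff_exists_inv.mp hu
    have h1 : (q : L) * ((n : ℤ) : L) = 1 := congrArg Subtype.val hb
    have h2 : (q : ℤ) * n = 1 := by exact_mod_cast h1
    have h3 : (q : ℤ) ∣ 1 := ⟨n, h2.symm⟩
    have h4 : q ∣ 1 := by exact_mod_cast h3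
    exact hq.one_lt.ne' (Nat.dvd_one.mp h4)
  obtain ⟨B, -, hB⟩ := Ideal.image_subset_nonunits_valuationSubring _ hI
  exact ⟨B, hB ⟨qR, Ideal.subset_span (Set.mem_singleton _), rfl⟩⟩

end Exists

end Fermat.Agent.S13.Minkowski
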