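import Fermat.Agent.S13.PairLaw2
import Fermat.Agent.S05.PairIter
import Fermat.Agent.S05.XPair

/-!
# S13: the pair law for points at a node, without inverting `2`

For a Weierstrass curve `E` with `a₃ = 0`, `a₆ = 0` (so `(0, 0)` is a point of order two) over a
valued field, with `v b₂ = 1` and `0 < v a₄ < 1` (a node at `(0, 0)`), the function
`kap2 T = max (v a₄) (min (v (x T)) 1)` (`kap2 0 = 1`) satisfies the pair law for all pairs of
points.  Consequences for a `p`-torsion point `T ≠ 0` (`p` an odd prime): either `1 ≤ v (x T)`,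
or `v a₄ < v (x T) < 1` and `v (x T) ^ p = v a₄ ^ (2 j)` with `0 < 2 j < p`.
No hypothesis on `v 2` is made.
-/

set_option autoImplicit false

namespace Fermat.Agent.S13.Kap2

open WeierstrassCurve Fermat.Agent.S05.XPair Fermat.Agent.S05.PairLaw Fermat.Agent.S13.PairLaw2

variable {K : Type*} [Field K] {Γ₀ : Type*} [LinearOrderedCommGroupWithZero Γ₀]
variable (v : Valuation K Γ₀) (E : WeierstrassCurve K)

/-- The clamped absolute value of the `x`-coordinate; `1` at the origin. -/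
def kap2 : E.toAffine.Point → Γ₀
  | .zero => 1
  | .some x _ _ => kap v E.a₄ x

@[simp] theorem kap2_zero : kap2 v E 0 = 1 := rfl

theorem kap2_some {x y : K} (h : E.toAffine.Nonsingular x y) :
    kap2 v E (Affine.Point.some x y h) = kap v E.a₄ x := rfl

theorem kap2_of_ne_zero {T : E.toAffine.Point} (hT : T ≠ 0) :
    kap2 v E T = kap v E.a₄ (xc E T) := by
  rcases T with _ | ⟨x, y, h⟩
  · exact absurd rfl hT
  · rfl

theorem kap2_neg (T : E.toAffine.Point) : kap2 v E (-T) = kap2 v E T := by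
  rcases T with _ | ⟨x, y, h⟩
  · rfl
  · rw [Affine.Point.neg_some]; rfl

theorem le_kap2 (h41 : v E.a₄ ≤ 1) (T : E.toAffine.Point) : v E.a₄ ≤ kap2 v E T := by
  rcases T with _ | ⟨x, y, h⟩
  · exact h41
  · exact le_kap _ _

theorem kap2_le_one (h41 : v E.a₄ ≤ 1) (T : E.toAffine.Point) : kap2 v E T ≤ 1 := by
  rcases T with _ | ⟨x, y, h⟩
  · exact le_rfl
  · exact kap_le_one h41 _

theorem kap2_ne_zero (h40 : E.a₄ ≠ 0) (h41 : v E.a₄ ≤ 1) (T : E.toAffine.Point) :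
    kap2 v E T ≠ 0 :=
  (lt_of_lt_of_le (zero_lt_iff.mpr ((Valuation.ne_zero_iff v).mpr h40)) (le_kap2 v E h41 T)).ne'

variable {v E}

/-! ### the `b`-invariants and the `x`-coordinate formulas when `a₃ = a₆ = 0` -/

theorem sumNum_eq (h₃ : E.a₃ = 0) (h₆ : E.a₆ = 0) (x₁ x₂ : K) :
    sumNum E x₁ x₂ = 2 * ((x₁ * x₂ + E.a₄) * (x₁ + x₂)) + E.b₂ * x₁ * x₂ := by
  simp only [sumNum, WeierstrassCurve.b₄, WeierstrassCurve.b₆, h₃, h₆]
  ring

theorem prodNum_eq (h₃ : E.a₃ = 0) (h₆ : E.a₆ = 0) (x₁ x₂ : K) :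
    prodNum E x₁ x₂ = (x₁ * x₂ - E.a₄) ^ 2 := by
  simp only [prodNum, WeierstrassCurve.b₄, WeierstrassCurve.b₆, WeierstrassCurve.b₈, h₃, h₆]
  ring

theorem dblDen_eq' (h₃ : E.a₃ = 0) (h₆ : E.a₆ = 0) (x : K) :
    dblDen E x = x * (4 * x ^ 2 + E.b₂ * x + 4 * E.a₄) := by
  simp only [dblDen, WeierstrassCurve.b₄, WeierstrassCurve.b₆, h₃, h₆]
  ring

theorem dblNum_eq (h₃ : E.a₃ = 0) (h₆ : E.a₆ = 0) (x : K) :
    dblNum E x = (x ^ 2 - E.a₄) ^ 2 := by
  simp only [dblNum, WeierstrassCurve.b₄, WeierstrassCurve.b₆, WeierstrassCurve.b₈, h₃, h₆]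
  ring

theorem xc_eq_iff' {P Q : E.toAffine.Point} (hP : P ≠ 0) (hQ : Q ≠ 0) :
    xc E P = xc E Q ↔ P = Q ∨ P = -Q := by
  rcases P with _ | ⟨x₁, y₁, h₁⟩
  · exact absurd rfl hP
  rcases Q with _ | ⟨x₂, y₂, h₂⟩
  · exact absurd rfl hQ
  exact Affine.Point.X_eq_iff

variable [DecidableEq K]

/-- The duplication law: `kap2 (2P) = Fm (kap2 P) (kap2 P)` (also when `2P = O`). -/
theorem kap2_dbl (h₃ : E.a₃ = 0) (h₆ : E.a₆ = 0) (hb₂ : v E.b₂ = 1) (h40 : E.a₄ ≠ 0)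
    (h41 : v E.a₄ < 1) {P : E.toAffine.Point} (hP : P ≠ 0) :
    kap2 v E (P + P) = Fm (v E.a₄) (kap2 v E P) (kap2 v E P) := by
  rcases P with _ | ⟨x, y, h⟩
  · exact absurd rfl hP
  by_cases h2P : (Affine.Point.some x y h : E.toAffine.Point) + Affine.Point.some x y h = 0
  · rw [h2P, kap2_zero, kap2_some]
    have hD := (add_self_eq_zero_iff E h).mp h2P
    rw [dblDen_eq' h₃ h₆] at hD
    exact (dbl_law2_zero hb₂ h40 h41 hD).symm
  · have hy : y ≠ E.toAffine.negY x y := fun hy => h2P (Affine.Point.add_self_of_Y_eq hy)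
    obtain ⟨x', y', h', hadd, hden, hdbl⟩ := add_self_of_Y_ne E h hy
    rw [hadd, kap2_some, kap2_some]
    rw [dblDen_eq' h₃ h₆] at hden hdbl
    rw [dblNum_eq h₃ h₆] at hdbl
    exact dbl_law2 hb₂ h40 h41 hden (by linear_combination hdbl)

/-- **The pair law for points**, in all cases. -/
theorem kap2_pair (h₃ : E.a₃ = 0) (h₆ : E.a₆ = 0) (hb₂ : v E.b₂ = 1) (h40 : E.a₄ ≠ 0)
    (h41 : v E.a₄ < 1) (P Q : E.toAffine.Point) :
    (kap2 v E (P + Q) = Fm (v E.a₄) (kap2 v E P) (kap2 v E Q) ∧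
        kap2 v E (P - Q) = Fd (kap2 v E P) (kap2 v E Q)) ∨
      (kap2 v E (P + Q) = Fd (kap2 v E P) (kap2 v E Q) ∧
        kap2 v E (P - Q) = Fm (v E.a₄) (kap2 v E P) (kap2 v E Q)) := by
  have hge := le_kap2 v E h41.le
  have hle := kap2_le_one v E h41.le
  have hne := kap2_ne_zero v E h40 h41.le
  by_cases hP : P = 0
  · subst hP
    left
    rw [zero_add, zero_sub, kap2_neg, kap2_zero, Fm_comm, Fd_comm, Fm_one_right (hge Q),
      Fd_one_right (hle Q)]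
    exact ⟨rfl, rfl⟩
  by_cases hQ : Q = 0
  · subst hQ
    left
    rw [add_zero, sub_zero, kap2_zero, Fm_one_right (hge P), Fd_one_right (hle P)]
    exact ⟨rfl, rfl⟩
  by_cases hx : xc E P = xc E Q
  · rcases (xc_eq_iff' hP hQ).mp hx with h | h
    · subst h
      left
      rw [sub_self, kap2_zero, Fd_self (hne P)]
      exact ⟨kap2_dbl h₃ h₆ hb₂ h40 h41 hP, rfl⟩
    · subst h
      right
      have e : -Q - Q = -(Q + Q) := by abel
      rw [neg_add_cancel, kap2_zero, e, kap2_neg, kap2_neg, Fd_self (hne Q)]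
      exact ⟨rfl, kap2_dbl h₃ h₆ hb₂ h40 h41 hQ⟩
  · rcases P with _ | ⟨x₁, y₁, h₁⟩
    · exact absurd rfl hP
    rcases Q with _ | ⟨x₂, y₂, h₂⟩
    · exact absurd rfl hQ
    have hx' : x₁ ≠ x₂ := hx
    obtain ⟨xp, yp, xm, ym, hp, hm, hadd, hsub, hsum, hprod⟩ := add_sub_of_X_ne E h₁ h₂ hx'
    rw [hadd, hsub, kap2_some, kap2_some, kap2_some, kap2_some]
    rw [sumNum_eq h₃ h₆] at hsum
    rw [prodNum_eq h₃ h₆] at hprod
    exact pair_law2 hb₂ h40 h41 hx' (by linear_combination hsum) (by linear_combination hprod)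

/-- Points with the same `kap2`: their difference or their sum has `kap2 = 1`. -/
theorem kap2_sub_or_add_eq_one (h₃ : E.a₃ = 0) (h₆ : E.a₆ = 0) (hb₂ : v E.b₂ = 1)
    (h40 : E.a₄ ≠ 0) (h41 : v E.a₄ < 1) {P Q : E.toAffine.Point}
    (h : kap2 v E P = kap2 v E Q) : kap2 v E (P - Q) = 1 ∨ kap2 v E (P + Q) = 1 := by
  have hne := kap2_ne_zero v E h40 h41.le
  rcases kap2_pair h₃ h₆ hb₂ h40 h41 P Q with ⟨-, h2⟩ | ⟨h1, -⟩
  · left; rw [h2, h, Fd_self (hne Q)]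
  · right; rw [h1, h, Fd_self (hne Q)]

/-- the sequence form of the pair law along the multiples of a point (interface of `PairIter`):
`k n = kap2 (n • T)`. -/
theorem kap2_nsmul_pair (h₃ : E.a₃ = 0) (h₆ : E.a₆ = 0) (hb₂ : v E.b₂ = 1) (h40 : E.a₄ ≠ 0)
    (h41 : v E.a₄ < 1) (T : E.toAffine.Point) (n : ℕ) (hn : 1 ≤ n) :
    (kap2 v E ((n + 1) • T) = Fm (v E.a₄) (kap2 v E (n • T)) (kap2 v E (1 • T)) ∧
        kap2 v E ((n - 1) • T) = Fd (kap2 v E (n • T)) (kap2 v E (1 • T))) ∨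
      (kap2 v E ((n + 1) • T) = Fd (kap2 v E (n • T)) (kap2 v E (1 • T)) ∧
        kap2 v E ((n - 1) • T) = Fm (v E.a₄) (kap2 v E (n • T)) (kap2 v E (1 • T))) := by
  have h := kap2_pair h₃ h₆ hb₂ h40 h41 (n • T) T
  have e1 : n • T + T = (n + 1) • T := (succ_nsmul T n).symm
  have e2 : n • T - T = (n - 1) • T := by
    obtain ⟨m, rfl⟩ : ∃ m, n = m + 1 := ⟨n - 1, by omega⟩
    rw [succ_nsmul, add_sub_cancel_right, Nat.add_sub_cancel]
  rw [e1, e2] at h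
  rw [one_nsmul]
  exact h

/-- `kap2 T ^ n` is an even power of `v a₄` for an `n`-torsion point `T`. -/
theorem kap2_pow_of_nsmul_eq_zero (h₃ : E.a₃ = 0) (h₆ : E.a₆ = 0) (hb₂ : v E.b₂ = 1)
    (h40 : E.a₄ ≠ 0) (h41 : v E.a₄ < 1) {T : E.toAffine.Point} {n : ℕ} (hnT : n • T = 0) :
    ∃ j : ℤ, kap2 v E T ^ n = v E.a₄ ^ (2 * j) := by
  have hβ0 : 0 < v E.a₄ := zero_lt_iff.mpr ((Valuation.ne_zero_iff v).mpr h40)
  have h := Fermat.Agent.S05.PairIter.pow_mem_of_eq_one (β := v E.a₄)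
    (k := fun n => kap2 v E (n • T)) (p := n) hβ0 (by simp only [zero_nsmul, kap2_zero])
    (kap2_ne_zero v E h40 h41.le _)
    (fun m hm _ => kap2_nsmul_pair h₃ h₆ hb₂ h40 h41 T m hm) (by simp only [hnT, kap2_zero])
  simpa only [one_nsmul] using h

omit [DecidableEq K] in
/-- An element of `[β, 1]` whose `p`-th power (`p` odd) is an even power of `β` is `1` or lies
strictly between `β` and `1`. -/
theorem final2 {β x : Γ₀} (hβ0 : 0 < β) (hβ1 : β < 1) {p : ℕ} (hodd : Odd p)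
    (hx : β ≤ x ∧ x ≤ 1) (hpow : ∃ j : ℤ, x ^ p = β ^ (2 * j)) :
    x = 1 ∨ (β < x ∧ x < 1 ∧ ∃ j : ℕ, 0 < j ∧ 2 * j < p ∧ x ^ p = β ^ (2 * j)) := by
  obtain ⟨j, hj⟩ := hpow
  have hβne : β ≠ 0 := hβ0.ne'
  have hp0 : p ≠ 0 := fun h => by rw [h] at hodd; exact absurd hodd (by decide)
  have hx0 : 0 < x := lt_of_lt_of_le hβ0 hx.1
  -- `0 ≤ j`
  have hj0 : 0 ≤ j := by
    by_contra hneg
    rw [not_le] at hneg
    have h1 : x ^ p ≤ 1 := pow_le_one₀ hx0.le hx.2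
    have h2 : 1 < β ^ (2 * j) := by
      have h3 : β ^ (2 * j) = (β ^ (-(2 * j)))⁻¹ := by rw [zpow_neg, inv_inv]
      rw [h3]
      apply (one_lt_inv₀ (zpow_pos hβ0 _)).mpr
      have h4 : (-(2 * j)) = ((-(2 * j)).toNat : ℤ) := by omega
      rw [h4, zpow_natCast]
      exact pow_lt_one₀ hβ0.le hβ1 (by omega)
    rw [hj] at h1
    exact absurd h1 (not_le.mpr h2)
  obtain ⟨k, rfl⟩ : ∃ k : ℕ, j = (k : ℤ) := ⟨j.toNat, by omega⟩
  have hj' : x ^ p = β ^ (2 * k) := by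
    rw [hj, ← zpow_natCast]; push_cast; rfl
  -- `2 k ≤ p`
  have hk : 2 * k ≤ p := by
    by_contra hgt
    rw [not_le] at hgt
    have h1 : β ^ p ≤ x ^ p := pow_le_pow_left₀ hβ0.le hx.1 p
    have h2 : β ^ (2 * k) < β ^ p := pow_lt_pow_right_of_lt_one₀ hβ0 hβ1 hgt
    rw [hj'] at h1
    exact absurd h1 (not_le.mpr h2)
  have hk' : 2 * k < p := by
    rcases hk.lt_or_eq with h | h
    · exact h
    · exfalso
      rw [← h] at hodd
      exact (Nat.not_odd_iff_even.mpr (even_two_mul k)) hodd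
  rcases Nat.eq_zero_or_pos k with hk0 | hk0
  · left
    rw [hk0, mul_zero, pow_zero] at hj'
    exact (pow_eq_one_iff_of_nonneg hx0.le hp0).mp hj'
  · right
    refine ⟨?_, ?_, k, hk0, hk', hj'⟩
    · by_contra hle
      rw [not_lt] at hle
      have hxb : x = β := le_antisymm hle hx.1
      rw [hxb] at hj'
      have h2 : β ^ p < β ^ (2 * k) := pow_lt_pow_right_of_lt_one₀ hβ0 hβ1 hk'
      exact h2.ne hj'
    · by_contra hge
      rw [not_lt] at hge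
      have hx1 : x = 1 := le_antisymm hx.2 hge
      rw [hx1, one_pow] at hj'
      have h2 : β ^ (2 * k) < 1 := pow_lt_one₀ hβ0.le hβ1 (by omega)
      exact h2.ne hj'.symm

/-- **Position of a `p`-torsion point relative to the node** (no hypothesis on `v 2`). -/
theorem torsion_val2 (h₃ : E.a₃ = 0) (h₆ : E.a₆ = 0) (hb₂ : v E.b₂ = 1) (h40 : E.a₄ ≠ 0)
    (h41 : v E.a₄ < 1) {p : ℕ} (hp : p.Prime) (hp2 : p ≠ 2) {T : E.toAffine.Point}
    (hT : T ≠ 0) (hpT : p • T = 0) :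
    1 ≤ v (xc E T) ∨ (v E.a₄ < v (xc E T) ∧ v (xc E T) < 1 ∧
      ∃ j : ℕ, 0 < j ∧ 2 * j < p ∧ v (xc E T) ^ p = v E.a₄ ^ (2 * j)) := by
  have hβ0 : 0 < v E.a₄ := zero_lt_iff.mpr ((Valuation.ne_zero_iff v).mpr h40)
  have hpow := kap2_pow_of_nsmul_eq_zero h₃ h₆ hb₂ h40 h41 hpT
  have hfin := final2 hβ0 h41 (hp.odd_of_ne_two hp2)
    ⟨le_kap2 v E h41.le T, kap2_le_one v E h41.le T⟩ hpow
  rw [kap2_of_ne_zero v E hT] at hfin
  have hkap : kap v E.a₄ (xc E T) = max (v E.a₄) (min (v (xc E T)) 1) := rfl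
  rcases hfin with h1 | ⟨hlt, hlt1, j, hj0, hjp, hj⟩
  · left
    by_contra hcon
    rw [not_le] at hcon
    rw [hkap, min_eq_left hcon.le] at h1
    exact (max_lt h41 hcon).ne h1
  · right
    have hmin : v E.a₄ < min (v (xc E T)) 1 := by
      by_contra hcon
      rw [not_lt] at hcon
      rw [hkap, max_eq_left hcon] at hlt
      exact lt_irrefl _ hlt
    have heq : kap v E.a₄ (xc E T) = min (v (xc E T)) 1 := by
      rw [hkap, max_eq_right hmin.le]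
    have hX1 : v (xc E T) < 1 := by
      by_contra hcon
      rw [not_lt] at hcon
      rw [heq, min_eq_right hcon] at hlt1
      exact lt_irrefl _ hlt1
    have heq' : kap v E.a₄ (xc E T) = v (xc E T) := by
      rw [heq, min_eq_left hX1.le]
    rw [heq'] at hlt hj
    exact ⟨hlt, hX1, j, hj0, hjp, hj⟩

end Fermat.Agent.S13.Kap2
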