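import Mathlib
import Fermat.Prelude.Def_FLTPrelim_FreyPackage
import Fermat.Agent.S05.KerRed
import Fermat.Agent.S05.SameRed
import Fermat.Agent.S05.NodeModel
import Fermat.Agent.S05.BadCore
import Fermat.Agent.S13.Kap2

/-!
# S13 (T9, part 4): the Frey curve has no rational point of order `p`

* `frey2_*`: the Frey model `y² + xy = x³ + a₂x² + a₄x` at the prime `2`, for an arbitrary
  valuation `v` (on an extension field `K` of `ℚ`) with `v n < 1 ↔ 2 ∣ n` on integers: the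
  coefficients are integral, `b₂` is a unit, `a₄ ≠ 0`, `v a₄ = v 2 ^ (p e - 4) < 1`.
* `frey_no_rational_torsion`: no point of order `p` in `E(ℚ)`.  A rational `p`-torsion point is
  of type A (`v x = 1`) at `2`, since for type B the relation `v x ^ p = v a₄ ^ (2 j)` with
  `v x ∈ v 2 ^ ℤ` would force `p ∣ 8 j`; and among `T, 2T, 3T`, all with `x ≡ 1` and `y ≡ 0, 1`
  mod `2`, two have the same nonsingular reduction, so their difference lies in the kernel of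
  reduction, which has no `p`-torsion.
-/

set_option autoImplicit false

namespace Fermat.Agent.S13.RatTors

open WeierstrassCurve WeierstrassCurve.Affine Fermat.Agent.S05 Fermat.Agent.S05.XPair
  Fermat.Agent.S05.NodeModel

/-! ### arithmetic of a Frey package at `2` -/

section arith

variable (P : FreyPackage)

theorem two_dvd_b : (2 : ℤ) ∣ P.b := (ZMod.intCast_zmod_eq_zero_iff_dvd P.b 2).1 P.hb2

theorem a_mod_four : P.a % 4 = 3 := by
  have h4 : ((P.a : ℤ) : ZMod 4) = ((3 : ℤ) : ZMod 4) := by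
    rw [P.ha4]; norm_num
  rw [ZMod.intCast_eq_intCast_iff_dvd_sub] at h4
  omega

theorem not_two_dvd_a : ¬ (2 : ℤ) ∣ P.a := by
  have := a_mod_four P
  omega

theorem not_two_dvd_a_pow : ¬ (2 : ℤ) ∣ P.a ^ P.p := fun h =>
  not_two_dvd_a P (Int.prime_two.dvd_of_dvd_pow h)

theorem four_dvd_b_pow : (4 : ℤ) ∣ P.b ^ P.p := by
  obtain ⟨k, hk⟩ := two_dvd_b P
  have hp : P.p = 2 + (P.p - 2) := by have := P.hp5; omega
  rw [hk, hp, pow_add]
  exact ⟨k ^ 2 * (2 * k) ^ (P.p - 2), by ring⟩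

theorem a_pow_mod_four : P.a ^ P.p % 4 = 3 := by
  have h := a_mod_four P
  have h4 : ((P.a ^ P.p : ℤ) : ZMod 4) = ((3 : ℤ) : ZMod 4) := by
    push_cast
    rw [P.ha4]
    have h3 : (3 : ZMod 4) = -1 := by decide
    rw [h3, P.hp_odd.neg_one_pow]
  rw [ZMod.intCast_eq_intCast_iff_dvd_sub] at h4
  omega

theorem four_dvd_a₂ : (4 : ℤ) ∣ P.b ^ P.p - 1 - P.a ^ P.p := by
  have h1 := four_dvd_b_pow P
  have h2 := a_pow_mod_four P
  omega

theorem not_two_dvd_b₂ : ¬ (2 : ℤ) ∣ P.b ^ P.p - P.a ^ P.p := by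
  have h1 := four_dvd_b_pow P
  have h2 := a_pow_mod_four P
  omega

/-- `b = 2 ^ e * b'` with `b'` odd and `e ≥ 1`. -/
theorem exists_b_eq : ∃ (e : ℕ) (b' : ℤ), 1 ≤ e ∧ ¬ (2 : ℤ) ∣ b' ∧ P.b = 2 ^ e * b' := by
  have hfin : FiniteMultiplicity (2 : ℤ) P.b :=
    Int.finiteMultiplicity_iff.mpr ⟨by norm_num, P.hb0⟩
  obtain ⟨b', hb, hb'⟩ := hfin.exists_eq_pow_mul_and_not_dvd
  refine ⟨multiplicity (2 : ℤ) P.b, b', ?_, hb', hb⟩
  by_contra h
  have he : multiplicity (2 : ℤ) P.b = 0 := by omega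
  rw [he, pow_zero, one_mul] at hb
  exact hb' (hb ▸ two_dvd_b P)

end arith

/-! ### the Frey model at a valuation over `2` -/

section val

variable (P : FreyPackage) {K : Type*} [Field K] [Algebra ℚ K] {Γ₀ : Type*}
  [LinearOrderedCommGroupWithZero Γ₀] (v : Valuation K Γ₀)

omit [Algebra ℚ K] in
theorem v_int_eq_one (hv : ∀ n : ℤ, v (n : K) < 1 ↔ (2 : ℤ) ∣ n) {n : ℤ} (hn : ¬ (2 : ℤ) ∣ n) :
    v (n : K) = 1 :=
  le_antisymm (v_intCast_le_one v n) (not_lt.mp fun h => hn ((hv n).mp h))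

omit [Algebra ℚ K] in
theorem v_two_lt (hv : ∀ n : ℤ, v (n : K) < 1 ↔ (2 : ℤ) ∣ n) : v (2 : K) < 1 := by
  have := (hv 2).mpr (dvd_refl _)
  exact_mod_cast this

omit [Algebra ℚ K] in
/-- `p` is a unit at `2`. -/
theorem frey2_val_p (hv : ∀ n : ℤ, v (n : K) < 1 ↔ (2 : ℤ) ∣ n) : v (P.p : K) = 1 := by
  have h : ¬ (2 : ℤ) ∣ (P.p : ℤ) := by
    have := P.hp_odd
    rw [Int.two_dvd_ne_zero]
    have h2 : P.p % 2 = 1 := Nat.odd_iff.mp this
    omega
  have := v_int_eq_one v hv h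
  exact_mod_cast this

/-- `a₂` is integral at `2`. -/
theorem frey2_a₂ : v (freyK P K).a₂ ≤ 1 := by
  have := algebraRat.charZero K
  obtain ⟨m, hm⟩ := four_dvd_a₂ P
  have e : (freyK P K).a₂ = ((m : ℤ) : K) := by
    rw [frey_a₂]
    have h := congrArg (Int.cast : ℤ → K) hm
    push_cast at h
    rw [h]
    field_simp
  rw [e]
  exact v_intCast_le_one v m

/-- `b₂` is a unit at `2`. -/
theorem frey2_b₂ (hv : ∀ n : ℤ, v (n : K) < 1 ↔ (2 : ℤ) ∣ n) : v (freyK P K).b₂ = 1 := by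
  have e : (freyK P K).b₂ = ((P.b ^ P.p - P.a ^ P.p : ℤ) : K) := by
    rw [frey_b₂]; push_cast; ring
  rw [e]
  exact v_int_eq_one v hv (not_two_dvd_b₂ P)

theorem frey2_a₄_ne : (freyK P K).a₄ ≠ 0 := by
  have := algebraRat.charZero K
  rw [frey_a₄]
  have ha : (P.a : K) ≠ 0 := Int.cast_ne_zero.mpr P.ha0
  have hb : (P.b : K) ≠ 0 := Int.cast_ne_zero.mpr P.hb0
  exact div_ne_zero (neg_ne_zero.mpr (mul_ne_zero (pow_ne_zero _ ha) (pow_ne_zero _ hb)))
    (by norm_num)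

/-- the valuation of `a₄` at `2`: `v a₄ = v 2 ^ (p e - 4)` with `e = v₂(b) ≥ 1`. -/
theorem frey2_a₄_val (hv : ∀ n : ℤ, v (n : K) < 1 ↔ (2 : ℤ) ∣ n) :
    ∃ e : ℕ, 1 ≤ e ∧ v (freyK P K).a₄ = v (2 : K) ^ (P.p * e - 4) := by
  have := algebraRat.charZero K
  obtain ⟨e, b', he, hb', hb⟩ := exists_b_eq P
  refine ⟨e, he, ?_⟩
  have hp5 := P.hp5
  have hpe : 5 ≤ P.p * e := le_trans hp5 (Nat.le_mul_of_pos_right _ he)
  have hexp : P.p * e = (P.p * e - 4) + 4 := by omega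
  have e1 : (freyK P K).a₄ = ((-(P.a ^ P.p * b' ^ P.p) : ℤ) : K) * (2 : K) ^ (P.p * e - 4) := by
    rw [frey_a₄]
    have hbK : (P.b : K) = (2 : K) ^ e * (b' : K) := by
      have h := congrArg (Int.cast : ℤ → K) hb
      push_cast at h
      exact h
    rw [hbK, mul_pow, ← pow_mul, mul_comm e P.p]
    nth_rewrite 1 [hexp]
    push_cast
    rw [pow_add]
    field_simp
    ring
  have hodd : ¬ (2 : ℤ) ∣ -(P.a ^ P.p * b' ^ P.p) := by
    rw [dvd_neg]
    intro h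
    rcases Int.prime_two.dvd_or_dvd h with h | h
    · exact not_two_dvd_a_pow P h
    · exact hb' (Int.prime_two.dvd_of_dvd_pow h)
  rw [e1, map_mul, v_int_eq_one v hv hodd, one_mul, map_pow]

theorem frey2_a₄_lt (hv : ∀ n : ℤ, v (n : K) < 1 ↔ (2 : ℤ) ∣ n) : v (freyK P K).a₄ < 1 := by
  obtain ⟨e, he, h⟩ := frey2_a₄_val P v hv
  rw [h]
  have hp5 := P.hp5
  have hpe : 5 ≤ P.p * e := le_trans hp5 (Nat.le_mul_of_pos_right _ he)
  exact pow_lt_one₀ zero_le (v_two_lt v hv) (by omega)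

/-- the Frey model is integral at `2`. -/
theorem frey2_intCoeffs (hv : ∀ n : ℤ, v (n : K) < 1 ↔ (2 : ℤ) ∣ n) :
    KerRed.IntCoeffs v (freyK P K) where
  a₁ := by rw [frey_a₁, map_one]
  a₂ := frey2_a₂ P v
  a₃ := by rw [frey_a₃, map_zero]; exact zero_le_one
  a₄ := (frey2_a₄_lt P v hv).le
  a₆ := by rw [frey_a₆, map_zero]; exact zero_le_one

end val

/-! ### rational points -/

section rat

open scoped WithZero

/-- the `2`-adic valuation of `ℚ`. -/
noncomputable abbrev v2 : Valuation ℚ ℤᵐ⁰ := Rat.padicValuation 2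

theorem v2_int (n : ℤ) : v2 ((n : ℤ) : ℚ) < 1 ↔ (2 : ℤ) ∣ n := by
  rw [v2, Rat.padicValuation_cast]
  exact_mod_cast Int.padicValuation_lt_one_iff (p := 2) (x := n)

theorem v2_two : v2 (2 : ℚ) = WithZero.exp (-1 : ℤ) := by
  have := Rat.padicValuation_self 2
  exact_mod_cast this

/-- the residue class mod `2` of a `2`-integral rational number. -/
theorem v2_lt_or {x : ℚ} (hx : v2 x ≤ 1) : v2 x < 1 ∨ v2 (x - 1) < 1 := by
  have hden : ¬ (2 : ℕ) ∣ x.den := Rat.padicValuation_le_one_iff.mp hx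
  have hden' : ¬ (2 : ℤ) ∣ (x.den : ℤ) := by
    intro h
    exact hden (by exact_mod_cast h)
  have hd1 : v2 (x.den : ℚ) = 1 := by
    have h := v_int_eq_one v2 v2_int hden'
    exact_mod_cast h
  have hd0 : (x.den : ℚ) ≠ 0 := by exact_mod_cast x.den_nz
  by_cases hn : (2 : ℤ) ∣ x.num
  · left
    have e : x = (x.num : ℚ) / (x.den : ℚ) := (Rat.num_div_den x).symm
    rw [e, map_div₀, hd1, div_one]
    exact (v2_int _).mpr hn
  · right
    have e : x - 1 = ((x.num - (x.den : ℤ) : ℤ) : ℚ) / (x.den : ℚ) := by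
      nth_rewrite 1 [← Rat.num_div_den x]
      push_cast
      field_simp
    rw [e, map_div₀, hd1, div_one]
    apply (v2_int _).mpr
    omega

/-- type B is impossible for a rational point: `v x ^ p = v a₄ ^ (2 j)` would force `p ∣ 8 j`. -/
theorem no_typeB (P : FreyPackage) {g : ℤᵐ⁰} {j : ℕ} (hj0 : 0 < j) (hjp : 2 * j < P.p)
    (h : g ^ P.p = v2 (freyK P ℚ).a₄ ^ (2 * j)) : False := by
  obtain ⟨e, he, ha⟩ := frey2_a₄_val P v2 v2_int
  have hp5 := P.hp5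
  have hpe : 5 ≤ P.p * e := le_trans hp5 (Nat.le_mul_of_pos_right _ he)
  rw [ha, v2_two] at h
  have hL := congrArg WithZero.log h
  rw [WithZero.log_pow, WithZero.log_pow, WithZero.log_pow, WithZero.log_exp] at hL
  simp only [nsmul_eq_mul] at hL
  have hM : ((P.p * e - 4 : ℕ) : ℤ) = (P.p : ℤ) * (e : ℤ) - 4 := by
    rw [Nat.cast_sub (by omega)]; push_cast; ring
  rw [hM] at hL
  have hdvd : (P.p : ℤ) ∣ ((8 * j : ℕ) : ℤ) := by
    refine ⟨WithZero.log g + 2 * (j : ℤ) * (e : ℤ), ?_⟩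
    push_cast at hL ⊢
    linear_combination (-1 : ℤ) * hL
  have hdvd' : P.p ∣ 8 * j := by exact_mod_cast hdvd
  have hcop : Nat.Coprime P.p 8 := by
    rw [Nat.Prime.coprime_iff_not_dvd P.pp]
    intro h8
    have h2 : P.p ∣ 2 ^ 3 := by norm_num; exact h8
    have := (Nat.prime_dvd_prime_iff_eq P.pp Nat.prime_two).mp (P.pp.dvd_of_dvd_pow h2)
    omega
  have hj : P.p ∣ j := hcop.dvd_of_dvd_mul_left hdvd'
  have := Nat.le_of_dvd hj0 hj
  omega

/-- a point of the Frey curve over `ℚ` with unit abscissa, whose ordinate has residue `c`. -/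
def Cl (P : FreyPackage) (S : (freyK P ℚ).toAffine.Point) (c : ℚ) : Prop :=
  ∃ (x y : ℚ) (h : (freyK P ℚ).toAffine.Nonsingular x y),
    S = Point.some x y h ∧ v2 x = 1 ∧ v2 (x - 1) < 1 ∧ v2 (y - c) < 1

/-- every nonzero rational `p`-torsion point reduces to `(1, 0)` or `(1, 1)`. -/
theorem cl_of_torsion (P : FreyPackage) {S : (freyK P ℚ).toAffine.Point} (hS : S ≠ 0)
    (hpS : P.p • S = 0) : Cl P S 0 ∨ Cl P S 1 := by
  have hW : KerRed.IntCoeffs v2 (freyK P ℚ) := frey2_intCoeffs P v2 v2_int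
  have hvp : v2 ((P.p : ℕ) : ℚ) = 1 := frey2_val_p P v2 v2_int
  have hp2 : P.p ≠ 2 := by have := P.hp5; omega
  have hval := Kap2.torsion_val2 (v := v2) (E := freyK P ℚ) (frey_a₃ P ℚ) (frey_a₆ P ℚ)
    (frey2_b₂ P v2 v2_int) (frey2_a₄_ne P) (frey2_a₄_lt P v2 v2_int) P.pp hp2 hS hpS
  rcases S with _ | ⟨x, y, h⟩
  · exact absurd rfl hS
  have hxc : XPair.xc (freyK P ℚ) (Point.some x y h) = x := rfl
  rw [hxc] at hval
  have hx1 : v2 x = 1 := by
    rcases hval with hge | ⟨-, -, j, hj0, hjp, hj⟩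
    · refine le_antisymm ?_ hge
      by_contra hcon
      rw [not_le] at hcon
      exact no_torsion_in_kernel v2 (freyK P ℚ) hW.a₁ hW.a₂ hW.a₃ hW.a₄ hW.a₆ P.pp P.hp5 hvp h
        hcon hpS
    · exact (no_typeB P hj0 hjp hj).elim
  have hy : v2 y ≤ 1 :=
    BadCore.val_y_le_one v2 (freyK P ℚ) hW.a₁ hW.a₂ hW.a₃ hW.a₄ hW.a₆ h.1 hx1.le
  have hx' : v2 (x - 1) < 1 := by
    rcases v2_lt_or hx1.le with h' | h'
    · exact absurd hx1 (ne_of_lt h')
    · exact h'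
  rcases v2_lt_or hy with h' | h'
  · exact Or.inl ⟨x, y, h, rfl, hx1, hx', by rwa [sub_zero]⟩
  · exact Or.inr ⟨x, y, h, rfl, hx1, hx', h'⟩

/-- two rational `p`-torsion points with the same reduction are equal. -/
theorem eq_of_cl (P : FreyPackage) {S S' : (freyK P ℚ).toAffine.Point} {c : ℚ}
    (hS : Cl P S c) (hS' : Cl P S' c) (hpS : P.p • S = 0) (hpS' : P.p • S' = 0) : S' - S = 0 := by
  have hW : KerRed.IntCoeffs v2 (freyK P ℚ) := frey2_intCoeffs P v2 v2_int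
  have hvp : v2 ((P.p : ℕ) : ℚ) = 1 := frey2_val_p P v2 v2_int
  obtain ⟨x, y, h, rfl, hx1, hx, hy⟩ := hS
  obtain ⟨x', y', h', rfl, hx1', hx', hy'⟩ := hS'
  have hyle : v2 y ≤ 1 :=
    BadCore.val_y_le_one v2 (freyK P ℚ) hW.a₁ hW.a₂ hW.a₃ hW.a₄ hW.a₆ h.1 hx1.le
  have hdx : v2 (x' - x) < 1 := by
    have e : x' - x = (x' - 1) - (x - 1) := by ring
    rw [e]
    exact Valuation.map_sub_lt _ hx' hx
  have hdy : v2 (y' - y) < 1 := by
    have e : y' - y = (y' - c) - (y - c) := by ring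
    rw [e]
    exact Valuation.map_sub_lt _ hy' hy
  have hns : v2 (2 * y + (freyK P ℚ).a₁ * x + (freyK P ℚ).a₃) = 1 := by
    rw [frey_a₁, frey_a₃, add_zero, one_mul]
    have h2y : v2 (2 * y) < v2 x := by
      rw [hx1, map_mul]
      exact lt_of_le_of_lt (mul_le_of_le_one_right' hyle) (v_two_lt v2 v2_int)
    rw [Valuation.map_add_eq_of_lt_right _ h2y, hx1]
  rcases sub_mem_kernel_of_same_reduction v2 (freyK P ℚ) hW.a₁ hW.a₂ hW.a₃ h h' hx1.le hyle hdx hdy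
      (Or.inr hns) with h0 | ⟨X, Y, hXY, hsub, hX⟩
  · exact h0
  · exfalso
    refine no_torsion_in_kernel v2 (freyK P ℚ) hW.a₁ hW.a₂ hW.a₃ hW.a₄ hW.a₆ P.pp P.hp5 hvp hXY
      hX ?_
    rw [← hsub, smul_sub, hpS, hpS', sub_zero]

/-- **The Frey curve has no rational point of order `p`.** -/
theorem frey_no_rational_torsion (P : FreyPackage) (T0 : (P.freyCurve⁄ℚ).Point) (hT0 : T0 ≠ 0)
    (hp : P.p • T0 = 0) : False := by
  have : Fact P.p.Prime := ⟨P.pp⟩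
  have hp5 := P.hp5
  have hord : addOrderOf T0 = P.p := addOrderOf_eq_prime hp hT0
  have hne : ∀ k : ℕ, 0 < k → k < P.p → k • T0 ≠ 0 := fun k hk hkp h0 => by
    have hd : P.p ∣ k := hord ▸ addOrderOf_dvd_of_nsmul_eq_zero h0
    exact absurd (Nat.le_of_dvd hk hd) (by omega)
  have htors : ∀ k : ℕ, P.p • (k • T0) = 0 := fun k => by
    rw [smul_comm, hp, nsmul_zero]
  have h1 := cl_of_torsion P (S := 1 • T0) (hne 1 (by omega) (by omega)) (htors 1)
  have h2 := cl_of_torsion P (S := 2 • T0) (hne 2 (by omega) (by omega)) (htors 2)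
  have h3 := cl_of_torsion P (S := 3 • T0) (hne 3 (by omega) (by omega)) (htors 3)
  have e21 : 2 • T0 - 1 • T0 = 1 • T0 := by abel
  have e31 : 3 • T0 - 1 • T0 = 2 • T0 := by abel
  have e32 : 3 • T0 - 2 • T0 = 1 • T0 := by abel
  have c12 : ∀ c, Cl P (1 • T0) c → Cl P (2 • T0) c → False := fun c a b =>
    hne 1 (by omega) (by omega) (e21 ▸ eq_of_cl P a b (htors 1) (htors 2))
  have c13 : ∀ c, Cl P (1 • T0) c → Cl P (3 • T0) c → False := fun c a b =>
    hne 2 (by omega) (by omega) (e31 ▸ eq_of_cl P a b (htors 1) (htors 3))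
  have c23 : ∀ c, Cl P (2 • T0) c → Cl P (3 • T0) c → False := fun c a b =>
    hne 1 (by omega) (by omega) (e32 ▸ eq_of_cl P a b (htors 2) (htors 3))
  rcases h1 with a | a <;> rcases h2 with b | b <;> rcases h3 with c | c
  · exact c12 _ a b
  · exact c12 _ a b
  · exact c13 _ a c
  · exact c23 _ b c
  · exact c23 _ b c
  · exact c13 _ a c
  · exact c12 _ a b
  · exact c12 _ a b

end rat

end Fermat.Agent.S13.RatTors
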