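import Mathlib
import Fermat.Agent.S05.XPair

/-!
# S13 groundwork: division polynomials along the multiples of a point

For a point `P = (x, y)` on a Weierstrass curve over a field with `k • P ≠ 0` for `0 < k < N`,
the values `w k = ψ_k(P)` of Mathlib's division polynomials (`preΨ'`, times `ψ₂(P)` for even `k`)
satisfy `w (k + 1) * w (k - 1) = -(x(kP) - x(P)) * w k ^ 2` and are nonzero for `0 < k < N`.
In particular `N • P = 0` forces `w N = 0`.

The proof is an induction along the recursion defining `preΨ'`, using only the `x`-coordinate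
pair formulas of `XPair` and the difference formula.
-/

set_option autoImplicit false

namespace Fermat.Agent.S13.DivChain

open WeierstrassCurve Polynomial
open Fermat.Agent.S05.XPair

section Abstract

variable {K : Type*} [Field K]

/-- odd recursion + two chain relations. -/
theorem odd_aux {a b c d e xa xb t : K} (hrec : e = a * c ^ 3 - d * b ^ 3)
    (h1 : b * d = -(xa - t) * c ^ 2) (h2 : a * c = -(xb - t) * b ^ 2) :
    e = -(xb - xa) * b ^ 2 * c ^ 2 := by
  linear_combination hrec + c ^ 2 * h2 - b ^ 2 * h1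

/-- even recursion + two chain relations. -/
theorem even_aux {a b c d e f p1 xa xb t : K}
    (hrec : f * p1 = c * (e * b ^ 2 - d * a ^ 2))
    (h1 : c * d = -(xa - t) * b ^ 2) (h3 : e * c = -(xb - t) * a ^ 2) :
    f * p1 = -(xb - xa) * a ^ 2 * b ^ 2 := by
  linear_combination hrec + b ^ 2 * h3 - a ^ 2 * h1

/-- the doubling formula `ψ_{2m} = ψ₂(mP) ψ_m⁴`. -/
theorem dbl_aux {f p1 pm a b W xp xm u t : K} (hp1 : p1 ≠ 0)
    (hev : f * p1 = -(xp - xm) * a ^ 2 * b ^ 2) (hT : a * b = -(u - t) * W ^ 2)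
    (hdiff : (u - t) ^ 2 * (xp - xm) = -(pm * p1)) : f = pm * W ^ 4 := by
  apply mul_right_cancel₀ hp1
  linear_combination hev - (xp - xm) * (a * b - (u - t) * W ^ 2) * hT - W ^ 4 * hdiff

/-- the step to an even index. -/
theorem step_even_aux {a5 a3 c W Wp Wm pm Dn u t xp xm xd : K}
    (hO2 : a5 = -(xp - u) * Wp ^ 2 * W ^ 2) (hO1 : a3 = -(u - xm) * W ^ 2 * Wm ^ 2)
    (hD : c = pm * W ^ 4) (hT : Wp * Wm = -(u - t) * W ^ 2)
    (hG : (xp - u) * (u - xm) * (u - t) ^ 2 = -(Dn * (xd - t))) (hps : pm ^ 2 = Dn) :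
    a5 * a3 = -(xd - t) * c ^ 2 := by
  subst hO2 hO1 hD
  linear_combination (xp - u) * (u - xm) * W ^ 4 * (Wp * Wm - (u - t) * W ^ 2) * hT
    + W ^ 8 * hG + (xd - t) * W ^ 8 * hps

/-- the step to an odd index. -/
theorem step_odd_aux {c6 c4 c5 pu pr W V u r x5 t : K}
    (hD6 : c6 = pu * W ^ 4) (hD4 : c4 = pr * V ^ 4) (hO : c5 = -(u - r) * W ^ 2 * V ^ 2)
    (hdiff : (u - r) ^ 2 * (x5 - t) = -(pu * pr)) : c6 * c4 = -(x5 - t) * c5 ^ 2 := by
  subst hD6 hD4 hO
  linear_combination (W ^ 4 * V ^ 4) * hdiff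

/-- pair formulas for `(mP, P)` and duplication of `mP`. -/
theorem pair_dbl_aux (E : WeierstrassCurve K) {u t xp xm xd : K}
    (hsum : (u - t) ^ 2 * (xp + xm) = sumNum E u t)
    (hprod : (u - t) ^ 2 * (xp * xm) = prodNum E u t)
    (hdbl : dblDen E u * xd = dblNum E u) :
    (xp - u) * (u - xm) * (u - t) ^ 2 = -(dblDen E u * (xd - t)) := by
  simp only [sumNum, prodNum, dblDen, dblNum] at *
  linear_combination u * hsum - hprod + hdbl


/-- The abstract chain hypotheses: `x k`, `ps k` are the `x`-coordinate and the value of `ψ₂` at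
`k • P` (for `0 < k < N`), and `w k` the value of the `k`-th division polynomial at `P`. -/
structure Chain (E : WeierstrassCurve K) (N : ℕ) (x ps w : ℕ → K) : Prop where
  w1 : w 1 = 1
  w2 : w 2 = ps 1
  wodd : ∀ n, w (2 * n + 5) = w (n + 4) * w (n + 2) ^ 3 - w (n + 1) * w (n + 3) ^ 3
  weven : ∀ n, w (2 * n + 6) * w 2 =
    w (n + 3) * (w (n + 5) * w (n + 2) ^ 2 - w (n + 1) * w (n + 4) ^ 2)
  t1 : 2 < N → w 3 = -(x 2 - x 1) * w 2 ^ 2
  t2 : 3 < N → w 4 * w 2 = -(x 3 - x 1) * w 3 ^ 2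
  ne : ∀ c, 1 ≤ c → c + 2 < N → x (c + 1) ≠ x 1
  p1_ne : 2 < N → ps 1 ≠ 0
  ps_sq : ∀ a, 1 ≤ a → a < N → ps a ^ 2 = dblDen E (x a)
  dbl : ∀ a, 1 ≤ a → 2 * a < N → dblDen E (x a) * x (2 * a) = dblNum E (x a)
  sum : ∀ c, 1 ≤ c → c + 2 < N →
    (x (c + 1) - x 1) ^ 2 * (x (c + 2) + x c) = sumNum E (x (c + 1)) (x 1)
  prod : ∀ c, 1 ≤ c → c + 2 < N →
    (x (c + 1) - x 1) ^ 2 * (x (c + 2) * x c) = prodNum E (x (c + 1)) (x 1)
  diff : ∀ c b, 1 ≤ b → 1 ≤ c → c + 2 * b < N →
    (x (c + b) - x b) ^ 2 * (x (c + 2 * b) - x c) = -(ps (c + b) * ps b)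

namespace Chain

variable {E : WeierstrassCurve K} {N : ℕ} {x ps w : ℕ → K}

/-- the chain relation `T k`: `w (k + 2) * w k = -(x (k + 1) - x 1) * w (k + 1) ^ 2`. -/
def T (x w : ℕ → K) (k : ℕ) : Prop := w (k + 2) * w k = -(x (k + 1) - x 1) * w (k + 1) ^ 2

/-- `O m`: `w (2m + 1) = -(x (m + 1) - x m) w (m + 1)² w m²`, for `m = n + 1`. -/
theorem odd_rel (D : Chain E N x ps w) (n : ℕ) (hN : 2 < N)
    (hT : ∀ j, 1 ≤ j → j ≤ n + 1 → T x w j) :
    w (2 * n + 3) = -(x (n + 2) - x (n + 1)) * w (n + 2) ^ 2 * w (n + 1) ^ 2 := by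
  rcases n with _ | n
  · have h := D.t1 hN
    simp only [Nat.mul_zero, Nat.zero_add, D.w1] at h ⊢
    linear_combination h
  · have h1 : T x w (n + 1) := hT (n + 1) (by omega) (by omega)
    have h2 : T x w (n + 2) := hT (n + 2) (by omega) (by omega)
    have hrec := D.wodd n
    have e : 2 * (n + 1) + 3 = 2 * n + 5 := by ring
    rw [e]
    exact odd_aux hrec (by simpa [T, add_assoc, mul_comm] using h1)
      (by simpa [T, add_assoc, mul_comm] using h2)

/-- `Ev j`: `w (2j + 2) w 2 = -(x (j + 2) - x j) w (j + 2)² w j²`, for `j = n + 1`. -/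
theorem even_rel (D : Chain E N x ps w) (n : ℕ) (hN : 3 < N)
    (hT : ∀ j, 1 ≤ j → j ≤ n + 2 → T x w j) :
    w (2 * n + 4) * w 2 = -(x (n + 3) - x (n + 1)) * w (n + 3) ^ 2 * w (n + 1) ^ 2 := by
  rcases n with _ | n
  · have h := D.t2 hN
    simp only [Nat.mul_zero, Nat.zero_add, D.w1] at h ⊢
    linear_combination h
  · have h1 : T x w (n + 1) := hT (n + 1) (by omega) (by omega)
    have h3 : T x w (n + 3) := hT (n + 3) (by omega) (by omega)
    have hrec := D.weven n
    have e : 2 * (n + 1) + 4 = 2 * n + 6 := by ring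
    rw [e]
    exact even_aux hrec (by simpa [T, add_assoc, mul_comm] using h1)
      (by simpa [T, add_assoc, mul_comm] using h3)

/-- the doubling formula `w (2m) = ps m * w m ^ 4` for `m = n + 2`. -/
theorem dbl_rel (D : Chain E N x ps w) (n : ℕ) (hN : n + 3 < N)
    (hT : ∀ j, 1 ≤ j → j ≤ n + 2 → T x w j) :
    w (2 * n + 4) = ps (n + 2) * w (n + 2) ^ 4 := by
  have hev := D.even_rel n (by omega) hT
  have h1 : T x w (n + 1) := hT (n + 1) (by omega) (by omega)
  have hdiff := D.diff (n + 1) 1 le_rfl (by omega) (by omega)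
  have hp1 : w 2 ≠ 0 := by rw [D.w2]; exact D.p1_ne (by omega)
  rw [← D.w2] at hdiff
  have h1' : w (n + 3) * w (n + 1) = -(x (n + 2) - x 1) * w (n + 2) ^ 2 := h1
  have hdiff' : (x (n + 2) - x 1) ^ 2 * (x (n + 3) - x (n + 1)) = -(ps (n + 2) * w 2) := hdiff
  exact dbl_aux hp1 hev h1' hdiff'

/-- **Main chain theorem**: nonvanishing and the chain relation. -/
theorem main (D : Chain E N x ps w) :
    ∀ k, (1 ≤ k → k < N → w k ≠ 0) ∧ (1 ≤ k → k + 1 < N → T x w k) := by
  intro k
  induction k using Nat.strong_induction_on with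
  | _ k ih =>
  have hTlt : ∀ j, 1 ≤ j → j < k → j + 1 < N → T x w j := fun j h1 hj hN => (ih j hj).2 h1 hN
  refine ⟨?_, ?_⟩
  · intro h1 hN
    rcases (by omega : k = 1 ∨ k = 2 ∨ 3 ≤ k) with rfl | rfl | h3
    · rw [D.w1]; exact one_ne_zero
    · rw [D.w2]; exact D.p1_ne hN
    · obtain ⟨j, rfl⟩ : ∃ j, k = j + 2 := ⟨k - 2, by omega⟩
      have hT : T x w j := hTlt j (by omega) (by omega) (by omega)
      have hnz := (ih (j + 1) (by omega)).1 (by omega) (by omega)
      have hne := D.ne j (by omega) (by omega)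
      intro h0
      rw [T, h0, zero_mul] at hT
      have h' : (x (j + 1) - x 1) * w (j + 1) ^ 2 = 0 := by linear_combination hT
      rcases mul_eq_zero.mp h' with h | h
      · exact hne (sub_eq_zero.mp h)
      · exact hnz (pow_eq_zero_iff two_ne_zero |>.mp h)
  · intro h1 hN
    rcases (by omega : k = 1 ∨ k = 2 ∨ 3 ≤ k) with rfl | rfl | h3
    · have h := D.t1 (by omega)
      rw [T, D.w1]
      linear_combination h
    · exact D.t2 (by omega)
    · rcases Nat.even_or_odd' k with ⟨m, rfl | rfl⟩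
      · -- k = 2m = 2n + 4
        obtain ⟨n, rfl⟩ : ∃ n, m = n + 2 := ⟨m - 2, by omega⟩
        have hT' : ∀ j, 1 ≤ j → j ≤ n + 3 → T x w j :=
          fun j hj1 hj => hTlt j hj1 (by omega) (by omega)
        have hD6 := D.dbl_rel (n + 1) (by omega) (fun j hj1 hj => hT' j hj1 (by omega))
        have hD4 := D.dbl_rel n (by omega) (fun j hj1 hj => hT' j hj1 (by omega))
        have hO := D.odd_rel (n + 1) (by omega) (fun j hj1 hj => hT' j hj1 (by omega))
        have hdiff := D.diff 1 (n + 2) (by omega) le_rfl (by omega)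
        have e1 : 2 * (n + 2) + 2 = 2 * (n + 1) + 4 := by ring
        have e2 : 2 * (n + 2) = 2 * n + 4 := by ring
        have e3 : 2 * (n + 2) + 1 = 2 * (n + 1) + 3 := by ring
        have e4 : 1 + 2 * (n + 2) = 2 * (n + 1) + 3 := by ring
        have e5 : 1 + (n + 2) = n + 1 + 2 := by ring
        rw [T, e1, e3, e2]
        rw [e4, e5] at hdiff
        exact step_odd_aux hD6 hD4 hO hdiff
      · -- k = 2m + 1 = 2n + 3
        obtain ⟨n, rfl⟩ : ∃ n, m = n + 1 := ⟨m - 1, by omega⟩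
        have hT' : ∀ j, 1 ≤ j → j ≤ n + 2 → T x w j :=
          fun j hj1 hj => hTlt j hj1 (by omega) (by omega)
        have hO2 := D.odd_rel (n + 1) (by omega) (fun j hj1 hj => hT' j hj1 (by omega))
        have hO1 := D.odd_rel n (by omega) (fun j hj1 hj => hT' j hj1 (by omega))
        have hD := D.dbl_rel n (by omega) hT'
        have hT1 : T x w (n + 1) := hT' (n + 1) (by omega) (by omega)
        have hG := pair_dbl_aux E (D.sum (n + 1) (by omega) (by omega))
          (D.prod (n + 1) (by omega) (by omega)) (D.dbl (n + 2) (by omega) (by omega))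
        have hps := D.ps_sq (n + 2) (by omega) (by omega)
        have e1 : 2 * (n + 1) + 1 + 2 = 2 * (n + 1) + 3 := by ring
        have e2 : 2 * (n + 1) + 1 = 2 * n + 3 := by ring
        have e3 : 2 * n + 3 + 1 = 2 * (n + 2) := by ring
        have e4 : 2 * (n + 2) = 2 * n + 4 := by ring
        rw [T, e1, e2, e3]
        rw [e4] at hG ⊢
        exact step_even_aux hO2 hO1 hD (by simpa [T, add_assoc, mul_comm] using hT1) hG hps

end Chain

end Abstract

section PsiVal

variable {K : Type*} [Field K] (E : WeierstrassCurve K)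

/-- the value of the `n`-th division polynomial `ψ_n` at the affine point `(x, y)`. -/
noncomputable def psiVal (x y : K) (n : ℕ) : K :=
  (E.preΨ' n).eval x * if Even n then (y - E.toAffine.negY x y) else 1

theorem psiVal_one (x y : K) : psiVal E x y 1 = 1 := by
  simp [psiVal]

theorem psiVal_two (x y : K) : psiVal E x y 2 = y - E.toAffine.negY x y := by
  simp [psiVal]

theorem psiVal_of_odd (x y : K) {n : ℕ} (hn : ¬ Even n) :
    psiVal E x y n = (E.preΨ' n).eval x := by
  simp [psiVal, hn]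

theorem eval_Ψ₂Sq {x y : K} (h : E.toAffine.Equation x y) :
    E.Ψ₂Sq.eval x = (y - E.toAffine.negY x y) ^ 2 := by
  rw [← dblDen_eq E h]
  simp [WeierstrassCurve.Ψ₂Sq, dblDen]

theorem psiVal_odd_rec {x y : K} (h : E.toAffine.Equation x y) (n : ℕ) :
    psiVal E x y (2 * n + 5) = psiVal E x y (n + 4) * psiVal E x y (n + 2) ^ 3 -
      psiVal E x y (n + 1) * psiVal E x y (n + 3) ^ 3 := by
  have hq := eval_Ψ₂Sq E h
  have e : 2 * n + 5 = 2 * (n + 2) + 1 := by ring
  have h5 : ¬ Even (2 * n + 5) := by rw [Nat.even_iff]; omega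
  by_cases hn : Even n
  · have h4 : Even (n + 4) := by rw [Nat.even_iff] at *; omega
    have h2 : Even (n + 2) := by rw [Nat.even_iff] at *; omega
    have h1 : ¬ Even (n + 1) := by rw [Nat.even_iff] at *; omega
    have h3 : ¬ Even (n + 3) := by rw [Nat.even_iff] at *; omega
    simp only [psiVal, if_pos h4, if_pos h2, if_neg h1, if_neg h3, if_neg h5]
    rw [e, preΨ'_odd]
    simp only [if_pos hn, eval_sub, eval_mul, eval_pow, eval_one, hq]
    ring
  · have h4 : ¬ Even (n + 4) := by rw [Nat.even_iff] at *; omega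
    have h2 : ¬ Even (n + 2) := by rw [Nat.even_iff] at *; omega
    have h1 : Even (n + 1) := by rw [Nat.even_iff] at *; omega
    have h3 : Even (n + 3) := by rw [Nat.even_iff] at *; omega
    simp only [psiVal, if_neg h4, if_neg h2, if_pos h1, if_pos h3, if_neg h5]
    rw [e, preΨ'_odd]
    simp only [if_neg hn, eval_sub, eval_mul, eval_pow, eval_one, hq]
    ring

theorem psiVal_even_rec {x y : K} (n : ℕ) :
    psiVal E x y (2 * n + 6) * psiVal E x y 2 =
      psiVal E x y (n + 3) * (psiVal E x y (n + 5) * psiVal E x y (n + 2) ^ 2 -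
        psiVal E x y (n + 1) * psiVal E x y (n + 4) ^ 2) := by
  have e : 2 * n + 6 = 2 * (n + 3) := by ring
  have h6 : Even (2 * n + 6) := by rw [Nat.even_iff]; omega
  rw [psiVal_two]
  by_cases hn : Even n
  · have h4 : Even (n + 4) := by rw [Nat.even_iff] at *; omega
    have h2 : Even (n + 2) := by rw [Nat.even_iff] at *; omega
    have h1 : ¬ Even (n + 1) := by rw [Nat.even_iff] at *; omega
    have h3 : ¬ Even (n + 3) := by rw [Nat.even_iff] at *; omega
    have h5 : ¬ Even (n + 5) := by rw [Nat.even_iff] at *; omega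
    simp only [psiVal, if_pos h4, if_pos h2, if_neg h1, if_neg h3, if_neg h5, if_pos h6]
    rw [e, preΨ'_even]
    simp only [eval_sub, eval_mul, eval_pow]
    ring
  · have h4 : ¬ Even (n + 4) := by rw [Nat.even_iff] at *; omega
    have h2 : ¬ Even (n + 2) := by rw [Nat.even_iff] at *; omega
    have h1 : Even (n + 1) := by rw [Nat.even_iff] at *; omega
    have h3 : Even (n + 3) := by rw [Nat.even_iff] at *; omega
    have h5 : Even (n + 5) := by rw [Nat.even_iff] at *; omega
    simp only [psiVal, if_neg h4, if_neg h2, if_pos h1, if_pos h3, if_pos h5, if_pos h6]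
    rw [e, preΨ'_even]
    simp only [eval_sub, eval_mul, eval_pow]
    ring

end PsiVal

section Point

variable {K : Type*} [Field K] [DecidableEq K] (E : WeierstrassCurve K)

omit [DecidableEq K] in
/-- the value of `ψ₂ = 2y + a₁x + a₃` at a point (`0` at the origin). -/
def psi2 : E.toAffine.Point → K
  | .zero => 0
  | .some x y _ => y - E.toAffine.negY x y

omit [DecidableEq K] in
@[simp] theorem psi2_some {x y : K} (h : E.toAffine.Nonsingular x y) :
    psi2 E (Affine.Point.some x y h) = y - E.toAffine.negY x y := rfl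

theorem xc_ne_of_add_sub_ne {A B : E.toAffine.Point} (hA : A ≠ 0) (hB : B ≠ 0)
    (hp : A + B ≠ 0) (hm : A - B ≠ 0) : xc E A ≠ xc E B := by
  rcases A with _ | ⟨x₁, y₁, h₁⟩
  · exact absurd rfl hA
  rcases B with _ | ⟨x₂, y₂, h₂⟩
  · exact absurd rfl hB
  intro hx
  rcases (Affine.Point.X_eq_iff (h₁ := h₁) (h₂ := h₂)).mp hx with h | h
  · exact hm (by rw [h, sub_self])
  · exact hp (by rw [h, neg_add_cancel])

/-- the pair formulas (sum, product, difference) at the level of points. -/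
theorem pair_formulas {A B : E.toAffine.Point} (hA : A ≠ 0) (hB : B ≠ 0)
    (hx : xc E A ≠ xc E B) :
    (xc E A - xc E B) ^ 2 * (xc E (A + B) + xc E (A - B)) = sumNum E (xc E A) (xc E B) ∧
    (xc E A - xc E B) ^ 2 * (xc E (A + B) * xc E (A - B)) = prodNum E (xc E A) (xc E B) ∧
    (xc E A - xc E B) ^ 2 * (xc E (A + B) - xc E (A - B)) = -(psi2 E A * psi2 E B) := by
  rcases A with _ | ⟨x₁, y₁, h₁⟩
  · exact absurd rfl hA
  rcases B with _ | ⟨x₂, y₂, h₂⟩
  · exact absurd rfl hB
  have hx' : x₁ ≠ x₂ := hx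
  obtain ⟨xp, yp, xm, ym, hp, hm, hadd, hsub, hsum, hprod⟩ := add_sub_of_X_ne E h₁ h₂ hx'
  have hm0 : E.toAffine.Nonsingular x₂ (E.toAffine.negY x₂ y₂) :=
    (Affine.nonsingular_neg ..).mpr h₂
  have hadd' : Affine.Point.some x₁ y₁ h₁ + Affine.Point.some x₂ y₂ h₂ =
      Affine.Point.some _ _ (Affine.nonsingular_add h₁ h₂ fun hxy => hx' hxy.left) :=
    Affine.Point.add_of_X_ne hx'
  have hsub' : Affine.Point.some x₁ y₁ h₁ - Affine.Point.some x₂ y₂ h₂ =
      Affine.Point.some _ _ (Affine.nonsingular_add h₁ hm0 fun hxy => hx' hxy.left) := by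
    rw [sub_eq_add_neg, Affine.Point.neg_some]
    exact Affine.Point.add_of_X_ne hx'
  refine ⟨?_, ?_, ?_⟩
  · rw [hadd, hsub]; exact hsum
  · rw [hadd, hsub]; exact hprod
  · rw [hadd', hsub']
    simp only [xc_some, psi2_some]
    rw [Affine.slope_of_X_ne hx', Affine.slope_of_X_ne hx', mul_sub, sq_mul_addX E hx',
      sq_mul_addX E hx']
    simp only [Affine.negY]
    ring

omit [DecidableEq K] in
theorem psi2_sq {A : E.toAffine.Point} (hA : A ≠ 0) : psi2 E A ^ 2 = dblDen E (xc E A) := by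
  rcases A with _ | ⟨x, y, h⟩
  · exact absurd rfl hA
  · simp only [xc_some, psi2_some]
    exact (dblDen_eq E h.1).symm

theorem dbl_formula {A : E.toAffine.Point} (hA : A ≠ 0) (h2 : A + A ≠ 0) :
    dblDen E (xc E A) * xc E (A + A) = dblNum E (xc E A) ∧ psi2 E A ≠ 0 := by
  rcases A with _ | ⟨x, y, h⟩
  · exact absurd rfl hA
  have hy : y ≠ E.toAffine.negY x y := by
    intro hy
    exact h2 (Affine.Point.add_self_of_Y_eq hy)
  obtain ⟨x', y', h', hadd, -, hd⟩ := add_self_of_Y_ne E h hy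
  refine ⟨?_, ?_⟩
  · rw [hadd]; exact hd
  · simpa only [psi2_some] using sub_ne_zero.mpr hy

/-- the multiples of a point with `k • P ≠ 0` for `0 < k < N` form a chain. -/
theorem chain_of_point {x y : K} (h : E.toAffine.Nonsingular x y) {N : ℕ}
    (hN : ∀ k, 0 < k → k < N → k • (Affine.Point.some x y h) ≠ 0) :
    Chain E N (fun k => xc E (k • Affine.Point.some x y h))
      (fun k => psi2 E (k • Affine.Point.some x y h)) (psiVal E x y) := by
  set P : E.toAffine.Point := Affine.Point.some x y h with hP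
  have hx1 : xc E (1 • P) = x := by rw [one_nsmul]; rfl
  have hq1 : psi2 E (1 • P) = y - E.toAffine.negY x y := by rw [one_nsmul]; rfl
  have hqsq : (y - E.toAffine.negY x y) ^ 2 = dblDen E x := (dblDen_eq E h.1).symm
  have hpair : ∀ c b, 1 ≤ b → 1 ≤ c → c + 2 * b < N →
      xc E ((c + b) • P) ≠ xc E (b • P) ∧
      (xc E ((c + b) • P) - xc E (b • P)) ^ 2 * (xc E ((c + 2 * b) • P) + xc E (c • P)) =
        sumNum E (xc E ((c + b) • P)) (xc E (b • P)) ∧
      (xc E ((c + b) • P) - xc E (b • P)) ^ 2 * (xc E ((c + 2 * b) • P) * xc E (c • P)) =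
        prodNum E (xc E ((c + b) • P)) (xc E (b • P)) ∧
      (xc E ((c + b) • P) - xc E (b • P)) ^ 2 * (xc E ((c + 2 * b) • P) - xc E (c • P)) =
        -(psi2 E ((c + b) • P) * psi2 E (b • P)) := by
    intro c b hb hc hcb
    have hA : (c + b) • P ≠ 0 := hN _ (by omega) (by omega)
    have hB : b • P ≠ 0 := hN _ (by omega) (by omega)
    have e1 : (c + b) • P + b • P = (c + 2 * b) • P := by
      rw [← add_nsmul]; congr 1; ring
    have e2 : (c + b) • P - b • P = c • P := by rw [add_nsmul, add_sub_cancel_right]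
    have hne : xc E ((c + b) • P) ≠ xc E (b • P) :=
      xc_ne_of_add_sub_ne E hA hB (by rw [e1]; exact hN _ (by omega) hcb)
        (by rw [e2]; exact hN _ (by omega) (by omega))
    have key := pair_formulas E hA hB hne
    rw [e1, e2] at key
    exact ⟨hne, key⟩
  have hdbl : ∀ a, 1 ≤ a → 2 * a < N →
      dblDen E (xc E (a • P)) * xc E ((2 * a) • P) = dblNum E (xc E (a • P)) ∧
        psi2 E (a • P) ≠ 0 := by
    intro a ha h2a
    have hA : a • P ≠ 0 := hN _ (by omega) (by omega)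
    have e : a • P + a • P = (2 * a) • P := by rw [← add_nsmul]; congr 1; ring
    have key := dbl_formula E hA (by rw [e]; exact hN _ (by omega) h2a)
    rwa [e] at key
  have h3odd : ¬ Even 3 := by decide
  refine
    { w1 := psiVal_one E x y
      w2 := ?_
      wodd := psiVal_odd_rec E h.1
      weven := fun n => psiVal_even_rec E n
      t1 := ?_
      t2 := ?_
      ne := fun c hc hcN => (hpair c 1 le_rfl hc (by omega)).1
      p1_ne := fun h2N => (hdbl 1 le_rfl (by omega)).2
      ps_sq := fun a ha haN => psi2_sq E (hN a (by omega) haN)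
      dbl := fun a ha h2a => (hdbl a ha h2a).1
      sum := fun c hc hcN => (hpair c 1 le_rfl hc (by omega)).2.1
      prod := fun c hc hcN => (hpair c 1 le_rfl hc (by omega)).2.2.1
      diff := fun c b hb hc hcb => (hpair c b hb hc hcb).2.2.2 }
  · show psiVal E x y 2 = psi2 E (1 • P)
    rw [psiVal_two, hq1]
  · intro h2N
    show psiVal E x y 3 = -(xc E (2 • P) - xc E (1 • P)) * psiVal E x y 2 ^ 2
    have hd := (hdbl 1 le_rfl (by omega)).1
    rw [hx1] at hd ⊢
    rw [psiVal_of_odd E x y h3odd, preΨ'_three, psiVal_two, hqsq]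
    simp only [WeierstrassCurve.Ψ₃, eval_add, eval_mul, eval_pow, eval_X, eval_C, eval_ofNat]
    simp only [dblDen, dblNum, mul_one] at hd ⊢
    linear_combination hd
  · intro h3N
    show psiVal E x y 4 * psiVal E x y 2 =
      -(xc E (3 • P) - xc E (1 • P)) * psiVal E x y 3 ^ 2
    have hd := (hdbl 1 le_rfl (by omega)).1
    have hs := (hpair 1 1 le_rfl le_rfl (by omega)).2.1
    have e12 : (2 * 1) • P = 2 • P := rfl
    have e11 : (1 + 1) • P = 2 • P := rfl
    have e13 : (1 + 2 * 1) • P = 3 • P := rfl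
    rw [e12] at hd
    rw [e11, e13] at hs
    rw [hx1] at hd hs ⊢
    have brel := E.b_relation
    have h4 : psiVal E x y 4 = (E.preΨ₄).eval x * (y - E.toAffine.negY x y) := by
      simp [psiVal, show Even 4 by decide]
    rw [h4, psiVal_of_odd E x y h3odd, preΨ'_three, psiVal_two, mul_assoc, ← sq, hqsq]
    simp only [WeierstrassCurve.Ψ₃, WeierstrassCurve.preΨ₄, eval_add, eval_mul, eval_pow, eval_X,
      eval_C, eval_ofNat]
    simp only [dblDen, dblNum, sumNum] at hd hs ⊢
    generalize xc E (2 • P) = x2 at hd hs ⊢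
    generalize xc E (3 • P) = x3 at hs ⊢
    have hΨ : 3 * x ^ 4 + E.b₂ * x ^ 3 + 3 * E.b₄ * x ^ 2 + 3 * E.b₆ * x + E.b₈ =
        -((4 * x ^ 3 + E.b₂ * x ^ 2 + 2 * E.b₄ * x + E.b₆) * (x2 - x)) := by
      linear_combination hd
    have h3' : (x2 - x) ^ 2 * (x3 - x) = (4 * x ^ 3 + E.b₂ * x ^ 2 + 2 * E.b₄ * x + E.b₆) +
        (x2 - x) * (6 * x ^ 2 + E.b₂ * x + E.b₄) := by
      linear_combination hs
    rw [hΨ]
    linear_combination
      ((4 * x ^ 3 + E.b₂ * x ^ 2 + 2 * E.b₄ * x + E.b₆) ^ 2) * h3' +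
      (4 * x ^ 3 + E.b₂ * x ^ 2 + 2 * E.b₄ * x + E.b₆) * (6 * x ^ 2 + E.b₂ * x + E.b₄) * hΨ +
      (4 * x ^ 3 + E.b₂ * x ^ 2 + 2 * E.b₄ * x + E.b₆) * x ^ 2 * brel

/-- **DP1, nonvanishing**: if `k • P ≠ 0` for `0 < k < N`, then `ψ_k(P) ≠ 0` for `0 < k < N`. -/
theorem psiVal_ne_zero {x y : K} (h : E.toAffine.Nonsingular x y) {N : ℕ}
    (hN : ∀ k, 0 < k → k < N → k • (Affine.Point.some x y h) ≠ 0) {k : ℕ} (hk : 0 < k)
    (hkN : k < N) : psiVal E x y k ≠ 0 :=
  ((chain_of_point E h hN).main k).1 hk hkN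

/-- **DP1, chain relation**: `ψ_{k+2} ψ_k = -(x((k+1)P) - x(P)) ψ_{k+1}²`. -/
theorem psiVal_mul {x y : K} (h : E.toAffine.Nonsingular x y) {N : ℕ}
    (hN : ∀ k, 0 < k → k < N → k • (Affine.Point.some x y h) ≠ 0) {k : ℕ} (hk : 1 ≤ k)
    (hkN : k + 1 < N) :
    psiVal E x y (k + 2) * psiVal E x y k =
      -(xc E ((k + 1) • Affine.Point.some x y h) - x) * psiVal E x y (k + 1) ^ 2 := by
  have key := ((chain_of_point E h hN).main k).2 hk hkN
  simp only [Chain.T, one_nsmul, xc_some] at key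
  exact key

/-- **DP1, vanishing**: if `N ≥ 2`, `k • P ≠ 0` for `0 < k < N` and `N • P = 0`, then
`ψ_N(P) = 0`. -/
theorem psiVal_eq_zero {x y : K} (h : E.toAffine.Nonsingular x y) {N : ℕ} (hN2 : 2 ≤ N)
    (hN : ∀ k, 0 < k → k < N → k • (Affine.Point.some x y h) ≠ 0)
    (h0 : N • Affine.Point.some x y h = 0) : psiVal E x y N = 0 := by
  rcases (by omega : N = 2 ∨ 3 ≤ N) with rfl | h3
  · rw [psiVal_two]
    have h2 : Affine.Point.some x y h + Affine.Point.some x y h = 0 := by
      rw [← two_nsmul]; exact h0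
    have hd : dblDen E x = 0 := (add_self_eq_zero_iff E h).mp h2
    rw [dblDen_eq E h.1] at hd
    exact pow_eq_zero_iff two_ne_zero |>.mp hd
  · obtain ⟨j, rfl⟩ : ∃ j, N = j + 2 := ⟨N - 2, by omega⟩
    have key := psiVal_mul E h hN (k := j) (by omega) (by omega)
    have hneg : (j + 1) • Affine.Point.some x y h = -Affine.Point.some x y h := by
      rw [eq_neg_iff_add_eq_zero, ← succ_nsmul]
      exact h0
    rw [hneg, xc_neg, xc_some, sub_self, neg_zero, zero_mul] at key
    rcases mul_eq_zero.mp key with h' | h'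
    · exact h'
    · exact absurd h' (psiVal_ne_zero E h hN (by omega) (by omega))

/-- a nonzero point killed by a prime `p` has exact order `p`. -/
theorem nsmul_ne_zero_of_prime {P : E.toAffine.Point} {p : ℕ} (hp : p.Prime) (hP : P ≠ 0)
    (hT : p • P = 0) {k : ℕ} (hk : 0 < k) (hkp : k < p) : k • P ≠ 0 := by
  intro h0
  have h1 : addOrderOf P ∣ p := addOrderOf_dvd_of_nsmul_eq_zero hT
  have h2 : addOrderOf P ∣ k := addOrderOf_dvd_of_nsmul_eq_zero h0
  rcases (Nat.dvd_prime hp).mp h1 with h | h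
  · exact hP (AddMonoid.addOrderOf_eq_one_iff.mp h)
  · rw [h] at h2
    exact absurd (Nat.le_of_dvd hk h2) (by omega)

/-- **Torsion points are roots of the division polynomial**: for an odd prime `p`, the
`x`-coordinate of a nonzero point killed by `p` is a root of `preΨ' p`. -/
theorem eval_preΨ'_eq_zero {x y : K} (h : E.toAffine.Nonsingular x y) {p : ℕ} (hp : p.Prime)
    (hp2 : p ≠ 2) (hT : p • Affine.Point.some x y h = 0) : (E.preΨ' p).eval x = 0 := by
  have hN : ∀ k, 0 < k → k < p → k • (Affine.Point.some x y h) ≠ 0 := fun k hk hkp =>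
    nsmul_ne_zero_of_prime E hp (Affine.Point.some_ne_zero h) hT hk hkp
  have key := psiVal_eq_zero E h hp.two_le hN hT
  rwa [psiVal_of_odd E x y (Nat.not_even_iff_odd.mpr (hp.odd_of_ne_two hp2))] at key

end Point

end Fermat.Agent.S13.DivChain
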