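import Mathlib
import Fermat.Agent.S05.KerRed
import Fermat.Prelude.Def_FLTPrelim_GaloisRep

/-!
# S13 (T7): exclusion of the "supersingular" configuration

Pure valuation / polynomial arguments; no function field.

* `val_mul_prod_le_one` (S7a): from the multiplication-by-`p` package `x(pP) = A(x)/B(x)` with
  `B = lead * ∏ (X - s)^2`, `deg A = deg B + 1`, `lead B = p^2 lead A`: if all `s` are
  non-integral then `v p * ∏ v s ≤ 1`.
* `coeff_mul_prod_le` (S7a'): a Gauss-lemma substitute for products of linear factors.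
* `inv_le_prod_of_stable` (S7b): on a Galois-stable line inside the kernel of reduction the
  half-product of the abscissae has valuation at least `(v p)⁻¹`.
* `exists_torsion_not_inKer` (S7c): not all nonzero `p`-torsion points are in the kernel of
  reduction.
-/

set_option autoImplicit false

namespace Fermat.Agent.S13.SSExcl

open Polynomial WeierstrassCurve
open Fermat.Agent.S05 Fermat.Agent.S05.KerRed

section Order

variable {Γ₀ : Type*} [LinearOrderedCommGroupWithZero Γ₀]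

lemma le_one_of_sq_le_one {t : Γ₀} (h : t ^ 2 ≤ 1) : t ≤ 1 := by
  by_contra hcon
  rw [not_le] at hcon
  have : 1 < t ^ 2 := by
    rw [sq]
    calc (1 : Γ₀) < t := hcon
      _ = t * 1 := (mul_one t).symm
      _ ≤ t * t := mul_le_mul_right hcon.le t
  exact absurd h (not_le.mpr this)

lemma finset_prod_one_le {ι : Type*} (s : Finset ι) (f : ι → Γ₀) (h : ∀ i ∈ s, 1 ≤ f i) :
    1 ≤ ∏ i ∈ s, f i := by
  classical
  induction s using Finset.induction_on with
  | empty => simp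
  | insert a s ha ih =>
    rw [Finset.prod_insert ha]
    have h1 : 1 ≤ f a := h a (Finset.mem_insert_self a s)
    have h2 : 1 ≤ ∏ i ∈ s, f i := ih fun i hi => h i (Finset.mem_insert_of_mem hi)
    calc (1 : Γ₀) = 1 * 1 := (one_mul 1).symm
      _ ≤ f a * ∏ i ∈ s, f i := mul_le_mul' h1 h2

lemma finset_prod_le_of_subset {ι : Type*} {s t : Finset ι} (hst : s ⊆ t) (f : ι → Γ₀)
    (h : ∀ i ∈ t, 1 ≤ f i) : ∏ i ∈ s, f i ≤ ∏ i ∈ t, f i := by
  classical
  rw [← Finset.prod_sdiff hst]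
  have h1 : 1 ≤ ∏ i ∈ t \ s, f i :=
    finset_prod_one_le _ f fun i hi => h i (Finset.mem_sdiff.mp hi).1
  calc ∏ i ∈ s, f i = 1 * ∏ i ∈ s, f i := (one_mul _).symm
    _ ≤ (∏ i ∈ t \ s, f i) * ∏ i ∈ s, f i := mul_le_mul' h1 le_rfl

end Order

section Points

variable {K : Type*} [Field K] [IsAlgClosed K]

/-- Over an algebraically closed field every `x` is the abscissa of a point. -/
lemma exists_point (W : WeierstrassCurve K) (hΔ : W.Δ ≠ 0) (x : K) :
    ∃ y : K, W.toAffine.Nonsingular x y := by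
  have hdeg : (X ^ 2 + C (W.a₁ * x + W.a₃) * X
      - C (x ^ 3 + W.a₂ * x ^ 2 + W.a₄ * x + W.a₆) : K[X]).degree ≠ 0 := by
    have : (X ^ 2 + C (W.a₁ * x + W.a₃) * X
        - C (x ^ 3 + W.a₂ * x ^ 2 + W.a₄ * x + W.a₆) : K[X]).degree = 2 := by
      compute_degree!
    rw [this]
    norm_num
  obtain ⟨y, hy⟩ := IsAlgClosed.exists_root _ hdeg
  refine ⟨y, (W.toAffine.equation_iff_nonsingular_of_Δ_ne_zero hΔ).mp ?_⟩
  rw [Affine.equation_iff]
  simp only [IsRoot.def, eval_sub, eval_add, eval_pow, eval_X, eval_mul, eval_C] at hy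
  linear_combination hy

variable {Γ₀ : Type*} [LinearOrderedCommGroupWithZero Γ₀] [DecidableEq K]

/-- **(S7a)** Upper bound from the multiplication-by-`p` package. -/
theorem val_mul_prod_le_one (v : Valuation K Γ₀) (W : WeierstrassCurve K) (hW : IntCoeffs v W)
    (hΔ : W.Δ ≠ 0) {p : ℕ} (A B : K[X]) (hcop : IsCoprime A B)
    (hdeg : A.natDegree = B.natDegree + 1)
    (hlead : B.leadingCoeff = (p : K) ^ 2 * A.leadingCoeff)
    (hspec : ∀ P : W.toAffine.Point, P ≠ 0 → B.eval (xc W P) ≠ 0 →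
      p • P ≠ 0 ∧ xc W (p • P) * B.eval (xc W P) = A.eval (xc W P))
    (S : Finset K) (hB : B = C B.leadingCoeff * ∏ s ∈ S, (X - C s) ^ 2)
    (hS : ∀ s ∈ S, 1 < v s) :
    v (p : K) * ∏ s ∈ S, v s ≤ 1 := by
  classical
  by_cases hp0 : (p : K) = 0
  · rw [hp0, map_zero, zero_mul]
    exact zero_le_one
  have hA0 : A ≠ 0 := by
    rintro rfl
    simp at hdeg
  have hlA : A.leadingCoeff ≠ 0 := leadingCoeff_ne_zero.mpr hA0
  have hlB : B.leadingCoeff ≠ 0 := by
    rw [hlead]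
    exact mul_ne_zero (pow_ne_zero 2 hp0) hlA
  have hB0' : B ≠ 0 := leadingCoeff_ne_zero.mp hlB
  -- integrality of an abscissa whose `p`-th multiple has integral abscissa
  have key : ∀ x0 : K, B.eval x0 ≠ 0 → v (A.eval x0) ≤ v (B.eval x0) → v x0 ≤ 1 := by
    intro x0 hBx hle
    obtain ⟨y0, h0⟩ := exists_point W hΔ x0
    obtain ⟨hne, hx⟩ := hspec (Affine.Point.some x0 y0 h0) (Affine.Point.some_ne_zero _) hBx
    by_contra hcon
    rw [not_le] at hcon
    have hker : InKer v W (Affine.Point.some x0 y0 h0) := hcon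
    rcases hker.nsmul hW p with h | h
    · exact hne h
    · rw [xc_some] at hx
      have e : v (A.eval x0) = v (xc W (p • Affine.Point.some x0 y0 h0)) * v (B.eval x0) := by
        rw [← hx, map_mul]
      have hBpos : 0 < v (B.eval x0) := v.pos_iff.mpr hBx
      have hlt : v (B.eval x0) < v (A.eval x0) := by
        rw [e]
        calc v (B.eval x0) = 1 * v (B.eval x0) := (one_mul _).symm
          _ < _ := mul_lt_mul_of_pos_right h hBpos
      exact absurd hle (not_le.mpr hlt)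
  -- coprimality pointwise
  have hcop' : ∀ x : K, A.eval x = 0 → B.eval x ≠ 0 := by
    intro x hAx hBx
    obtain ⟨u, w, huw⟩ := hcop
    have := congrArg (Polynomial.eval x) huw
    simp [hAx, hBx] at this
  -- the auxiliary abscissa
  have hdegAB : (A - B).degree ≠ 0 := by
    have hlt : B.degree < A.degree := degree_lt_degree (by omega)
    rw [degree_sub_eq_left_of_degree_lt hlt]
    intro h
    have := natDegree_eq_zero_iff_degree_le_zero.mpr h.le
    omega
  obtain ⟨x0, hx0⟩ := IsAlgClosed.exists_root _ hdegAB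
  have hAB : A.eval x0 = B.eval x0 := by
    simpa [sub_eq_zero] using hx0
  have hBx0 : B.eval x0 ≠ 0 := fun h => hcop' x0 (hAB.trans h) h
  have hvx0 : v x0 ≤ 1 := key x0 hBx0 (by rw [hAB])
  have hroots : ∀ a ∈ A.roots, v a ≤ 1 := by
    intro a ha
    have haA : A.eval a = 0 := (mem_roots hA0).mp ha
    exact key a (hcop' a haA) (by rw [haA, map_zero]; exact zero_le)
  -- `v (A x0) ≤ v (lead A)`
  have hAle : v (A.eval x0) ≤ v A.leadingCoeff := by
    rw [(IsAlgClosed.splits A).eval_eq_prod_roots x0, map_mul]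
    have h1 : v (A.roots.map (x0 - ·)).prod ≤ 1 := by
      rw [map_multiset_prod, Multiset.map_map]
      refine Multiset.prod_induction (fun g : Γ₀ => g ≤ 1) _ (fun a b ha hb => mul_le_one' ha hb)
        le_rfl ?_
      intro g hg
      obtain ⟨a, ha, rfl⟩ := Multiset.mem_map.mp hg
      exact v.map_sub_le hvx0 (hroots a ha)
    calc v A.leadingCoeff * v (A.roots.map (x0 - ·)).prod ≤ v A.leadingCoeff * 1 :=
          mul_le_mul' le_rfl h1
      _ = v A.leadingCoeff := mul_one _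
  -- `v (B x0) = v (lead B) * (∏ v s)^2`
  have hBeq : v (B.eval x0) = v B.leadingCoeff * (∏ s ∈ S, v s) ^ 2 := by
    conv_lhs => rw [hB]
    rw [eval_mul, eval_C, eval_prod, map_mul, map_prod, ← Finset.prod_pow]
    congr 1
    refine Finset.prod_congr rfl fun s hs => ?_
    rw [eval_pow, eval_sub, eval_X, eval_C, map_pow,
      v.map_sub_eq_of_lt_right (lt_of_le_of_lt hvx0 (hS s hs))]
  have hfin : v A.leadingCoeff * (v (p : K) * ∏ s ∈ S, v s) ^ 2 ≤ v A.leadingCoeff * 1 := by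
    have : v A.leadingCoeff * (v (p : K) * ∏ s ∈ S, v s) ^ 2 = v (B.eval x0) := by
      rw [hBeq, hlead, map_mul, map_pow, mul_pow, ← mul_assoc, mul_comm (v A.leadingCoeff)]
    rw [this, mul_one, ← hAB]
    exact hAle
  have hlApos : 0 < v A.leadingCoeff := v.pos_iff.mpr hlA
  exact le_one_of_sq_le_one (le_of_mul_le_mul_left hfin hlApos)

end Points

section Gauss

variable {K : Type*} [Field K] {Γ₀ : Type*} [LinearOrderedCommGroupWithZero Γ₀]
  (v : Valuation K Γ₀)

/-- One linear factor: if `g * (X - ρ)` has all coefficients of valuation `≤ γ` and `1 ≤ v ρ`,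
then `v c * v ρ ≤ γ` for every coefficient `c` of `g`. -/
lemma coeff_mul_X_sub_C_le {g : K[X]} {ρ : K} {γ : Γ₀} (hρ : 1 ≤ v ρ)
    (h : ∀ i, v ((g * (X - C ρ)).coeff i) ≤ γ) (i : ℕ) : v (g.coeff i) * v ρ ≤ γ := by
  induction i with
  | zero =>
    have h0 := h 0
    rw [mul_coeff_zero, coeff_sub, coeff_X_zero, coeff_C_zero, zero_sub, mul_neg, Valuation.map_neg,
      map_mul] at h0
    exact h0
  | succ i ih =>
    have h1 := h (i + 1)
    rw [coeff_mul_X_sub_C] at h1
    have hgi : v (g.coeff i) ≤ γ := by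
      calc v (g.coeff i) = v (g.coeff i) * 1 := (mul_one _).symm
        _ ≤ v (g.coeff i) * v ρ := mul_le_mul' le_rfl hρ
        _ ≤ γ := ih
    have e : g.coeff (i + 1) * ρ = g.coeff i - (g.coeff i - g.coeff (i + 1) * ρ) := by ring
    rw [← map_mul, e]
    exact v.map_sub_le hgi h1

/-- **(S7a')** Gauss-lemma substitute: if `g * ∏ (X - s)` has all coefficients of valuation
`≤ γ` and `1 ≤ v s` for all `s`, then `v c * ∏ v s ≤ γ` for every coefficient `c` of `g`. -/
theorem coeff_mul_prod_le (g : K[X]) (S : Finset K) (hS : ∀ s ∈ S, 1 ≤ v s) :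
    ∀ {γ : Γ₀}, (∀ i, v ((g * ∏ s ∈ S, (X - C s)).coeff i) ≤ γ) →
      ∀ i : ℕ, v (g.coeff i) * ∏ s ∈ S, v s ≤ γ := by
  classical
  induction S using Finset.induction_on with
  | empty =>
    intro γ h i
    simpa using h i
  | insert a S ha ih =>
    intro γ h i
    have ha1 : 1 ≤ v a := hS a (Finset.mem_insert_self a S)
    have hapos : 0 < v a := lt_of_lt_of_le zero_lt_one ha1
    have h' : ∀ j, v (((g * ∏ s ∈ S, (X - C s)) * (X - C a)).coeff j) ≤ γ := by
      intro j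
      have := h j
      rwa [Finset.prod_insert ha, mul_comm (X - C a), ← mul_assoc] at this
    have h1 : ∀ j, v ((g * ∏ s ∈ S, (X - C s)).coeff j) ≤ γ * (v a)⁻¹ := by
      intro j
      rw [le_mul_inv_iff₀ hapos]
      exact coeff_mul_X_sub_C_le v ha1 h' j
    have h2 := ih (fun s hs => hS s (Finset.mem_insert_of_mem hs)) h1 i
    rw [le_mul_inv_iff₀ hapos] at h2
    rw [Finset.prod_insert ha, mul_comm (v a), ← mul_assoc]
    exact h2

/-- Corollary: a polynomial with `v`-integral coefficients, and a finite set of its roots of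
valuation `≥ 1`: `v (lead) * ∏ v s ≤ 1`. -/
theorem leadingCoeff_mul_prod_le_one (f : K[X]) (hf0 : f ≠ 0) (hf : ∀ i, v (f.coeff i) ≤ 1)
    (S : Finset K) (hroot : ∀ s ∈ S, f.eval s = 0) (hS : ∀ s ∈ S, 1 ≤ v s) :
    v f.leadingCoeff * ∏ s ∈ S, v s ≤ 1 := by
  classical
  have hle : S.val ≤ f.roots := by
    rw [Multiset.le_iff_subset S.nodup]
    intro s hs
    exact (mem_roots hf0).mpr (hroot s hs)
  have hdvd : (∏ s ∈ S, (X - C s)) ∣ f := by
    have h1 : (S.val.map fun a => X - C a).prod ∣ (f.roots.map fun a => X - C a).prod :=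
      Multiset.prod_dvd_prod_of_le (Multiset.map_le_map hle)
    exact h1.trans (prod_multiset_X_sub_C_dvd f)
  obtain ⟨g, hg⟩ := hdvd
  have hmonic : (∏ s ∈ S, (X - C s)).Monic := monic_prod_of_monic _ _ fun s _ => monic_X_sub_C s
  have hlead : f.leadingCoeff = g.leadingCoeff := by
    rw [hg, leadingCoeff_mul, hmonic.leadingCoeff, one_mul]
  rw [hlead]
  refine coeff_mul_prod_le v g S hS (fun i => ?_) g.natDegree
  rw [mul_comm, ← hg]
  exact hf i

end Gauss

section Rat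

variable {K : Type*} [Field K] {Γ₀ : Type*} [LinearOrderedCommGroupWithZero Γ₀]
  (v : Valuation K Γ₀)

lemma v_intCast_le_one (n : ℤ) : v (n : K) ≤ 1 := by
  rcases Int.natAbs_eq n with h | h
  · rw [h, Int.cast_natCast]
    exact v_natCast_le_one v _
  · rw [h, Int.cast_neg, Int.cast_natCast, Valuation.map_neg]
    exact v_natCast_le_one v _

lemma v_intCast_eq_one {p : ℕ} (hp : p.Prime) (hvp : v (p : K) < 1) {n : ℤ}
    (hn : ¬ (p : ℤ) ∣ n) : v (n : K) = 1 := by
  refine le_antisymm (v_intCast_le_one v n) ?_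
  by_contra hcon
  rw [not_le] at hcon
  have hcop : IsCoprime (p : ℤ) n :=
    (Nat.prime_iff_prime_int.mp hp).coprime_iff_not_dvd.mpr hn
  obtain ⟨a, b, hab⟩ := hcop
  have h1 : v ((a : K) * (p : K) + (b : K) * (n : K)) < 1 := by
    apply v.map_add_lt
    · rw [map_mul]
      exact mul_lt_one_of_nonneg_of_lt_one_right (v_intCast_le_one v a) zero_le hvp
    · rw [map_mul]
      exact mul_lt_one_of_nonneg_of_lt_one_right (v_intCast_le_one v b) zero_le hcon
  have h2 : (a : K) * (p : K) + (b : K) * (n : K) = 1 := by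
    have := congrArg (Int.cast : ℤ → K) hab
    push_cast at this
    exact this
  rw [h2, map_one] at h1
  exact lt_irrefl _ h1

/-- A rational number of valuation `> 1` has valuation `≥ (v p)⁻¹`. -/
theorem inv_le_of_one_lt_rat [Algebra ℚ K] {p : ℕ} (hp : p.Prime) (hvp : v (p : K) < 1) (r : ℚ)
    (hr : 1 < v (algebraMap ℚ K r)) : (v (p : K))⁻¹ ≤ v (algebraMap ℚ K r) := by
  have hr' : algebraMap ℚ K r = (r.num : K) / (r.den : K) := by
    conv_lhs => rw [← Rat.num_div_den r]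
    rw [map_div₀, map_intCast, map_natCast]
  rw [hr', map_div₀] at hr ⊢
  have hden0 : v (r.den : K) ≠ 0 := by
    intro h
    rw [h, div_zero] at hr
    exact absurd hr (not_lt.mpr zero_le_one)
  have hdpos : 0 < v (r.den : K) := zero_lt_iff.mpr hden0
  have hnum : v (r.num : K) ≤ 1 := v_intCast_le_one v _
  have hpd : p ∣ r.den := by
    by_contra hnd
    have h1 : v ((r.den : ℤ) : K) = 1 := v_intCast_eq_one v hp hvp (by exact_mod_cast hnd)
    rw [Int.cast_natCast] at h1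
    rw [h1, div_one] at hr
    exact absurd hnum (not_le.mpr hr)
  have hpn : ¬ (p : ℤ) ∣ r.num := by
    intro h
    have h1 : p ∣ r.num.natAbs := Int.natCast_dvd.mp h
    have h2 : p ∣ Nat.gcd r.num.natAbs r.den := Nat.dvd_gcd h1 hpd
    rw [r.reduced] at h2
    exact hp.one_lt.ne' (Nat.dvd_one.mp h2)
  have hnum1 : v (r.num : K) = 1 := v_intCast_eq_one v hp hvp hpn
  obtain ⟨b', hb'⟩ := hpd
  have hdle : v (r.den : K) ≤ v (p : K) := by
    rw [hb', Nat.cast_mul, map_mul]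
    calc v (p : K) * v (b' : K) ≤ v (p : K) * 1 := mul_le_mul' le_rfl (v_natCast_le_one v b')
      _ = v (p : K) := mul_one _
  rw [hnum1, one_div]
  exact (inv_le_inv₀ (lt_of_lt_of_le hdpos hdle) hdpos).mpr hdle

/-- **(S7b)**, abstract form: a `ℚ`-Galois-stable family `x n` depending only on `± n mod p`,
all of valuation `> 1`: the half product has valuation at least `(v p)⁻¹`. -/
theorem inv_le_prod_of_stable [Algebra ℚ K] [IsGalois ℚ K] {p : ℕ} (hp : p.Prime)
    (hvp : v (p : K) < 1) (x : ℕ → K)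
    (hper : ∀ m n : ℕ, ((m : ZMod p) = n ∨ (m : ZMod p) = -n) → x m = x n)
    (hstable : ∀ σ : K ≃ₐ[ℚ] K, ∃ c : ℕ, ¬ p ∣ c ∧ ∀ n : ℕ, σ (x n) = x (c * n))
    (hker : ∀ n : ℕ, ¬ p ∣ n → 1 < v (x n)) :
    (v (p : K))⁻¹ ≤ ∏ n ∈ Finset.Icc 1 (p / 2), v (x n) := by
  haveI : Fact p.Prime := ⟨hp⟩
  have hIcc : Finset.Icc 1 (p / 2) = Finset.Ico 1 (p / 2).succ := by
    ext n
    simp
  have hfix : ∀ σ : K ≃ₐ[ℚ] K,
      σ (∏ n ∈ Finset.Ico 1 (p / 2).succ, x n) = ∏ n ∈ Finset.Ico 1 (p / 2).succ, x n := by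
    intro σ
    obtain ⟨c, hc, hσ⟩ := hstable σ
    have hc0 : (c : ZMod p) ≠ 0 := by
      rwa [Ne, ZMod.natCast_eq_zero_iff]
    have hG := ZMod.Ico_map_valMinAbs_natAbs_eq_Ico_map_id p (c : ZMod p) hc0
    have h1 : σ (∏ n ∈ Finset.Ico 1 (p / 2).succ, x n)
        = ∏ n ∈ Finset.Ico 1 (p / 2).succ, x (c * n) := by
      rw [map_prod]
      exact Finset.prod_congr rfl fun n _ => hσ n
    have h2 : ∀ n : ℕ, x (((c : ZMod p) * n).valMinAbs.natAbs) = x (c * n) := by
      intro n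
      apply hper
      rcases Int.natAbs_eq ((c : ZMod p) * n).valMinAbs with h | h
      · left
        have h' := congrArg (Int.cast : ℤ → ZMod p) h
        rw [ZMod.coe_valMinAbs, Int.cast_natCast] at h'
        rw [← h', Nat.cast_mul]
      · right
        have h' := congrArg (Int.cast : ℤ → ZMod p) h
        rw [ZMod.coe_valMinAbs, Int.cast_neg, Int.cast_natCast] at h'
        have h'' : ((c * n : ℕ) : ZMod p)
            = -((((c : ZMod p) * n).valMinAbs.natAbs : ℕ) : ZMod p) := by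
          rw [Nat.cast_mul]
          exact h'
        rw [h'', neg_neg]
    have h3 := congrArg (fun m : Multiset ℕ => (m.map x).prod) hG
    simp only [Multiset.map_map, Function.comp_def] at h3
    rw [h1, Finset.prod_eq_multiset_prod, Finset.prod_eq_multiset_prod, ← h3]
    congr 1
    exact Multiset.map_congr rfl fun n _ => (h2 n).symm
  obtain ⟨q, hq⟩ := (InfiniteGalois.mem_range_algebraMap_iff_fixed _).mpr hfix
  have hprod : v (algebraMap ℚ K q) = ∏ n ∈ Finset.Icc 1 (p / 2), v (x n) := by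
    rw [hq, map_prod, hIcc]
  have hmem : ∀ n ∈ Finset.Icc 1 (p / 2), 1 < v (x n) := by
    intro n hn
    rw [Finset.mem_Icc] at hn
    apply hker
    intro hdvd
    have := Nat.le_of_dvd (by omega) hdvd
    have := Nat.div_lt_self hp.pos one_lt_two
    omega
  have h1mem : 1 ∈ Finset.Icc 1 (p / 2) := by
    rw [Finset.mem_Icc]
    have := hp.two_le
    omega
  have hgt : 1 < ∏ n ∈ Finset.Icc 1 (p / 2), v (x n) := by
    rw [← Finset.mul_prod_erase _ _ h1mem]
    have h1 : 1 ≤ ∏ n ∈ (Finset.Icc 1 (p / 2)).erase 1, v (x n) :=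
      finset_prod_one_le _ _ fun n hn => (hmem n (Finset.mem_of_mem_erase hn)).le
    calc (1 : Γ₀) < v (x 1) := hmem 1 h1mem
      _ = v (x 1) * 1 := (mul_one _).symm
      _ ≤ v (x 1) * ∏ n ∈ (Finset.Icc 1 (p / 2)).erase 1, v (x n) := mul_le_mul' le_rfl h1
  rw [← hprod] at hgt ⊢
  exact inv_le_of_one_lt_rat v hp hvp q hgt

end Rat

section Stable

open WeierstrassCurve.Affine

variable {K : Type*} [Field K] [DecidableEq K] [Algebra ℚ K]
  {Γ₀ : Type*} [LinearOrderedCommGroupWithZero Γ₀]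

/-- The abscissa of a Galois conjugate. -/
lemma xc_smul (W' : WeierstrassCurve ℚ) (σ : K ≃ₐ[ℚ] K) (P : (W'⁄K).Point) :
    xc (W'⁄K) (σ • P) = σ (xc (W'⁄K) P) := by
  rcases P with _ | ⟨x, y, h⟩
  · exact (map_zero σ).symm
  · rfl

lemma smul_nsmul_point (W' : WeierstrassCurve ℚ) (σ : K ≃ₐ[ℚ] K) (n : ℕ) (P : (W'⁄K).Point) :
    σ • (n • P) = n • (σ • P) :=
  map_nsmul (Point.map (W' := W') σ.toAlgHom) n P

lemma nsmul_eq_of_zmod_eq {G : Type*} [AddCommGroup G] {T : G} {p : ℕ} (hpT : p • T = 0)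
    {a b : ℤ} (h : (a : ZMod p) = b) : a • T = b • T := by
  rw [ZMod.intCast_eq_intCast_iff_dvd_sub] at h
  obtain ⟨k, hk⟩ := h
  have : (b - a) • T = 0 := by
    rw [hk, mul_comm, mul_smul, natCast_zsmul, hpT, smul_zero]
  rw [sub_smul, sub_eq_zero] at this
  exact this.symm

/-- **(S7b)** for points: a point `T` of order `p` in the kernel of reduction, spanning a
Galois-stable line. -/
theorem inv_le_prod_xc_of_stable [IsGalois ℚ K] (v : Valuation K Γ₀) (W' : WeierstrassCurve ℚ)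
    (hW : IntCoeffs v (W'⁄K)) {p : ℕ} (hp : p.Prime) (hvp : v (p : K) < 1)
    (T : (W'⁄K).Point) (hT : InKer v (W'⁄K) T) (hpT : p • T = 0)
    (hstable : ∀ σ : K ≃ₐ[ℚ] K, ∃ c : ℕ, σ • T = c • T) :
    (v (p : K))⁻¹ ≤ ∏ n ∈ Finset.Icc 1 (p / 2), v (xc (W'⁄K) (n • T)) := by
  haveI : Fact p.Prime := ⟨hp⟩
  have hT0 : T ≠ 0 := hT.ne_zero
  have hord : addOrderOf T = p := addOrderOf_eq_prime hpT hT0
  refine inv_le_prod_of_stable v hp hvp (fun n => xc (W'⁄K) (n • T)) ?_ ?_ ?_
  · rintro m n (h | h)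
    · have h1 : ((m : ℤ) : ZMod p) = ((n : ℤ) : ZMod p) := by exact_mod_cast h
      have h2 := nsmul_eq_of_zmod_eq hpT h1
      rw [natCast_zsmul, natCast_zsmul] at h2
      change xc (W'⁄K) (m • T) = xc (W'⁄K) (n • T)
      rw [h2]
    · have h1 : ((m : ℤ) : ZMod p) = ((-(n : ℤ) : ℤ) : ZMod p) := by
        push_cast
        exact h
      have h2 := nsmul_eq_of_zmod_eq hpT h1
      rw [natCast_zsmul, neg_smul, natCast_zsmul] at h2
      change xc (W'⁄K) (m • T) = xc (W'⁄K) (n • T)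
      rw [h2, xc_neg]
  · intro σ
    obtain ⟨c, hc⟩ := hstable σ
    refine ⟨c, ?_, ?_⟩
    · intro hdvd
      have h0 : c • T = 0 := by
        obtain ⟨k, rfl⟩ := hdvd
        rw [mul_comm, mul_smul, hpT, smul_zero]
      rw [h0] at hc
      have : T = 0 := by
        calc T = σ⁻¹ • σ • T := (inv_smul_smul σ T).symm
          _ = σ⁻¹ • (0 : (W'⁄K).Point) := by rw [hc]
          _ = 0 := rfl
      exact hT0 this
    · intro n
      rw [← xc_smul, smul_nsmul_point, hc, ← mul_smul, mul_comm]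
  · intro n hn
    have hne : n • T ≠ 0 := fun h => hn (hord ▸ addOrderOf_dvd_of_nsmul_eq_zero h)
    exact (hT.nsmul hW n).resolve_left hne

/-- **(S7c)** Not all nonzero `p`-torsion points lie in the kernel of reduction at a place above
`p`, when there is a Galois-stable line and a torsion point outside of it. -/
theorem exists_torsion_not_inKer [IsGalois ℚ K] [IsAlgClosed K] (v : Valuation K Γ₀)
    (W' : WeierstrassCurve ℚ) (hW : IntCoeffs v (W'⁄K)) (hΔ : (W'⁄K).Δ ≠ 0)
    {p : ℕ} (hp : p.Prime) (hp2 : p ≠ 2) (hvp : v (p : K) < 1)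
    (A B : K[X]) (hcop : IsCoprime A B) (hdeg : A.natDegree = B.natDegree + 1)
    (hlead : B.leadingCoeff = (p : K) ^ 2 * A.leadingCoeff)
    (hspec : ∀ P : (W'⁄K).Point, P ≠ 0 → B.eval (xc (W'⁄K) P) ≠ 0 →
      p • P ≠ 0 ∧ xc (W'⁄K) (p • P) * B.eval (xc (W'⁄K) P) = A.eval (xc (W'⁄K) P))
    (S : Finset K) (hB : B = C B.leadingCoeff * ∏ s ∈ S, (X - C s) ^ 2)
    (hS : ∀ s ∈ S, ∃ P : (W'⁄K).Point, P ≠ 0 ∧ p • P = 0 ∧ xc (W'⁄K) P = s)
    (hS' : ∀ P : (W'⁄K).Point, P ≠ 0 → p • P = 0 → xc (W'⁄K) P ∈ S)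
    (T : (W'⁄K).Point) (hT0 : T ≠ 0) (hpT : p • T = 0)
    (hstable : ∀ σ : K ≃ₐ[ℚ] K, ∃ c : ℕ, σ • T = c • T)
    (T' : (W'⁄K).Point) (hpT' : p • T' = 0) (hT' : ∀ n : ℕ, T' ≠ n • T) :
    ∃ P : (W'⁄K).Point, P ≠ 0 ∧ p • P = 0 ∧ v (xc (W'⁄K) P) ≤ 1 := by
  classical
  by_contra hcon
  have hall : ∀ P : (W'⁄K).Point, P ≠ 0 → p • P = 0 → 1 < v (xc (W'⁄K) P) := by
    intro P hP0 hpP
    by_contra h
    exact hcon ⟨P, hP0, hpP, not_lt.mp h⟩
  haveI : Fact p.Prime := ⟨hp⟩
  have hord : addOrderOf T = p := addOrderOf_eq_prime hpT hT0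
  haveI : CharZero K := algebraRat.charZero K
  have hp0 : (p : K) ≠ 0 := Nat.cast_ne_zero.mpr hp.ne_zero
  have hvp0 : 0 < v (p : K) := v.pos_iff.mpr hp0
  have hSv : ∀ s ∈ S, 1 < v s := by
    intro s hs
    obtain ⟨P, hP0, hpP, rfl⟩ := hS s hs
    exact hall P hP0 hpP
  have hup := val_mul_prod_le_one v (W'⁄K) hW hΔ A B hcop hdeg hlead hspec S hB hSv
  have hlow := inv_le_prod_xc_of_stable v W' hW hp hvp T (hall T hT0 hpT) hpT hstable
  -- the multiples `n • T`, `1 ≤ n ≤ p / 2`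
  have hnT0 : ∀ n ∈ Finset.Icc 1 (p / 2), n • T ≠ 0 := by
    intro n hn h
    rw [Finset.mem_Icc] at hn
    have h1 : p ∣ n := hord ▸ addOrderOf_dvd_of_nsmul_eq_zero h
    have := Nat.le_of_dvd (by omega) h1
    have := Nat.div_lt_self hp.pos one_lt_two
    omega
  have hpodd : p % 2 = 1 := Nat.odd_iff.mp (hp.odd_of_ne_two hp2)
  have hinj : Set.InjOn (fun n : ℕ => xc (W'⁄K) (n • T)) (Finset.Icc 1 (p / 2) : Finset ℕ) := by
    intro m hm n hn hmn
    have hm' := Finset.mem_Icc.mp hm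
    have hn' := Finset.mem_Icc.mp hn
    rcases eq_or_eq_neg_of_xc_eq (hnT0 m hm) (hnT0 n hn) hmn with h | h
    · have h1 : ((m : ℤ) - n) • T = 0 := by
        rw [sub_smul, natCast_zsmul, natCast_zsmul, h, sub_self]
      have h2 : (p : ℤ) ∣ (m : ℤ) - n := hord ▸ addOrderOf_dvd_iff_zsmul_eq_zero.mpr h1
      obtain ⟨k, hk⟩ := h2
      have hk0 : k = 0 := by
        by_contra hk0
        have : (p : ℤ) ≤ |(m : ℤ) - n| := by
          rw [hk, abs_mul, Nat.abs_cast]
          exact le_mul_of_one_le_right (Int.natCast_nonneg p) (Int.one_le_abs hk0)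
        have h3 : |(m : ℤ) - n| < p := by
          rw [abs_lt]
          constructor <;> omega
        omega
      rw [hk0, mul_zero] at hk
      change m = n
      omega
    · exfalso
      have h1 : (m + n) • T = 0 := by
        rw [add_smul, h, neg_add_cancel]
      have h2 : p ∣ m + n := hord ▸ addOrderOf_dvd_of_nsmul_eq_zero h1
      have := Nat.le_of_dvd (by omega) h2
      omega
  have hT'0 : T' ≠ 0 := by
    have := hT' 0
    rwa [zero_smul] at this
  set S0 : Finset K := (Finset.Icc 1 (p / 2)).image (fun n : ℕ => xc (W'⁄K) (n • T)) with hS0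
  have hx'S0 : xc (W'⁄K) T' ∉ S0 := by
    intro hmem
    obtain ⟨n, hn, hx⟩ := Finset.mem_image.mp hmem
    have hn' := Finset.mem_Icc.mp hn
    rcases eq_or_eq_neg_of_xc_eq (hnT0 n hn) hT'0 hx with h | h
    · exact hT' n h.symm
    · refine hT' (p - n) ?_
      have h1 : (p - n) • T + n • T = 0 := by
        rw [← add_smul, Nat.sub_add_cancel (by have := Nat.div_le_self p 2; omega), hpT]
      rw [← neg_eq_iff_eq_neg] at h
      rw [← h]
      exact (eq_neg_of_add_eq_zero_left h1).symm ▸ rfl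
  have hsub : insert (xc (W'⁄K) T') S0 ⊆ S := by
    intro s hs
    rcases Finset.mem_insert.mp hs with rfl | hs
    · exact hS' T' hT'0 hpT'
    · obtain ⟨n, hn, rfl⟩ := Finset.mem_image.mp hs
      refine hS' (n • T) (hnT0 n hn) ?_
      rw [smul_comm, hpT, smul_zero]
  have h1 : ∏ s ∈ insert (xc (W'⁄K) T') S0, v s ≤ ∏ s ∈ S, v s :=
    finset_prod_le_of_subset hsub _ fun s hs => (hSv s hs).le
  rw [Finset.prod_insert hx'S0, hS0, Finset.prod_image hinj] at h1
  have hx' : 1 < v (xc (W'⁄K) T') := hall T' hT'0 hpT'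
  have h2 : (1 : Γ₀) < v (p : K) * ∏ s ∈ S, v s := by
    calc (1 : Γ₀) < v (xc (W'⁄K) T') := hx'
      _ = v (xc (W'⁄K) T') * (v (p : K) * (v (p : K))⁻¹) := by
          rw [mul_inv_cancel₀ hvp0.ne', mul_one]
      _ ≤ v (xc (W'⁄K) T') * (v (p : K) * ∏ n ∈ Finset.Icc 1 (p / 2), v (xc (W'⁄K) (n • T))) :=
          mul_le_mul' le_rfl (mul_le_mul' le_rfl hlow)
      _ = v (p : K) * (v (xc (W'⁄K) T') * ∏ n ∈ Finset.Icc 1 (p / 2), v (xc (W'⁄K) (n • T))) := by
          rw [mul_left_comm]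
      _ ≤ v (p : K) * ∏ s ∈ S, v s := mul_le_mul' le_rfl h1
  exact absurd hup (not_le.mpr h2)

end Stable

end Fermat.Agent.S13.SSExcl
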