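import Mathlib
import Fermat.Agent.S13.SSExcl
import Fermat.Agent.S13.DivChain
import Fermat.Agent.S13.LevelL
import Fermat.Agent.S51.Galois

/-!
# S13 (T7, division-polynomial form): a Galois-stable line excludes `V₁ = V`, unconditionally

Uses only `DivChain.eval_preΨ'_eq_zero` (nonzero `p`-torsion points are roots of Mathlib's
`preΨ' p`), the integrality of the coefficients of `preΨ' p`, its leading coefficient `p`, the
Gauss-lemma substitute `SSExcl.leadingCoeff_mul_prod_le_one` and the lower bound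
`SSExcl.inv_le_prod_xc_of_stable`.  No multiplication-by-`p` package, no algebraic closedness.

* `exists_torsion_not_inKer` : point form.
* `exists_not_inKer_of_stable` : frozen form (submodule `N ≠ ⊥, ⊤` of the torsion module).
* `frey_exists_not_inKer` : the Frey curve over any Galois extension `K` of `ℚ` (a number field
  or an algebraic closure), valuation subring above `P.p`.
-/

set_option autoImplicit false

namespace Fermat.Agent.S13.SSDiv

open Polynomial WeierstrassCurve WeierstrassCurve.Affine WeierstrassCurve.Affine.Point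
open Fermat.Agent.S05 Fermat.Agent.S05.KerRed Fermat.Agent.S13.SSExcl

section Integral

variable {K : Type*} [Field K] {Γ₀ : Type*} [LinearOrderedCommGroupWithZero Γ₀]

/-- The coefficients of the division polynomials of an integral model are integral. -/
theorem coeff_preΨ'_le_one (v : Valuation K Γ₀) (E : WeierstrassCurve K) (hW : IntCoeffs v E)
    (n i : ℕ) : v ((E.preΨ' n).coeff i) ≤ 1 := by
  let EI : WeierstrassCurve v.integer :=
    ⟨⟨E.a₁, hW.a₁⟩, ⟨E.a₂, hW.a₂⟩, ⟨E.a₃, hW.a₃⟩, ⟨E.a₄, hW.a₄⟩, ⟨E.a₆, hW.a₆⟩⟩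
  have hE : EI.map v.integer.subtype = E := by
    ext <;> rfl
  rw [← hE, WeierstrassCurve.map_preΨ', Polynomial.coeff_map]
  exact ((EI.preΨ' n).coeff i).2

end Integral

section Stable

variable {K : Type*} [Field K] [DecidableEq K] [Algebra ℚ K]
  {Γ₀ : Type*} [LinearOrderedCommGroupWithZero Γ₀]

/-- **(S7c), division-polynomial form.** Not all nonzero `p`-torsion points lie in the kernel of
reduction at a place above `p`, when there is a Galois-stable line and a torsion point outside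
of it. -/
theorem exists_torsion_not_inKer [IsGalois ℚ K] (v : Valuation K Γ₀)
    (W' : WeierstrassCurve ℚ) (hW : IntCoeffs v (W'⁄K))
    {p : ℕ} (hp : p.Prime) (hp2 : p ≠ 2) (hvp : v (p : K) < 1)
    (T : (W'⁄K).Point) (hT0 : T ≠ 0) (hpT : p • T = 0)
    (hstable : ∀ σ : K ≃ₐ[ℚ] K, ∃ c : ℕ, σ • T = c • T)
    (T' : (W'⁄K).Point) (hpT' : p • T' = 0) (hT' : ∀ n : ℕ, T' ≠ n • T) :
    ∃ P : (W'⁄K).Point, P ≠ 0 ∧ p • P = 0 ∧ v (xc (W'⁄K) P) ≤ 1 := by
  classical
  by_contra hcon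
  have hall : ∀ P : (W'⁄K).Point, P ≠ 0 → p • P = 0 → 1 < v (xc (W'⁄K) P) := by
    intro P hP0 hpP
    by_contra h
    exact hcon ⟨P, hP0, hpP, not_lt.mp h⟩
  haveI : Fact p.Prime := ⟨hp⟩
  haveI : CharZero K := algebraRat.charZero K
  have hord : addOrderOf T = p := addOrderOf_eq_prime hpT hT0
  have hp0 : (p : K) ≠ 0 := Nat.cast_ne_zero.mpr hp.ne_zero
  have hvp0 : 0 < v (p : K) := v.pos_iff.mpr hp0
  have hpodd : p % 2 = 1 := Nat.odd_iff.mp (hp.odd_of_ne_two hp2)
  have hlow := inv_le_prod_xc_of_stable v W' hW hp hvp T (hall T hT0 hpT) hpT hstable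
  -- the multiples `n • T`, `1 ≤ n ≤ p / 2`
  have hnT0 : ∀ n ∈ Finset.Icc 1 (p / 2), n • T ≠ 0 := by
    intro n hn h
    rw [Finset.mem_Icc] at hn
    have h1 : p ∣ n := hord ▸ addOrderOf_dvd_of_nsmul_eq_zero h
    have := Nat.le_of_dvd (by omega) h1
    have := Nat.div_lt_self hp.pos one_lt_two
    omega
  have hinj : Set.InjOn (fun n : ℕ => xc (W'⁄K) (n • T)) (Finset.Icc 1 (p / 2) : Finset ℕ) := by
    intro m hm n hn hmn
    have hm' := Finset.mem_Icc.mp hm
    have hn' := Finset.mem_Icc.mp hn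
    rcases eq_or_eq_neg_of_xc_eq (hnT0 m hm) (hnT0 n hn) hmn with h | h
    · have h1 : ((m : ℤ) - n) • T = 0 := by
        rw [sub_smul, natCast_zsmul, natCast_zsmul, h, sub_self]
      have h2 : (p : ℤ) ∣ (m : ℤ) - n := hord ▸ addOrderOf_dvd_iff_zsmul_eq_zero.mpr h1
      obtain ⟨k, hk⟩ := h2
      have hk0 : k = 0 := by
        by_contra hk0
        have : (p : ℤ) ≤ |(m : ℤ) - n| := by
          rw [hk, abs_mul, Nat.abs_cast]
          exact le_mul_of_one_le_right (Int.natCast_nonneg p) (Int.one_le_abs hk0)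
        have h3 : |(m : ℤ) - n| < p := by
          rw [abs_lt]
          constructor <;> omega
        omega
      rw [hk0, mul_zero] at hk
      change m = n
      omega
    · exfalso
      have h1 : (m + n) • T = 0 := by
        rw [add_smul, h, neg_add_cancel]
      have h2 : p ∣ m + n := hord ▸ addOrderOf_dvd_of_nsmul_eq_zero h1
      have := Nat.le_of_dvd (by omega) h2
      omega
  have hT'0 : T' ≠ 0 := by
    have := hT' 0
    rwa [zero_smul] at this
  set S0 : Finset K := (Finset.Icc 1 (p / 2)).image (fun n : ℕ => xc (W'⁄K) (n • T)) with hS0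
  have hx'S0 : xc (W'⁄K) T' ∉ S0 := by
    intro hmem
    obtain ⟨n, hn, hx⟩ := Finset.mem_image.mp hmem
    have hn' := Finset.mem_Icc.mp hn
    rcases eq_or_eq_neg_of_xc_eq (hnT0 n hn) hT'0 hx with h | h
    · exact hT' n h.symm
    · refine hT' (p - n) ?_
      have h1 : (p - n) • T + n • T = 0 := by
        rw [← add_smul, Nat.sub_add_cancel (by have := Nat.div_le_self p 2; omega), hpT]
      rw [← neg_eq_iff_eq_neg] at h
      rw [← h]
      exact (eq_neg_of_add_eq_zero_left h1).symm ▸ rfl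
  -- every element of `S` is the abscissa of a nonzero torsion point
  have hSpt : ∀ s ∈ insert (xc (W'⁄K) T') S0,
      ∃ Q : (W'⁄K).Point, Q ≠ 0 ∧ p • Q = 0 ∧ xc (W'⁄K) Q = s := by
    intro s hs
    rcases Finset.mem_insert.mp hs with rfl | hs
    · exact ⟨T', hT'0, hpT', rfl⟩
    · obtain ⟨n, hn, rfl⟩ := Finset.mem_image.mp hs
      refine ⟨n • T, hnT0 n hn, ?_, rfl⟩
      rw [smul_comm, hpT, smul_zero]
  -- the division polynomial
  have hf0 : (W'⁄K).preΨ' p ≠ 0 := (W'⁄K).preΨ'_ne_zero hp0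
  have hlead : ((W'⁄K).preΨ' p).leadingCoeff = (p : K) := by
    rw [(W'⁄K).leadingCoeff_preΨ' hp0, if_neg (Nat.not_even_iff_odd.mpr (hp.odd_of_ne_two hp2))]
  have hroot : ∀ s ∈ insert (xc (W'⁄K) T') S0, ((W'⁄K).preΨ' p).eval s = 0 := by
    intro s hs
    obtain ⟨Q, hQ0, hpQ, rfl⟩ := hSpt s hs
    rcases Q with _ | ⟨x, y, h⟩
    · exact absurd rfl hQ0
    · exact DivChain.eval_preΨ'_eq_zero (W'⁄K) h hp hp2 hpQ
  have hSv : ∀ s ∈ insert (xc (W'⁄K) T') S0, 1 ≤ v s := by
    intro s hs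
    obtain ⟨Q, hQ0, hpQ, rfl⟩ := hSpt s hs
    exact (hall Q hQ0 hpQ).le
  have hup := leadingCoeff_mul_prod_le_one v ((W'⁄K).preΨ' p) hf0
    (coeff_preΨ'_le_one v (W'⁄K) hW p) _ hroot hSv
  rw [hlead, Finset.prod_insert hx'S0, hS0, Finset.prod_image hinj] at hup
  have hx' : 1 < v (xc (W'⁄K) T') := hall T' hT'0 hpT'
  have h2 : (1 : Γ₀) < v (p : K) *
      (v (xc (W'⁄K) T') * ∏ n ∈ Finset.Icc 1 (p / 2), v (xc (W'⁄K) (n • T))) := by
    calc (1 : Γ₀) < v (xc (W'⁄K) T') := hx'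
      _ = v (xc (W'⁄K) T') * (v (p : K) * (v (p : K))⁻¹) := by
          rw [mul_inv_cancel₀ hvp0.ne', mul_one]
      _ ≤ v (xc (W'⁄K) T') * (v (p : K) * ∏ n ∈ Finset.Icc 1 (p / 2), v (xc (W'⁄K) (n • T))) :=
          mul_le_mul' le_rfl (mul_le_mul' le_rfl hlow)
      _ = v (p : K) * (v (xc (W'⁄K) T') * ∏ n ∈ Finset.Icc 1 (p / 2), v (xc (W'⁄K) (n • T))) := by
          rw [mul_left_comm]
  exact absurd hup (not_le.mpr h2)

/-- **(SS)** in the frozen shape, unconditional: a Galois-stable submodule `N ≠ ⊥, ⊤` of the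
torsion module `V` (finite of cardinality `< p ^ 3`) forces some nonzero element of `V` outside
the kernel of reduction of any valuation `v` above `p` for which the model is integral. -/
theorem exists_not_inKer_of_stable [IsGalois ℚ K] (v : Valuation K Γ₀)
    (W' : WeierstrassCurve ℚ) (hW : IntCoeffs v (W'⁄K))
    {p : ℕ} (hp : p.Prime) (hp2 : p ≠ 2) (hvp : v (p : K) < 1)
    [Finite (Submodule.torsionBy ℤ (W'⁄K).Point p)]
    (hcard : Nat.card (Submodule.torsionBy ℤ (W'⁄K).Point p) < p ^ 3)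
    (N : Submodule (ZMod p) (Submodule.torsionBy ℤ (W'⁄K).Point p))
    (hN : IsGaloisStable ℚ N) (hbot : N ≠ ⊥) (htop : N ≠ ⊤) :
    ∃ T : Submodule.torsionBy ℤ (W'⁄K).Point p, T ≠ 0 ∧ ¬ InKer v (W'⁄K) T.1 := by
  haveI : Fact p.Prime := ⟨hp⟩
  obtain ⟨t, htN, ht0, hline⟩ := Fermat.Agent.S51.line_of_proper p hcard N hbot htop
  have hmem : ∀ u : Submodule.torsionBy ℤ (W'⁄K).Point p, p • (u.1 : (W'⁄K).Point) = 0 := by
    intro u
    have := (Submodule.mem_torsionBy_iff _ _).mp u.2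
    rwa [natCast_zsmul] at this
  have hT0 : (t.1 : (W'⁄K).Point) ≠ 0 := fun h => ht0 (Subtype.ext h)
  have hstable : ∀ σ : K ≃ₐ[ℚ] K, ∃ c : ℕ, σ • (t.1 : (W'⁄K).Point) = c • t.1 := by
    intro σ
    obtain ⟨k, hk⟩ := hline (σ • t) (hN σ t htN)
    refine ⟨k, ?_⟩
    have h1 : ((σ • t : Submodule.torsionBy ℤ (W'⁄K).Point p) : (W'⁄K).Point) = σ • t.1 := rfl
    have h2 : ((k • t : Submodule.torsionBy ℤ (W'⁄K).Point p) : (W'⁄K).Point) = k • t.1 :=
      Submodule.coe_smul_of_tower k t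
    exact h1.symm.trans ((congrArg Subtype.val hk).trans h2)
  obtain ⟨t', -, ht'N⟩ : ∃ t' ∈ (⊤ : Submodule (ZMod p) (Submodule.torsionBy ℤ (W'⁄K).Point p)),
      t' ∉ N := by
    by_contra hcon
    push Not at hcon
    exact htop (top_le_iff.mp fun x hx => hcon x hx)
  have hT' : ∀ n : ℕ, (t'.1 : (W'⁄K).Point) ≠ n • t.1 := by
    intro n h
    apply ht'N
    have : t' = n • t := by
      apply Subtype.ext
      exact h.trans (Submodule.coe_smul_of_tower n t).symm
    rw [this]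
    exact N.smul_of_tower_mem n htN
  obtain ⟨P0, hP0, hpP0, hv⟩ := exists_torsion_not_inKer v W' hW hp hp2 hvp
    t.1 hT0 (hmem t) hstable t'.1 (hmem t') hT'
  refine ⟨⟨P0, ?_⟩, ?_, ?_⟩
  · rw [Submodule.mem_torsionBy_iff, natCast_zsmul]
    exact hpP0
  · intro h
    exact hP0 (congrArg Subtype.val h)
  · intro h
    exact absurd hv (not_le.mpr h)

end Stable

section Frey

variable (P : FreyPackage) {K : Type*} [Field K] [DecidableEq K] [Algebra ℚ K]

/-- **(SS) for the Frey curve**, at any level `K` Galois over `ℚ` (e.g. `AlgebraicClosure ℚ` or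
the number field of the torsion coordinates): for a valuation subring `A` above `P.p` and a
Galois-stable submodule `N ≠ ⊥, ⊤` of the `p`-torsion module (of cardinality `< p ^ 3`), some
nonzero torsion point is not in the kernel of reduction. -/
theorem frey_exists_not_inKer [IsGalois ℚ K] (A : ValuationSubring K)
    (hA : A.LiesOverPrime P.p)
    [Finite (Submodule.torsionBy ℤ (P.freyCurve⁄K).Point P.p)]
    (hcard : Nat.card (Submodule.torsionBy ℤ (P.freyCurve⁄K).Point P.p) < P.p ^ 3)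
    (N : Submodule (ZMod P.p) (Submodule.torsionBy ℤ (P.freyCurve⁄K).Point P.p))
    (hN : IsGaloisStable ℚ N) (hbot : N ≠ ⊥) (htop : N ≠ ⊤) :
    ∃ T : Submodule.torsionBy ℤ (P.freyCurve⁄K).Point P.p, T ≠ 0 ∧
      ¬ InKer A.valuation (P.freyCurve⁄K) T.1 := by
  have hp2 : P.p ≠ 2 := by
    have := P.hp5
    omega
  exact exists_not_inKer_of_stable A.valuation P.freyCurve
    (LevelL.frey_intCoeffs P A P.pp hp2 hA) P.pp hp2 (A.mem_nonunits_iff.mp hA) hcard N hN hbot htop

/-- The same with the cardinality in the form `= p ^ 2`. -/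
theorem frey_exists_not_inKer_of_card [IsGalois ℚ K] (A : ValuationSubring K)
    (hA : A.LiesOverPrime P.p)
    (hcard : Nat.card (Submodule.torsionBy ℤ (P.freyCurve⁄K).Point P.p) = P.p ^ 2)
    (N : Submodule (ZMod P.p) (Submodule.torsionBy ℤ (P.freyCurve⁄K).Point P.p))
    (hN : IsGaloisStable ℚ N) (hbot : N ≠ ⊥) (htop : N ≠ ⊤) :
    ∃ T : Submodule.torsionBy ℤ (P.freyCurve⁄K).Point P.p, T ≠ 0 ∧
      ¬ InKer A.valuation (P.freyCurve⁄K) T.1 := by
  haveI : Finite (Submodule.torsionBy ℤ (P.freyCurve⁄K).Point P.p) :=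
    Nat.finite_of_card_ne_zero (by rw [hcard]; exact pow_ne_zero 2 P.pp.ne_zero)
  exact frey_exists_not_inKer P A hA
    (by rw [hcard]; exact Nat.pow_lt_pow_right P.pp.one_lt (by norm_num)) N hN hbot htop

end Frey

end Fermat.Agent.S13.SSDiv
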