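import Mathlib

/-!
# S13, module T5: counting torsion points from the pole polynomial

Let `E` be an elliptic curve over an algebraically closed field `K`, `n : ℕ`, and `B : K[X]` a
nonzero polynomial such that

* an affine point `(x, y)` is `n`-torsion iff `B(x) = 0`;
* every root of `B` is a double root;
* no affine `n`-torsion point is `2`-torsion (`y ≠ negY x y`).

Then the `n`-torsion subgroup of `E(K)` has exactly `B.natDegree + 1` elements: `B` splits, so
`B.natDegree = 2 * #roots`, and each root `x₀` carries exactly the two points `(x₀, y)`,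
`(x₀, negY x₀ y)`.
-/

set_option autoImplicit false

open Polynomial WeierstrassCurve

namespace Fermat.Agent.S13.Count

variable {K : Type*} [Field K]

/-- Over an algebraically closed field every `x` is the abscissa of an affine point. -/
theorem exists_equation [IsAlgClosed K] (E : WeierstrassCurve K) (x : K) :
    ∃ y : K, E.toAffine.Equation x y := by
  let q : K[X] := X ^ 2 + C (E.a₁ * x + E.a₃) * X - C (x ^ 3 + E.a₂ * x ^ 2 + E.a₄ * x + E.a₆)
  have hq : q.degree = 2 := by
    have h1 : (X ^ 2 + C (E.a₁ * x + E.a₃) * X : K[X]).degree = 2 := by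
      rw [degree_add_eq_left_of_degree_lt]
      · exact degree_X_pow 2
      · rw [degree_X_pow]
        refine lt_of_le_of_lt (degree_C_mul_X_le _) ?_
        norm_num
    show (X ^ 2 + C (E.a₁ * x + E.a₃) * X - C _ : K[X]).degree = 2
    rw [degree_sub_eq_left_of_degree_lt]
    · exact h1
    · rw [h1]
      exact lt_of_le_of_lt degree_C_le (by norm_num)
  obtain ⟨y, hy⟩ := IsAlgClosed.exists_root q (by rw [hq]; norm_num)
  refine ⟨y, (Affine.equation_iff x y).mpr ?_⟩
  have h0 : q.eval y = 0 := hy
  simp only [q, eval_sub, eval_add, eval_pow, eval_X, eval_mul, eval_C] at h0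
  linear_combination h0

/-- If every root of `B` is a double root (and `B` splits), then `B.natDegree = 2 * #roots`. -/
theorem natDegree_eq_two_mul_card_roots [IsAlgClosed K] [DecidableEq K] (B : K[X])
    (hdbl : ∀ x₀, B.eval x₀ = 0 → B.rootMultiplicity x₀ = 2) :
    B.natDegree = 2 * B.roots.toFinset.card := by
  by_cases hB0 : B = 0
  · subst hB0; simp
  rw [← IsAlgClosed.card_roots_eq_natDegree, ← Multiset.toFinset_sum_count_eq]
  have : ∀ a ∈ B.roots.toFinset, B.roots.count a = 2 := by
    intro a ha
    rw [count_roots]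
    apply hdbl
    have := Multiset.mem_toFinset.mp ha
    exact (mem_roots hB0).mp this
  rw [Finset.sum_congr rfl this, Finset.sum_const, smul_eq_mul, mul_comm]

variable [DecidableEq K]

/-- **T5.**  The number of `n`-torsion points is `B.natDegree + 1`. -/
theorem card_torsion_subtype [IsAlgClosed K] (E : WeierstrassCurve K) [E.IsElliptic] {n : ℕ}
    (B : K[X]) (hB0 : B ≠ 0)
    (hroot : ∀ (x y : K) (h : E.toAffine.Nonsingular x y),
      n • (Affine.Point.some x y h : E.toAffine.Point) = 0 ↔ B.eval x = 0)
    (hdbl : ∀ x₀, B.eval x₀ = 0 → B.rootMultiplicity x₀ = 2)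
    (h2 : ∀ (x y : K) (h : E.toAffine.Nonsingular x y),
      n • (Affine.Point.some x y h : E.toAffine.Point) = 0 → y ≠ E.toAffine.negY x y) :
    Nat.card {T : E.toAffine.Point // n • T = 0} = B.natDegree + 1 := by
  classical
  -- a choice of ordinate over every abscissa
  choose Y hY using fun x : K => exists_equation E x
  have hns : ∀ x : K, E.toAffine.Nonsingular x (Y x) := fun x =>
    Affine.equation_iff_nonsingular.mp (hY x)
  have hns' : ∀ x : K, E.toAffine.Nonsingular x (E.toAffine.negY x (Y x)) := fun x =>
    Affine.equation_iff_nonsingular.mp ((Affine.equation_neg x (Y x)).mpr (hY x))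
  set S : Finset K := B.roots.toFinset with hS
  have hmemS : ∀ x : K, x ∈ S ↔ B.eval x = 0 := by
    intro x
    rw [hS, Multiset.mem_toFinset, mem_roots hB0]
    rfl
  -- the bijection
  let g : Option (S × Bool) → {T : E.toAffine.Point // n • T = 0} := fun o =>
    match o with
    | none => ⟨0, smul_zero n⟩
    | some (x, false) => ⟨Affine.Point.some x.1 (Y x.1) (hns x.1),
        (hroot _ _ _).mpr ((hmemS x.1).mp x.2)⟩
    | some (x, true) => ⟨Affine.Point.some x.1 (E.toAffine.negY x.1 (Y x.1)) (hns' x.1),
        (hroot _ _ _).mpr ((hmemS x.1).mp x.2)⟩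
  have hYne : ∀ x : S, Y x.1 ≠ E.toAffine.negY x.1 (Y x.1) := fun x =>
    h2 _ _ (hns x.1) ((hroot _ _ _).mpr ((hmemS x.1).mp x.2))
  have hginj : Function.Injective g := by
    rintro (_ | ⟨x, _ | _⟩) (_ | ⟨x', _ | _⟩) h
    · rfl
    · exact absurd (congrArg Subtype.val h) (by simp [g])
    · exact absurd (congrArg Subtype.val h) (by simp [g])
    · exact absurd (congrArg Subtype.val h) (by simp [g])
    · have h1 := congrArg Subtype.val h
      simp only [g, Affine.Point.some.injEq] at h1
      have : x = x' := Subtype.ext h1.1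
      rw [this]
    · have h1 := congrArg Subtype.val h
      simp only [g, Affine.Point.some.injEq] at h1
      have hx : x = x' := Subtype.ext h1.1
      subst hx
      exact absurd h1.2 (hYne x)
    · exact absurd (congrArg Subtype.val h) (by simp [g])
    · have h1 := congrArg Subtype.val h
      simp only [g, Affine.Point.some.injEq] at h1
      have hx : x = x' := Subtype.ext h1.1
      subst hx
      exact absurd h1.2.symm (hYne x)
    · have h1 := congrArg Subtype.val h
      simp only [g, Affine.Point.some.injEq] at h1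
      have : x = x' := Subtype.ext h1.1
      rw [this]
  have hgsurj : Function.Surjective g := by
    rintro ⟨T, hT⟩
    rcases T with _ | ⟨x, y, h⟩
    · exact ⟨none, rfl⟩
    · have hx : x ∈ S := (hmemS x).mpr ((hroot x y h).mp hT)
      rcases Affine.Y_eq_of_X_eq h.1 (hY x) rfl with hy | hy
      · refine ⟨some (⟨x, hx⟩, false), Subtype.ext ?_⟩
        simp only [g, Affine.Point.some.injEq]
        exact ⟨trivial, hy.symm⟩
      · refine ⟨some (⟨x, hx⟩, true), Subtype.ext ?_⟩
        simp only [g, Affine.Point.some.injEq]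
        exact ⟨trivial, hy.symm⟩
  rw [← Nat.card_congr (Equiv.ofBijective g ⟨hginj, hgsurj⟩), Nat.card_eq_fintype_card,
    Fintype.card_option, Fintype.card_prod, Fintype.card_bool, Fintype.card_coe,
    natDegree_eq_two_mul_card_roots B hdbl, mul_comm]

/-- **T5**, in the `Submodule.torsionBy` form of the frozen statements. -/
theorem card_torsionBy [IsAlgClosed K] (E : WeierstrassCurve K) [E.IsElliptic] {n : ℕ}
    (B : K[X]) (hB0 : B ≠ 0)
    (hroot : ∀ (x y : K) (h : E.toAffine.Nonsingular x y),
      n • (Affine.Point.some x y h : E.toAffine.Point) = 0 ↔ B.eval x = 0)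
    (hdbl : ∀ x₀, B.eval x₀ = 0 → B.rootMultiplicity x₀ = 2)
    (h2 : ∀ (x y : K) (h : E.toAffine.Nonsingular x y),
      n • (Affine.Point.some x y h : E.toAffine.Point) = 0 → y ≠ E.toAffine.negY x y) :
    Nat.card (Submodule.torsionBy ℤ E.toAffine.Point (n : ℤ)) = B.natDegree + 1 := by
  rw [← card_torsion_subtype E B hB0 hroot hdbl h2]
  refine Nat.card_congr (Equiv.subtypeEquivRight fun T => ?_)
  rw [Submodule.mem_torsionBy_iff, natCast_zsmul]

/-- An affine `n`-torsion point with `n` odd is not `2`-torsion: `y ≠ negY x y`. -/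
theorem ne_negY_of_odd_nsmul (E : WeierstrassCurve K) {n : ℕ} (hn : Odd n) {x y : K}
    (h : E.toAffine.Nonsingular x y)
    (hT : n • (Affine.Point.some x y h : E.toAffine.Point) = 0) : y ≠ E.toAffine.negY x y := by
  intro hy
  have hneg : -(Affine.Point.some x y h : E.toAffine.Point) = Affine.Point.some x y h := by
    rw [Affine.Point.neg_some]
    simp only [Affine.Point.some.injEq, true_and]
    exact hy.symm
  have h2 : (2 : ℕ) • (Affine.Point.some x y h : E.toAffine.Point) = 0 := by
    rw [two_nsmul]
    nth_rewrite 1 [← hneg]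
    exact neg_add_cancel _
  obtain ⟨k, rfl⟩ := hn
  rw [add_nsmul, mul_nsmul, h2, smul_zero, zero_add, one_nsmul] at hT
  exact Affine.Point.some_ne_zero h hT

/-- The number of `n`-torsion points is at most `2 * B.natDegree + 1` as soon as the abscissa of
every affine `n`-torsion point is a root of the nonzero polynomial `B`. -/
theorem card_torsion_subtype_le [IsAlgClosed K] (E : WeierstrassCurve K) {n : ℕ}
    (B : K[X]) (hB0 : B ≠ 0)
    (hroot : ∀ (x y : K) (h : E.toAffine.Nonsingular x y),
      n • (Affine.Point.some x y h : E.toAffine.Point) = 0 → B.eval x = 0) :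
    Finite {T : E.toAffine.Point // n • T = 0} ∧
      Nat.card {T : E.toAffine.Point // n • T = 0} ≤ 2 * B.natDegree + 1 := by
  classical
  choose Y hY using fun x : K => exists_equation E x
  set S : Finset K := B.roots.toFinset with hS
  have hmemS : ∀ x : K, x ∈ S ↔ B.eval x = 0 := by
    intro x
    rw [hS, Multiset.mem_toFinset, mem_roots hB0]
    rfl
  let f : {T : E.toAffine.Point // n • T = 0} → Option (S × Bool) := fun T =>
    match T with
    | ⟨.zero, _⟩ => none
    | ⟨.some x y h, hT⟩ => some (⟨x, (hmemS x).mpr (hroot x y h hT)⟩, decide (y = Y x))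
  have hf : Function.Injective f := by
    rintro ⟨_ | ⟨x, y, h⟩, hT⟩ ⟨_ | ⟨x', y', h'⟩, hT'⟩ hTT'
    · rfl
    · simp [f] at hTT'
    · simp [f] at hTT'
    · simp only [f, Option.some.injEq, Prod.mk.injEq, Subtype.mk.injEq, decide_eq_decide] at hTT'
      obtain ⟨rfl, hiff⟩ := hTT'
      apply Subtype.ext
      simp only [Affine.Point.some.injEq, true_and]
      by_cases hy : y = Y x
      · rw [hy, hiff.mp hy]
      · have hy' : y' ≠ Y x := fun h'' => hy (hiff.mpr h'')
        rcases Affine.Y_eq_of_X_eq h.1 (hY x) rfl with e | e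
        · exact absurd e hy
        · rcases Affine.Y_eq_of_X_eq h'.1 (hY x) rfl with e' | e'
          · exact absurd e' hy'
          · rw [e, e']
  have hfin : Finite {T : E.toAffine.Point // n • T = 0} := Finite.of_injective f hf
  refine ⟨hfin, ?_⟩
  calc Nat.card {T : E.toAffine.Point // n • T = 0}
      ≤ Nat.card (Option (S × Bool)) := Nat.card_le_card_of_injective f hf
    _ = 2 * S.card + 1 := by
        rw [Nat.card_eq_fintype_card, Fintype.card_option, Fintype.card_prod, Fintype.card_bool,
          Fintype.card_coe, mul_comm]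
    _ ≤ 2 * B.natDegree + 1 := by
        have h1 : S.card ≤ B.roots.card := Multiset.toFinset_card_le _
        have h2 : B.roots.card ≤ B.natDegree := card_roots' B
        omega

/-- The bound `card_torsion_subtype_le` in the `Submodule.torsionBy` form. -/
theorem card_torsionBy_le [IsAlgClosed K] (E : WeierstrassCurve K) {n : ℕ}
    (B : K[X]) (hB0 : B ≠ 0)
    (hroot : ∀ (x y : K) (h : E.toAffine.Nonsingular x y),
      n • (Affine.Point.some x y h : E.toAffine.Point) = 0 → B.eval x = 0) :
    Finite (Submodule.torsionBy ℤ E.toAffine.Point (n : ℤ)) ∧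
      Nat.card (Submodule.torsionBy ℤ E.toAffine.Point (n : ℤ)) ≤ 2 * B.natDegree + 1 := by
  obtain ⟨hfin, hle⟩ := card_torsion_subtype_le E B hB0 hroot
  have e : {T : E.toAffine.Point // n • T = 0} ≃
      Submodule.torsionBy ℤ E.toAffine.Point (n : ℤ) :=
    Equiv.subtypeEquivRight fun T => by
      rw [Submodule.mem_torsionBy_iff, natCast_zsmul]
  exact ⟨Finite.of_equiv _ e, by rw [← Nat.card_congr e]; exact hle⟩

end Fermat.Agent.S13.Count
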