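import Mathlib
import Fermat.Prelude.Def_FLTPrelim_FreyPackage

/-!
# S13: the discriminant of the Frey curve

`Δ = (a b c) ^ (2 p) / 2 ^ 8 ≠ 0`, so the Frey curve and all its base changes are elliptic curves.
-/

set_option autoImplicit false

namespace Fermat.Agent.S13.FreyDisc

open WeierstrassCurve

variable (P : FreyPackage)

/-- the Fermat equation, in `ℚ`. -/
theorem frey_hFLT : (P.a : ℚ) ^ P.p + (P.b : ℚ) ^ P.p = (P.c : ℚ) ^ P.p := by
  exact_mod_cast congrArg (Int.cast : ℤ → ℚ) P.hFLT

/-- The discriminant of the Frey curve. -/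
theorem frey_Δ :
    P.freyCurve.Δ = (((P.a * P.b * P.c : ℤ) : ℚ) ^ P.p) ^ 2 / 2 ^ 8 := by
  have hFLT := frey_hFLT P
  simp only [WeierstrassCurve.Δ, WeierstrassCurve.b₂, WeierstrassCurve.b₄, WeierstrassCurve.b₆,
    WeierstrassCurve.b₈, FreyPackage.freyCurve]
  push_cast
  rw [mul_pow, mul_pow, ← hFLT]
  ring

theorem frey_Δ_ne_zero : P.freyCurve.Δ ≠ 0 := by
  rw [frey_Δ]
  have h : ((P.a * P.b * P.c : ℤ) : ℚ) ≠ 0 := by exact_mod_cast P.habc0
  positivity

/-- The Frey curve is an elliptic curve. -/
theorem frey_isElliptic : P.freyCurve.IsElliptic :=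
  ⟨isUnit_iff_ne_zero.mpr (frey_Δ_ne_zero P)⟩

/-- Every base change of the Frey curve is an elliptic curve. -/
theorem freyK_isElliptic (K : Type*) [Field K] [Algebra ℚ K] :
    (P.freyCurve.baseChange K).IsElliptic := by
  have := frey_isElliptic P
  unfold WeierstrassCurve.baseChange
  infer_instance

/-- Every base change of the Frey curve is an elliptic curve (affine spelling `P.freyCurve⁄K`). -/
theorem freyK_isElliptic' (K : Type*) [Field K] [Algebra ℚ K] :
    (WeierstrassCurve.Affine.baseChange P.freyCurve K).IsElliptic :=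
  freyK_isElliptic P K

theorem freyK_Δ_ne_zero (K : Type*) [Field K] [Algebra ℚ K] :
    (P.freyCurve.baseChange K).Δ ≠ 0 :=
  (freyK_isElliptic P K).isUnit.ne_zero

/-- On the Frey curve over a field `K ⊇ ℚ`, every point of the affine equation is nonsingular. -/
theorem frey_nonsingular_of_equation (K : Type*) [Field K] [Algebra ℚ K] {x y : K}
    (h : (P.freyCurve.baseChange K).toAffine.Equation x y) :
    (P.freyCurve.baseChange K).toAffine.Nonsingular x y := by
  have := freyK_isElliptic P K
  exact (WeierstrassCurve.Affine.equation_iff_nonsingular (W := (P.freyCurve.baseChange K))).mp h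

end Fermat.Agent.S13.FreyDisc
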