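import Fermat.Agent.S05.KerRed
import Fermat.Agent.S05.XPair

/-!
# S13 (T6): the refined kernel-of-reduction estimate

For a point `T` of the kernel of reduction of an integral Weierstrass curve over a valued field
and `w = 1/x`, we have `v (w (n • T) - n ^ 2 * w T) < v (w T)` for every `n` (where `w O = 0`).
No hypothesis on `v n` is needed.
-/

set_option autoImplicit false

namespace Fermat.Agent.S13.KerEst

open WeierstrassCurve Fermat.Agent.S05

variable {K : Type*} [Field K] {Γ₀ : Type*} [LinearOrderedCommGroupWithZero Γ₀]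
  (v : Valuation K Γ₀) (E : WeierstrassCurve K)

/-- The two `x`-coordinate functions of the S05 library agree. -/
theorem kerRed_xc_eq (P : E.toAffine.Point) : KerRed.xc E P = XPair.xc E P := by
  rcases P with _ | ⟨x, y, h⟩ <;> rfl

theorem v_natCast_le_one (n : ℕ) : v (n : K) ≤ 1 := KerRed.v_natCast_le_one v n

variable {v E}

/-- `wD` is a unit congruent to `1` at small arguments. -/
theorem v_wD_sub_one_lt (hW : KerRed.IntCoeffs v E) {w₁ w₂ : K} (h₁ : v w₁ ≤ 1) (h₂ : v w₂ < 1) :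
    v (XPair.wD E w₁ w₂ - 1) < 1 := by
  have hb₄ := hW.b₄
  have hb₆ := hW.b₆
  have hb₈ := hW.b₈
  have h12 : v (w₁ * w₂) < 1 := by
    rw [map_mul]
    calc v w₁ * v w₂ ≤ 1 * v w₂ := mul_le_mul' h₁ le_rfl
      _ = v w₂ := one_mul _
      _ < 1 := h₂
  have hs : v (w₁ + w₂) ≤ 1 := v.map_add_le h₁ h₂.le
  have e : XPair.wD E w₁ w₂ - 1 =
      -(w₁ * w₂ * (E.b₄ + E.b₆ * (w₁ + w₂) + E.b₈ * (w₁ * w₂))) := by
    simp only [XPair.wD]; ring
  rw [e, Valuation.map_neg, map_mul]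
  have h3 : v (E.b₄ + E.b₆ * (w₁ + w₂) + E.b₈ * (w₁ * w₂)) ≤ 1 := by
    refine v.map_add_le (v.map_add_le hb₄ ?_) ?_
    · rw [map_mul]; exact mul_le_one' hb₆ hs
    · rw [map_mul]; exact mul_le_one' hb₈ h12.le
  calc v (w₁ * w₂) * v (E.b₄ + E.b₆ * (w₁ + w₂) + E.b₈ * (w₁ * w₂))
      ≤ v (w₁ * w₂) * 1 := mul_le_mul' le_rfl h3
    _ = v (w₁ * w₂) := mul_one _
    _ < 1 := h12

theorem v_wD_eq_one (hW : KerRed.IntCoeffs v E) {w₁ w₂ : K} (h₁ : v w₁ ≤ 1) (h₂ : v w₂ < 1) :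
    v (XPair.wD E w₁ w₂) = 1 := by
  have h := v_wD_sub_one_lt hW h₁ h₂
  have e : XPair.wD E w₁ w₂ = 1 + (XPair.wD E w₁ w₂ - 1) := by ring
  rw [e]
  exact v.map_one_add_of_lt h

/-- `wS w₁ w₂ - 2 (w₁ + w₂)` is small of second order. -/
theorem v_wS_sub_le (hW : KerRed.IntCoeffs v E) {w₁ w₂ : K} (h₁ : v w₁ ≤ 1) (h₂ : v w₂ ≤ 1) :
    v (XPair.wS E w₁ w₂ - 2 * (w₁ + w₂)) ≤ v (w₁ * w₂) := by
  have hb₂ := hW.b₂
  have hb₄ := hW.b₄
  have hb₆ := hW.b₆
  have hs : v (w₁ + w₂) ≤ 1 := v.map_add_le h₁ h₂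
  have h12 : v (w₁ * w₂) ≤ 1 := by rw [map_mul]; exact mul_le_one' h₁ h₂
  have e : XPair.wS E w₁ w₂ - 2 * (w₁ + w₂) =
      w₁ * w₂ * (E.b₂ + E.b₄ * (w₁ + w₂) + E.b₆ * (w₁ * w₂)) := by
    simp only [XPair.wS]; ring
  rw [e, map_mul]
  have h3 : v (E.b₂ + E.b₄ * (w₁ + w₂) + E.b₆ * (w₁ * w₂)) ≤ 1 := by
    refine v.map_add_le (v.map_add_le hb₂ ?_) ?_
    · rw [map_mul]; exact mul_le_one' hb₄ hs
    · rw [map_mul]; exact mul_le_one' hb₆ h12
  calc v (w₁ * w₂) * v (E.b₂ + E.b₄ * (w₁ + w₂) + E.b₆ * (w₁ * w₂))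
      ≤ v (w₁ * w₂) * 1 := mul_le_mul' le_rfl h3
    _ = v (w₁ * w₂) := mul_one _

variable [DecidableEq K]

/-- **Refined kernel estimate.**  For `T` in the kernel of reduction and `w = 1/x`:
`w (n • T)` is a good coordinate and `w (n • T) ≡ n² w (T)` modulo `w (T) 𝔪`. -/
theorem wc_nsmul (hW : KerRed.IntCoeffs v E) {T : E.toAffine.Point}
    (hT : 1 < v (XPair.xc E T)) (n : ℕ) :
    XPair.WOk E (n • T) ∧
      v (XPair.wc E (n • T) - (n : K) ^ 2 * XPair.wc E T) < v (XPair.wc E T) := by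
  have hx0 : XPair.xc E T ≠ 0 := by
    intro h
    rw [h, map_zero] at hT
    exact absurd hT (not_lt.mpr zero_le_one)
  set w : K := XPair.wc E T with hw
  have hw0 : w ≠ 0 := inv_ne_zero hx0
  have hwpos : 0 < v w := v.pos_iff.mpr hw0
  have hw1 : v w < 1 := by
    rw [hw, XPair.wc, map_inv₀]
    exact inv_lt_one_of_one_lt₀ hT
  have hOk1 : XPair.WOk E T := Or.inr hx0
  -- two-step induction
  have key : ∀ n : ℕ,
      (XPair.WOk E (n • T) ∧ v (XPair.wc E (n • T) - (n : K) ^ 2 * w) < v w) ∧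
      (XPair.WOk E ((n + 1) • T) ∧
        v (XPair.wc E ((n + 1) • T) - ((n + 1 : ℕ) : K) ^ 2 * w) < v w) := by
    intro n
    induction n with
    | zero =>
      refine ⟨⟨?_, ?_⟩, ?_, ?_⟩
      · rw [zero_nsmul]; exact XPair.wOk_zero E
      · rw [zero_nsmul, XPair.wc_zero]; simpa using hwpos
      · rw [zero_add, one_nsmul]; exact hOk1
      · rw [zero_add, one_nsmul]
        have e : XPair.wc E T - ((1 : ℕ) : K) ^ 2 * w = 0 := by rw [hw]; push_cast; ring
        rw [e, map_zero]; exact hwpos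
    | succ n ih =>
      obtain ⟨⟨_, hc0⟩, hOk, hc1⟩ := ih
      refine ⟨⟨hOk, hc1⟩, ?_⟩
      set w₀ : K := XPair.wc E (n • T) with hw₀
      set w₁ : K := XPair.wc E ((n + 1) • T) with hw₁
      -- `v w₁ ≤ v w`
      have hw₁le : v w₁ ≤ v w := by
        have e : w₁ = (w₁ - ((n + 1 : ℕ) : K) ^ 2 * w) + ((n + 1 : ℕ) : K) ^ 2 * w := by ring
        rw [e]
        refine v.map_add_le hc1.le ?_
        rw [map_mul, map_pow]
        calc v ((n + 1 : ℕ) : K) ^ 2 * v w ≤ 1 * v w :=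
              mul_le_mul' (pow_le_one₀ zero_le (v_natCast_le_one v _)) le_rfl
          _ = v w := one_mul _
      have hw₁1 : v w₁ ≤ 1 := hw₁le.trans hw1.le
      have hD1 : v (XPair.wD E w₁ w) = 1 := v_wD_eq_one hW hw₁1 hw1
      have hD0 : XPair.wD E w₁ w ≠ 0 := by
        intro h
        rw [h, map_zero] at hD1
        exact zero_ne_one hD1
      obtain ⟨hOkp, -, -, hsum⟩ := XPair.w_pair E ((n + 1) • T) T hOk hOk1 hD0
      have hadd : (n + 1) • T + T = (n + 1 + 1) • T := (succ_nsmul T (n + 1)).symm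
      have hsub : (n + 1) • T - T = n • T := by
        rw [succ_nsmul, add_sub_cancel_right]
      rw [hadd, hsub] at hsum
      rw [hadd] at hOkp
      refine ⟨hOkp, ?_⟩
      set w₂ : K := XPair.wc E ((n + 1 + 1) • T) with hw₂
      set s : K := w₂ + w₀ with hs
      -- `v s ≤ v w`
      have hwS : v (XPair.wS E w₁ w) ≤ v w := by
        have e : XPair.wS E w₁ w = (XPair.wS E w₁ w - 2 * (w₁ + w)) + 2 * (w₁ + w) := by ring
        rw [e]
        refine v.map_add_le ?_ ?_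
        · refine (v_wS_sub_le hW hw₁1 hw1.le).trans ?_
          rw [map_mul]
          calc v w₁ * v w ≤ 1 * v w := mul_le_mul' hw₁1 le_rfl
            _ = v w := one_mul _
        · rw [map_mul]
          calc v 2 * v (w₁ + w) ≤ 1 * v w :=
                mul_le_mul' (KerRed.v_ofNat_le_one v 2) (v.map_add_le hw₁le le_rfl)
            _ = v w := one_mul _
      have hsle : v s ≤ v w := by
        have : v s = v (XPair.wS E w₁ w) := by
          rw [← hsum, map_mul, hD1, mul_one]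
        rw [this]; exact hwS
      -- the main estimate
      have hstar : v (s - 2 * (w₁ + w)) < v w := by
        have e : s - 2 * (w₁ + w) =
            (XPair.wS E w₁ w - 2 * (w₁ + w)) - s * (XPair.wD E w₁ w - 1) := by
          rw [← hsum]; ring
        rw [e]
        refine v.map_sub_lt ?_ ?_
        · refine lt_of_le_of_lt (v_wS_sub_le hW hw₁1 hw1.le) ?_
          rw [map_mul]
          calc v w₁ * v w ≤ v w * v w := mul_le_mul' hw₁le le_rfl
            _ < 1 * v w := mul_lt_mul_of_pos_right hw1 hwpos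
            _ = v w := one_mul _
        · rw [map_mul]
          calc v s * v (XPair.wD E w₁ w - 1) ≤ v w * v (XPair.wD E w₁ w - 1) :=
                mul_le_mul' hsle le_rfl
            _ < v w * 1 := mul_lt_mul_of_pos_left (v_wD_sub_one_lt hW hw₁1 hw1) hwpos
            _ = v w := mul_one _
      have e : w₂ - ((n + 1 + 1 : ℕ) : K) ^ 2 * w =
          (s - 2 * (w₁ + w)) + 2 * (w₁ - ((n + 1 : ℕ) : K) ^ 2 * w) - (w₀ - (n : K) ^ 2 * w) := by
        rw [hs]; push_cast; ring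
      rw [e]
      refine v.map_sub_lt (v.map_add_lt hstar ?_) hc0
      rw [map_mul]
      calc v 2 * v (w₁ - ((n + 1 : ℕ) : K) ^ 2 * w) ≤ 1 * v (w₁ - ((n + 1 : ℕ) : K) ^ 2 * w) :=
            mul_le_mul' (KerRed.v_ofNat_le_one v 2) le_rfl
        _ = v (w₁ - ((n + 1 : ℕ) : K) ^ 2 * w) := one_mul _
        _ < v w := hc1
  exact (key n).1

/-- If moreover `v n = 1`, then `n • T` is again in the kernel of reduction with
`v (x (n • T)) = v (x T)`. -/
theorem v_xc_nsmul (hW : KerRed.IntCoeffs v E) {T : E.toAffine.Point}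
    (hT : 1 < v (XPair.xc E T)) {n : ℕ} (hn : v (n : K) = 1) :
    v (XPair.xc E (n • T)) = v (XPair.xc E T) := by
  obtain ⟨-, h⟩ := wc_nsmul hW hT n
  have h1 : v ((n : K) ^ 2 * XPair.wc E T) = v (XPair.wc E T) := by
    rw [map_mul, map_pow, hn, one_pow, one_mul]
  have h2 : v (XPair.wc E (n • T)) = v (XPair.wc E T) := by
    have e : XPair.wc E (n • T) =
        (n : K) ^ 2 * XPair.wc E T + (XPair.wc E (n • T) - (n : K) ^ 2 * XPair.wc E T) := by ring
    rw [e, ← h1]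
    exact v.map_add_eq_of_lt_left (by rw [h1]; exact h)
  simp only [XPair.wc, map_inv₀] at h2
  exact inv_injective h2

/-- In general `v (w (n • T)) ≤ v n ^ 2 * v (w T)` fails to be an equality only when `v n < 1`;
we record the bound `v (w (n • T)) < v (w T)` in that case. -/
theorem v_wc_nsmul_lt (hW : KerRed.IntCoeffs v E) {T : E.toAffine.Point}
    (hT : 1 < v (XPair.xc E T)) {n : ℕ} (hn : v (n : K) < 1) :
    v (XPair.wc E (n • T)) < v (XPair.wc E T) := by
  obtain ⟨-, h⟩ := wc_nsmul hW hT n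
  have hx0 : XPair.xc E T ≠ 0 := by
    intro h0
    rw [h0, map_zero] at hT
    exact absurd hT (not_lt.mpr zero_le_one)
  have hwpos : 0 < v (XPair.wc E T) := v.pos_iff.mpr (inv_ne_zero hx0)
  have h1 : v ((n : K) ^ 2 * XPair.wc E T) < v (XPair.wc E T) := by
    rw [map_mul, map_pow]
    calc v (n : K) ^ 2 * v (XPair.wc E T) < 1 * v (XPair.wc E T) :=
          mul_lt_mul_of_pos_right (pow_lt_one₀ zero_le hn two_ne_zero) hwpos
      _ = v (XPair.wc E T) := one_mul _
  have e : XPair.wc E (n • T) =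
      (XPair.wc E (n • T) - (n : K) ^ 2 * XPair.wc E T) + (n : K) ^ 2 * XPair.wc E T := by ring
  rw [e]
  exact v.map_add_lt h h1

end Fermat.Agent.S13.KerEst
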