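import Fermat.Agent.S13.GenPt
import Fermat.Agent.S13.KerEst

/-!
# S13 (T2): multiples of the generic point

`G E` is the generic point of the elliptic curve `E` over its function field.  Over a field of
characteristic zero no multiple `n • G` (`n ≠ 0`) vanishes, and its `x`-coordinate is a rational
function `R E n` of the coordinate function `x`.  These rational functions satisfy the
duplication formula and the sum / product recursions of the `x`-coordinate.
-/

set_option autoImplicit false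

namespace Fermat.Agent.S13.Gen

open WeierstrassCurve Polynomial Fermat.Agent.S05 Fermat.Agent.S13.GenPt

/-! ### point-level forms of the `x`-coordinate identities (any field) -/

section pointlevel

variable {F : Type*} [Field F] [DecidableEq F] (W : WeierstrassCurve F)

omit [DecidableEq F] in
theorem exists_some {P : W.toAffine.Point} (hP : P ≠ 0) :
    ∃ (x y : F) (h : W.toAffine.Nonsingular x y), P = Affine.Point.some x y h := by
  rcases P with _ | ⟨x, y, h⟩
  · exact absurd rfl hP
  · exact ⟨x, y, h, rfl⟩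

omit [DecidableEq F] in
theorem xc_eq_iff {P Q : W.toAffine.Point} (hP : P ≠ 0) (hQ : Q ≠ 0) :
    XPair.xc W P = XPair.xc W Q ↔ P = Q ∨ P = -Q := by
  obtain ⟨x₁, y₁, h₁, rfl⟩ := exists_some W hP
  obtain ⟨x₂, y₂, h₂, rfl⟩ := exists_some W hQ
  simp only [XPair.xc_some]
  constructor
  · intro hx
    subst hx
    rcases Affine.Y_eq_of_X_eq h₁.1 h₂.1 rfl with hy | hy
    · left; subst hy; rfl
    · right
      rw [Affine.Point.neg_some]
      simp only [Affine.Point.some.injEq, true_and]
      rw [hy]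
  · rintro (h | h)
    · simp only [Affine.Point.some.injEq] at h
      exact h.1
    · rw [Affine.Point.neg_some] at h
      simp only [Affine.Point.some.injEq] at h
      exact h.1

/-- Sum and product of the `x`-coordinates of `P + Q` and `P - Q`. -/
theorem xc_add_sub {P Q : W.toAffine.Point} (hP : P ≠ 0) (hQ : Q ≠ 0)
    (hne : XPair.xc W P ≠ XPair.xc W Q) :
    P + Q ≠ 0 ∧ P - Q ≠ 0 ∧
      (XPair.xc W P - XPair.xc W Q) ^ 2 * (XPair.xc W (P + Q) + XPair.xc W (P - Q)) =
        XPair.sumNum W (XPair.xc W P) (XPair.xc W Q) ∧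
      (XPair.xc W P - XPair.xc W Q) ^ 2 * (XPair.xc W (P + Q) * XPair.xc W (P - Q)) =
        XPair.prodNum W (XPair.xc W P) (XPair.xc W Q) := by
  obtain ⟨x₁, y₁, h₁, rfl⟩ := exists_some W hP
  obtain ⟨x₂, y₂, h₂, rfl⟩ := exists_some W hQ
  simp only [XPair.xc_some] at hne ⊢
  obtain ⟨xp, yp, xm, ym, hp, hm, hadd, hsub, hs, hpr⟩ := XPair.add_sub_of_X_ne W h₁ h₂ hne
  rw [hadd, hsub]
  exact ⟨Affine.Point.some_ne_zero _, Affine.Point.some_ne_zero _, hs, hpr⟩

/-- The duplication formula for the `x`-coordinate. -/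
theorem xc_double {P : W.toAffine.Point} (hP : P ≠ 0) (h2 : P + P ≠ 0) :
    XPair.dblDen W (XPair.xc W P) ≠ 0 ∧
      XPair.dblDen W (XPair.xc W P) * XPair.xc W (P + P) = XPair.dblNum W (XPair.xc W P) := by
  obtain ⟨x, y, h, rfl⟩ := exists_some W hP
  have hd : XPair.dblDen W x ≠ 0 := fun h0 => h2 ((XPair.add_self_eq_zero_iff W h).mpr h0)
  have hy := (XPair.dblDen_ne_zero_iff W h.1).mp hd
  obtain ⟨x', y', h', hadd, -, hx'⟩ := XPair.add_self_of_Y_ne W h hy
  rw [hadd]
  exact ⟨hd, hx'⟩

end pointlevel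

/-! ### the generic point -/

variable {K : Type*} [Field K] (E : WeierstrassCurve K)

/-- The curve over its own function field. -/
noncomputable abbrev EF : WeierstrassCurve (FF E) := E.baseChange (FF E)

theorem EF_b₂ : (EF E).b₂ = algebraMap K (FF E) E.b₂ := map_b₂ ..
theorem EF_b₄ : (EF E).b₄ = algebraMap K (FF E) E.b₄ := map_b₄ ..
theorem EF_b₆ : (EF E).b₆ = algebraMap K (FF E) E.b₆ := map_b₆ ..
theorem EF_b₈ : (EF E).b₈ = algebraMap K (FF E) E.b₈ := map_b₈ ..

variable [E.IsElliptic]

theorem gen_nonsingular : (EF E).toAffine.Nonsingular (gx E) (gy E) := by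
  have : (EF E).IsElliptic := inferInstanceAs ((E.map (algebraMap K (FF E))).IsElliptic)
  exact (Affine.equation_iff_nonsingular).mp (gen_equation E)

/-- The generic point. -/
noncomputable def G : (EF E).toAffine.Point :=
  Affine.Point.some (gx E) (gy E) (gen_nonsingular E)

theorem G_ne_zero : G E ≠ 0 := Affine.Point.some_ne_zero _

theorem xc_G : XPair.xc (EF E) (G E) = gx E := rfl

/-! ### multiples of the generic point -/

variable [CharZero K] [DecidableEq (FF E)]

omit [E.IsElliptic] [CharZero K] [DecidableEq (FF E)] in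
theorem natCast_FF (n : ℕ) : ((n : ℕ) : FF E) = algebraMap K (FF E) (n : K) := by
  rw [map_natCast]

/-- No nonzero multiple of the generic point vanishes (characteristic zero). -/
theorem nsmul_G_ne_zero {n : ℕ} (hn : n ≠ 0) : n • G E ≠ 0 := by
  obtain ⟨B, hB, hx⟩ := exists_place_infty E
  have hW : KerRed.IntCoeffs B.valuation (EF E) := by
    refine ⟨?_, ?_, ?_, ?_, ?_⟩ <;>
    · simp only [EF, WeierstrassCurve.baseChange, map_a₁, map_a₂, map_a₃, map_a₄, map_a₆]
      exact valuation_const_le B hB _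
  have hT : 1 < B.valuation (XPair.xc (EF E) (G E)) := by rw [xc_G]; exact hx
  have hn1 : B.valuation ((n : ℕ) : FF E) = 1 := by
    rw [natCast_FF]
    exact valuation_const B hB (Nat.cast_ne_zero.mpr hn)
  have h := KerEst.v_xc_nsmul hW hT hn1
  intro h0
  rw [h0, XPair.xc_zero, map_zero] at h
  rw [← h] at hT
  exact absurd hT (not_lt.mpr zero_le_one)

theorem xc_nsmul_G_ne {n : ℕ} (hn : 2 ≤ n) : XPair.xc (EF E) (n • G E) ≠ gx E := by
  intro h
  rw [← xc_G] at h
  rcases (xc_eq_iff (EF E) (nsmul_G_ne_zero E (by omega)) (G_ne_zero E)).mp h with h1 | h1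
  · have : (n - 1) • G E = 0 := by
      rw [sub_nsmul _ (by omega : 1 ≤ n), one_nsmul, h1, add_neg_cancel]
    exact nsmul_G_ne_zero E (by omega) this
  · have : (n + 1) • G E = 0 := by
      rw [succ_nsmul, h1, neg_add_cancel]
    exact nsmul_G_ne_zero E (by omega) this

/-- numerator of the duplication formula, as a rational function -/
noncomputable def dN : RatFunc K :=
  RatFunc.X ^ 4 - algebraMap K (RatFunc K) E.b₄ * RatFunc.X ^ 2 -
    2 * algebraMap K (RatFunc K) E.b₆ * RatFunc.X - algebraMap K (RatFunc K) E.b₈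

/-- denominator of the duplication formula, as a rational function -/
noncomputable def dD : RatFunc K :=
  4 * RatFunc.X ^ 3 + algebraMap K (RatFunc K) E.b₂ * RatFunc.X ^ 2 +
    2 * algebraMap K (RatFunc K) E.b₄ * RatFunc.X + algebraMap K (RatFunc K) E.b₆

/-- numerator of the sum formula `x(P + Q) + x(P - Q)` at `x(Q) = X` -/
noncomputable def sN (r : RatFunc K) : RatFunc K :=
  2 * r * RatFunc.X * (r + RatFunc.X) + algebraMap K (RatFunc K) E.b₂ * r * RatFunc.X +
    algebraMap K (RatFunc K) E.b₄ * (r + RatFunc.X) + algebraMap K (RatFunc K) E.b₆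

/-- numerator of the product formula `x(P + Q) * x(P - Q)` at `x(Q) = X` -/
noncomputable def pN (r : RatFunc K) : RatFunc K :=
  r ^ 2 * RatFunc.X ^ 2 - algebraMap K (RatFunc K) E.b₄ * r * RatFunc.X -
    algebraMap K (RatFunc K) E.b₆ * (r + RatFunc.X) - algebraMap K (RatFunc K) E.b₈

omit [E.IsElliptic] [CharZero K] [DecidableEq (FF E)] in
theorem ratEmb_c (c : K) : ratEmb E (algebraMap K (RatFunc K) c) = algebraMap K (FF E) c :=
  (ratEmb E).commutes c

omit [E.IsElliptic] [CharZero K] [DecidableEq (FF E)] in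
theorem ratEmb_dN : ratEmb E (dN E) = XPair.dblNum (EF E) (gx E) := by
  simp only [dN, XPair.dblNum, map_sub, map_mul, map_pow, ratEmb_X, ratEmb_c, map_ofNat,
    EF_b₄, EF_b₆, EF_b₈]

omit [E.IsElliptic] [CharZero K] [DecidableEq (FF E)] in
theorem ratEmb_dD : ratEmb E (dD E) = XPair.dblDen (EF E) (gx E) := by
  simp only [dD, XPair.dblDen, map_add, map_mul, map_pow, ratEmb_X, ratEmb_c, map_ofNat,
    EF_b₂, EF_b₄, EF_b₆]

omit [E.IsElliptic] [CharZero K] [DecidableEq (FF E)] in
theorem ratEmb_sN (r : RatFunc K) :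
    ratEmb E (sN E r) = XPair.sumNum (EF E) (ratEmb E r) (gx E) := by
  simp only [sN, XPair.sumNum, map_add, map_mul, ratEmb_X, ratEmb_c, map_ofNat,
    EF_b₂, EF_b₄, EF_b₆]

omit [E.IsElliptic] [CharZero K] [DecidableEq (FF E)] in
theorem ratEmb_pN (r : RatFunc K) :
    ratEmb E (pN E r) = XPair.prodNum (EF E) (ratEmb E r) (gx E) := by
  simp only [pN, XPair.prodNum, map_sub, map_add, map_mul, map_pow, ratEmb_X, ratEmb_c,
    EF_b₄, EF_b₆, EF_b₈]

/-- The `x`-coordinate of every nonzero multiple of the generic point is a rational function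
of `x`. -/
theorem exists_ratFunc (n : ℕ) (hn : 1 ≤ n) :
    ∃ r : RatFunc K, ratEmb E r = XPair.xc (EF E) (n • G E) := by
  induction n using Nat.strong_induction_on with
  | _ n ih =>
    rcases Nat.lt_or_ge n 2 with h2 | h2
    · have : n = 1 := by omega
      subst this
      exact ⟨RatFunc.X, by rw [ratEmb_X, one_nsmul, xc_G]⟩
    rcases Nat.lt_or_ge n 3 with h3 | h3
    · have : n = 2 := by omega
      subst this
      have h22 : G E + G E ≠ 0 := by
        rw [← two_nsmul]; exact nsmul_G_ne_zero E two_ne_zero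
      obtain ⟨hd, hx⟩ := xc_double (EF E) (G_ne_zero E) h22
      refine ⟨dN E / dD E, ?_⟩
      rw [xc_G] at hd hx
      rw [map_div₀, ratEmb_dN, ratEmb_dD, two_nsmul, ← hx]
      field_simp
    · obtain ⟨r₁, hr₁⟩ := ih (n - 1) (by omega) (by omega)
      obtain ⟨r₀, hr₀⟩ := ih (n - 2) (by omega) (by omega)
      have hne : XPair.xc (EF E) ((n - 1) • G E) ≠ XPair.xc (EF E) (G E) := by
        rw [xc_G]; exact xc_nsmul_G_ne E (by omega)
      obtain ⟨-, -, hs, -⟩ :=
        xc_add_sub (EF E) (nsmul_G_ne_zero E (by omega : n - 1 ≠ 0)) (G_ne_zero E) hne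
      have hadd : (n - 1) • G E + G E = n • G E := by
        rw [← succ_nsmul]; congr 1; omega
      have hsub : (n - 1) • G E - G E = (n - 2) • G E := by
        have : n - 1 = (n - 2) + 1 := by omega
        rw [this, succ_nsmul, add_sub_cancel_right]
      rw [hadd, hsub, xc_G, ← hr₁, ← hr₀] at hs
      have hd : ratEmb E r₁ - gx E ≠ 0 := by
        rw [hr₁]; exact sub_ne_zero.mpr (xc_nsmul_G_ne E (by omega))
      refine ⟨sN E r₁ / (r₁ - RatFunc.X) ^ 2 - r₀, ?_⟩
      rw [map_sub, map_div₀, map_pow, map_sub, ratEmb_X, ratEmb_sN, ← hs]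
      field_simp
      ring

/-- The rational function giving the `x`-coordinate of `n • G`. -/
noncomputable def R (n : ℕ) : RatFunc K :=
  if h : 1 ≤ n then (exists_ratFunc E n h).choose else 0

theorem ratEmb_R {n : ℕ} (hn : 1 ≤ n) : ratEmb E (R E n) = XPair.xc (EF E) (n • G E) := by
  rw [R, dif_pos hn]
  exact (exists_ratFunc E n hn).choose_spec

theorem R_one : R E 1 = RatFunc.X := by
  apply ratEmb_injective E
  rw [ratEmb_R E le_rfl, one_nsmul, xc_G, ratEmb_X]

theorem R_ne_X {n : ℕ} (hn : 2 ≤ n) : R E n ≠ RatFunc.X := by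
  intro h
  have := ratEmb_R E (by omega : 1 ≤ n)
  rw [h, ratEmb_X] at this
  exact xc_nsmul_G_ne E hn this.symm

theorem dD_ne_zero : dD E ≠ 0 := by
  have h22 : G E + G E ≠ 0 := by
    rw [← two_nsmul]; exact nsmul_G_ne_zero E two_ne_zero
  obtain ⟨hd, -⟩ := xc_double (EF E) (G_ne_zero E) h22
  intro h
  rw [xc_G, ← ratEmb_dD, h, map_zero] at hd
  exact hd rfl

/-- duplication formula for `R 2` -/
theorem R_two : R E 2 * dD E = dN E := by
  apply ratEmb_injective E
  have h22 : G E + G E ≠ 0 := by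
    rw [← two_nsmul]; exact nsmul_G_ne_zero E two_ne_zero
  obtain ⟨-, hx⟩ := xc_double (EF E) (G_ne_zero E) h22
  rw [map_mul, ratEmb_R E (by norm_num), ratEmb_dD, ratEmb_dN, two_nsmul, mul_comm, ← xc_G]
  exact hx

/-- sum recursion -/
theorem R_sum {n : ℕ} (hn : 2 ≤ n) :
    (R E (n + 1) + R E (n - 1)) * (R E n - RatFunc.X) ^ 2 = sN E (R E n) := by
  apply ratEmb_injective E
  have hne : XPair.xc (EF E) (n • G E) ≠ XPair.xc (EF E) (G E) := by
    rw [xc_G]; exact xc_nsmul_G_ne E hn
  obtain ⟨-, -, hs, -⟩ :=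
    xc_add_sub (EF E) (nsmul_G_ne_zero E (by omega : n ≠ 0)) (G_ne_zero E) hne
  have hadd : n • G E + G E = (n + 1) • G E := (succ_nsmul _ _).symm
  have hsub : n • G E - G E = (n - 1) • G E := by
    have : n = (n - 1) + 1 := by omega
    conv_lhs => rw [this, succ_nsmul, add_sub_cancel_right]
  rw [hadd, hsub] at hs
  rw [map_mul, map_add, map_pow, map_sub, ratEmb_X, ratEmb_sN, ratEmb_R E (by omega),
    ratEmb_R E (by omega), ratEmb_R E (by omega), mul_comm, ← xc_G]
  exact hs

/-- product recursion -/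
theorem R_prod {n : ℕ} (hn : 2 ≤ n) :
    R E (n + 1) * R E (n - 1) * (R E n - RatFunc.X) ^ 2 = pN E (R E n) := by
  apply ratEmb_injective E
  have hne : XPair.xc (EF E) (n • G E) ≠ XPair.xc (EF E) (G E) := by
    rw [xc_G]; exact xc_nsmul_G_ne E hn
  obtain ⟨-, -, -, hp⟩ :=
    xc_add_sub (EF E) (nsmul_G_ne_zero E (by omega : n ≠ 0)) (G_ne_zero E) hne
  have hadd : n • G E + G E = (n + 1) • G E := (succ_nsmul _ _).symm
  have hsub : n • G E - G E = (n - 1) • G E := by
    have : n = (n - 1) + 1 := by omega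
    conv_lhs => rw [this, succ_nsmul, add_sub_cancel_right]
  rw [hadd, hsub] at hp
  rw [map_mul, map_mul, map_pow, map_sub, ratEmb_X, ratEmb_pN, ratEmb_R E (by omega),
    ratEmb_R E (by omega), ratEmb_R E (by omega), mul_comm, ← xc_G]
  exact hp

end Fermat.Agent.S13.Gen
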