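import Mathlib

/-!
# S13, module T3: heights over `K[X]` and the exact parallelogram law for degrees

For a Weierstrass curve `W` over a field `K` with `Δ ≠ 0`, a sequence of rational functions
`R n ∈ K(X)` with `R 1 = X`, satisfying the duplication formula for `R 2` and the pair formulas
`(R n - X)² (R (n+1) + R (n-1)) = sumNum`, `(R n - X)² (R (n+1) R (n-1)) = prodNum`
(i.e. `R n = x(nG)` for the generic point `G`), has height `max (deg num) (deg denom) = n²`.

The proof is the classical one: the map `(s : t : u) ↦ addSubMap` has no base point (Stoll's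
identity `WeierstrassCurve.addSubMapCoeff_condition`), hence doubles the maximal degree of a
primitive triple of polynomials exactly, and `(r r' : r + r' : 1)` has height `ht r + ht r'`.
-/

set_option autoImplicit false
set_option linter.unusedSimpArgs false

namespace Fermat.Agent.S13.Height

open Polynomial

variable {K : Type*} [Field K]

/-- A triple of polynomials is primitive if it generates the unit ideal. -/
def Prim (p : Fin 3 → K[X]) : Prop := Ideal.span (Set.range p) = ⊤

/-- The maximal degree of a triple of polynomials. -/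
noncomputable def ht3 (p : Fin 3 → K[X]) : ℕ :=
  max (p 0).natDegree (max (p 1).natDegree (p 2).natDegree)

theorem natDegree_le_ht3 (p : Fin 3 → K[X]) (i : Fin 3) : (p i).natDegree ≤ ht3 p := by
  unfold ht3
  fin_cases i
  · exact le_max_left _ _
  · exact le_trans (le_max_left _ _) (le_max_right _ _)
  · exact le_trans (le_max_right _ _) (le_max_right _ _)

theorem exists_natDegree_eq_ht3 (p : Fin 3 → K[X]) : ∃ i, (p i).natDegree = ht3 p := by
  unfold ht3
  rcases le_total (p 0).natDegree (max (p 1).natDegree (p 2).natDegree) with h | h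
  · rcases le_total (p 1).natDegree (p 2).natDegree with h' | h'
    · exact ⟨2, by rw [max_eq_right h, max_eq_right h']⟩
    · exact ⟨1, by rw [max_eq_right h, max_eq_left h']⟩
  · exact ⟨0, by rw [max_eq_left h]⟩

theorem ht3_le {p : Fin 3 → K[X]} {d : ℕ} (h : ∀ i, (p i).natDegree ≤ d) : ht3 p ≤ d := by
  obtain ⟨i, hi⟩ := exists_natDegree_eq_ht3 p
  rw [← hi]; exact h i

theorem Prim.exists_ne_zero {p : Fin 3 → K[X]} (hp : Prim p) : ∃ i, p i ≠ 0 := by
  by_contra h
  push Not at h
  have : Ideal.span (Set.range p) = ⊥ := by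
    rw [Ideal.span_eq_bot]
    rintro x ⟨i, rfl⟩
    exact h i
  rw [Prim, this] at hp
  exact bot_ne_top hp

/-- Two proportional primitive triples have the same maximal degree. -/
theorem ht3_eq_of_proportional {p q : Fin 3 → K[X]} (hp : Prim p) (hq : Prim q)
    (h : ∀ i j, p i * q j = p j * q i) : ht3 p = ht3 q := by
  obtain ⟨c, hc⟩ := Ideal.mem_span_range_iff_exists_fun.mp
    (show (1 : K[X]) ∈ Ideal.span (Set.range p) by rw [hp]; trivial)
  obtain ⟨c', hc'⟩ := Ideal.mem_span_range_iff_exists_fun.mp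
    (show (1 : K[X]) ∈ Ideal.span (Set.range q) by rw [hq]; trivial)
  set e := ∑ i, c i * q i with he
  set e' := ∑ i, c' i * p i with he'
  have hqe : ∀ j, q j = p j * e := by
    intro j
    calc q j = (∑ i, c i * p i) * q j := by rw [hc, one_mul]
      _ = ∑ i, c i * (p i * q j) := by rw [Finset.sum_mul]; simp only [mul_assoc]
      _ = ∑ i, c i * (p j * q i) := by simp only [h]
      _ = p j * e := by
          rw [he, Finset.mul_sum]; exact Finset.sum_congr rfl fun i _ => by ring
  have hpe : ∀ j, p j = q j * e' := by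
    intro j
    calc p j = (∑ i, c' i * q i) * p j := by rw [hc', one_mul]
      _ = ∑ i, c' i * (q i * p j) := by rw [Finset.sum_mul]; simp only [mul_assoc]
      _ = ∑ i, c' i * (q j * p i) :=
          Finset.sum_congr rfl fun i _ => by rw [mul_comm (q i) (p j), h j i, mul_comm (p i)]
      _ = q j * e' := by
          rw [he', Finset.mul_sum]; exact Finset.sum_congr rfl fun i _ => by ring
  obtain ⟨j, hj⟩ := hp.exists_ne_zero
  have hee : e * e' = 1 := by
    have h1 : p j * (e * e') = p j * 1 := by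
      rw [mul_one, ← mul_assoc, ← hqe j, ← hpe j]
    exact mul_left_cancel₀ hj h1
  have hu : IsUnit e := IsUnit.of_mul_eq_one _ hee
  obtain ⟨r, hr, hre⟩ := Polynomial.isUnit_iff.mp hu
  have hdeg : ∀ i, (q i).natDegree = (p i).natDegree := by
    intro i
    rw [hqe i, ← hre]
    exact natDegree_mul_C hr.ne_zero
  unfold ht3
  rw [hdeg 0, hdeg 1, hdeg 2]

/-- The symmetric triple `(a c : a d + c b : b d)` of two pairs `(a : b)`, `(c : d)`. -/
noncomputable def sym (a b c d : K[X]) : Fin 3 → K[X] := ![a * c, a * d + c * b, b * d]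

theorem prim_sym {a b c d : K[X]} (h₁ : IsCoprime a b) (h₂ : IsCoprime c d) :
    Prim (sym a b c d) := by
  by_contra hne
  obtain ⟨M, hM, hle⟩ := Ideal.exists_le_maximal _ hne
  have hmem : ∀ i, sym a b c d i ∈ M := fun i => hle (Ideal.subset_span ⟨i, rfl⟩)
  have h0 : a * c ∈ M := hmem 0
  have h1 : a * d + c * b ∈ M := hmem 1
  have h2 : b * d ∈ M := hmem 2
  have hMp : M.IsPrime := hM.isPrime
  have hab : ¬ (a ∈ M ∧ b ∈ M) := by
    rintro ⟨ha, hb⟩
    obtain ⟨u, v, huv⟩ := h₁
    exact hMp.ne_top ((Ideal.eq_top_iff_one _).mpr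
      (huv ▸ M.add_mem (M.mul_mem_left u ha) (M.mul_mem_left v hb)))
  have hcd : ¬ (c ∈ M ∧ d ∈ M) := by
    rintro ⟨hc, hd⟩
    obtain ⟨u, v, huv⟩ := h₂
    exact hMp.ne_top ((Ideal.eq_top_iff_one _).mpr
      (huv ▸ M.add_mem (M.mul_mem_left u hc) (M.mul_mem_left v hd)))
  rcases hMp.mem_or_mem h0 with ha | hc
  · have hb : b ∉ M := fun hb => hab ⟨ha, hb⟩
    have hd : d ∈ M := (hMp.mem_or_mem h2).resolve_left hb
    have hcb : c * b ∈ M := by
      have := M.sub_mem h1 (M.mul_mem_right d ha)
      simpa using this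
    have hc : c ∈ M := (hMp.mem_or_mem hcb).resolve_right hb
    exact hcd ⟨hc, hd⟩
  · have hd : d ∉ M := fun hd => hcd ⟨hc, hd⟩
    have hb : b ∈ M := (hMp.mem_or_mem h2).resolve_right hd
    have had : a * d ∈ M := by
      have := M.sub_mem h1 (M.mul_mem_right b hc)
      simpa using this
    have ha : a ∈ M := (hMp.mem_or_mem had).resolve_right hd
    exact hab ⟨ha, hb⟩

theorem coeff_max_ne_zero {a b : K[X]} (h : ¬ (a = 0 ∧ b = 0)) :
    a.coeff (max a.natDegree b.natDegree) ≠ 0 ∨ b.coeff (max a.natDegree b.natDegree) ≠ 0 := by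
  rcases le_total a.natDegree b.natDegree with hle | hle
  · rw [max_eq_right hle]
    by_cases hb : b = 0
    · left
      have ha : a ≠ 0 := fun ha => h ⟨ha, hb⟩
      have ha0 : a.natDegree = 0 := by
        have : b.natDegree = 0 := by rw [hb]; simp
        omega
      rw [hb]
      simp only [natDegree_zero]
      intro h0
      apply ha
      rw [eq_C_of_natDegree_eq_zero ha0, h0, map_zero]
    · right
      exact leadingCoeff_ne_zero.mpr hb
  · rw [max_eq_left hle]
    by_cases ha : a = 0
    · right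
      have hb : b ≠ 0 := fun hb => h ⟨ha, hb⟩
      have hb0 : b.natDegree = 0 := by
        have : a.natDegree = 0 := by rw [ha]; simp
        omega
      rw [ha]
      simp only [natDegree_zero]
      intro h0
      apply hb
      rw [eq_C_of_natDegree_eq_zero hb0, h0, map_zero]
    · left
      exact leadingCoeff_ne_zero.mpr ha

/-- Gauss lemma at infinity: the height of the symmetric triple is the sum of the heights. -/
theorem ht3_sym {a b c d : K[X]} (h₁ : ¬ (a = 0 ∧ b = 0)) (h₂ : ¬ (c = 0 ∧ d = 0)) :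
    ht3 (sym a b c d) = max a.natDegree b.natDegree + max c.natDegree d.natDegree := by
  set m := max a.natDegree b.natDegree with hm
  set n := max c.natDegree d.natDegree with hn
  have ham : a.natDegree ≤ m := le_max_left _ _
  have hbm : b.natDegree ≤ m := le_max_right _ _
  have hcn : c.natDegree ≤ n := le_max_left _ _
  have hdn : d.natDegree ≤ n := le_max_right _ _
  apply le_antisymm
  · apply ht3_le
    intro i
    fin_cases i
    · exact natDegree_mul_le.trans (add_le_add ham hcn)
    · refine (natDegree_add_le _ _).trans (max_le ?_ ?_)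
      · exact natDegree_mul_le.trans (add_le_add ham hdn)
      · exact natDegree_mul_le.trans ((add_le_add hcn hbm).trans (by rw [add_comm]))
    · exact natDegree_mul_le.trans (add_le_add hbm hdn)
  · have e0 : (a * c).coeff (m + n) = a.coeff m * c.coeff n :=
      coeff_mul_add_eq_of_natDegree_le ham hcn
    have e2 : (b * d).coeff (m + n) = b.coeff m * d.coeff n :=
      coeff_mul_add_eq_of_natDegree_le hbm hdn
    have e1 : (a * d + c * b).coeff (m + n) = a.coeff m * d.coeff n + c.coeff n * b.coeff m := by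
      rw [coeff_add, coeff_mul_add_eq_of_natDegree_le ham hdn, add_comm m n,
        coeff_mul_add_eq_of_natDegree_le hcn hbm]
    have key : (a * c).coeff (m + n) ≠ 0 ∨ (a * d + c * b).coeff (m + n) ≠ 0 ∨
        (b * d).coeff (m + n) ≠ 0 := by
      by_contra hcon
      push Not at hcon
      obtain ⟨z0, z1, z2⟩ := hcon
      rw [e0] at z0
      rw [e1] at z1
      rw [e2] at z2
      rcases coeff_max_ne_zero h₁ with ha | hb
      · rw [← hm] at ha
        have hc : c.coeff n = 0 := (mul_eq_zero.mp z0).resolve_left ha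
        have hd : d.coeff n = 0 := by
          rw [hc, zero_mul, add_zero] at z1
          exact (mul_eq_zero.mp z1).resolve_left ha
        rcases coeff_max_ne_zero h₂ with hc' | hd'
        · exact hc' (hn ▸ hc)
        · exact hd' (hn ▸ hd)
      · rw [← hm] at hb
        have hd : d.coeff n = 0 := (mul_eq_zero.mp z2).resolve_left hb
        have hc : c.coeff n = 0 := by
          rw [hd, mul_zero, zero_add] at z1
          exact (mul_eq_zero.mp z1).resolve_right hb
        rcases coeff_max_ne_zero h₂ with hc' | hd'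
        · exact hc' (hn ▸ hc)
        · exact hd' (hn ▸ hd)
    rcases key with k | k | k
    · exact (le_natDegree_of_ne_zero k).trans (natDegree_le_ht3 (sym a b c d) 0)
    · exact (le_natDegree_of_ne_zero k).trans (natDegree_le_ht3 (sym a b c d) 1)
    · exact (le_natDegree_of_ne_zero k).trans (natDegree_le_ht3 (sym a b c d) 2)

/-- Stoll's add-sub map on triples of polynomials (explicit form). -/
noncomputable def phi (W : WeierstrassCurve K) (p : Fin 3 → K[X]) : Fin 3 → K[X] :=
  ![p 0 * p 0 - C W.b₄ * (p 0 * p 2) - C W.b₆ * (p 1 * p 2) - C W.b₈ * (p 2 * p 2),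
    C 2 * (p 1 * p 0) + C W.b₂ * (p 0 * p 2) + C W.b₄ * (p 1 * p 2) + C W.b₆ * (p 2 * p 2),
    p 1 * p 1 - C 4 * (p 0 * p 2)]

theorem phi_eq_eval (W : WeierstrassCurve K) (p : Fin 3 → K[X]) (j : Fin 3) :
    phi W p j = MvPolynomial.eval p ((W.map (C : K →+* K[X])).addSubMap j) := by
  have h2 : (C (2 : K) : K[X]) = 2 := map_ofNat C 2
  have h4 : (C (4 : K) : K[X]) = 4 := map_ofNat C 4
  fin_cases j
  · simp [phi, WeierstrassCurve.addSubMap]; ring
  · simp [phi, WeierstrassCurve.addSubMap, h2]; ring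
  · simp [phi, WeierstrassCurve.addSubMap, h4]; ring

theorem coeff_phi (W : WeierstrassCurve K) (p : Fin 3 → K[X]) (d : ℕ)
    (hd : ∀ i, (p i).natDegree ≤ d) (j : Fin 3) :
    (phi W p j).coeff (d + d) = MvPolynomial.eval (fun i => (p i).coeff d) (W.addSubMap j) := by
  have hm : ∀ i k, (p i * p k).coeff (d + d) = (p i).coeff d * (p k).coeff d := fun i k =>
    coeff_mul_add_eq_of_natDegree_le (hd i) (hd k)
  fin_cases j
  · simp only [phi, WeierstrassCurve.addSubMap, Fin.zero_eta, Fin.isValue, Matrix.cons_val_zero,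
      coeff_sub, coeff_C_mul, hm, map_sub, map_mul, map_pow, MvPolynomial.eval_X,
      MvPolynomial.eval_C]
    ring
  · simp only [phi, WeierstrassCurve.addSubMap, Fin.mk_one, Fin.isValue, Matrix.cons_val_one,
      Matrix.cons_val_zero, coeff_add, coeff_C_mul, hm, map_add, map_mul, map_pow,
      MvPolynomial.eval_X, MvPolynomial.eval_C]
    ring
  · simp only [phi, WeierstrassCurve.addSubMap, Fin.reduceFinMk, Fin.isValue, Matrix.cons_val,
      coeff_sub, coeff_C_mul, hm, map_sub, map_mul, map_pow, MvPolynomial.eval_X,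
      MvPolynomial.eval_C]
    ring

theorem natDegree_phi_le (W : WeierstrassCurve K) (p : Fin 3 → K[X]) (d : ℕ)
    (hd : ∀ i, (p i).natDegree ≤ d) (j : Fin 3) : (phi W p j).natDegree ≤ d + d := by
  have hm : ∀ i k, (p i * p k).natDegree ≤ d + d := fun i k =>
    natDegree_mul_le.trans (add_le_add (hd i) (hd k))
  have hc : ∀ (c : K) i k, (C c * (p i * p k)).natDegree ≤ d + d := fun c i k =>
    (natDegree_C_mul_le _ _).trans (hm i k)
  fin_cases j
  · simp only [phi, Fin.zero_eta, Fin.isValue, Matrix.cons_val_zero]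
    exact (natDegree_sub_le _ _).trans (max_le ((natDegree_sub_le _ _).trans (max_le
      ((natDegree_sub_le _ _).trans (max_le (hm _ _) (hc _ _ _))) (hc _ _ _))) (hc _ _ _))
  · simp only [phi, Fin.mk_one, Fin.isValue, Matrix.cons_val_one, Matrix.cons_val_zero]
    exact (natDegree_add_le _ _).trans (max_le ((natDegree_add_le _ _).trans (max_le
      ((natDegree_add_le _ _).trans (max_le (hc _ _ _) (hc _ _ _))) (hc _ _ _))) (hc _ _ _))
  · simp only [phi, Fin.reduceFinMk, Fin.isValue, Matrix.cons_val]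
    exact (natDegree_sub_le _ _).trans (max_le (hm _ _) (hc _ _ _))

/-- The add-sub map preserves primitivity (Stoll's identity: no base point). -/
theorem prim_phi (W : WeierstrassCurve K) [W.IsElliptic] {p : Fin 3 → K[X]} (hp : Prim p) :
    Prim (phi W p) := by
  by_contra hne
  obtain ⟨M, hM, hle⟩ := Ideal.exists_le_maximal _ hne
  have hMp : M.IsPrime := hM.isPrime
  have hmem : ∀ j, phi W p j ∈ M := fun j => hle (Ideal.subset_span ⟨j, rfl⟩)
  have hp4 : ∀ i, p i ∈ M := by
    intro i
    apply hMp.mem_of_pow_mem 4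
    rw [← WeierstrassCurve.addSubMapCoeff_condition (W.map (C : K →+* K[X])) p i]
    apply Ideal.sum_mem
    intro j _
    rw [← phi_eq_eval]
    exact M.mul_mem_left _ (hmem j)
  apply hMp.ne_top
  rw [eq_top_iff, ← hp]
  exact Ideal.span_le.mpr (by rintro x ⟨i, rfl⟩; exact hp4 i)

theorem exists_coeff_ht3_ne_zero {p : Fin 3 → K[X]} (hp : ∃ k, p k ≠ 0) :
    ∃ i, (p i).coeff (ht3 p) ≠ 0 := by
  obtain ⟨i, hi⟩ := exists_natDegree_eq_ht3 p
  by_cases h0 : p i = 0
  · obtain ⟨k, hk⟩ := hp
    have hd : ht3 p = 0 := by rw [← hi, h0]; simp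
    refine ⟨k, ?_⟩
    have hk0 : (p k).natDegree = 0 := by
      have := natDegree_le_ht3 p k
      omega
    rw [hd]
    intro h
    apply hk
    rw [eq_C_of_natDegree_eq_zero hk0, h, map_zero]
  · exact ⟨i, by rw [← hi]; exact leadingCoeff_ne_zero.mpr h0⟩

/-- The add-sub map exactly doubles the maximal degree of a primitive triple. -/
theorem ht3_phi (W : WeierstrassCurve K) [W.IsElliptic] {p : Fin 3 → K[X]} (hp : Prim p) :
    ht3 (phi W p) = 2 * ht3 p := by
  have hle : ∀ i, (p i).natDegree ≤ ht3 p := natDegree_le_ht3 p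
  apply le_antisymm
  · apply ht3_le
    intro j
    rw [two_mul]
    exact natDegree_phi_le W p _ hle j
  · obtain ⟨i, hi⟩ := exists_coeff_ht3_ne_zero hp.exists_ne_zero
    have hne : (fun i => (p i).coeff (ht3 p)) ≠ 0 := fun h => hi (congrFun h i)
    obtain ⟨j, hj⟩ := Function.ne_iff.mp (WeierstrassCurve.addSubMap_ne_zero W hne)
    rw [← coeff_phi W p _ hle j] at hj
    calc 2 * ht3 p = ht3 p + ht3 p := two_mul _
      _ ≤ (phi W p j).natDegree := le_natDegree_of_ne_zero hj
      _ ≤ ht3 (phi W p) := natDegree_le_ht3 _ j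

/-! ### Heights of rational functions -/

/-- The height of a rational function: the maximum of the degrees of numerator and denominator. -/
noncomputable def ht (r : RatFunc K) : ℕ := max r.num.natDegree r.denom.natDegree

theorem ht_X : ht (RatFunc.X : RatFunc K) = 1 := by
  simp [ht, RatFunc.num_X, RatFunc.denom_X]

theorem num_eq_mul_denom (r : RatFunc K) :
    algebraMap K[X] (RatFunc K) r.num = r * algebraMap K[X] (RatFunc K) r.denom := by
  have hd : algebraMap K[X] (RatFunc K) r.denom ≠ 0 :=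
    RatFunc.algebraMap_ne_zero r.denom_ne_zero
  have h := RatFunc.num_div_denom r
  field_simp at h
  rw [h, mul_comm]

theorem not_num_denom_zero (r : RatFunc K) : ¬ (r.num = 0 ∧ r.denom = 0) :=
  fun h => r.denom_ne_zero h.2

/-- One step of the parallelogram law: from the pair formulas to heights. -/
theorem ht_add_ht (W : WeierstrassCurve K) [W.IsElliptic] (r r' s : RatFunc K)
    (hsum : (s - RatFunc.X) ^ 2 * (r + r') =
      2 * s * RatFunc.X * (s + RatFunc.X) + RatFunc.C W.b₂ * s * RatFunc.X +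
        RatFunc.C W.b₄ * (s + RatFunc.X) + RatFunc.C W.b₆)
    (hprod : (s - RatFunc.X) ^ 2 * (r * r') =
      s ^ 2 * RatFunc.X ^ 2 - RatFunc.C W.b₄ * s * RatFunc.X -
        RatFunc.C W.b₆ * (s + RatFunc.X) - RatFunc.C W.b₈) :
    ht r + ht r' = 2 * (ht s + 1) := by
  set σ := sym s.num s.denom X 1 with hσdef
  set τ := sym r.num r.denom r'.num r'.denom with hτdef
  set q := phi W σ with hqdef
  have hσ : Prim σ := prim_sym (RatFunc.isCoprime_num_denom s) isCoprime_one_right
  have hτ : Prim τ := prim_sym (RatFunc.isCoprime_num_denom r) (RatFunc.isCoprime_num_denom r')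
  have hq : Prim q := prim_phi W hσ
  have h1 : ht3 τ = ht r + ht r' := ht3_sym (not_num_denom_zero r) (not_num_denom_zero r')
  have h2 : ht3 σ = ht s + 1 := by
    rw [hσdef, ht3_sym (not_num_denom_zero s) (by simp)]
    simp [ht]
  have h3 : ht3 q = 2 * ht3 σ := ht3_phi W hσ
  rw [← h1, ← h2, ← h3]
  apply ht3_eq_of_proportional hτ hq
  -- proportionality, checked in the field of rational functions
  set φ := algebraMap K[X] (RatFunc K) with hφ
  have hinj : Function.Injective φ := RatFunc.algebraMap_injective K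
  have hA := num_eq_mul_denom s
  have hC := num_eq_mul_denom r
  have hC' := num_eq_mul_denom r'
  set v : Fin 3 → RatFunc K := ![r * r', r + r', 1] with hv
  have hτv : ∀ i, φ (τ i) = φ (r.denom * r'.denom) * v i := by
    intro i
    fin_cases i
    · simp only [hτdef, sym, hv, Fin.zero_eta, Fin.isValue, Matrix.cons_val_zero, map_mul, hφ,
        hC, hC']
      ring
    · simp only [hτdef, sym, hv, Fin.mk_one, Fin.isValue, Matrix.cons_val_one,
        Matrix.cons_val_zero, map_mul, map_add, hφ, hC, hC']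
      ring
    · simp only [hτdef, sym, hv, Fin.reduceFinMk, Fin.isValue, Matrix.cons_val, map_mul, hφ]
      ring
  have hqv : ∀ j, φ (q j) = φ s.denom ^ 2 * (s - RatFunc.X) ^ 2 * v j := by
    intro j
    fin_cases j
    · simp only [hqdef, phi, hσdef, sym, hv, Fin.zero_eta, Fin.isValue, Matrix.cons_val_zero,
        Matrix.cons_val_one, Matrix.cons_val, map_mul, map_add, map_sub, map_one, mul_one, hφ,
        hA, RatFunc.algebraMap_C, RatFunc.algebraMap_X]
      linear_combination (-(algebraMap K[X] (RatFunc K) s.denom) ^ 2) * hprod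
    · simp only [hqdef, phi, hσdef, sym, hv, Fin.mk_one, Fin.isValue, Matrix.cons_val_zero,
        Matrix.cons_val_one, Matrix.cons_val, map_mul, map_add, map_sub, map_one, mul_one, hφ,
        hA, RatFunc.algebraMap_C, RatFunc.algebraMap_X, map_ofNat]
      linear_combination (-(algebraMap K[X] (RatFunc K) s.denom) ^ 2) * hsum
    · simp only [hqdef, phi, hσdef, sym, hv, Fin.reduceFinMk, Fin.isValue, Matrix.cons_val_zero,
        Matrix.cons_val_one, Matrix.cons_val, map_mul, map_add, map_sub, map_one, mul_one, hφ,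
        hA, RatFunc.algebraMap_C, RatFunc.algebraMap_X, map_ofNat]
      ring
  intro i j
  apply hinj
  rw [map_mul, map_mul, hτv i, hτv j, hqv i, hqv j]
  ring

/-- The duplication formula gives height `4`. -/
theorem ht_two (W : WeierstrassCurve K) [W.IsElliptic] (r : RatFunc K)
    (h2 : (4 * RatFunc.X ^ 3 + RatFunc.C W.b₂ * RatFunc.X ^ 2 + 2 * RatFunc.C W.b₄ * RatFunc.X +
        RatFunc.C W.b₆) * r =
      RatFunc.X ^ 4 - RatFunc.C W.b₄ * RatFunc.X ^ 2 - 2 * RatFunc.C W.b₆ * RatFunc.X -
        RatFunc.C W.b₈) :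
    ht r = 4 := by
  set σ := sym (X : K[X]) 1 X 1 with hσdef
  set τ := sym r.num r.denom 1 0 with hτdef
  set q := phi W σ with hqdef
  have hσ : Prim σ := prim_sym isCoprime_one_right isCoprime_one_right
  have hτ : Prim τ := prim_sym (RatFunc.isCoprime_num_denom r) isCoprime_one_left
  have hq : Prim q := prim_phi W hσ
  have h1 : ht3 τ = ht r := by
    rw [hτdef, ht3_sym (not_num_denom_zero r) (by simp)]
    simp [ht]
  have hσ2 : ht3 σ = 2 := by
    rw [hσdef, ht3_sym (by simp) (by simp)]
    simp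
  have h3 : ht3 q = 2 * ht3 σ := ht3_phi W hσ
  have h4 : ht3 q = 4 := by rw [h3, hσ2]
  rw [← h1, ← h4]
  apply ht3_eq_of_proportional hτ hq
  set φ := algebraMap K[X] (RatFunc K) with hφ
  have hinj : Function.Injective φ := RatFunc.algebraMap_injective K
  have hC := num_eq_mul_denom r
  set v : Fin 3 → RatFunc K := ![r, 1, 0] with hv
  set D : RatFunc K := 4 * RatFunc.X ^ 3 + RatFunc.C W.b₂ * RatFunc.X ^ 2 +
    2 * RatFunc.C W.b₄ * RatFunc.X + RatFunc.C W.b₆ with hD
  have hτv : ∀ i, φ (τ i) = φ r.denom * v i := by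
    intro i
    fin_cases i
    · simp only [hτdef, sym, hv, Fin.zero_eta, Fin.isValue, Matrix.cons_val_zero, mul_one, hφ, hC]
      ring
    · simp only [hτdef, sym, hv, Fin.mk_one, Fin.isValue, Matrix.cons_val_one,
        Matrix.cons_val_zero, mul_zero, zero_add, one_mul, mul_one]
    · simp only [hτdef, sym, hv, Fin.reduceFinMk, Matrix.cons_val, mul_zero, map_zero]
  have hqv : ∀ j, φ (q j) = D * v j := by
    intro j
    fin_cases j
    · simp only [hqdef, phi, hσdef, sym, hv, Fin.zero_eta, Fin.isValue, Matrix.cons_val_zero,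
        Matrix.cons_val_one, Matrix.cons_val, map_mul, map_add, map_sub, map_one, mul_one, hφ,
        RatFunc.algebraMap_C, RatFunc.algebraMap_X]
      linear_combination (-1 : RatFunc K) * h2
    · simp only [hqdef, phi, hσdef, sym, hv, Fin.mk_one, Fin.isValue, Matrix.cons_val_zero,
        Matrix.cons_val_one, Matrix.cons_val, map_mul, map_add, map_sub, map_one, mul_one, hφ,
        RatFunc.algebraMap_C, RatFunc.algebraMap_X, map_ofNat, hD]
      ring
    · simp only [hqdef, phi, hσdef, sym, hv, Fin.reduceFinMk, Fin.isValue, Matrix.cons_val_zero,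
        Matrix.cons_val_one, Matrix.cons_val, map_mul, map_add, map_sub, map_one, mul_one, hφ,
        RatFunc.algebraMap_C, RatFunc.algebraMap_X, map_ofNat]
      ring
  intro i j
  apply hinj
  rw [map_mul, map_mul, hτv i, hτv j, hqv i, hqv j]
  ring

/-- **Exact degree formula**: a sequence of rational functions satisfying the duplication formula
and the pair formulas of a Weierstrass curve with `Δ ≠ 0` (the `x`-coordinates of the multiples
of the generic point) has height `n²`. The pair formulas are only required when `R n ≠ X`. -/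
theorem ht_eq_sq_aux (W : WeierstrassCurve K) [W.IsElliptic] (R : ℕ → RatFunc K)
    (h1 : R 1 = RatFunc.X)
    (h2 : (4 * RatFunc.X ^ 3 + RatFunc.C W.b₂ * RatFunc.X ^ 2 + 2 * RatFunc.C W.b₄ * RatFunc.X +
        RatFunc.C W.b₆) * R 2 =
      RatFunc.X ^ 4 - RatFunc.C W.b₄ * RatFunc.X ^ 2 - 2 * RatFunc.C W.b₆ * RatFunc.X -
        RatFunc.C W.b₈)
    (hsum : ∀ n, 2 ≤ n → R n ≠ RatFunc.X → (R n - RatFunc.X) ^ 2 * (R (n + 1) + R (n - 1)) =
      2 * R n * RatFunc.X * (R n + RatFunc.X) + RatFunc.C W.b₂ * R n * RatFunc.X +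
        RatFunc.C W.b₄ * (R n + RatFunc.X) + RatFunc.C W.b₆)
    (hprod : ∀ n, 2 ≤ n → R n ≠ RatFunc.X → (R n - RatFunc.X) ^ 2 * (R (n + 1) * R (n - 1)) =
      R n ^ 2 * RatFunc.X ^ 2 - RatFunc.C W.b₄ * R n * RatFunc.X -
        RatFunc.C W.b₆ * (R n + RatFunc.X) - RatFunc.C W.b₈) :
    ∀ n, 1 ≤ n → ht (R n) = n ^ 2 := by
  have key : ∀ n, ht (R (n + 1)) = (n + 1) ^ 2 ∧ ht (R (n + 2)) = (n + 2) ^ 2 := by
    intro n
    induction n with
    | zero =>
      refine ⟨?_, ?_⟩
      · rw [zero_add, h1, ht_X]; rfl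
      · rw [zero_add, ht_two W (R 2) h2]; rfl
    | succ n ih =>
      obtain ⟨ih1, ih2⟩ := ih
      refine ⟨ih2, ?_⟩
      have hne : R (n + 2) ≠ RatFunc.X := by
        intro h
        rw [h, ht_X] at ih2
        have h22 : 2 ^ 2 ≤ (n + 2) ^ 2 := Nat.pow_le_pow_left (by omega) 2
        omega
      have hs := hsum (n + 2) (by omega) hne
      have hp := hprod (n + 2) (by omega) hne
      rw [show n + 2 + 1 = n + 1 + 2 from rfl, show n + 2 - 1 = n + 1 from rfl] at hs hp
      have := ht_add_ht W (R (n + 1 + 2)) (R (n + 1)) (R (n + 2)) hs hp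
      rw [ih1, ih2] at this
      have h4 : ht (R (n + 1 + 2)) = 2 * ((n + 2) ^ 2 + 1) - (n + 1) ^ 2 := by omega
      rw [h4]
      have h5 : 2 * ((n + 2) ^ 2 + 1) = (n + 1 + 2) ^ 2 + (n + 1) ^ 2 := by ring
      omega
  intro n hn
  obtain ⟨m, rfl⟩ : ∃ m, n = m + 1 := ⟨n - 1, by omega⟩
  exact (key m).1

/-- For `n ≥ 2` the `n`-th term is not `X` (so the generic point is not killed by `n ∓ 1`). -/
theorem ne_X_of_ht_eq_sq {R : ℕ → RatFunc K} (h : ∀ n, 1 ≤ n → ht (R n) = n ^ 2) (n : ℕ)
    (hn : 2 ≤ n) : R n ≠ RatFunc.X := by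
  intro hX
  have := h n (by omega)
  rw [hX, ht_X] at this
  have h22 : 2 ^ 2 ≤ n ^ 2 := Nat.pow_le_pow_left hn 2
  omega

/-- **Exact degree formula**, hypotheses with explicit right-hand sides
(`= XPair.dblNum/dblDen/sumNum/prodNum` of `W.baseChange (RatFunc K)`); the pair formulas are
only required when `R n ≠ X`. -/
theorem ht_eq_sq_of_ne (W : WeierstrassCurve K) [W.IsElliptic] (R : ℕ → RatFunc K)
    (h1 : R 1 = RatFunc.X)
    (h2 : R 2 * (4 * RatFunc.X ^ 3 + algebraMap K (RatFunc K) W.b₂ * RatFunc.X ^ 2 +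
        2 * algebraMap K (RatFunc K) W.b₄ * RatFunc.X + algebraMap K (RatFunc K) W.b₆) =
      RatFunc.X ^ 4 - algebraMap K (RatFunc K) W.b₄ * RatFunc.X ^ 2 -
        2 * algebraMap K (RatFunc K) W.b₆ * RatFunc.X - algebraMap K (RatFunc K) W.b₈)
    (hsum : ∀ n, 2 ≤ n → R n ≠ RatFunc.X →
      (R (n + 1) + R (n - 1)) * (R n - RatFunc.X) ^ 2 =
        2 * R n * RatFunc.X * (R n + RatFunc.X) + algebraMap K (RatFunc K) W.b₂ * R n * RatFunc.X +
          algebraMap K (RatFunc K) W.b₄ * (R n + RatFunc.X) + algebraMap K (RatFunc K) W.b₆)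
    (hprod : ∀ n, 2 ≤ n → R n ≠ RatFunc.X →
      R (n + 1) * R (n - 1) * (R n - RatFunc.X) ^ 2 =
        R n ^ 2 * RatFunc.X ^ 2 - algebraMap K (RatFunc K) W.b₄ * R n * RatFunc.X -
          algebraMap K (RatFunc K) W.b₆ * (R n + RatFunc.X) - algebraMap K (RatFunc K) W.b₈) :
    ∀ n, 1 ≤ n → max (R n).num.natDegree (R n).denom.natDegree = n ^ 2 := by
  simp only [RatFunc.algebraMap_eq_C] at h2 hsum hprod
  refine ht_eq_sq_aux W R h1 ?_ ?_ ?_
  · rw [mul_comm]; exact h2
  · intro n hn hne
    rw [mul_comm]; exact hsum n hn hne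
  · intro n hn hne
    rw [mul_comm]; exact hprod n hn hne

/-- **Exact degree formula** (`T3`): a sequence `R n ∈ K(X)` with `R 1 = X` satisfying the
duplication formula for `R 2` and the pair formulas for all `n ≥ 2` has
`max (deg num) (deg denom) = n²`. -/
theorem ht_eq_sq (W : WeierstrassCurve K) [W.IsElliptic] (R : ℕ → RatFunc K)
    (h1 : R 1 = RatFunc.X)
    (h2 : R 2 * (4 * RatFunc.X ^ 3 + algebraMap K (RatFunc K) W.b₂ * RatFunc.X ^ 2 +
        2 * algebraMap K (RatFunc K) W.b₄ * RatFunc.X + algebraMap K (RatFunc K) W.b₆) =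
      RatFunc.X ^ 4 - algebraMap K (RatFunc K) W.b₄ * RatFunc.X ^ 2 -
        2 * algebraMap K (RatFunc K) W.b₆ * RatFunc.X - algebraMap K (RatFunc K) W.b₈)
    (hsum : ∀ n, 2 ≤ n →
      (R (n + 1) + R (n - 1)) * (R n - RatFunc.X) ^ 2 =
        2 * R n * RatFunc.X * (R n + RatFunc.X) + algebraMap K (RatFunc K) W.b₂ * R n * RatFunc.X +
          algebraMap K (RatFunc K) W.b₄ * (R n + RatFunc.X) + algebraMap K (RatFunc K) W.b₆)
    (hprod : ∀ n, 2 ≤ n →
      R (n + 1) * R (n - 1) * (R n - RatFunc.X) ^ 2 =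
        R n ^ 2 * RatFunc.X ^ 2 - algebraMap K (RatFunc K) W.b₄ * R n * RatFunc.X -
          algebraMap K (RatFunc K) W.b₆ * (R n + RatFunc.X) - algebraMap K (RatFunc K) W.b₈) :
    ∀ n, 1 ≤ n → max (R n).num.natDegree (R n).denom.natDegree = n ^ 2 :=
  ht_eq_sq_of_ne W R h1 h2 (fun n hn _ => hsum n hn) (fun n hn _ => hprod n hn)

/-- Height of a quotient of coprime polynomials. -/
theorem max_natDegree_of_isCoprime {r : RatFunc K} {A B : K[X]} (hAB : IsCoprime A B)
    (hB : B ≠ 0) (hr : r * algebraMap K[X] (RatFunc K) B = algebraMap K[X] (RatFunc K) A) :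
    A.natDegree = r.num.natDegree ∧ B.natDegree = r.denom.natDegree := by
  -- cross-multiplication: `A * r.denom = B * r.num`
  have hcross : A * r.denom = B * r.num := by
    apply RatFunc.algebraMap_injective K
    rw [map_mul, map_mul, ← hr, num_eq_mul_denom r]
    ring
  -- `B ∣ r.denom` and `r.denom ∣ B`
  have h1 : B ∣ r.denom := by
    have : B ∣ A * r.denom := ⟨r.num, hcross⟩
    exact hAB.symm.dvd_of_dvd_mul_left this
  have h2 : r.denom ∣ B := by
    have : r.denom ∣ B * r.num := ⟨A, by rw [← hcross, mul_comm]⟩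
    exact (RatFunc.isCoprime_num_denom r).symm.dvd_of_dvd_mul_right this
  have hBd : B.natDegree = r.denom.natDegree :=
    le_antisymm (natDegree_le_of_dvd h1 r.denom_ne_zero) (natDegree_le_of_dvd h2 hB)
  refine ⟨?_, hBd⟩
  by_cases hA : A = 0
  · have hn : r.num = 0 := by
      rw [hA, zero_mul] at hcross
      exact (mul_eq_zero.mp hcross.symm).resolve_left hB
    rw [hA, hn]
  · have hn : r.num ≠ 0 := by
      intro hn
      rw [hn, mul_zero] at hcross
      exact hA ((mul_eq_zero.mp hcross).resolve_right r.denom_ne_zero)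
    have := congrArg natDegree hcross
    rw [natDegree_mul hA r.denom_ne_zero, natDegree_mul hB hn] at this
    omega

end Fermat.Agent.S13.Height
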