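import Mathlib

/-!
# S13 (T1): the generic point of a Weierstrass curve and two families of valuations

`FF E` is the function field of `E` over `K`, `gx E`, `gy E` its coordinate functions, so that
`(gx, gy)` is a point of `E` over `FF E` (the generic point).  We construct, by Zorn (Mathlib's
existence theorems for valuation subrings),

* a valuation subring of `FF E` containing `K` in which `gx` is not integral ("place at infinity");
* for every `K`-point `(x₀, y₀)` of `E` a valuation subring of `FF E` containing `K` in which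
  `gx - x₀` and `gy - y₀` are non-units ("a place at `(x₀, y₀)`").

We also embed `RatFunc K` into `FF E` (`X ↦ gx`) and record how valuations that are trivial on
`K` behave on polynomial expressions.
-/

set_option autoImplicit false

namespace Fermat.Agent.S13.GenPt

open WeierstrassCurve Polynomial

variable {K : Type*} [Field K] (E : WeierstrassCurve K)

/-- The function field of `E`. -/
abbrev FF : Type _ := E.toAffine.FunctionField

/-- The coordinate function `x`. -/
noncomputable def gx : FF E :=
  algebraMap E.toAffine.CoordinateRing (FF E) (Affine.CoordinateRing.mk E.toAffine (C X))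

/-- The coordinate function `y`. -/
noncomputable def gy : FF E :=
  algebraMap E.toAffine.CoordinateRing (FF E) (Affine.CoordinateRing.mk E.toAffine X)

theorem algebraMap_poly_eq (f : K[X]) :
    algebraMap K[X] (FF E) f =
      algebraMap E.toAffine.CoordinateRing (FF E) (Affine.CoordinateRing.mk E.toAffine (C f)) := by
  rw [IsScalarTower.algebraMap_apply K[X] E.toAffine.CoordinateRing (FF E)]
  rfl

theorem algebraMap_X : algebraMap K[X] (FF E) X = gx E := algebraMap_poly_eq E X

theorem algebraMap_const (c : K) :
    algebraMap K (FF E) c =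
      algebraMap E.toAffine.CoordinateRing (FF E)
        (Affine.CoordinateRing.mk E.toAffine (C (C c))) := by
  rw [IsScalarTower.algebraMap_apply K K[X] (FF E), algebraMap_poly_eq]
  rfl

theorem algebraMap_poly_injective : Function.Injective (algebraMap K[X] (FF E)) := by
  rw [IsScalarTower.algebraMap_eq K[X] E.toAffine.CoordinateRing (FF E)]
  exact (IsFractionRing.injective E.toAffine.CoordinateRing (FF E)).comp
    (FaithfulSMul.algebraMap_injective K[X] E.toAffine.CoordinateRing)

theorem aeval_gx (f : K[X]) : aeval (gx E) f = algebraMap K[X] (FF E) f := by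
  rw [← algebraMap_X, aeval_algebraMap_apply, aeval_X_left_apply]

theorem aeval_gx_injective : Function.Injective (aeval (R := K) (gx E)) := by
  intro f g h
  rw [aeval_gx, aeval_gx] at h
  exact algebraMap_poly_injective E h

theorem transcendental_gx : Transcendental K (gx E) := by
  rw [transcendental_iff_injective]
  exact aeval_gx_injective E

/-- The generic point satisfies the Weierstrass equation. -/
theorem gen_equation : (E.baseChange (FF E)).toAffine.Equation (gx E) (gy E) := by
  rw [Affine.equation_iff]
  have h0 : Affine.CoordinateRing.mk E.toAffine E.toAffine.polynomial = 0 := AdjoinRoot.mk_self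
  have h1 := congrArg (algebraMap E.toAffine.CoordinateRing (FF E)) h0
  simp only [Affine.polynomial, map_sub, map_add, map_mul, map_pow, map_zero] at h1
  simp only [WeierstrassCurve.baseChange, map_a₁, map_a₂, map_a₃, map_a₄, map_a₆,
    algebraMap_const]
  rw [gx, gy]
  linear_combination h1

/-! ### Valuation subrings of the function field -/

/-- Nonzero constants are units of every valuation subring containing the constants. -/
theorem valuation_const {L : Type*} [Field L] [Algebra K L] (B : ValuationSubring L)
    (hB : ∀ c : K, algebraMap K L c ∈ B) {c : K} (hc : c ≠ 0) :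
    B.valuation (algebraMap K L c) = 1 := by
  have h1 : B.valuation (algebraMap K L c) ≤ 1 := (B.valuation_le_one_iff _).mpr (hB c)
  have h2 : B.valuation (algebraMap K L c⁻¹) ≤ 1 := (B.valuation_le_one_iff _).mpr (hB c⁻¹)
  rw [map_inv₀, map_inv₀] at h2
  have hne : B.valuation (algebraMap K L c) ≠ 0 := by
    rw [ne_eq, map_eq_zero]
    exact (map_ne_zero (algebraMap K L)).mpr hc
  have h3 : 1 ≤ B.valuation (algebraMap K L c) := (inv_le_one₀ (zero_lt_iff.mpr hne)).mp h2
  exact le_antisymm h1 h3

theorem valuation_const_le {L : Type*} [Field L] [Algebra K L] (B : ValuationSubring L)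
    (hB : ∀ c : K, algebraMap K L c ∈ B) (c : K) :
    B.valuation (algebraMap K L c) ≤ 1 := (B.valuation_le_one_iff _).mpr (hB c)

/-- **Place at infinity**: a valuation subring of the function field containing the constants in
which the coordinate function `x` is not integral. -/
theorem exists_place_infty :
    ∃ B : ValuationSubring (FF E), (∀ c : K, algebraMap K (FF E) c ∈ B) ∧
      1 < B.valuation (gx E) := by
  have hx : gx E ∉ (integralClosure K (FF E)).toSubring := by
    intro h
    exact transcendental_gx E (IsIntegral.isAlgebraic h)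
  have : IsIntegrallyClosedIn (integralClosure K (FF E)).toSubring (FF E) :=
    inferInstanceAs (IsIntegrallyClosedIn (integralClosure K (FF E)) (FF E))
  obtain ⟨B, hB, hxB⟩ := Subring.exists_le_valuationSubring_of_isIntegrallyClosedIn hx
  refine ⟨B, fun c => hB ?_, ?_⟩
  · exact (integralClosure K (FF E)).algebraMap_mem c
  · by_contra hle
    exact hxB ((B.valuation_le_one_iff _).mp (not_lt.mp hle))

/-- **A place at a `K`-point**: a valuation subring of the function field containing the
constants in which `x - x₀` and `y - y₀` are non-units. -/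
theorem exists_place_at {x₀ y₀ : K} (h : E.toAffine.Equation x₀ y₀) :
    ∃ B : ValuationSubring (FF E), (∀ c : K, algebraMap K (FF E) c ∈ B) ∧
      B.valuation (gx E) ≤ 1 ∧ B.valuation (gy E) ≤ 1 ∧
      B.valuation (gx E - algebraMap K (FF E) x₀) < 1 ∧
      B.valuation (gy E - algebraMap K (FF E) y₀) < 1 := by
  classical
  set f : E.toAffine.CoordinateRing →+* FF E := algebraMap E.toAffine.CoordinateRing (FF E)
    with hf
  have hinj : Function.Injective f := IsFractionRing.injective _ _
  set e : E.toAffine.CoordinateRing ≃+* f.range := RingEquiv.ofLeftInverse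
    (g := Function.invFun f) (Function.leftInverse_invFun hinj) with he
  set I0 : Ideal E.toAffine.CoordinateRing := Affine.CoordinateRing.XYIdeal E.toAffine x₀ (C y₀)
    with hI0
  have hI0top : I0 ≠ ⊤ := by
    intro htop
    have h' : (E.toAffine.polynomial.eval (C y₀)).eval x₀ = 0 := by
      have := h
      rwa [Affine.Equation, Polynomial.evalEval] at this
    have e' := Affine.CoordinateRing.quotientXYIdealEquiv (W' := E.toAffine) h'
    have hsub : Subsingleton (E.toAffine.CoordinateRing ⧸ I0) :=
      Ideal.Quotient.subsingleton_iff.mpr htop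
    have : Subsingleton K := e'.symm.injective.subsingleton
    exact absurd this (not_subsingleton K)
  set I : Ideal f.range := Ideal.comap e.symm.toRingHom I0 with hI
  have hItop : I ≠ ⊤ := Ideal.comap_ne_top _ hI0top
  obtain ⟨B, hAB, hIB⟩ := Ideal.image_subset_nonunits_valuationSubring I hItop
  have hmem : ∀ a : E.toAffine.CoordinateRing, f a ∈ B := fun a => hAB ⟨a, rfl⟩
  have hnon : ∀ a : E.toAffine.CoordinateRing, a ∈ I0 → f a ∈ B.nonunits := by
    intro a ha
    apply hIB
    refine ⟨⟨f a, a, rfl⟩, ?_, rfl⟩
    show e.symm ⟨f a, a, rfl⟩ ∈ I0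
    have : e.symm ⟨f a, a, rfl⟩ = a := by
      apply e.injective
      rw [RingEquiv.apply_symm_apply]
      exact Subtype.ext rfl
    rwa [this]
  refine ⟨B, fun c => ?_, ?_, ?_, ?_, ?_⟩
  · rw [algebraMap_const]; exact hmem _
  · exact (B.valuation_le_one_iff _).mpr (hmem _)
  · exact (B.valuation_le_one_iff _).mpr (hmem _)
  · rw [← B.mem_nonunits_iff]
    have : gx E - algebraMap K (FF E) x₀ = f (Affine.CoordinateRing.XClass E.toAffine x₀) := by
      rw [gx, algebraMap_const, Affine.CoordinateRing.XClass, ← map_sub, ← map_sub, ← C_sub]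
    rw [this]
    exact hnon _ (Ideal.subset_span (Set.mem_insert _ _))
  · rw [← B.mem_nonunits_iff]
    have : gy E - algebraMap K (FF E) y₀ =
        f (Affine.CoordinateRing.YClass E.toAffine (C y₀)) := by
      rw [gy, algebraMap_const, Affine.CoordinateRing.YClass, ← map_sub, ← map_sub]
    rw [this]
    exact hnon _ (Ideal.subset_span (Set.mem_insert_of_mem _ (Set.mem_singleton _)))

/-! ### Rational functions in `x` -/

/-- The embedding of `K(X)` into the function field, `X ↦ gx`. -/
noncomputable def ratEmb : RatFunc K →ₐ[K] FF E :=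
  RatFunc.liftAlgHom (IsScalarTower.toAlgHom K K[X] (FF E)) (by
    intro f hf
    rw [Submonoid.mem_comap, mem_nonZeroDivisors_iff_ne_zero]
    have hf0 : f ≠ 0 := mem_nonZeroDivisors_iff_ne_zero.mp hf
    exact fun h => hf0 (algebraMap_poly_injective E (by simpa using h)))

theorem ratEmb_algebraMap (f : K[X]) :
    ratEmb E (algebraMap K[X] (RatFunc K) f) = algebraMap K[X] (FF E) f := by
  have h := RatFunc.liftAlgHom_apply_div (IsScalarTower.toAlgHom K K[X] (FF E))
    (show nonZeroDivisors K[X] ≤ Submonoid.comap (IsScalarTower.toAlgHom K K[X] (FF E))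
      (nonZeroDivisors (FF E)) from by
        intro f hf
        rw [Submonoid.mem_comap, mem_nonZeroDivisors_iff_ne_zero]
        have hf0 : f ≠ 0 := mem_nonZeroDivisors_iff_ne_zero.mp hf
        exact fun h => hf0 (algebraMap_poly_injective E (by simpa using h))) f 1
  simp only [map_one, div_one] at h
  exact h

theorem ratEmb_X : ratEmb E RatFunc.X = gx E := by
  rw [RatFunc.X, ratEmb_algebraMap, algebraMap_X]

theorem ratEmb_C (c : K) : ratEmb E (RatFunc.C c) = algebraMap K (FF E) c := by
  rw [← RatFunc.algebraMap_eq_C]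
  exact (ratEmb E).commutes c

theorem ratEmb_injective : Function.Injective (ratEmb E) := (ratEmb E).toRingHom.injective

theorem ratEmb_eq_div (r : RatFunc K) :
    ratEmb E r = aeval (gx E) r.num / aeval (gx E) r.denom := by
  conv_lhs => rw [← RatFunc.num_div_denom r]
  rw [map_div₀, ratEmb_algebraMap, ratEmb_algebraMap, aeval_gx, aeval_gx]

theorem aeval_gx_ne_zero {f : K[X]} (hf : f ≠ 0) : aeval (gx E) f ≠ 0 := by
  intro h
  exact hf (aeval_gx_injective E (by rw [h, map_zero]))

/-! ### Valuations trivial on the constants, evaluated on polynomial expressions -/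

section val

variable {L : Type*} [Field L] [Algebra K L] {Γ₀ : Type*} [LinearOrderedCommGroupWithZero Γ₀]
  (v : Valuation L Γ₀)

/-- Polynomial expressions in an integral element are integral. -/
theorem v_aeval_le_one (hv : ∀ c : K, v (algebraMap K L c) ≤ 1) {t : L} (ht : v t ≤ 1)
    (f : K[X]) : v (aeval t f) ≤ 1 := by
  induction f using Polynomial.induction_on' with
  | add p q hp hq => rw [map_add]; exact v.map_add_le hp hq
  | monomial n a =>
    rw [aeval_monomial, map_mul, map_pow]
    exact mul_le_one' (hv a) (pow_le_one₀ zero_le ht)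

/-- If `t ≡ x₀` then `f(t) ≡ f(x₀)`. -/
theorem v_aeval_sub_lt (hv : ∀ c : K, v (algebraMap K L c) ≤ 1) {t : L} {x₀ : K}
    (ht : v (t - algebraMap K L x₀) < 1) (f : K[X]) :
    v (aeval t f - algebraMap K L (f.eval x₀)) < 1 := by
  have ht1 : v t ≤ 1 := by
    have e : t = (t - algebraMap K L x₀) + algebraMap K L x₀ := by ring
    rw [e]; exact v.map_add_le ht.le (hv x₀)
  obtain ⟨g, hg⟩ : ∃ g : K[X], f = (X - C x₀) * g + C (f.eval x₀) := by
    refine ⟨f /ₘ (X - C x₀), ?_⟩
    have := Polynomial.modByMonic_add_div f (X - C x₀)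
    rw [Polynomial.modByMonic_X_sub_C_eq_C_eval] at this
    rw [add_comm]; exact this.symm
  have e : aeval t f - algebraMap K L (f.eval x₀) = (t - algebraMap K L x₀) * aeval t g := by
    have h2 : aeval t f = (t - algebraMap K L x₀) * aeval t g + algebraMap K L (f.eval x₀) := by
      conv_lhs => rw [hg]
      simp only [map_add, map_mul, map_sub, aeval_X, aeval_C]
    rw [h2]; ring
  rw [e, map_mul]
  calc v (t - algebraMap K L x₀) * v (aeval t g) ≤ v (t - algebraMap K L x₀) * 1 :=
        mul_le_mul' le_rfl (v_aeval_le_one v hv ht1 g)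
    _ = v (t - algebraMap K L x₀) := mul_one _
    _ < 1 := ht

/-- If `t ≡ x₀` and `f(x₀) ≠ 0` then `f(t)` is a unit. -/
theorem v_aeval_eq_one (hv1 : ∀ c : K, c ≠ 0 → v (algebraMap K L c) = 1) {t : L} {x₀ : K}
    (ht : v (t - algebraMap K L x₀) < 1) {f : K[X]} (hf : f.eval x₀ ≠ 0) :
    v (aeval t f) = 1 := by
  have hv : ∀ c : K, v (algebraMap K L c) ≤ 1 := by
    intro c
    by_cases hc : c = 0
    · rw [hc, map_zero, map_zero]; exact zero_le_one
    · exact (hv1 c hc).le
  have h := v_aeval_sub_lt v hv ht f
  have e : aeval t f = algebraMap K L (f.eval x₀) + (aeval t f - algebraMap K L (f.eval x₀)) := by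
    ring
  rw [e, ← hv1 _ hf]
  exact v.map_add_eq_of_lt_left (by rw [hv1 _ hf]; exact h)

/-- If `t ≡ x₀` then `v (f(t)) = v (t - x₀) ^ (multiplicity of x₀ in f)`. -/
theorem v_aeval_eq_pow (hv1 : ∀ c : K, c ≠ 0 → v (algebraMap K L c) = 1) {t : L} {x₀ : K}
    (ht : v (t - algebraMap K L x₀) < 1) {f : K[X]} (hf : f ≠ 0) :
    v (aeval t f) = v (t - algebraMap K L x₀) ^ f.rootMultiplicity x₀ := by
  obtain ⟨g, hg, hg0⟩ := Polynomial.exists_eq_pow_rootMultiplicity_mul_and_not_dvd f hf x₀
  have hg0' : g.eval x₀ ≠ 0 := by
    intro h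
    exact hg0 (Polynomial.dvd_iff_isRoot.mpr h)
  conv_lhs => rw [hg]
  simp only [map_mul, map_pow, map_sub, aeval_X, aeval_C]
  rw [v_aeval_eq_one v hv1 ht hg0', mul_one]

/-- At a place where `t` is not integral, `v (f(t)) = v t ^ deg f` and `f(t) ≡ lead(f) t ^ deg f`. -/
theorem v_aeval_infty (hv : ∀ c : K, v (algebraMap K L c) ≤ 1) {t : L} (ht : 1 < v t)
    (f : K[X]) :
    v (aeval t f - algebraMap K L f.leadingCoeff * t ^ f.natDegree) < v t ^ f.natDegree := by
  have ht0 : 0 < v t := lt_trans zero_lt_one ht
  rw [aeval_eq_sum_range, Finset.sum_range_succ, add_sub_assoc]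
  have e : f.coeff f.natDegree • t ^ f.natDegree -
      algebraMap K L f.leadingCoeff * t ^ f.natDegree = 0 := by
    rw [Algebra.smul_def, Polynomial.coeff_natDegree, sub_self]
  rw [e, add_zero]
  by_cases hd : f.natDegree = 0
  · rw [hd, Finset.range_zero, Finset.sum_empty, map_zero, pow_zero]
    exact zero_lt_one
  refine lt_of_le_of_lt (v.map_sum_le (g := v t ^ (f.natDegree - 1)) ?_) ?_
  · intro i hi
    rw [Finset.mem_range] at hi
    rw [Algebra.smul_def, map_mul, map_pow]
    calc v (algebraMap K L (f.coeff i)) * v t ^ i ≤ 1 * v t ^ i := mul_le_mul' (hv _) le_rfl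
      _ = v t ^ i := one_mul _
      _ ≤ v t ^ (f.natDegree - 1) := pow_le_pow_right₀ ht.le (by omega)
  · exact pow_lt_pow_right₀ ht (by omega)

theorem v_aeval_infty_eq (hv1 : ∀ c : K, c ≠ 0 → v (algebraMap K L c) = 1) {t : L}
    (ht : 1 < v t) {f : K[X]} (hf : f ≠ 0) : v (aeval t f) = v t ^ f.natDegree := by
  have hv : ∀ c : K, v (algebraMap K L c) ≤ 1 := by
    intro c
    by_cases hc : c = 0
    · rw [hc, map_zero, map_zero]; exact zero_le_one
    · exact (hv1 c hc).le
  have h := v_aeval_infty v hv ht f
  have hl : v (algebraMap K L f.leadingCoeff * t ^ f.natDegree) = v t ^ f.natDegree := by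
    rw [map_mul, map_pow, hv1 _ (Polynomial.leadingCoeff_ne_zero.mpr hf), one_mul]
  have e : aeval t f = algebraMap K L f.leadingCoeff * t ^ f.natDegree +
      (aeval t f - algebraMap K L f.leadingCoeff * t ^ f.natDegree) := by ring
  rw [e, ← hl]
  exact v.map_add_eq_of_lt_left (by rw [hl]; exact h)

end val

end Fermat.Agent.S13.GenPt
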