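import Mathlib
import Fermat.Agent.S05.XPair
import Fermat.Agent.S05.KerRed
import Fermat.Agent.S05.SameRed

/-!
# S13 (T4): specialisation of multiples of a point

Let `(F, v)` be a valued field and `E` a Weierstrass curve over `F` with `v`-integral
coefficients.

* `Ker0 v E D`: `D` is `0` or lies in the kernel of reduction (`1 < v (x D)`); closed under
  addition, negation and multiples.
* `sub_ker0_of_same_reduction`: two integral points with the same nonsingular reduction differ by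
  an element of `Ker0`; hence so do all their multiples (`nsmul_sub_ker0`).
* `add_inKer_x`: adding a point of the kernel of reduction to an integral point does not change
  the `x`-coordinate modulo the maximal ideal.
* `nsmul_eq_zero_spec`, `nsmul_eq_some_spec`: specialisation of `n • G` when `G` reduces to `P`.
* the `K`-rational wrapper: for a subfield `K` on which `v` is trivial, a `K`-point `P₀` and a
  point `G` of `E(F)` reducing to `P₀`, with `x(n • G) * B(ξ) = A(ξ)` for coprime `A B : K[X]`: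
  `n • P₀ = 0 ↔ B(x₀) = 0`, and `x(n • P₀) * B(x₀) = A(x₀)` otherwise (`spec_poly`).
-/

set_option autoImplicit false

namespace Fermat.Agent.S13.Special

open WeierstrassCurve WeierstrassCurve.Affine Fermat.Agent.S05 Fermat.Agent.S05.XPair

section valued

variable {F : Type*} [Field F] [DecidableEq F] {Γ₀ : Type*} [LinearOrderedCommGroupWithZero Γ₀]
  (v : Valuation F Γ₀) (E : WeierstrassCurve F)

/-- `D` is the origin or lies in the kernel of reduction. -/
def Ker0 (D : E.toAffine.Point) : Prop := D = 0 ∨ KerRed.InKer v E D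

variable {v E}

omit [DecidableEq F] in
theorem ker0_zero : Ker0 v E 0 := Or.inl rfl

theorem Ker0.neg {D : E.toAffine.Point} (hD : Ker0 v E D) : Ker0 v E (-D) := by
  rcases hD with rfl | hD
  · rw [neg_zero]; exact ker0_zero
  · exact Or.inr hD.neg

theorem Ker0.add (hW : KerRed.IntCoeffs v E) {D D' : E.toAffine.Point} (hD : Ker0 v E D)
    (hD' : Ker0 v E D') : Ker0 v E (D + D') := by
  rcases hD with rfl | hD
  · rwa [zero_add]
  rcases hD' with rfl | hD'
  · rw [add_zero]; exact Or.inr hD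
  exact hD.add hW hD'

theorem Ker0.sub (hW : KerRed.IntCoeffs v E) {D D' : E.toAffine.Point} (hD : Ker0 v E D)
    (hD' : Ker0 v E D') : Ker0 v E (D - D') := by
  rw [sub_eq_add_neg]; exact hD.add hW hD'.neg

theorem Ker0.nsmul (hW : KerRed.IntCoeffs v E) {D : E.toAffine.Point} (hD : Ker0 v E D) (n : ℕ) :
    Ker0 v E (n • D) := by
  rcases hD with rfl | hD
  · rw [smul_zero]; exact ker0_zero
  · exact hD.nsmul hW n

omit [DecidableEq F] in
theorem inKer_some_iff {x y : F} (h : E.toAffine.Nonsingular x y) :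
    KerRed.InKer v E (Point.some x y h) ↔ 1 < v x := Iff.rfl

omit [DecidableEq F] in
theorem ker0_some_iff {x y : F} (h : E.toAffine.Nonsingular x y) :
    Ker0 v E (Point.some x y h) ↔ 1 < v x := by
  constructor
  · rintro (h0 | h1)
    · exact absurd h0 (Point.some_ne_zero _)
    · exact h1
  · exact fun h1 => Or.inr h1

/-- Two integral points with the same nonsingular reduction differ by an element of `Ker0`. -/
theorem sub_ker0_of_same_reduction (hW : KerRed.IntCoeffs v E) {x y x' y' : F}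
    (h : E.toAffine.Nonsingular x y) (h' : E.toAffine.Nonsingular x' y')
    (hx : v x ≤ 1) (hy : v y ≤ 1) (hdx : v (x' - x) < 1) (hdy : v (y' - y) < 1)
    (hns : v (E.a₁ * y - (3 * x ^ 2 + 2 * E.a₂ * x + E.a₄)) = 1 ∨
      v (2 * y + E.a₁ * x + E.a₃) = 1) :
    Ker0 v E (Point.some x' y' h' - Point.some x y h) := by
  rcases sub_mem_kernel_of_same_reduction v E hW.a₁ hW.a₂ hW.a₃ h h' hx hy hdx hdy hns with
    h0 | ⟨X, Y, hXY, he, hX⟩
  · exact Or.inl h0
  · rw [he]; exact Or.inr hX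

/-- All multiples of two integral points with the same nonsingular reduction differ by an element
of `Ker0`. -/
theorem nsmul_sub_ker0 (hW : KerRed.IntCoeffs v E) {x y x' y' : F}
    (h : E.toAffine.Nonsingular x y) (h' : E.toAffine.Nonsingular x' y')
    (hx : v x ≤ 1) (hy : v y ≤ 1) (hdx : v (x' - x) < 1) (hdy : v (y' - y) < 1)
    (hns : v (E.a₁ * y - (3 * x ^ 2 + 2 * E.a₂ * x + E.a₄)) = 1 ∨
      v (2 * y + E.a₁ * x + E.a₃) = 1) (n : ℕ) :
    Ker0 v E (n • Point.some x' y' h' - n • Point.some x y h) := by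
  rw [← smul_sub]
  exact (sub_ker0_of_same_reduction hW h h' hx hy hdx hdy hns).nsmul hW n

/-- Adding a point of the kernel of reduction to an integral point does not change the
`x`-coordinate modulo the maximal ideal. -/
theorem add_inKer_x (hW : KerRed.IntCoeffs v E) {x₁ y₁ : F} (h₁ : E.toAffine.Nonsingular x₁ y₁)
    (hx₁ : v x₁ ≤ 1) {D : E.toAffine.Point} (hD : KerRed.InKer v E D) :
    ∃ (x y : F) (h : E.toAffine.Nonsingular x y),
      Point.some x₁ y₁ h₁ + D = Point.some x y h ∧ v (x - x₁) < 1 := by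
  rcases D with _ | ⟨xD, yD, hD'⟩
  · exact absurd rfl hD.ne_zero
  have hxD : 1 < v xD := hD
  have hxD0 : xD ≠ 0 := KerRed.ne_zero_of_one_lt v hxD
  have hne : x₁ ≠ xD := by
    rintro rfl
    exact absurd hxD (not_lt.mpr hx₁)
  obtain ⟨xp, yp, xm, ym, hp, hm, hadd, -, hsum, hprod⟩ := add_sub_of_X_ne E h₁ hD' hne
  refine ⟨xp, yp, hp, hadd, ?_⟩
  set w : F := xD⁻¹ with hw
  have hwx : w * xD = 1 := inv_mul_cancel₀ hxD0
  have hvw : v w < 1 := KerRed.v_inv_lt_one v hxD
  have hb₂ := hW.b₂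
  have hb₄ := hW.b₄
  have hb₆ := hW.b₆
  have hb₈ := hW.b₈
  -- the unit `u = (x₁ w - 1)²`
  have hu1 : v ((x₁ * w - 1) ^ 2 - 1) < 1 := by
    have e : (x₁ * w - 1) ^ 2 - 1 = w * (x₁ * (x₁ * w - 2)) := by ring
    rw [e, map_mul]
    refine mul_lt_one_of_nonneg_of_lt_one_left zero_le hvw ?_
    refine KerRed.v_mul_le_one v hx₁ (v.map_sub_le ?_ (KerRed.v_ofNat_le_one v 2))
    exact KerRed.v_mul_le_one v hx₁ hvw.le
  have hu : v ((x₁ * w - 1) ^ 2) = 1 := by
    have e : (x₁ * w - 1) ^ 2 = 1 + ((x₁ * w - 1) ^ 2 - 1) := by ring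
    rw [e]
    exact v.map_one_add_of_lt hu1
  have e1 : x₁ * w - 1 = w * (x₁ - xD) := by linear_combination hwx
  -- sum and product of `xp - x₁`, `xm - x₁`, multiplied by the unit
  have hS : (x₁ * w - 1) ^ 2 * ((xp - x₁) + (xm - x₁)) =
      -(2 * x₁) * ((x₁ * w - 1) ^ 2 - 1) +
        w * (2 * x₁ ^ 2 + E.b₂ * x₁ + E.b₄ * (x₁ * w + 1) + E.b₆ * w) := by
    have e2 : (x₁ * w - 1) ^ 2 * (xp + xm) = w ^ 2 * sumNum E x₁ xD := by
      rw [e1, ← hsum]; ring
    have e3 : w ^ 2 * sumNum E x₁ xD =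
        2 * x₁ + w * (2 * x₁ ^ 2 + E.b₂ * x₁ + E.b₄ * (x₁ * w + 1) + E.b₆ * w) := by
      simp only [sumNum]
      linear_combination (2 * x₁ ^ 2 * w + 2 * x₁ * (xD * w + 1) + E.b₂ * x₁ * w + E.b₄ * w) * hwx
    linear_combination e2 + e3
  have hP : (x₁ * w - 1) ^ 2 * ((xp - x₁) * (xm - x₁)) =
      x₁ ^ 2 * ((x₁ * w - 1) ^ 2 - 1) -
        w * (E.b₄ * x₁ + E.b₆ * (x₁ * w + 1) + E.b₈ * w) -
        x₁ * (w * (2 * x₁ ^ 2 + E.b₂ * x₁ + E.b₄ * (x₁ * w + 1) + E.b₆ * w)) := by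
    have e2 : (x₁ * w - 1) ^ 2 * (xp + xm) = w ^ 2 * sumNum E x₁ xD := by
      rw [e1, ← hsum]; ring
    have e3 : w ^ 2 * sumNum E x₁ xD =
        2 * x₁ + w * (2 * x₁ ^ 2 + E.b₂ * x₁ + E.b₄ * (x₁ * w + 1) + E.b₆ * w) := by
      simp only [sumNum]
      linear_combination (2 * x₁ ^ 2 * w + 2 * x₁ * (xD * w + 1) + E.b₂ * x₁ * w + E.b₄ * w) * hwx
    have e4 : (x₁ * w - 1) ^ 2 * (xp * xm) = w ^ 2 * prodNum E x₁ xD := by
      rw [e1, ← hprod]; ring
    have e5 : w ^ 2 * prodNum E x₁ xD =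
        x₁ ^ 2 - w * (E.b₄ * x₁ + E.b₆ * (x₁ * w + 1) + E.b₈ * w) := by
      simp only [prodNum]
      linear_combination (x₁ ^ 2 * (xD * w + 1) - E.b₄ * x₁ * w - E.b₆ * w) * hwx
    linear_combination e4 + e5 - x₁ * e2 - x₁ * e3
  -- integrality of the auxiliary expressions
  have hx₁w : v (x₁ * w) ≤ 1 := KerRed.v_mul_le_one v hx₁ hvw.le
  have hS' : v (2 * x₁ ^ 2 + E.b₂ * x₁ + E.b₄ * (x₁ * w + 1) + E.b₆ * w) ≤ 1 := by
    refine v.map_add_le (v.map_add_le (v.map_add_le ?_ ?_) ?_) ?_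
    · exact KerRed.v_mul_le_one v (KerRed.v_ofNat_le_one v 2)
        (by rw [map_pow]; exact pow_le_one' hx₁ 2)
    · exact KerRed.v_mul_le_one v hb₂ hx₁
    · exact KerRed.v_mul_le_one v hb₄ (v.map_add_le hx₁w (le_of_eq v.map_one))
    · exact KerRed.v_mul_le_one v hb₆ hvw.le
  have hP' : v (E.b₄ * x₁ + E.b₆ * (x₁ * w + 1) + E.b₈ * w) ≤ 1 := by
    refine v.map_add_le (v.map_add_le ?_ ?_) ?_
    · exact KerRed.v_mul_le_one v hb₄ hx₁
    · exact KerRed.v_mul_le_one v hb₆ (v.map_add_le hx₁w (le_of_eq v.map_one))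
    · exact KerRed.v_mul_le_one v hb₈ hvw.le
  have hwS : v (w * (2 * x₁ ^ 2 + E.b₂ * x₁ + E.b₄ * (x₁ * w + 1) + E.b₆ * w)) < 1 := by
    rw [map_mul]; exact mul_lt_one_of_nonneg_of_lt_one_left zero_le hvw hS'
  have hwP : v (w * (E.b₄ * x₁ + E.b₆ * (x₁ * w + 1) + E.b₈ * w)) < 1 := by
    rw [map_mul]; exact mul_lt_one_of_nonneg_of_lt_one_left zero_le hvw hP'
  have hsum' : v ((xp - x₁) + (xm - x₁)) < 1 := by
    have h1 : v ((x₁ * w - 1) ^ 2 * ((xp - x₁) + (xm - x₁))) < 1 := by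
      rw [hS]
      refine v.map_add_lt ?_ hwS
      rw [map_mul, Valuation.map_neg]
      exact mul_lt_one_of_nonneg_of_lt_one_right
        (KerRed.v_mul_le_one v (KerRed.v_ofNat_le_one v 2) hx₁) zero_le hu1
    rwa [map_mul, hu, one_mul] at h1
  have hprod' : v ((xp - x₁) * (xm - x₁)) < 1 := by
    have h1 : v ((x₁ * w - 1) ^ 2 * ((xp - x₁) * (xm - x₁))) < 1 := by
      rw [hP]
      refine v.map_sub_lt (v.map_sub_lt ?_ hwP) ?_
      · rw [map_mul]
        exact mul_lt_one_of_nonneg_of_lt_one_right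
          (by rw [map_pow]; exact pow_le_one' hx₁ 2) zero_le hu1
      · rw [map_mul]
        exact mul_lt_one_of_nonneg_of_lt_one_right hx₁ zero_le hwS
    rwa [map_mul, hu, one_mul] at h1
  exact KerRed.lt_one_of_add_of_mul v hsum' hprod'

/-- **Specialisation, torsion case**: if `G` reduces to the integral point `P` with nonsingular
reduction and `n • P = 0`, then `n • G` is `0` or in the kernel of reduction. -/
theorem nsmul_eq_zero_spec (hW : KerRed.IntCoeffs v E) {x y x' y' : F}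
    (h : E.toAffine.Nonsingular x y) (h' : E.toAffine.Nonsingular x' y')
    (hx : v x ≤ 1) (hy : v y ≤ 1) (hdx : v (x' - x) < 1) (hdy : v (y' - y) < 1)
    (hns : v (E.a₁ * y - (3 * x ^ 2 + 2 * E.a₂ * x + E.a₄)) = 1 ∨
      v (2 * y + E.a₁ * x + E.a₃) = 1) {n : ℕ} (hn : n • Point.some x y h = 0) :
    Ker0 v E (n • Point.some x' y' h') := by
  have := nsmul_sub_ker0 hW h h' hx hy hdx hdy hns n
  rwa [hn, sub_zero] at this

/-- **Specialisation, non-torsion case**: if `G` reduces to the integral point `P` with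
nonsingular reduction and `n • P = (x₁, y₁)` with `x₁` integral, then `n • G` is an affine point
whose `x`-coordinate is congruent to `x₁`. -/
theorem nsmul_eq_some_spec (hW : KerRed.IntCoeffs v E) {x y x' y' : F}
    (h : E.toAffine.Nonsingular x y) (h' : E.toAffine.Nonsingular x' y')
    (hx : v x ≤ 1) (hy : v y ≤ 1) (hdx : v (x' - x) < 1) (hdy : v (y' - y) < 1)
    (hns : v (E.a₁ * y - (3 * x ^ 2 + 2 * E.a₂ * x + E.a₄)) = 1 ∨
      v (2 * y + E.a₁ * x + E.a₃) = 1) {n : ℕ} {x₁ y₁ : F} (h₁ : E.toAffine.Nonsingular x₁ y₁)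
    (hn : n • Point.some x y h = Point.some x₁ y₁ h₁) (hx₁ : v x₁ ≤ 1) :
    ∃ (X Y : F) (hXY : E.toAffine.Nonsingular X Y),
      n • Point.some x' y' h' = Point.some X Y hXY ∧ v (X - x₁) < 1 := by
  have hk := nsmul_sub_ker0 hW h h' hx hy hdx hdy hns n
  have e : n • Point.some x' y' h' =
      Point.some x₁ y₁ h₁ + (n • Point.some x' y' h' - n • Point.some x y h) := by
    rw [hn]; abel
  rcases hk with h0 | hker
  · refine ⟨x₁, y₁, h₁, ?_, ?_⟩
    · rw [e, h0, add_zero]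
    · rw [sub_self, map_zero]; exact zero_lt_one
  · obtain ⟨X, Y, hXY, he, hX⟩ := add_inKer_x hW h₁ hx₁ hker
    exact ⟨X, Y, hXY, by rw [e, he], hX⟩

end valued

section rational

variable {K : Type*} [Field K] [DecidableEq K] {F : Type*} [Field F] [DecidableEq F]
  {Γ₀ : Type*} [LinearOrderedCommGroupWithZero Γ₀]

/-- Base change of points along a homomorphism of fields. -/
noncomputable def mapPt (W : WeierstrassCurve K) (φ : K →+* F) :
    W.toAffine.Point →+ (W.map φ).toAffine.Point where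
  toFun P := match P with
    | .zero => 0
    | .some x y h => .some (φ x) (φ y) ((W.toAffine.map_nonsingular φ.injective x y).mpr h)
  map_zero' := rfl
  map_add' := by
    rintro (_ | ⟨x₁, y₁, h₁⟩) (_ | ⟨x₂, y₂, h₂⟩)
    any_goals rfl
    by_cases hxy : x₁ = x₂ ∧ y₁ = W.toAffine.negY x₂ y₂
    · rw [Point.add_of_Y_eq hxy.left hxy.right]
      exact (Point.add_of_Y_eq (congr_arg _ hxy.left) (by rw [hxy.right, map_negY])).symm
    · simpa only [Point.add_some hxy, ← map_addX, ← map_addY, ← map_slope] using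
        (Point.add_some fun h ↦ hxy ⟨φ.injective h.1,
          φ.injective (W.toAffine.map_negY φ .. ▸ h).2⟩).symm

@[simp] theorem mapPt_zero (W : WeierstrassCurve K) (φ : K →+* F) :
    mapPt W φ (0 : W.toAffine.Point) = 0 := rfl

@[simp] theorem mapPt_some (W : WeierstrassCurve K) (φ : K →+* F) {x y : K}
    (h : W.toAffine.Nonsingular x y) :
    mapPt W φ (Point.some x y h) =
      Point.some (φ x) (φ y) ((W.toAffine.map_nonsingular φ.injective x y).mpr h) := rfl

theorem mapPt_eq_zero_iff (W : WeierstrassCurve K) (φ : K →+* F) (P : W.toAffine.Point) :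
    mapPt W φ P = 0 ↔ P = 0 := by
  rcases P with _ | ⟨x, y, h⟩
  · exact ⟨fun _ => rfl, fun _ => rfl⟩
  · constructor
    · intro h0; exact absurd h0 (Point.some_ne_zero _)
    · intro h0; exact absurd h0 (Point.some_ne_zero _)

variable (W : WeierstrassCurve K) (φ : K →+* F) (v : Valuation F Γ₀)

omit [DecidableEq K] [DecidableEq F] in
theorem v_map_le_one (hvK : ∀ c : K, c ≠ 0 → v (φ c) = 1) (c : K) : v (φ c) ≤ 1 := by
  by_cases hc : c = 0
  · rw [hc, map_zero, map_zero]; exact zero_le_one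
  · exact (hvK c hc).le

omit [DecidableEq K] [DecidableEq F] in
theorem v_map_lt_one_iff (hvK : ∀ c : K, c ≠ 0 → v (φ c) = 1) (c : K) : v (φ c) < 1 ↔ c = 0 := by
  constructor
  · intro h
    by_contra hc
    rw [hvK c hc] at h
    exact lt_irrefl _ h
  · rintro rfl
    rw [map_zero, map_zero]; exact zero_lt_one

omit [DecidableEq K] [DecidableEq F] in
theorem intCoeffs_map (hvK : ∀ c : K, c ≠ 0 → v (φ c) = 1) : KerRed.IntCoeffs v (W.map φ) :=
  ⟨v_map_le_one φ v hvK _, v_map_le_one φ v hvK _, v_map_le_one φ v hvK _,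
    v_map_le_one φ v hvK _, v_map_le_one φ v hvK _⟩

omit [DecidableEq K] [DecidableEq F] in
theorem v_pow_sub_pow_lt {a b : F} (ha : v a ≤ 1) (hb : v b ≤ 1) (hab : v (a - b) < 1) (n : ℕ) :
    v (a ^ n - b ^ n) < 1 := by
  induction n with
  | zero => simp
  | succ n ih =>
    have e : a ^ (n + 1) - b ^ (n + 1) = a ^ n * (a - b) + b * (a ^ n - b ^ n) := by ring
    rw [e]
    refine v.map_add_lt ?_ ?_
    · rw [map_mul]
      exact mul_lt_one_of_nonneg_of_lt_one_right (by rw [map_pow]; exact pow_le_one' ha n)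
        zero_le hab
    · rw [map_mul]
      exact mul_lt_one_of_nonneg_of_lt_one_right hb zero_le ih

omit [DecidableEq K] [DecidableEq F] in
/-- A polynomial with coefficients in `K` takes congruent values at congruent arguments. -/
theorem v_eval₂_sub_lt (hvK : ∀ c : K, c ≠ 0 → v (φ c) = 1) {ξ : F} {x₀ : K}
    (hξ : v (ξ - φ x₀) < 1) (A : Polynomial K) : v (A.eval₂ φ ξ - φ (A.eval x₀)) < 1 := by
  have hx₀ : v (φ x₀) ≤ 1 := v_map_le_one φ v hvK x₀
  have hξ1 : v ξ ≤ 1 := by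
    have e : ξ = (ξ - φ x₀) + φ x₀ := by ring
    rw [e]; exact v.map_add_le hξ.le hx₀
  induction A using Polynomial.induction_on' with
  | add p q hp hq =>
    have e : (p + q).eval₂ φ ξ - φ ((p + q).eval x₀) =
        (p.eval₂ φ ξ - φ (p.eval x₀)) + (q.eval₂ φ ξ - φ (q.eval x₀)) := by
      rw [Polynomial.eval₂_add, Polynomial.eval_add, map_add]; ring
    rw [e]
    exact v.map_add_lt hp hq
  | monomial n a =>
    have e : (Polynomial.monomial n a).eval₂ φ ξ - φ ((Polynomial.monomial n a).eval x₀) =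
        φ a * (ξ ^ n - φ x₀ ^ n) := by
      rw [Polynomial.eval₂_monomial, Polynomial.eval_monomial, map_mul, map_pow]; ring
    rw [e, map_mul]
    exact mul_lt_one_of_nonneg_of_lt_one_right (v_map_le_one φ v hvK a) zero_le
      (v_pow_sub_pow_lt v hξ1 hx₀ hξ n)

variable {W φ v}

omit [DecidableEq K] [DecidableEq F] in
/-- Nonsingular reduction of a `K`-rational point, when `v` is trivial on `K`. -/
theorem nonsing_red_map (hvK : ∀ c : K, c ≠ 0 → v (φ c) = 1) {x₀ y₀ : K}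
    (h₀ : W.toAffine.Nonsingular x₀ y₀) :
    v ((W.map φ).a₁ * φ y₀ - (3 * φ x₀ ^ 2 + 2 * (W.map φ).a₂ * φ x₀ + (W.map φ).a₄)) = 1 ∨
      v (2 * φ y₀ + (W.map φ).a₁ * φ x₀ + (W.map φ).a₃) = 1 := by
  rcases ((W.toAffine.nonsingular_iff' x₀ y₀).mp h₀).2 with h | h
  · left
    have := hvK _ h
    simpa only [map_sub, map_add, map_mul, map_pow, map_ofNat, WeierstrassCurve.map_a₁,
      WeierstrassCurve.map_a₂, WeierstrassCurve.map_a₄] using this
  · right
    have := hvK _ h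
    simpa only [map_add, map_mul, map_ofNat, WeierstrassCurve.map_a₁,
      WeierstrassCurve.map_a₃] using this

/-- **Specialisation at a `K`-rational point, torsion case.** -/
theorem nsmul_ker0_of_rational (hvK : ∀ c : K, c ≠ 0 → v (φ c) = 1) {x₀ y₀ : K}
    (h₀ : W.toAffine.Nonsingular x₀ y₀) {ξ η : F} (hG : (W.map φ).toAffine.Nonsingular ξ η)
    (hξ : v (ξ - φ x₀) < 1) (hη : v (η - φ y₀) < 1) {n : ℕ}
    (hn : n • (Point.some x₀ y₀ h₀ : W.toAffine.Point) = 0) :
    Ker0 v (W.map φ) (n • Point.some ξ η hG) := by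
  have h0' : n • mapPt W φ (Point.some x₀ y₀ h₀) = 0 := by
    rw [← map_nsmul, hn, mapPt_zero]
  rw [mapPt_some] at h0'
  exact nsmul_eq_zero_spec (intCoeffs_map W φ v hvK) _ hG (v_map_le_one φ v hvK x₀)
    (v_map_le_one φ v hvK y₀) hξ hη (nonsing_red_map hvK h₀) h0'

/-- **Specialisation at a `K`-rational point, non-torsion case.** -/
theorem nsmul_some_of_rational (hvK : ∀ c : K, c ≠ 0 → v (φ c) = 1) {x₀ y₀ : K}
    (h₀ : W.toAffine.Nonsingular x₀ y₀) {ξ η : F} (hG : (W.map φ).toAffine.Nonsingular ξ η)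
    (hξ : v (ξ - φ x₀) < 1) (hη : v (η - φ y₀) < 1) {n : ℕ} {x₁ y₁ : K}
    (h₁ : W.toAffine.Nonsingular x₁ y₁)
    (hn : n • (Point.some x₀ y₀ h₀ : W.toAffine.Point) = Point.some x₁ y₁ h₁) :
    ∃ (X Y : F) (hXY : (W.map φ).toAffine.Nonsingular X Y),
      n • Point.some ξ η hG = Point.some X Y hXY ∧ v (X - φ x₁) < 1 := by
  have h1' : n • mapPt W φ (Point.some x₀ y₀ h₀) = mapPt W φ (Point.some x₁ y₁ h₁) := by
    rw [← map_nsmul, hn]
  rw [mapPt_some, mapPt_some] at h1'
  exact nsmul_eq_some_spec (intCoeffs_map W φ v hvK) _ hG (v_map_le_one φ v hvK x₀)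
    (v_map_le_one φ v hvK y₀) hξ hη (nonsing_red_map hvK h₀) _ h1' (v_map_le_one φ v hvK x₁)

/-- **(A1) Specialisation in polynomial form.**  Let `v` be trivial on `K`, let `G = (ξ, η)` be a
point of `E(F)` reducing to the `K`-rational point `P₀ = (x₀, y₀)`, and suppose
`n • G = (xₙ, yₙ)` with `xₙ * B(ξ) = A(ξ)` for coprime `A B : K[X]`.  Then
`n • P₀ = 0 ↔ B(x₀) = 0`, and otherwise `x(n • P₀) * B(x₀) = A(x₀)`. -/
theorem spec_poly (hvK : ∀ c : K, c ≠ 0 → v (φ c) = 1) {x₀ y₀ : K}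
    (h₀ : W.toAffine.Nonsingular x₀ y₀) {ξ η : F} (hG : (W.map φ).toAffine.Nonsingular ξ η)
    (hξ : v (ξ - φ x₀) < 1) (hη : v (η - φ y₀) < 1) {n : ℕ} {xn yn : F}
    (hn : (W.map φ).toAffine.Nonsingular xn yn)
    (hnG : n • Point.some ξ η hG = Point.some xn yn hn) {A B : Polynomial K}
    (hAB : IsCoprime A B) (hx : xn * B.eval₂ φ ξ = A.eval₂ φ ξ) :
    (n • (Point.some x₀ y₀ h₀ : W.toAffine.Point) = 0 ↔ B.eval x₀ = 0) ∧
      ∀ {x₁ y₁ : K} (h₁ : W.toAffine.Nonsingular x₁ y₁),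
        n • (Point.some x₀ y₀ h₀ : W.toAffine.Point) = Point.some x₁ y₁ h₁ →
          x₁ * B.eval x₀ = A.eval x₀ := by
  have hA := v_eval₂_sub_lt φ v hvK hξ A
  have hB := v_eval₂_sub_lt φ v hvK hξ B
  have hAle : v (A.eval₂ φ ξ) ≤ 1 := by
    have e : A.eval₂ φ ξ = (A.eval₂ φ ξ - φ (A.eval x₀)) + φ (A.eval x₀) := by ring
    rw [e]; exact v.map_add_le hA.le (v_map_le_one φ v hvK _)
  -- values of `v (B ξ)` and `v (A ξ)`
  have hBunit : B.eval x₀ ≠ 0 → v (B.eval₂ φ ξ) = 1 := by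
    intro hne
    have e : B.eval₂ φ ξ = φ (B.eval x₀) + (B.eval₂ φ ξ - φ (B.eval x₀)) := by ring
    rw [e, v.map_add_eq_of_lt_left (by rw [hvK _ hne]; exact hB), hvK _ hne]
  have hBsmall : B.eval x₀ = 0 → v (B.eval₂ φ ξ) < 1 := by
    intro h0
    have := hB
    rwa [h0, map_zero, sub_zero] at this
  have hAunit : B.eval x₀ = 0 → v (A.eval₂ φ ξ) = 1 := by
    intro h0
    have hne : A.eval x₀ ≠ 0 := by
      obtain ⟨a, b, hab⟩ := hAB
      intro hA0
      have := congrArg (Polynomial.eval x₀) hab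
      rw [Polynomial.eval_add, Polynomial.eval_mul, Polynomial.eval_mul, hA0, h0, mul_zero,
        mul_zero, add_zero, Polynomial.eval_one] at this
      exact zero_ne_one this
    have e : A.eval₂ φ ξ = φ (A.eval x₀) + (A.eval₂ φ ξ - φ (A.eval x₀)) := by ring
    rw [e, v.map_add_eq_of_lt_left (by rw [hvK _ hne]; exact hA), hvK _ hne]
  have hzero : n • (Point.some x₀ y₀ h₀ : W.toAffine.Point) = 0 → B.eval x₀ = 0 := by
    intro h0
    by_contra hne
    have hk := nsmul_ker0_of_rational hvK h₀ hG hξ hη h0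
    rw [hnG, ker0_some_iff] at hk
    have h1 := congrArg v hx
    rw [map_mul, hBunit hne, mul_one] at h1
    rw [h1] at hk
    exact absurd hk (not_lt.mpr hAle)
  have hsome : ∀ {x₁ y₁ : K} (h₁ : W.toAffine.Nonsingular x₁ y₁),
      n • (Point.some x₀ y₀ h₀ : W.toAffine.Point) = Point.some x₁ y₁ h₁ →
        B.eval x₀ ≠ 0 ∧ x₁ * B.eval x₀ = A.eval x₀ := by
    intro x₁ y₁ h₁ h1
    obtain ⟨X, Y, hXY, he, hX⟩ := nsmul_some_of_rational hvK h₀ hG hξ hη h₁ h1
    rw [hnG] at he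
    obtain ⟨rfl, rfl⟩ := Point.some.inj he
    have hxn : v xn ≤ 1 := by
      have e : xn = (xn - φ x₁) + φ x₁ := by ring
      rw [e]; exact v.map_add_le hX.le (v_map_le_one φ v hvK _)
    have hBne : B.eval x₀ ≠ 0 := by
      intro h0
      have h2 := congrArg v hx
      rw [map_mul, hAunit h0] at h2
      have h3 : v xn * v (B.eval₂ φ ξ) < 1 :=
        mul_lt_one_of_nonneg_of_lt_one_right hxn zero_le (hBsmall h0)
      rw [h2] at h3
      exact lt_irrefl _ h3
    refine ⟨hBne, ?_⟩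
    have key : v (φ (x₁ * B.eval x₀ - A.eval x₀)) < 1 := by
      have e : φ (x₁ * B.eval x₀ - A.eval x₀) =
          (A.eval₂ φ ξ - φ (A.eval x₀)) - xn * (B.eval₂ φ ξ - φ (B.eval x₀)) -
            (xn - φ x₁) * φ (B.eval x₀) := by
        rw [map_sub, map_mul]
        linear_combination hx
      rw [e]
      refine v.map_sub_lt (v.map_sub_lt hA ?_) ?_
      · rw [map_mul]; exact mul_lt_one_of_nonneg_of_lt_one_right hxn zero_le hB
      · rw [map_mul]
        exact mul_lt_one_of_nonneg_of_lt_one_left zero_le hX (v_map_le_one φ v hvK _)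
    exact sub_eq_zero.mp ((v_map_lt_one_iff φ v hvK _).mp key)
  refine ⟨⟨hzero, ?_⟩, fun h₁ h1 => (hsome h₁ h1).2⟩
  intro hB0
  rcases hP : n • (Point.some x₀ y₀ h₀ : W.toAffine.Point) with _ | ⟨x₁, y₁, h₁⟩
  · rfl
  · exact absurd hB0 (hsome h₁ hP).1

end rational

end Fermat.Agent.S13.Special
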