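import Mathlib
import Fermat.Agent.S13.GenPt
import Fermat.Agent.S13.KerEst
import Fermat.Agent.S13.Special

/-!
# S13 (T4-c/d): pole orders of `x (n • G)` at torsion points and at infinity

Abstract setting: `K ⊆ F` fields, `v` a valuation of `F` trivial on `K`, `W` a Weierstrass curve
over `K`, `G = (ξ, η)` a point of `W` over `F`, and `x (n • G) * B(ξ) = A(ξ)` with `A B : K[X]`.

* `rootMultiplicity_eq_two`: if `G` reduces to a `K`-rational point `P₀ = (x₀, y₀)` with
  `n • P₀ = 0`, `2 • P₀ ≠ 0` and `A(x₀) ≠ 0`, then `x₀` is a root of `B` of multiplicity exactly `2`.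
* `natDegree_and_leadingCoeff`: if `ξ` has a pole at `v` then `deg A = deg B + 1` and
  `lead B = n² lead A`.
-/

set_option autoImplicit false

namespace Fermat.Agent.S13.PoleOrd

open Polynomial WeierstrassCurve Fermat.Agent.S05

variable {K : Type*} [Field K] {F : Type*} [Field F] [DecidableEq F] [Algebra K F]
  {Γ₀ : Type*} [LinearOrderedCommGroupWithZero Γ₀]

omit [DecidableEq F] in
/-- The base change of a curve over `K` has integral coefficients for a valuation trivial on `K`. -/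
theorem intCoeffs_baseChange (W : WeierstrassCurve K) (v : Valuation F Γ₀)
    (hv1 : ∀ c : K, c ≠ 0 → v (algebraMap K F c) = 1) :
    KerRed.IntCoeffs v (W.baseChange F) :=
  Special.intCoeffs_map W (algebraMap K F) v hv1

omit [DecidableEq F] in
theorem v_natCast_eq_one (v : Valuation F Γ₀)
    (hv1 : ∀ c : K, c ≠ 0 → v (algebraMap K F c) = 1) {n : ℕ} (hn : (n : K) ≠ 0) :
    v (n : F) = 1 := by
  have e : (n : F) = algebraMap K F (n : K) := (map_natCast (algebraMap K F) n).symm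
  rw [e]; exact hv1 _ hn

omit [DecidableEq F] in
theorem v_algebraMap_le_one (v : Valuation F Γ₀)
    (hv1 : ∀ c : K, c ≠ 0 → v (algebraMap K F c) = 1) (c : K) : v (algebraMap K F c) ≤ 1 := by
  by_cases hc : c = 0
  · rw [hc, map_zero, map_zero]; exact zero_le_one
  · exact (hv1 c hc).le

/-- **(T4-d) Behaviour at infinity.**  If `ξ` has a pole at `v` and `x (n • G) * B(ξ) = A(ξ)`,
then `deg A = deg B + 1` and `lead B = n² lead A`. -/
theorem natDegree_and_leadingCoeff (W : WeierstrassCurve K) (v : Valuation F Γ₀)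
    (hv1 : ∀ c : K, c ≠ 0 → v (algebraMap K F c) = 1) {ξ η : F}
    (hG : (W.baseChange F).toAffine.Nonsingular ξ η) {n : ℕ} (hn : (n : K) ≠ 0)
    {A B : K[X]} (hB : B ≠ 0)
    (hAB : XPair.xc (W.baseChange F) (n • Affine.Point.some ξ η hG) * aeval ξ B = aeval ξ A)
    (hξ : 1 < v ξ) :
    A.natDegree = B.natDegree + 1 ∧ B.leadingCoeff = (n : K) ^ 2 * A.leadingCoeff := by
  have hW : KerRed.IntCoeffs v (W.baseChange F) := intCoeffs_baseChange W v hv1
  have hv : ∀ c : K, v (algebraMap K F c) ≤ 1 := v_algebraMap_le_one v hv1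
  have hvn : v (n : F) = 1 := v_natCast_eq_one v hv1 hn
  have hT : 1 < v (XPair.xc (W.baseChange F) (Affine.Point.some ξ η hG)) := hξ
  have hX : v (XPair.xc (W.baseChange F) (n • Affine.Point.some ξ η hG)) = v ξ :=
    KerEst.v_xc_nsmul hW hT hvn
  obtain ⟨-, hwc⟩ := KerEst.wc_nsmul hW hT n
  set Xn : F := XPair.xc (W.baseChange F) (n • Affine.Point.some ξ η hG) with hXn
  have hξpos : 0 < v ξ := lt_trans zero_lt_one hξ
  have hξ0 : ξ ≠ 0 := v.pos_iff.mp hξpos
  have hXn0 : Xn ≠ 0 := by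
    apply v.pos_iff.mp; rw [hX]; exact hξpos
  have hb : v (aeval ξ B) = v ξ ^ B.natDegree := GenPt.v_aeval_infty_eq v hv1 hξ hB
  have ha' : v (aeval ξ A) = v ξ ^ (B.natDegree + 1) := by
    rw [← hAB, map_mul, hX, hb, pow_succ (v ξ), mul_comm]
  have hA : A ≠ 0 := by
    rintro rfl
    rw [map_zero, map_zero] at ha'
    exact (pow_ne_zero _ hξpos.ne') ha'.symm
  have ha : v (aeval ξ A) = v ξ ^ A.natDegree := GenPt.v_aeval_infty_eq v hv1 hξ hA
  have hdeg : A.natDegree = B.natDegree + 1 :=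
    (pow_right_strictMono₀ hξ).injective (ha.symm.trans ha')
  refine ⟨hdeg, ?_⟩
  -- leading coefficients
  have h1 : v (ξ - (n : F) ^ 2 * Xn) < v ξ := by
    have e : ξ - (n : F) ^ 2 * Xn = ξ * Xn * (Xn⁻¹ - (n : F) ^ 2 * ξ⁻¹) := by
      field_simp
    have hwc' : v (Xn⁻¹ - (n : F) ^ 2 * ξ⁻¹) < (v ξ)⁻¹ := by
      have := hwc
      simp only [XPair.wc, XPair.xc_some] at this
      rwa [map_inv₀] at this
    rw [e, map_mul, map_mul, hX]
    calc v ξ * v ξ * v (Xn⁻¹ - (n : F) ^ 2 * ξ⁻¹) < v ξ * v ξ * (v ξ)⁻¹ :=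
          mul_lt_mul_of_pos_left hwc' (mul_pos hξpos hξpos)
      _ = v ξ := by rw [mul_assoc, mul_inv_cancel₀ hξpos.ne', mul_one]
  have h2 : v (ξ * aeval ξ B - (n : F) ^ 2 * aeval ξ A) < v ξ ^ A.natDegree := by
    have e : ξ * aeval ξ B - (n : F) ^ 2 * aeval ξ A = (ξ - (n : F) ^ 2 * Xn) * aeval ξ B := by
      rw [← hAB]; ring
    rw [e, map_mul, hb, hdeg, pow_succ (v ξ), mul_comm (v ξ ^ B.natDegree)]
    exact mul_lt_mul_of_pos_right h1 (pow_pos hξpos _)
  have hrA := GenPt.v_aeval_infty v hv hξ A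
  have hrB := GenPt.v_aeval_infty v hv hξ B
  by_contra hne
  have hc : B.leadingCoeff - (n : K) ^ 2 * A.leadingCoeff ≠ 0 := sub_ne_zero.mpr hne
  have h3 : v (algebraMap K F (B.leadingCoeff - (n : K) ^ 2 * A.leadingCoeff) * ξ ^ A.natDegree) <
      v ξ ^ A.natDegree := by
    have e : algebraMap K F (B.leadingCoeff - (n : K) ^ 2 * A.leadingCoeff) * ξ ^ A.natDegree =
        (ξ * aeval ξ B - (n : F) ^ 2 * aeval ξ A) -
          (ξ * (aeval ξ B - algebraMap K F B.leadingCoeff * ξ ^ B.natDegree) -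
            (n : F) ^ 2 * (aeval ξ A - algebraMap K F A.leadingCoeff * ξ ^ A.natDegree)) := by
      rw [hdeg, map_sub, map_mul, map_pow, map_natCast]; ring
    rw [e]
    refine v.map_sub_lt h2 (v.map_sub_lt ?_ ?_)
    · rw [map_mul, hdeg, pow_succ (v ξ), mul_comm (v ξ ^ B.natDegree)]
      exact mul_lt_mul_of_pos_left hrB hξpos
    · rw [map_mul, map_pow, hvn, one_pow, one_mul]
      exact hrA
  rw [map_mul, map_pow, hv1 _ hc, one_mul] at h3
  exact lt_irrefl _ h3

/-- **(T4-c) Behaviour at a torsion point.**  If `G = (ξ, η)` reduces to the `K`-rational point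
`P₀ = (x₀, y₀)` with `n • P₀ = 0`, `P₀` is not a `2`-torsion point, `x (n • G) * B(ξ) = A(ξ)` and
`A(x₀) ≠ 0`, then `x₀` is a root of `B` of multiplicity exactly `2`. -/
theorem rootMultiplicity_eq_two [DecidableEq K] (W : WeierstrassCurve K) (v : Valuation F Γ₀)
    (hv1 : ∀ c : K, c ≠ 0 → v (algebraMap K F c) = 1) {ξ η : F}
    (hG : (W.baseChange F).toAffine.Nonsingular ξ η) {n : ℕ} (hn : (n : K) ≠ 0)
    {A B : K[X]} (hB : B ≠ 0)
    (hAB : XPair.xc (W.baseChange F) (n • Affine.Point.some ξ η hG) * aeval ξ B = aeval ξ A)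
    {x₀ y₀ : K} (h₀ : W.toAffine.Nonsingular x₀ y₀)
    (hξ : v (ξ - algebraMap K F x₀) < 1) (hη : v (η - algebraMap K F y₀) < 1)
    (hn0 : n • (Affine.Point.some x₀ y₀ h₀ : W.toAffine.Point) = 0)
    (hy₀ : y₀ ≠ W.toAffine.negY x₀ y₀) (hA0 : A.eval x₀ ≠ 0) :
    B.rootMultiplicity x₀ = 2 := by
  have hW : KerRed.IntCoeffs v (W.baseChange F) := intCoeffs_baseChange W v hv1
  have hv : ∀ c : K, v (algebraMap K F c) ≤ 1 := v_algebraMap_le_one v hv1
  have hvn : v (n : F) = 1 := v_natCast_eq_one v hv1 hn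
  have hvA : v (aeval ξ A) = 1 := GenPt.v_aeval_eq_one v hv1 hξ hA0
  have hvB : v (aeval ξ B) = v (ξ - algebraMap K F x₀) ^ B.rootMultiplicity x₀ :=
    GenPt.v_aeval_eq_pow v hv1 hξ hB
  -- the constant point
  have h₀' : (W.baseChange F).toAffine.Nonsingular (algebraMap K F x₀) (algebraMap K F y₀) :=
    (W.toAffine.map_nonsingular (algebraMap K F).injective x₀ y₀).mpr h₀
  have hP0 : n • (Affine.Point.some (algebraMap K F x₀) (algebraMap K F y₀) h₀' :
      (W.baseChange F).toAffine.Point) = 0 := by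
    have h : n • Special.mapPt W (algebraMap K F) (Affine.Point.some x₀ y₀ h₀) = 0 := by
      rw [← map_nsmul, hn0, Special.mapPt_zero]
    exact h
  have hnegY : (W.baseChange F).toAffine.negY (algebraMap K F x₀) (algebraMap K F y₀) =
      algebraMap K F (W.toAffine.negY x₀ y₀) := Affine.map_negY (algebraMap K F) x₀ y₀
  -- `u = η - negY` is a unit
  have hu : v (η - (W.baseChange F).toAffine.negY (algebraMap K F x₀) (algebraMap K F y₀)) = 1 := by
    have e : η - (W.baseChange F).toAffine.negY (algebraMap K F x₀) (algebraMap K F y₀) =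
        algebraMap K F (y₀ - W.toAffine.negY x₀ y₀) + (η - algebraMap K F y₀) := by
      rw [hnegY, map_sub]; ring
    have h1 : v (algebraMap K F (y₀ - W.toAffine.negY x₀ y₀)) = 1 := hv1 _ (sub_ne_zero.mpr hy₀)
    rw [e, ← h1]
    exact v.map_add_eq_of_lt_left (by rw [h1]; exact hη)
  -- `ξ ≠ x₀`
  have hne : ξ ≠ algebraMap K F x₀ := by
    intro hx
    rcases Affine.Y_eq_of_X_eq hG.1 h₀'.1 hx with hy | hy
    · have hGP : Affine.Point.some ξ η hG = Affine.Point.some _ _ h₀' := by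
        simp only [Affine.Point.some.injEq]; exact ⟨hx, hy⟩
      rw [hGP, hP0] at hAB
      rw [← hAB, XPair.xc_zero, zero_mul, map_zero] at hvA
      exact zero_ne_one hvA
    · rw [hy, sub_self, map_zero] at hu
      exact zero_ne_one hu
  set d : F := ξ - algebraMap K F x₀ with hd
  have hd0 : d ≠ 0 := sub_ne_zero.mpr hne
  have htpos : 0 < v d := v.pos_iff.mpr hd0
  -- the difference `D = G - P₀`
  set D : (W.baseChange F).toAffine.Point :=
    Affine.Point.some ξ η hG - Affine.Point.some _ _ h₀' with hD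
  have hxD : v (XPair.xc (W.baseChange F) D) = (v d)⁻¹ ^ 2 := by
    set u : F := η - (W.baseChange F).toAffine.negY (algebraMap K F x₀) (algebraMap K F y₀)
      with hu_def
    have hDe : XPair.xc (W.baseChange F) D =
        (u / d) ^ 2 + ((W.baseChange F).a₁ * (u / d) - (W.baseChange F).a₂ - ξ
          - algebraMap K F x₀) := by
      rw [hD, sub_eq_add_neg, Affine.Point.neg_some, Affine.Point.add_of_X_ne hne,
        XPair.xc_some, Affine.slope_of_X_ne hne, Affine.addX]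
      ring
    have hl : v (u / d) = (v d)⁻¹ := by rw [map_div₀, hu, one_div]
    have hinv : 1 < (v d)⁻¹ := (one_lt_inv₀ htpos).mpr hξ
    have hsq : (v d)⁻¹ < (v d)⁻¹ ^ 2 := by
      rw [pow_two]
      calc (v d)⁻¹ = 1 * (v d)⁻¹ := (one_mul _).symm
        _ < (v d)⁻¹ * (v d)⁻¹ := mul_lt_mul_of_pos_right hinv (lt_trans zero_lt_one hinv)
    have hξ1 : v ξ ≤ 1 := by
      have e : ξ = d + algebraMap K F x₀ := by rw [hd]; ring
      rw [e]; exact v.map_add_le hξ.le (hv x₀)
    have hrest : v ((W.baseChange F).a₁ * (u / d) - (W.baseChange F).a₂ - ξ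
        - algebraMap K F x₀) < (v d)⁻¹ ^ 2 := by
      refine v.map_sub_lt (v.map_sub_lt (v.map_sub_lt ?_ ?_) ?_) ?_
      · rw [map_mul, hl]
        calc v (W.baseChange F).a₁ * (v d)⁻¹ ≤ 1 * (v d)⁻¹ := mul_le_mul' hW.a₁ le_rfl
          _ = (v d)⁻¹ := one_mul _
          _ < (v d)⁻¹ ^ 2 := hsq
      · exact lt_of_le_of_lt hW.a₂ (hinv.trans hsq)
      · exact lt_of_le_of_lt hξ1 (hinv.trans hsq)
      · exact lt_of_le_of_lt (hv x₀) (hinv.trans hsq)
    have hl2 : v ((u / d) ^ 2) = (v d)⁻¹ ^ 2 := by rw [map_pow, hl]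
    rw [hDe, ← hl2]
    exact v.map_add_eq_of_lt_left (by rw [hl2]; exact hrest)
  have hinv : 1 < (v d)⁻¹ := (one_lt_inv₀ htpos).mpr hξ
  have hD1 : 1 < v (XPair.xc (W.baseChange F) D) := by
    rw [hxD]; exact one_lt_pow₀ hinv two_ne_zero
  have hnD : n • D = n • Affine.Point.some ξ η hG := by
    rw [hD, smul_sub, hP0, sub_zero]
  have hxn : v (XPair.xc (W.baseChange F) (n • Affine.Point.some ξ η hG)) = (v d)⁻¹ ^ 2 := by
    rw [← hnD, KerEst.v_xc_nsmul hW hD1 hvn, hxD]
  have hfin : v d ^ B.rootMultiplicity x₀ = v d ^ 2 := by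
    have h := congrArg v hAB
    rw [map_mul, hxn, hvA, hvB] at h
    have h2 : v d ^ 2 * ((v d)⁻¹ ^ 2 * v d ^ B.rootMultiplicity x₀) = v d ^ 2 * 1 := by rw [h]
    rw [← mul_assoc, ← mul_pow, mul_inv_cancel₀ htpos.ne', one_pow, one_mul, mul_one] at h2
    exact h2
  exact pow_right_injective₀ htpos hξ.ne hfin

end Fermat.Agent.S13.PoleOrd
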