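import Mathlib
import Fermat.Agent.S13.Gen
import Fermat.Agent.S13.Height
import Fermat.Agent.S13.Special
import Fermat.Agent.S13.SSExcl
import Fermat.Agent.S13.Count
import Fermat.Agent.S13.PoleOrd
import Fermat.Agent.S13.FreyDisc

/-!
# S13-A, final glue: the `p`-torsion of an elliptic curve has `p ^ 2` elements

For an elliptic curve `E` over an algebraically closed field `K` of characteristic zero and an odd
prime `p`, the abscissa of `p • G` for the generic point `G` is `A / B` with coprime
`A B : K[X]` (`Gen.R`), and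

* `max (deg A) (deg B) = p ^ 2` (`Height`), `deg A = deg B + 1`, `lead B = p ^ 2 * lead A`
  (`PoleOrd`, place at infinity);
* `p • P = 0 ↔ B (x P) = 0` and `x (p • P) * B (x P) = A (x P)` (`Special`);
* every root of `B` is a double root (`PoleOrd`, places at the torsion points).

Hence (`Count`) `E[p]` has `deg B + 1 = p ^ 2` elements: `card_torsion`, and for the Frey curve
`frey_card_torsion`.  `exists_pkg` is the same package in the shape of `SSExcl`.
-/

set_option autoImplicit false

namespace Fermat.Agent.S13.Torsion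

open WeierstrassCurve Polynomial Fermat.Agent.S05 Fermat.Agent.S13 Fermat.Agent.S13.GenPt

variable {K : Type*} [Field K] (E : WeierstrassCurve K)

/-- Over an algebraically closed field every `x` is the abscissa of a point. -/
theorem exists_y [IsAlgClosed K] (x : K) : ∃ y : K, E.toAffine.Equation x y := by
  obtain ⟨y, hy⟩ := IsAlgClosed.exists_root
    (X ^ 2 + C (E.a₁ * x + E.a₃) * X - C (x ^ 3 + E.a₂ * x ^ 2 + E.a₄ * x + E.a₆) : K[X])
    (by
      have h : (X ^ 2 + C (E.a₁ * x + E.a₃) * X -
          C (x ^ 3 + E.a₂ * x ^ 2 + E.a₄ * x + E.a₆) : K[X]).degree = 2 := by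
        compute_degree!
      rw [h]; norm_num)
  refine ⟨y, ?_⟩
  rw [Affine.equation_iff]
  simp only [IsRoot.def, eval_sub, eval_add, eval_pow, eval_X, eval_mul, eval_C] at hy
  linear_combination hy

/-- A monic polynomial over an algebraically closed field all of whose roots are double is the
product of the squares of `X - s` over its distinct roots. -/
theorem eq_prod_sq [IsAlgClosed K] [DecidableEq K] {B : K[X]} (hB : B.Monic)
    (hdbl : ∀ x₀ : K, B.eval x₀ = 0 → B.rootMultiplicity x₀ = 2) :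
    B = ∏ s ∈ B.roots.toFinset, (X - C s) ^ 2 := by
  have hsplit : B.Splits := IsAlgClosed.splits B
  have h1 : B = (B.roots.map fun a => X - C a).prod := hsplit.eq_prod_roots_of_monic hB
  have h2 : B.roots = B.roots.toFinset.val + B.roots.toFinset.val := by
    ext a
    rw [Multiset.count_add]
    by_cases ha : a ∈ B.roots
    · have h0 : B.eval a = 0 := (Polynomial.mem_roots'.mp ha).2
      rw [Polynomial.count_roots, hdbl a h0]
      have : Multiset.count a B.roots.toFinset.val = 1 :=
        Multiset.count_eq_one_of_mem B.roots.toFinset.nodup (Multiset.mem_toFinset.mpr ha)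
      rw [this]
    · have : a ∉ B.roots.toFinset.val := fun h => ha (Multiset.mem_toFinset.mp h)
      rw [Multiset.count_eq_zero_of_notMem ha, Multiset.count_eq_zero_of_notMem this]
  conv_lhs => rw [h1, h2]
  rw [Multiset.map_add, Multiset.prod_add, Finset.prod_eq_multiset_prod]
  simp only [sq]
  rw [Multiset.prod_map_mul]

variable [IsAlgClosed K] [CharZero K] [DecidableEq K] [E.IsElliptic]

/-- **The multiplication-by-`p` package** (master form). -/
theorem exists_master {p : ℕ} (hp : p.Prime) (hp2 : p ≠ 2) :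
    ∃ (A B : K[X]), IsCoprime A B ∧ A.natDegree = p ^ 2 ∧ B.natDegree = p ^ 2 - 1 ∧ B.Monic ∧
      (p : K) ^ 2 * A.leadingCoeff = 1 ∧
      (∀ (x y : K) (h : E.toAffine.Nonsingular x y),
        p • (Affine.Point.some x y h : E.toAffine.Point) = 0 ↔ B.eval x = 0) ∧
      (∀ (x y : K) (h : E.toAffine.Nonsingular x y), B.eval x ≠ 0 →
        ∃ (x' y' : K) (h' : E.toAffine.Nonsingular x' y'),
          p • (Affine.Point.some x y h : E.toAffine.Point) = Affine.Point.some x' y' h' ∧
          x' * B.eval x = A.eval x) ∧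
      (∀ x₀ : K, B.eval x₀ = 0 → B.rootMultiplicity x₀ = 2) ∧
      (∀ (x y : K) (h : E.toAffine.Nonsingular x y),
        p • (Affine.Point.some x y h : E.toAffine.Point) = 0 → y ≠ E.toAffine.negY x y) := by
  classical
  have hp0 : p ≠ 0 := hp.ne_zero
  have hpK : (p : K) ≠ 0 := Nat.cast_ne_zero.mpr hp0
  set r : RatFunc K := Gen.R E p with hr
  set A : K[X] := r.num with hA
  set B : K[X] := r.denom with hB
  have hcop : IsCoprime A B := RatFunc.isCoprime_num_denom r
  have hB0 : B ≠ 0 := RatFunc.denom_ne_zero r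
  have hBm : B.Monic := RatFunc.monic_denom r
  have hnG : p • Gen.G E ≠ 0 := Gen.nsmul_G_ne_zero E hp0
  have hBne : aeval (gx E) B ≠ 0 := aeval_gx_ne_zero E hB0
  have hAB : XPair.xc (Gen.EF E) (p • Gen.G E) * aeval (gx E) B = aeval (gx E) A := by
    rw [← Gen.ratEmb_R E hp.one_le, ratEmb_eq_div, div_mul_cancel₀ _ hBne]
  obtain ⟨xn, yn, hn, hnGe⟩ := Gen.exists_some (Gen.EF E) hnG
  have hAB' : xn * B.eval₂ (algebraMap K (FF E)) (gx E) = A.eval₂ (algebraMap K (FF E)) (gx E) := by
    have := hAB
    rw [show p • Gen.G E = Affine.Point.some xn yn hn from hnGe] at this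
    simpa [Polynomial.aeval_def, XPair.xc] using this
  -- the place at infinity
  obtain ⟨Binf, hBinf, hxinf⟩ := exists_place_infty E
  obtain ⟨hdeg, hlead⟩ := PoleOrd.natDegree_and_leadingCoeff E Binf.valuation
    (fun c hc => valuation_const Binf hBinf hc) (Gen.gen_nonsingular E) hpK hB0 hAB hxinf
  -- the height
  have hht : max A.natDegree B.natDegree = p ^ 2 :=
    Height.ht_eq_sq E (Gen.R E) (Gen.R_one E) (Gen.R_two E)
      (fun n hn => Gen.R_sum E hn) (fun n hn => Gen.R_prod E hn) p hp.one_le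
  have hAdeg : A.natDegree = p ^ 2 := by
    rw [← hht, max_eq_left (by omega)]
  have hBdeg : B.natDegree = p ^ 2 - 1 := by omega
  -- specialisation at the `K`-points
  have hspec : ∀ (x y : K) (h : E.toAffine.Nonsingular x y),
      (p • (Affine.Point.some x y h : E.toAffine.Point) = 0 ↔ B.eval x = 0) ∧
      (∀ {x1 y1 : K} (h1 : E.toAffine.Nonsingular x1 y1),
        p • (Affine.Point.some x y h : E.toAffine.Point) = Affine.Point.some x1 y1 h1 →
        x1 * B.eval x = A.eval x) := by
    intro x y h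
    obtain ⟨B0, hB0c, -, -, hξ, hη⟩ := exists_place_at E h.1
    exact Special.spec_poly (W := E) (φ := algebraMap K (FF E)) (v := B0.valuation)
      (fun c hc => valuation_const B0 hB0c hc) h
      (Gen.gen_nonsingular E) hξ hη hn hnGe hcop hAB'
  have hroot : ∀ (x y : K) (h : E.toAffine.Nonsingular x y),
      p • (Affine.Point.some x y h : E.toAffine.Point) = 0 ↔ B.eval x = 0 :=
    fun x y h => (hspec x y h).1
  have h2tors : ∀ (x y : K) (h : E.toAffine.Nonsingular x y),
      p • (Affine.Point.some x y h : E.toAffine.Point) = 0 → y ≠ E.toAffine.negY x y := by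
    intro x y h htors hy
    have h2T : (2 : ℕ) • (Affine.Point.some x y h : E.toAffine.Point) = 0 := by
      rw [two_nsmul]
      exact Affine.Point.add_self_of_Y_eq hy
    have hcop' : Nat.Coprime p 2 := (Nat.coprime_primes hp Nat.prime_two).mpr hp2
    have hord := Nat.dvd_gcd (addOrderOf_dvd_of_nsmul_eq_zero htors)
      (addOrderOf_dvd_of_nsmul_eq_zero h2T)
    rw [hcop'.gcd_eq_one, Nat.dvd_one, AddMonoid.addOrderOf_eq_one_iff] at hord
    exact Affine.Point.some_ne_zero _ hord
  refine ⟨A, B, hcop, hAdeg, hBdeg, hBm, ?_, hroot, ?_, ?_, h2tors⟩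
  · rw [hBm.leadingCoeff] at hlead
    exact hlead.symm
  · intro x y h hBx
    have hne : p • (Affine.Point.some x y h : E.toAffine.Point) ≠ 0 :=
      fun h0 => hBx ((hroot x y h).mp h0)
    obtain ⟨x', y', h', hxy⟩ := Gen.exists_some E hne
    exact ⟨x', y', h', hxy, (hspec x y h).2 h' hxy⟩
  · intro x₀ hx₀
    obtain ⟨y₀, hy₀⟩ := exists_y E x₀
    have h₀ : E.toAffine.Nonsingular x₀ y₀ := (Affine.equation_iff_nonsingular).mp hy₀
    have htors : p • (Affine.Point.some x₀ y₀ h₀ : E.toAffine.Point) = 0 :=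
      (hroot x₀ y₀ h₀).mpr hx₀
    have h2 : y₀ ≠ E.toAffine.negY x₀ y₀ := h2tors x₀ y₀ h₀ htors
    have hAx : A.eval x₀ ≠ 0 := by
      intro hAx
      obtain ⟨a, b, hab⟩ := hcop
      have := congrArg (Polynomial.eval x₀) hab
      simp only [eval_add, eval_mul, hAx, hx₀, mul_zero, add_zero, eval_one] at this
      exact zero_ne_one this
    obtain ⟨B0, hB0c, -, -, hξ, hη⟩ := exists_place_at E h₀.1
    exact PoleOrd.rootMultiplicity_eq_two E B0.valuation
      (fun c hc => valuation_const B0 hB0c hc) (Gen.gen_nonsingular E) hpK hB0 hAB h₀ hξ hη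
      htors h2 hAx

/-- **Export (I1).**  The `p`-torsion of an elliptic curve over an algebraically closed field of
characteristic zero has `p ^ 2` elements (`p` an odd prime). -/
theorem card_torsion {p : ℕ} (hp : p.Prime) (hp2 : p ≠ 2) :
    Nat.card (Submodule.torsionBy ℤ E.toAffine.Point (p : ℤ)) = p ^ 2 := by
  obtain ⟨A, B, -, -, hBdeg, hBm, -, hroot, -, hdbl, h2⟩ := exists_master E hp hp2
  rw [Count.card_torsionBy E B hBm.ne_zero hroot hdbl h2, hBdeg]
  have : 1 ≤ p ^ 2 := Nat.one_le_pow _ _ hp.pos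
  omega

/-- **Export (I2).**  The multiplication-by-`p` package in the shape consumed by
`SSExcl.val_mul_prod_le_one` / `SSExcl.exists_torsion_not_inKer`. -/
theorem exists_pkg {p : ℕ} (hp : p.Prime) (hp2 : p ≠ 2) :
    ∃ (A B : K[X]) (S : Finset K), IsCoprime A B ∧ A.natDegree = B.natDegree + 1 ∧
      B.leadingCoeff = (p : K) ^ 2 * A.leadingCoeff ∧
      (∀ P : E.toAffine.Point, P ≠ 0 → B.eval (KerRed.xc E P) ≠ 0 →
        p • P ≠ 0 ∧ KerRed.xc E (p • P) * B.eval (KerRed.xc E P) = A.eval (KerRed.xc E P)) ∧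
      B = C B.leadingCoeff * ∏ s ∈ S, (X - C s) ^ 2 ∧
      (∀ s ∈ S, ∃ P : E.toAffine.Point, P ≠ 0 ∧ p • P = 0 ∧ KerRed.xc E P = s) ∧
      (∀ P : E.toAffine.Point, P ≠ 0 → p • P = 0 → KerRed.xc E P ∈ S) ∧
      2 * S.card + 1 = p ^ 2 := by
  obtain ⟨A, B, hcop, hAdeg, hBdeg, hBm, hlead, hroot, hspec, hdbl, -⟩ := exists_master E hp hp2
  have hp1 : 1 ≤ p ^ 2 := Nat.one_le_pow _ _ hp.pos
  have hBprod : B = ∏ s ∈ B.roots.toFinset, (X - C s) ^ 2 := eq_prod_sq hBm hdbl
  refine ⟨A, B, B.roots.toFinset, hcop, by omega, by rw [hBm.leadingCoeff, hlead], ?_, ?_, ?_, ?_,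
    ?_⟩
  · intro P hP hBx
    obtain ⟨x, y, h, rfl⟩ := Gen.exists_some E hP
    obtain ⟨x', y', h', hxy, hx'⟩ := hspec x y h hBx
    rw [hxy]
    exact ⟨Affine.Point.some_ne_zero _, hx'⟩
  · rw [hBm.leadingCoeff, map_one, one_mul]
    exact hBprod
  · intro s hs
    have hs0 : B.eval s = 0 := (Polynomial.mem_roots'.mp (Multiset.mem_toFinset.mp hs)).2
    obtain ⟨y, hy⟩ := exists_y E s
    have h₀ : E.toAffine.Nonsingular s y := (Affine.equation_iff_nonsingular).mp hy
    exact ⟨Affine.Point.some s y h₀, Affine.Point.some_ne_zero _, (hroot s y h₀).mpr hs0, rfl⟩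
  · intro P hP hpP
    obtain ⟨x, y, h, rfl⟩ := Gen.exists_some E hP
    exact Multiset.mem_toFinset.mpr
      ((Polynomial.mem_roots hBm.ne_zero).mpr ((hroot x y h).mp hpP))
  · have hdeg := congrArg Polynomial.natDegree hBprod
    rw [Polynomial.natDegree_prod_of_monic _ _ (fun s _ => (monic_X_sub_C s).pow 2)] at hdeg
    simp only [natDegree_pow, natDegree_X_sub_C, mul_one, Finset.sum_const, smul_eq_mul] at hdeg
    omega

omit [IsAlgClosed K] [CharZero K] [DecidableEq K] [E.IsElliptic] in
/-- **(Card) for the Frey curve**, in the frozen shape: over any algebraically closed field `K`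
over `ℚ` the `p`-torsion of the Frey curve has exactly `p ^ 2` elements. -/
theorem frey_card_torsion (P : FreyPackage) (K : Type*) [Field K] [Algebra ℚ K] [IsAlgClosed K]
    [DecidableEq K] :
    Nat.card (Submodule.torsionBy ℤ (Affine.baseChange P.freyCurve K).Point P.p) = P.p ^ 2 := by
  haveI : CharZero K := algebraRat.charZero K
  haveI : (Affine.baseChange P.freyCurve K).IsElliptic := FreyDisc.freyK_isElliptic' P K
  have hp2 : P.p ≠ 2 := by have := P.hp5; omega
  exact card_torsion (Affine.baseChange P.freyCurve K) P.pp hp2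

end Fermat.Agent.S13.Torsion
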