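import Mathlib

/-!
# S13: the branch lemma at a node

Pure valuation algebra for a Weierstrass curve `y² + a₁xy = x³ + a₂x² + a₄x` (`a₃ = a₆ = 0`)
with `v a₁ ≤ 1`, `v a₂ ≤ 1`, `v b₂ = 1`, `v a₄ < 1` (a node at `(0, 0)`).  Two points `P`, `Q`
in the annulus `v a₄ < v x < 1` with the same `v x` and on the same branch of the node
(`y₁ x₂ ≡ y₂ x₁`) differ by `O` or by a point with `1 ≤ v x`.
-/

set_option autoImplicit false

namespace Fermat.Agent.S13.Branch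

open WeierstrassCurve WeierstrassCurve.Affine

variable {K : Type*} [Field K] {Γ₀ : Type*} [LinearOrderedCommGroupWithZero Γ₀]
  (v : Valuation K Γ₀) (W : WeierstrassCurve K)

theorem mul_lt_self_of_lt_one {a b : Γ₀} (ha : 0 < a) (hb : b < 1) : a * b < a := by
  calc a * b < a * 1 := mul_lt_mul_of_pos_left hb ha
    _ = a := mul_one _

theorem mul_le_self_of_le_one {a b : Γ₀} (hb : b ≤ 1) : a * b ≤ a := by
  calc a * b ≤ a * 1 := mul_le_mul' le_rfl hb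
    _ = a := mul_one _

/-- In the annulus, `v y ≤ v x`. -/
theorem val_y_le (h₃ : W.a₃ = 0) (h₆ : W.a₆ = 0) (h₁ : v W.a₁ ≤ 1) (h₂ : v W.a₂ ≤ 1)
    {x y : K} (h : W.toAffine.Equation x y) (hx1 : v x < 1) (hβ : v W.a₄ < v x) :
    v y ≤ v x := by
  by_contra hy
  rw [not_le] at hy
  have hxpos : 0 < v x := lt_of_le_of_lt zero_le hβ
  have hypos : 0 < v y := hxpos.trans hy
  rw [Affine.equation_iff, h₃, h₆] at h
  have e : y ^ 2 = x ^ 3 + W.a₂ * x ^ 2 + W.a₄ * x - W.a₁ * x * y := by linear_combination h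
  have hyy : v x * v y < v y * v y := mul_lt_mul_of_pos_right hy hypos
  have hxx : v x * v x < v x * v y := mul_lt_mul_of_pos_left hy hxpos
  have h1 : v (x ^ 3) < v y * v y := by
    rw [map_pow, pow_succ, sq]
    exact lt_of_le_of_lt (mul_le_self_of_le_one hx1.le) (hxx.trans hyy)
  have h2 : v (W.a₂ * x ^ 2) < v y * v y := by
    rw [map_mul, map_pow, sq]
    exact lt_of_le_of_lt (mul_le_of_le_one_left zero_le h₂) (hxx.trans hyy)
  have h3 : v (W.a₄ * x) < v y * v y := by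
    rw [map_mul]
    exact lt_of_le_of_lt (mul_le_mul' hβ.le le_rfl) (hxx.trans hyy)
  have h4 : v (W.a₁ * x * y) < v y * v y := by
    rw [map_mul, map_mul, mul_assoc]
    exact lt_of_le_of_lt (mul_le_of_le_one_left zero_le h₁) hyy
  have h5 : v (y ^ 2) < v y * v y := by
    rw [e]
    exact v.map_sub_lt (v.map_add_lt (v.map_add_lt h1 h2) h3) h4
  rw [map_pow, sq] at h5
  exact lt_irrefl _ h5

theorem val_two_le : v (2 : K) ≤ 1 := by
  have : (2 : K) = 1 + 1 := by norm_num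
  rw [this]
  exact v.map_add_le (by rw [map_one]) (by rw [map_one])

theorem val_four_le : v (4 : K) ≤ 1 := by
  have : (4 : K) = 2 * 2 := by norm_num
  rw [this, map_mul]
  exact mul_le_one' (val_two_le v) (val_two_le v)

/-- `(2y + a₁x)² = 4x³ + b₂x² + 4a₄x` on the curve. -/
theorem polyY_sq (h₃ : W.a₃ = 0) (h₆ : W.a₆ = 0) {x y : K} (h : W.toAffine.Equation x y) :
    (2 * y + W.a₁ * x) ^ 2 = 4 * x ^ 3 + W.b₂ * x ^ 2 + 4 * W.a₄ * x := by
  rw [Affine.equation_iff, h₃, h₆] at h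
  simp only [WeierstrassCurve.b₂]
  linear_combination 4 * h

/-- If `v a₄ < v x ≤ 1` and `v x < 1` or `v 4 < 1`... the general statement: the `x²`-term of
`(2y + a₁x)²` dominates as soon as `v (4 * x) < 1` and `v a₄ < v x`. -/
theorem val_polyY_of (h₃ : W.a₃ = 0) (h₆ : W.a₆ = 0) (hb₂ : v W.b₂ = 1)
    {x y : K} (h : W.toAffine.Equation x y) (hx4 : v (4 * x) < 1) (hβ : v (4 * W.a₄) < v x) :
    v (2 * y + W.a₁ * x) = v x := by
  have hxpos : 0 < v x := lt_of_le_of_lt zero_le hβ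
  have hsq := congrArg v (polyY_sq W h₃ h₆ h)
  have hmain : v (W.b₂ * x ^ 2) = v x * v x := by rw [map_mul, hb₂, one_mul, map_pow, sq]
  have h1 : v (4 * x ^ 3) < v x * v x := by
    have e : (4 : K) * x ^ 3 = (4 * x) * (x * x) := by ring
    rw [e, map_mul v (4 * x) (x * x), map_mul v x x]
    calc v (4 * x) * (v x * v x) < 1 * (v x * v x) :=
          mul_lt_mul_of_pos_right hx4 (mul_pos hxpos hxpos)
      _ = v x * v x := one_mul _
  have h2 : v (4 * W.a₄ * x) < v x * v x := by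
    rw [map_mul]
    exact mul_lt_mul_of_pos_right hβ hxpos
  have h3 : v (4 * x ^ 3 + W.b₂ * x ^ 2 + 4 * W.a₄ * x) = v x * v x := by
    rw [← hmain]
    rw [hmain.symm] at h1 h2
    rw [v.map_add_eq_of_lt_left (by rw [v.map_add_eq_of_lt_right h1]; exact h2),
      v.map_add_eq_of_lt_right h1]
  rw [h3, map_pow, ← sq] at hsq
  exact (pow_left_inj₀ zero_le zero_le (by norm_num)).mp hsq

/-- In the annulus, `v (2y + a₁x) = v x`. -/
theorem val_polyY (h₃ : W.a₃ = 0) (h₆ : W.a₆ = 0) (hb₂ : v W.b₂ = 1)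
    {x y : K} (h : W.toAffine.Equation x y) (hx1 : v x < 1) (hβ : v W.a₄ < v x) :
    v (2 * y + W.a₁ * x) = v x := by
  refine val_polyY_of v W h₃ h₆ hb₂ h ?_ ?_
  · rw [map_mul]
    exact lt_of_le_of_lt (mul_le_of_le_one_left zero_le (val_four_le v)) hx1
  · rw [map_mul]
    exact lt_of_le_of_lt (mul_le_of_le_one_left zero_le (val_four_le v)) hβ

/-- On the unit circle `v x = 1` (residue characteristic `2`): `v (2y + a₁x) = 1`. -/
theorem val_polyY_unit (h₃ : W.a₃ = 0) (h₆ : W.a₆ = 0) (hb₂ : v W.b₂ = 1) (hv2 : v (2 : K) < 1)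
    (h₄ : v W.a₄ < 1) {x y : K} (h : W.toAffine.Equation x y) (hx1 : v x = 1) :
    v (2 * y + W.a₁ * x) = 1 := by
  have h4 : v (4 : K) < 1 := by
    have : (4 : K) = 2 * 2 := by norm_num
    rw [this, map_mul]
    exact lt_of_le_of_lt (mul_le_of_le_one_left zero_le (val_two_le v)) hv2
  rw [← hx1]
  refine val_polyY_of v W h₃ h₆ hb₂ h ?_ ?_
  · rw [map_mul, hx1, mul_one]; exact h4
  · rw [map_mul, hx1]
    exact lt_of_le_of_lt (mul_le_of_le_one_left zero_le h4.le) h₄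

/-- Key computation: on the same branch, the cross term of the chord numerator has valuation
`v x₁ * v x₁`. -/
theorem val_cross (h₃ : W.a₃ = 0) (h₆ : W.a₆ = 0) (hb₂ : v W.b₂ = 1)
    {x₁ y₁ x₂ y₂ : K} (hP : W.toAffine.Equation x₁ y₁)
    (hx : v x₂ = v x₁) (hx1 : v x₁ < 1) (hβ : v W.a₄ < v x₁)
    (hbr : v (y₁ * x₂ - y₂ * x₁) < v x₁ * v x₁) :
    v (2 * y₁ * y₂ + W.a₁ * (x₂ * y₁ + x₁ * y₂) + (W.a₁ ^ 2 + 2 * W.a₂) * (x₁ * x₂)) =
      v x₁ * v x₁ := by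
  have hρpos : 0 < v x₁ := lt_of_le_of_lt zero_le hβ
  have hY := val_polyY v W h₃ h₆ hb₂ hP hx1 hβ
  have key : (2 * y₁ * y₂ + W.a₁ * (x₂ * y₁ + x₁ * y₂) + (W.a₁ ^ 2 + 2 * W.a₂) * (x₁ * x₂)) * x₁
      = W.b₂ * (x₁ * x₁ * x₂) + 2 * (x₁ * x₂) * (x₁ ^ 2 + W.a₄)
        - (y₁ * x₂ - y₂ * x₁) * (2 * y₁ + W.a₁ * x₁) := by
    rw [Affine.equation_iff, h₃, h₆] at hP
    simp only [WeierstrassCurve.b₂]
    linear_combination (2 * x₂) * hP
  have hA : v (W.b₂ * (x₁ * x₁ * x₂)) = v x₁ * v x₁ * v x₁ := by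
    rw [map_mul, hb₂, one_mul, map_mul, map_mul, hx]
  have hsmall : v (x₁ ^ 2 + W.a₄) < v x₁ := by
    refine v.map_add_lt ?_ hβ
    rw [map_pow, sq]
    exact mul_lt_self_of_lt_one hρpos hx1
  have hB : v (2 * (x₁ * x₂) * (x₁ ^ 2 + W.a₄)) < v x₁ * v x₁ * v x₁ := by
    rw [map_mul, map_mul, map_mul, hx]
    calc v 2 * (v x₁ * v x₁) * v (x₁ ^ 2 + W.a₄) ≤ v x₁ * v x₁ * v (x₁ ^ 2 + W.a₄) :=
          mul_le_mul' (mul_le_of_le_one_left zero_le (val_two_le v)) le_rfl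
      _ < v x₁ * v x₁ * v x₁ := mul_lt_mul_of_pos_left hsmall (mul_pos hρpos hρpos)
  have hC : v ((y₁ * x₂ - y₂ * x₁) * (2 * y₁ + W.a₁ * x₁)) < v x₁ * v x₁ * v x₁ := by
    rw [map_mul, hY]
    exact mul_lt_mul_of_pos_right hbr hρpos
  have hval : v ((2 * y₁ * y₂ + W.a₁ * (x₂ * y₁ + x₁ * y₂) + (W.a₁ ^ 2 + 2 * W.a₂) * (x₁ * x₂))
      * x₁) = v x₁ * v x₁ * v x₁ := by
    rw [key, ← hA]
    rw [← hA] at hB hC
    rw [v.map_sub_eq_of_lt_left (by rw [v.map_add_eq_of_lt_left hB]; exact hC),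
      v.map_add_eq_of_lt_left hB]
  rw [map_mul] at hval
  exact mul_right_cancel₀ hρpos.ne' hval

variable [DecidableEq K]

/-- **Branch lemma (chord case).**  Two points in the annulus `v a₄ < v x < 1` with the same
`v x`, different `x`, on the same branch: the `x`-coordinate of the difference is not in the
maximal ideal. -/
theorem one_le_val_addX (h₃ : W.a₃ = 0) (h₆ : W.a₆ = 0) (hb₂ : v W.b₂ = 1)
    {x₁ y₁ x₂ y₂ : K} (hP : W.toAffine.Equation x₁ y₁) (hQ : W.toAffine.Equation x₂ y₂)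
    (hx : v x₂ = v x₁) (hx1 : v x₁ < 1) (hβ : v W.a₄ < v x₁) (hne : x₁ ≠ x₂)
    (hbr : v (y₁ * x₂ - y₂ * x₁) < v x₁ * v x₁) :
    1 ≤ v (W.toAffine.addX x₁ x₂ (W.toAffine.slope x₁ x₂ y₁ (W.toAffine.negY x₂ y₂))) := by
  have hρpos : 0 < v x₁ := lt_of_le_of_lt zero_le hβ
  have hD : x₁ - x₂ ≠ 0 := sub_ne_zero.mpr hne
  have hM := val_cross v W h₃ h₆ hb₂ hP hx hx1 hβ hbr
  rw [slope_of_X_ne hne]
  set ℓ := (y₁ - W.toAffine.negY x₂ y₂) / (x₁ - x₂) with hℓ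
  have hF : (ℓ ^ 2 + W.a₁ * ℓ - W.a₂) * (x₁ - x₂) ^ 2 = (x₁ ^ 3 + W.a₄ * x₁) + (x₂ ^ 3 + W.a₄ * x₂)
      + (2 * y₁ * y₂ + W.a₁ * (x₂ * y₁ + x₁ * y₂) + (W.a₁ ^ 2 + 2 * W.a₂) * (x₁ * x₂)) := by
    rw [Affine.equation_iff, h₃, h₆] at hP hQ
    rw [hℓ]
    simp only [negY, h₃]
    field_simp
    linear_combination hP + hQ
  have hs : ∀ x : K, v x = v x₁ → v (x ^ 3 + W.a₄ * x) < v x₁ * v x₁ := by
    intro x hxx
    refine v.map_add_lt ?_ ?_
    · rw [map_pow, hxx, pow_succ, sq]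
      exact mul_lt_self_of_lt_one (mul_pos hρpos hρpos) hx1
    · rw [map_mul, hxx]
      exact mul_lt_mul_of_pos_right hβ hρpos
  have hN : v ((ℓ ^ 2 + W.a₁ * ℓ - W.a₂) * (x₁ - x₂) ^ 2) = v x₁ * v x₁ := by
    rw [hF, ← hM]
    have h1 := hs x₁ rfl
    have h2 := hs x₂ hx
    rw [← hM] at h1 h2
    exact v.map_add_eq_of_lt_right (v.map_add_lt h1 h2)
  have hDle : v (x₁ - x₂) ≤ v x₁ := v.map_sub_le le_rfl hx.le
  have hDpos : 0 < v (x₁ - x₂) := zero_lt_iff.mpr ((Valuation.ne_zero_iff v).mpr hD)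
  have hFge : 1 ≤ v (ℓ ^ 2 + W.a₁ * ℓ - W.a₂) := by
    by_contra hcon
    rw [not_le] at hcon
    rw [map_mul, map_pow, sq (v (x₁ - x₂))] at hN
    have : v (ℓ ^ 2 + W.a₁ * ℓ - W.a₂) * (v (x₁ - x₂) * v (x₁ - x₂)) < v x₁ * v x₁ := by
      calc v (ℓ ^ 2 + W.a₁ * ℓ - W.a₂) * (v (x₁ - x₂) * v (x₁ - x₂))
          < 1 * (v (x₁ - x₂) * v (x₁ - x₂)) :=
            mul_lt_mul_of_pos_right hcon (mul_pos hDpos hDpos)
        _ = v (x₁ - x₂) * v (x₁ - x₂) := one_mul _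
        _ ≤ v x₁ * v x₁ := mul_le_mul' hDle hDle
    exact absurd hN this.ne
  have hadd : W.toAffine.addX x₁ x₂ ℓ = (ℓ ^ 2 + W.a₁ * ℓ - W.a₂) - (x₁ + x₂) := by
    simp only [addX]; ring
  have hsum : v (x₁ + x₂) < 1 := lt_of_le_of_lt (v.map_add_le le_rfl hx.le) hx1
  rw [hadd, v.map_sub_eq_of_lt_left (lt_of_lt_of_le hsum hFge)]
  exact hFge

/-- **Branch lemma.**  Two points in the annulus `v a₄ < v x < 1` with the same `v x` and on the
same branch of the node (`v (y₁ x₂ - y₂ x₁) < v x₁ ^ 2`, i.e. `y₁ / x₁ ≡ y₂ / x₂`) differ by `O`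
or by a point whose `x`-coordinate has `1 ≤ v x`. -/
theorem sub_eq_zero_or (h₃ : W.a₃ = 0) (h₆ : W.a₆ = 0) (hb₂ : v W.b₂ = 1)
    {x₁ y₁ x₂ y₂ : K} (hP : W.toAffine.Nonsingular x₁ y₁) (hQ : W.toAffine.Nonsingular x₂ y₂)
    (hx : v x₂ = v x₁) (hx1 : v x₁ < 1) (hβ : v W.a₄ < v x₁)
    (hbr : v (y₁ * x₂ - y₂ * x₁) < v x₁ * v x₁) :
    Point.some x₁ y₁ hP - Point.some x₂ y₂ hQ = 0 ∨
      ∃ (X Y : K) (hXY : W.toAffine.Nonsingular X Y),
        Point.some x₁ y₁ hP - Point.some x₂ y₂ hQ = Point.some X Y hXY ∧ 1 ≤ v X := by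
  by_cases hne : x₁ = x₂
  · left
    subst hne
    rcases Y_eq_of_X_eq hP.1 hQ.1 rfl with hy | hy
    · subst hy
      exact sub_self _
    · exfalso
      have hY := val_polyY v W h₃ h₆ hb₂ hP.1 hx1 hβ
      have e : y₁ * x₁ - y₂ * x₁ = x₁ * (2 * y₁ + W.a₁ * x₁) := by
        have hy2 : y₂ = -y₁ - W.a₁ * x₁ := by
          rw [hy]; simp only [negY, h₃]; ring
        rw [hy2]; ring
      rw [e, map_mul, hY] at hbr
      exact lt_irrefl _ hbr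
  · right
    rw [sub_eq_add_neg, Point.neg_some, Point.add_of_X_ne hne]
    exact ⟨_, _, _, rfl, one_le_val_addX v W h₃ h₆ hb₂ hP.1 hQ.1 hx hx1 hβ hne hbr⟩

end Fermat.Agent.S13.Branch
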