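import Mathlib
import Fermat.Prelude.Def_FLTPrelim_FreyPackage
import Fermat.Prelude.Def_FLTPrelim_GaloisRep
import Fermat.Prelude.Def_FLTPrelim_Ramification
import Fermat.Agent.S05.InertiaAPI
import Fermat.Agent.S05.KerRed
import Fermat.Agent.S05.SameRed
import Fermat.Agent.S05.GoodRed
import Fermat.Agent.S05.NodeModel
import Fermat.Agent.S13.Branch
import Fermat.Agent.S13.Kap2

/-!
# S13: the prime `2`

For a Weierstrass curve `y² + a₁xy = x³ + a₂x² + a₄x` over a valued field of residue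
characteristic `2` with `v b₂ = 1`, `v a₄ < 1` (a node at `(0, 0)`), and a prime `p ≥ 5`:

* `Two.smul_eq_of_one_le`: inertia fixes the `p`-torsion points off the node;
* `Two.smul_sub_of_annulus`: for a point in the annulus `v a₄ < v x < 1`, `σ T - T` is `O` or
  off the node (branch lemma);
* `Two.smul_smul_sub`: `(σ - 1)² = 0` on the `p`-torsion.
-/

set_option autoImplicit false

namespace Fermat.Agent.S13.Two

open WeierstrassCurve WeierstrassCurve.Affine Fermat.Agent.S05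

section General

variable {F K : Type*} [Field F] [Field K] [Algebra F K] [DecidableEq K]
  {W' : WeierstrassCurve.Affine F} (A : ValuationSubring K) {σ : K ≃ₐ[F] K}

/-- Inertia (residue characteristic `2`) fixes every `p`-torsion point off the node. -/
theorem smul_eq_of_one_le (hσ : σ ∈ A.inertiaSubgroupIn F)
    (h₁ : A.valuation (W'⁄K).a₁ ≤ 1) (h₂ : A.valuation (W'⁄K).a₂ ≤ 1)
    (h₃ : (W'⁄K).a₃ = 0) (h₆ : (W'⁄K).a₆ = 0) (hb₂ : A.valuation (W'⁄K).b₂ = 1)
    (h₄ : A.valuation (W'⁄K).a₄ < 1) (hv2 : A.valuation (2 : K) < 1)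
    {p : ℕ} (hp : p.Prime) (hp5 : 5 ≤ p) (hvp : A.valuation (p : K) = 1)
    {x y : K} (h : (W'⁄K).Nonsingular x y) (hx : 1 ≤ A.valuation x)
    (htors : p • (Point.some x y h : (W'⁄K).Point) = 0) :
    σ • (Point.some x y h : (W'⁄K).Point) = Point.some x y h := by
  have h₃' : A.valuation (W'⁄K).a₃ ≤ 1 := by rw [h₃, map_zero]; exact zero_le_one
  have h₆' : A.valuation (W'⁄K).a₆ ≤ 1 := by rw [h₆, map_zero]; exact zero_le_one
  have hF : ∀ {x y : K} (h : (W'⁄K).Nonsingular x y), 1 < A.valuation x →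
      p • (Point.some x y h : (W'⁄K).Point) = 0 → False := fun h' hx' ht' =>
    no_torsion_in_kernel A.valuation _ h₁ h₂ h₃' h₄.le h₆' hp hp5 hvp h' hx' ht'
  have hx1 : A.valuation x = 1 := le_antisymm (not_lt.mp fun hlt => hF h hlt htors) hx
  refine GoodRed.smul_eq_of_nonsingular_reduction A hσ h₁ h₂ h₃' h₄.le h₆' hF h hx1.le
    (Or.inr ?_) htors
  rw [Affine.evalEval_polynomialY, h₃, add_zero]
  exact Branch.val_polyY_unit A.valuation _ h₃ h₆ hb₂ hv2 h₄ h.1 hx1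

variable [Algebra.IsAlgebraic F K]

/-- For a point `T` in the annulus `v a₄ < v x < 1` and `σ` in the inertia group, `σ T - T` is
`O` or a point off the node. -/
theorem smul_sub_of_annulus (hσ : σ ∈ A.inertiaSubgroupIn F)
    (h₁ : A.valuation (W'⁄K).a₁ ≤ 1) (h₂ : A.valuation (W'⁄K).a₂ ≤ 1)
    (h₃ : (W'⁄K).a₃ = 0) (h₆ : (W'⁄K).a₆ = 0) (hb₂ : A.valuation (W'⁄K).b₂ = 1)
    {x y : K} (h : (W'⁄K).Nonsingular x y) (hx1 : A.valuation x < 1)
    (hβ : A.valuation (W'⁄K).a₄ < A.valuation x) :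
    σ • (Point.some x y h : (W'⁄K).Point) - Point.some x y h = 0 ∨
      ∃ (X Y : K) (hXY : (W'⁄K).Nonsingular X Y),
        σ • (Point.some x y h : (W'⁄K).Point) - Point.some x y h = Point.some X Y hXY ∧
          1 ≤ A.valuation X := by
  have hxpos : 0 < A.valuation x := lt_of_le_of_lt zero_le hβ
  have hx0 : x ≠ 0 := by
    intro h0; rw [h0, map_zero] at hxpos; exact lt_irrefl _ hxpos
  have hσx : A.valuation (σ x) = A.valuation x := InertiaAPI.valuation_apply hσ x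
  have hσx0 : σ x ≠ 0 := by simpa using hx0
  have hy : A.valuation y ≤ A.valuation x := Branch.val_y_le A.valuation _ h₃ h₆ h₁ h₂ h.1 hx1 hβ
  have ht : A.valuation (y / x) ≤ 1 := by
    rw [map_div₀]; exact (div_le_one₀ hxpos).mpr hy
  have hdt : A.valuation (σ (y / x) - y / x) < 1 :=
    A.mem_nonunits_iff.mp (InertiaAPI.apply_sub_mem_nonunits hσ ((A.valuation_le_one_iff _).mp ht))
  have hbr : A.valuation (σ y * x - y * σ x) < A.valuation (σ x) * A.valuation (σ x) := by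
    have e : σ y * x - y * σ x = (σ (y / x) - y / x) * (σ x * x) := by
      rw [map_div₀]; field_simp
    rw [e, map_mul, map_mul, hσx]
    calc A.valuation (σ (y / x) - y / x) * (A.valuation x * A.valuation x)
        < 1 * (A.valuation x * A.valuation x) :=
          mul_lt_mul_of_pos_right hdt (mul_pos hxpos hxpos)
      _ = A.valuation x * A.valuation x := one_mul _
  rw [GoodRed.smul_some]
  exact Branch.sub_eq_zero_or A.valuation (W'⁄K) h₃ h₆ hb₂ _ h hσx.symm (by rw [hσx]; exact hx1)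
    (by rw [hσx]; exact hβ) hbr

/-- **Inertia at `2` is unipotent on the `p`-torsion**: `(σ - 1)² T = 0`, given the position
`hcl` of the `p`-torsion points relative to the node. -/
theorem smul_smul_sub (hσ : σ ∈ A.inertiaSubgroupIn F)
    (h₁ : A.valuation (W'⁄K).a₁ ≤ 1) (h₂ : A.valuation (W'⁄K).a₂ ≤ 1)
    (h₃ : (W'⁄K).a₃ = 0) (h₆ : (W'⁄K).a₆ = 0) (hb₂ : A.valuation (W'⁄K).b₂ = 1)
    (h₄ : A.valuation (W'⁄K).a₄ < 1) (hv2 : A.valuation (2 : K) < 1)
    {p : ℕ} (hp : p.Prime) (hp5 : 5 ≤ p) (hvp : A.valuation (p : K) = 1)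
    (hcl : ∀ {x y : K} (h : (W'⁄K).Nonsingular x y),
      p • (Point.some x y h : (W'⁄K).Point) = 0 →
        1 ≤ A.valuation x ∨ (A.valuation (W'⁄K).a₄ < A.valuation x ∧ A.valuation x < 1))
    (T : (W'⁄K).Point) (htors : p • T = 0) :
    σ • (σ • T - T) = σ • T - T := by
  rcases T with _ | ⟨x, y, h⟩
  · rfl
  · rcases hcl h htors with hx | ⟨hβ, hx1⟩
    · have := smul_eq_of_one_le A hσ h₁ h₂ h₃ h₆ hb₂ h₄ hv2 hp hp5 hvp h hx htors
      rw [this, sub_self]
      rfl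
    · have htors' : p • (σ • (Point.some x y h : (W'⁄K).Point) - Point.some x y h) = 0 := by
        rw [smul_sub, ← GoodRed.smul_nsmul, htors, GoodRed.smul_zero', sub_zero]
      rcases smul_sub_of_annulus A hσ h₁ h₂ h₃ h₆ hb₂ h hx1 hβ with h0 | ⟨X, Y, hXY, hd, hX⟩
      · rw [h0]; rfl
      · rw [hd] at htors' ⊢
        exact smul_eq_of_one_le A hσ h₁ h₂ h₃ h₆ hb₂ h₄ hv2 hp hp5 hvp hXY hX htors'

end General

/-! ### Integers and rationals under a valuation over `2` -/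

section TwoAdic

variable {K : Type*} [Field K] {Γ₀ : Type*} [LinearOrderedCommGroupWithZero Γ₀]
  (v : Valuation K Γ₀)

theorem val_int_le_one (n : ℤ) : v (n : K) ≤ 1 := NodeModel.v_intCast_le_one v n

variable {v}

theorem val_int_odd (hv : ∀ n : ℤ, v (n : K) < 1 ↔ (2 : ℤ) ∣ n) {n : ℤ} (hn : ¬ (2 : ℤ) ∣ n) :
    v (n : K) = 1 :=
  le_antisymm (val_int_le_one v n) (not_lt.mp fun h => hn ((hv n).mp h))

theorem val_two_lt_one (hv : ∀ n : ℤ, v (n : K) < 1 ↔ (2 : ℤ) ∣ n) : v (2 : K) < 1 := by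
  have := (hv 2).mpr dvd_rfl
  exact_mod_cast this

theorem val_nat_odd (hv : ∀ n : ℤ, v (n : K) < 1 ↔ (2 : ℤ) ∣ n) {n : ℕ} (hn : ¬ 2 ∣ n) :
    v (n : K) = 1 := by
  have h : ¬ (2 : ℤ) ∣ (n : ℤ) := by
    intro h
    exact hn (by exact_mod_cast h)
  have := val_int_odd hv h
  exact_mod_cast this

/-- The valuation of a nonzero integer is a power of `v 2`. -/
theorem val_int_eq_pow (hv : ∀ n : ℤ, v (n : K) < 1 ↔ (2 : ℤ) ∣ n) {n : ℤ} (hn : n ≠ 0) :
    ∃ k : ℕ, v (n : K) = v 2 ^ k ∧ (k = 0 ↔ ¬ (2 : ℤ) ∣ n) := by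
  have hfin : FiniteMultiplicity (2 : ℤ) n := Int.finiteMultiplicity_iff.2 ⟨by decide, hn⟩
  obtain ⟨c, hc, hndvd⟩ := hfin.exists_eq_pow_mul_and_not_dvd
  refine ⟨multiplicity (2 : ℤ) n, ?_, ?_⟩
  · conv_lhs => rw [hc]
    push_cast
    rw [map_mul, map_pow, val_int_odd hv hndvd, mul_one]
  · constructor
    · intro h0 hd
      rw [h0, pow_zero, one_mul] at hc
      rw [hc] at hd
      exact hndvd hd
    · intro hd
      by_contra h0
      apply hd
      rw [hc]
      exact Dvd.dvd.mul_right (dvd_pow_self 2 h0) c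

variable [CharZero K]

/-- The valuation of a nonzero rational is an integral power of `v 2`. -/
theorem val_rat_eq_zpow (hv : ∀ n : ℤ, v (n : K) < 1 ↔ (2 : ℤ) ∣ n) {x : ℚ} (hx : x ≠ 0) :
    ∃ m : ℤ, v (x : K) = v 2 ^ m := by
  obtain ⟨k, hk, -⟩ := val_int_eq_pow hv (Rat.num_ne_zero.mpr hx)
  obtain ⟨l, hl, -⟩ := val_int_eq_pow hv (n := (x.den : ℤ)) (by exact_mod_cast x.den_ne_zero)
  have h2 : v (2 : K) ≠ 0 := (Valuation.ne_zero_iff v).mpr two_ne_zero
  refine ⟨(k : ℤ) - l, ?_⟩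
  rw [Rat.cast_def, map_div₀, hk, zpow_sub₀ h2, zpow_natCast, zpow_natCast]
  congr 1
  exact_mod_cast hl

/-- A `v`-integral rational is congruent to `0` or `1`. -/
theorem val_rat_cases (hv : ∀ n : ℤ, v (n : K) < 1 ↔ (2 : ℤ) ∣ n) {x : ℚ} (hx : v (x : K) ≤ 1) :
    v (x : K) < 1 ∨ v ((x : K) - 1) < 1 := by
  have hden : ¬ (2 : ℤ) ∣ (x.den : ℤ) := by
    intro hd
    have hnum : ¬ (2 : ℤ) ∣ x.num := by
      intro hn
      have h1 : (2 : ℤ) ∣ Int.gcd x.num x.den := Int.dvd_coe_gcd hn hd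
      have h2 : Int.gcd x.num x.den = 1 := x.reduced
      rw [h2] at h1
      norm_num at h1
    have hvd : v ((x.den : ℤ) : K) < 1 := (hv _).mpr hd
    have hvn : v (x.num : K) = 1 := val_int_odd hv hnum
    have hd0 : v ((x.den : ℤ) : K) ≠ 0 := by
      rw [Valuation.ne_zero_iff]
      exact_mod_cast x.den_ne_zero
    have : 1 < v (x : K) := by
      rw [Rat.cast_def, map_div₀, hvn]
      have e : v (x.den : K) = v ((x.den : ℤ) : K) := by norm_cast
      rw [e, one_div]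
      exact (one_lt_inv₀ (zero_lt_iff.mpr hd0)).mpr hvd
    exact absurd hx (not_le.mpr this)
  have hvd : v (x.den : K) = 1 := by
    have := val_int_odd hv hden
    exact_mod_cast this
  by_cases hn : (2 : ℤ) ∣ x.num
  · left
    rw [Rat.cast_def, map_div₀, hvd, div_one]
    exact (hv _).mpr hn
  · right
    have hd0 : (x.den : K) ≠ 0 := by exact_mod_cast x.den_ne_zero
    have e : (x : K) - 1 = ((x.num - x.den : ℤ) : K) / (x.den : K) := by
      rw [Rat.cast_def]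
      push_cast
      field_simp
    rw [e, map_div₀, hvd, div_one]
    refine (hv _).mpr ?_
    omega

end TwoAdic

/-! ### The Frey curve at `2` -/

section FreyInt

variable (P : FreyPackage)

theorem two_dvd_b : (2 : ℤ) ∣ P.b := (ZMod.intCast_zmod_eq_zero_iff_dvd P.b 2).1 P.hb2

theorem four_dvd_a_add_one : (4 : ℤ) ∣ P.a + 1 := by
  have h : ((P.a + 1 : ℤ) : ZMod 4) = 0 := by
    push_cast
    rw [P.ha4]
    decide
  exact (ZMod.intCast_zmod_eq_zero_iff_dvd _ 4).1 h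

theorem not_two_dvd_a : ¬ (2 : ℤ) ∣ P.a := by
  have := four_dvd_a_add_one P
  omega

theorem not_two_dvd_a_pow : ¬ (2 : ℤ) ∣ P.a ^ P.p := fun h =>
  not_two_dvd_a P (Int.prime_two.dvd_of_dvd_pow h)

theorem thirtytwo_dvd_b_pow : (32 : ℤ) ∣ P.b ^ P.p := by
  obtain ⟨c, hc⟩ := two_dvd_b P
  rw [hc, mul_pow]
  have h : (2 : ℤ) ^ 5 ∣ 2 ^ P.p := pow_dvd_pow (2 : ℤ) P.hp5
  have e : (32 : ℤ) = 2 ^ 5 := by norm_num
  rw [e]
  exact Dvd.dvd.mul_right h _

theorem four_dvd_a₂_num : (4 : ℤ) ∣ P.b ^ P.p - 1 - P.a ^ P.p := by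
  have h1 : (4 : ℤ) ∣ P.a ^ P.p + 1 := by
    have := Odd.add_dvd_pow_add_pow P.a 1 P.hp_odd
    rw [one_pow] at this
    exact (four_dvd_a_add_one P).trans this
  have h2 : (4 : ℤ) ∣ P.b ^ P.p := Dvd.dvd.trans (by norm_num) (thirtytwo_dvd_b_pow P)
  have e : P.b ^ P.p - 1 - P.a ^ P.p = P.b ^ P.p - (P.a ^ P.p + 1) := by ring
  rw [e]
  exact dvd_sub h2 h1

end FreyInt

section Frey

variable (P : FreyPackage) {K : Type*} [Field K] [Algebra ℚ K] {Γ₀ : Type*}
  [LinearOrderedCommGroupWithZero Γ₀] (v : Valuation K Γ₀)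

open NodeModel in
/-- At `2`, `a₂` of the Frey curve is integral. -/
theorem frey2_a₂ : v (freyK P K).a₂ ≤ 1 := by
  have := algebraRat.charZero K
  obtain ⟨m, hm⟩ := four_dvd_a₂_num P
  have e : (freyK P K).a₂ = (m : K) := by
    rw [frey_a₂]
    have h4 : ((P.b : K) ^ P.p - 1 - (P.a : K) ^ P.p) = 4 * (m : K) := by
      have := congrArg (Int.cast : ℤ → K) hm
      push_cast at this
      exact this
    rw [h4]
    field_simp
  rw [e]
  exact val_int_le_one v m

variable {v}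

open NodeModel in
/-- At `2`, `b₂` of the Frey curve is a unit. -/
theorem frey2_b₂ (hv : ∀ n : ℤ, v (n : K) < 1 ↔ (2 : ℤ) ∣ n) : v (freyK P K).b₂ = 1 := by
  have e : (freyK P K).b₂ = ((P.b ^ P.p - P.a ^ P.p : ℤ) : K) := by
    rw [frey_b₂]; push_cast; ring
  rw [e]
  refine val_int_odd hv ?_
  intro h
  have h2 : (2 : ℤ) ∣ P.b ^ P.p := Dvd.dvd.trans (by norm_num) (thirtytwo_dvd_b_pow P)
  exact not_two_dvd_a_pow P ((Int.dvd_iff_dvd_of_dvd_sub h).mp h2)

open NodeModel in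
/-- `a₄` of the Frey curve is nonzero. -/
theorem frey2_a₄_ne_zero : (freyK P K).a₄ ≠ 0 := by
  have := algebraRat.charZero K
  rw [frey_a₄]
  have ha : (P.a : K) ≠ 0 := Int.cast_ne_zero.mpr P.ha0
  have hb : (P.b : K) ≠ 0 := Int.cast_ne_zero.mpr P.hb0
  have h16 : (16 : K) ≠ 0 := by norm_num
  exact div_ne_zero (neg_ne_zero.mpr (mul_ne_zero (pow_ne_zero _ ha) (pow_ne_zero _ hb))) h16

open NodeModel in
/-- At `2`, `a₄` of the Frey curve lies in the maximal ideal. -/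
theorem frey2_a₄ (hv : ∀ n : ℤ, v (n : K) < 1 ↔ (2 : ℤ) ∣ n) : v (freyK P K).a₄ < 1 := by
  have := algebraRat.charZero K
  obtain ⟨c, hc⟩ := thirtytwo_dvd_b_pow P
  have e : (freyK P K).a₄ = ((-(P.a ^ P.p) * (2 * c) : ℤ) : K) := by
    rw [frey_a₄]
    have hb : (P.b : K) ^ P.p = 32 * (c : K) := by
      have := congrArg (Int.cast : ℤ → K) hc
      push_cast at this
      exact this
    rw [hb]
    push_cast
    field_simp
    ring
  rw [e]
  exact (hv _).mpr (Dvd.dvd.mul_left (dvd_mul_right 2 c) _)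

end Frey

section FreyInertia

variable (P : FreyPackage) {K : Type*} [Field K] [DecidableEq K] [Algebra ℚ K]
  [Algebra.IsAlgebraic ℚ K] (A : ValuationSubring K)

omit [DecidableEq K] [Algebra ℚ K] [Algebra.IsAlgebraic ℚ K] in
/-- the valuation of a valuation subring over `2` detects even integers. -/
theorem val_intCast_lt_one_iff_two (hA : A.LiesOverPrime 2) (n : ℤ) :
    A.valuation (n : K) < 1 ↔ (2 : ℤ) ∣ n := by
  rw [← A.mem_nonunits_iff]
  exact InertiaAPI.intCast_mem_nonunits_iff Nat.prime_two hA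

/-- **Inertia at `2` is unipotent on the `p`-torsion of the Frey curve**: `(σ - 1)² T = 0` for
every `σ` in the inertia group of a valuation subring over `2` and every `p`-torsion point `T`. -/
theorem frey_inertia_unipotent (hA : A.LiesOverPrime 2) {σ : K ≃ₐ[ℚ] K}
    (hσ : σ ∈ A.inertiaSubgroupIn ℚ) (T : (P.freyCurve⁄K).Point) (hT : P.p • T = 0) :
    σ • (σ • T - T) = σ • T - T := by
  have hv := val_intCast_lt_one_iff_two A hA
  have h₁ : A.valuation (P.freyCurve⁄K).a₁ ≤ 1 := by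
    rw [NodeModel.frey_a₁ P K, map_one]
  have h₂ : A.valuation (P.freyCurve⁄K).a₂ ≤ 1 := frey2_a₂ P A.valuation
  have h₃ : (P.freyCurve⁄K).a₃ = 0 := NodeModel.frey_a₃ P K
  have h₆ : (P.freyCurve⁄K).a₆ = 0 := NodeModel.frey_a₆ P K
  have hb₂ : A.valuation (P.freyCurve⁄K).b₂ = 1 := frey2_b₂ P hv
  have h40 : (P.freyCurve⁄K).a₄ ≠ 0 := frey2_a₄_ne_zero P
  have h₄ : A.valuation (P.freyCurve⁄K).a₄ < 1 := frey2_a₄ P hv
  have hv2 : A.valuation (2 : K) < 1 := val_two_lt_one hv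
  have hp2 : ¬ 2 ∣ P.p := fun h => by
    have := P.hp_odd
    rw [← Nat.not_even_iff_odd] at this
    exact this (even_iff_two_dvd.mpr h)
  have hvp : A.valuation (P.p : K) = 1 := val_nat_odd hv hp2
  refine smul_smul_sub A hσ h₁ h₂ h₃ h₆ hb₂ h₄ hv2 P.pp P.hp5 hvp (fun {x y} h htors => ?_) T hT
  have hne2 : P.p ≠ 2 := by have := P.hp5; omega
  rcases Kap2.torsion_val2 (v := A.valuation) h₃ h₆ hb₂ h40 h₄ P.pp hne2
    (T := Point.some x y h) (by simp) htors with h1 | ⟨h1, h2, -⟩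
  · exact Or.inl h1
  · exact Or.inr ⟨h1, h2⟩

end FreyInertia

end Fermat.Agent.S13.Two
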