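import Mathlib
import Fermat.Prelude.Def_FLTPrelim_FreyPackage
import Fermat.Prelude.Def_FLTPrelim_GaloisRep
import Fermat.Prelude.Def_FLTPrelim_Ramification
import Fermat.Prelude.Def_FLTPrelim_CofixedLine
import Fermat.Agent.S05.KerRed
import Fermat.Agent.S13.FinLevel
import Fermat.Agent.S13.Minkowski
import Fermat.Agent.S13.LevelL
import Fermat.Agent.S13.Two
import Fermat.Agent.S13.RatTors
import Fermat.Agent.S13.SSDiv
import Fermat.Agent.S13.Torsion

/-!
# S13: assembly at a finite level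

`level_result`: let `L` be a number field, Galois over `ℚ`, containing the coordinates of the
`p`-torsion points of the Frey curve.  If the `p`-torsion `V` of the Frey curve over `L` is
reducible as a `Gal(L/ℚ)`-module, then it has a Galois-stable cofixed line.

Proof.  `V` has `p²` elements (`Torsion.frey_card_torsion` + `FinLevel.card_torsion_level`), so a
stable `N ≠ ⊥, ⊤` is a line.  Let `H₁` be the pointwise fixer of `N` and `H₂` the subgroup acting
trivially on `V / N`; both are normal.  For `q ≠ 2, p` the inertia groups at `q` act trivially on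
`V` (`LevelL.frey_smul_eq`); the inertia groups at `2` act unipotently
(`Two.frey_inertia_unipotent`), hence lie in `H₁ ⊓ H₂`; at `p` an inertia group `I` moves `V` by
the subgroup `V₁` of points in the kernel of reduction (`LevelL.frey_smul_sub_mem_kernel`), and
`V₁ ≠ V` (`SSDiv.frey_exists_not_inKer_of_card`), so `I ≤ H₁` or `I ≤ H₂`.  By Minkowski's theorem
(`Minkowski.eq_top_of_inertia_le`) `H₁ = ⊤` or `H₂ = ⊤`.  If `H₂ = ⊤` then `N` is a cofixed line.
If `H₁ = ⊤`, a generator of `N` is a rational point of order `p`, which does not exist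
(`RatTors.frey_no_rational_torsion`).
-/

set_option autoImplicit false

open WeierstrassCurve WeierstrassCurve.Affine WeierstrassCurve.Affine.Point
open Fermat.Agent.S05

namespace Fermat.Agent.S13.Assembly

/-! ## Linear algebra of a stable line in a plane over `𝔽_p` -/

section LinAlg

variable {p : ℕ} [Fact p.Prime] {V : Type*} [AddCommGroup V] [Module (ZMod p) V]
  {G : Type*} [Group G] [DistribMulAction G V]

/-- scalar multiplication by `ZMod p` commutes with an additive action. -/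
theorem smul_zmod_smul (σ : G) (a : ZMod p) (x : V) : σ • (a • x) = a • (σ • x) := by
  have hp0 : NeZero p := ⟨(Fact.out : p.Prime).ne_zero⟩
  have h : ∀ y : V, a • y = a.val • y := fun y => by
    rw [← Nat.cast_smul_eq_nsmul (ZMod p), ZMod.natCast_zmod_val]
  rw [h, h]
  exact map_nsmul (DistribSMul.toAddMonoidHom V σ) _ _

/-- an additive subgroup is stable under scalar multiplication by `ZMod p`. -/
theorem zmod_smul_mem (V1 : AddSubgroup V) (a : ZMod p) {x : V} (hx : x ∈ V1) :
    a • x ∈ V1 := by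
  have hp0 : NeZero p := ⟨(Fact.out : p.Prime).ne_zero⟩
  have h : a • x = a.val • x := by
    rw [← Nat.cast_smul_eq_nsmul (ZMod p), ZMod.natCast_zmod_val]
  rw [h]
  exact V1.nsmul_mem hx _

theorem finrank_eq_two (hV : Nat.card V = p ^ 2) : Module.finrank (ZMod p) V = 2 := by
  have hp : 1 < p := (Fact.out : p.Prime).one_lt
  have hfin : Finite V := by
    apply Nat.finite_of_card_ne_zero
    rw [hV]
    exact pow_ne_zero 2 (by omega)
  have : Module.Finite (ZMod p) V := Module.Finite.of_finite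
  have h := Module.natCard_eq_pow_finrank (K := ZMod p) (V := V)
  rw [Nat.card_zmod, hV] at h
  exact (Nat.pow_right_injective hp h).symm

/-- a proper nonzero subspace of a plane is a line. -/
theorem exists_generator (hV : Nat.card V = p ^ 2) {N : Submodule (ZMod p) V} (hN0 : N ≠ ⊥)
    (hN1 : N ≠ ⊤) : ∃ t ∈ N, t ≠ 0 ∧ ∀ x ∈ N, ∃ a : ZMod p, x = a • t := by
  have hp : 1 < p := (Fact.out : p.Prime).one_lt
  have hfin : Finite V := by
    apply Nat.finite_of_card_ne_zero
    rw [hV]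
    exact pow_ne_zero 2 (by omega)
  have : Module.Finite (ZMod p) V := Module.Finite.of_finite
  have h2 : Module.finrank (ZMod p) N < Module.finrank (ZMod p) V := Submodule.finrank_lt hN1
  have h3 : Module.finrank (ZMod p) N ≠ 0 := fun h0 => hN0 (Submodule.finrank_eq_zero.mp h0)
  have h4 : Module.finrank (ZMod p) N = 1 := by
    rw [finrank_eq_two hV] at h2
    omega
  obtain ⟨t, htN, ht0⟩ := Submodule.exists_mem_ne_zero_of_ne_bot hN0
  refine ⟨t, htN, ht0, fun x hx => ?_⟩
  have ht0' : (⟨t, htN⟩ : N) ≠ 0 := fun h => ht0 (congrArg Subtype.val h)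
  obtain ⟨c, hc⟩ := (finrank_eq_one_iff_of_nonzero' (⟨t, htN⟩ : N) ht0').mp h4 ⟨x, hx⟩
  exact ⟨c, (congrArg Subtype.val hc).symm⟩

/-- a line and a vector outside it span the plane. -/
theorem exists_decomp (hV : Nat.card V = p ^ 2) {N : Submodule (ZMod p) V} (hN0 : N ≠ ⊥)
    {y : V} (hy : y ∉ N) (z : V) : ∃ a : ZMod p, ∃ n ∈ N, z = a • y + n := by
  have hp : 1 < p := (Fact.out : p.Prime).one_lt
  have hfin : Finite V := by
    apply Nat.finite_of_card_ne_zero
    rw [hV]
    exact pow_ne_zero 2 (by omega)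
  have : Module.Finite (ZMod p) V := Module.Finite.of_finite
  have h3 : Module.finrank (ZMod p) N ≠ 0 := fun h0 => hN0 (Submodule.finrank_eq_zero.mp h0)
  have hlt : N < N ⊔ Submodule.span (ZMod p) {y} := by
    refine lt_of_le_of_ne le_sup_left fun h => hy ?_
    rw [h]
    exact Submodule.mem_sup_right (Submodule.mem_span_singleton_self y)
  have h5 := Submodule.finrank_lt_finrank_of_lt hlt
  have h6 : Module.finrank (ZMod p) ↥(N ⊔ Submodule.span (ZMod p) {y}) ≤
      Module.finrank (ZMod p) V := Submodule.finrank_le _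
  have htop : N ⊔ Submodule.span (ZMod p) {y} = ⊤ := by
    apply Submodule.eq_top_of_finrank_eq
    rw [finrank_eq_two hV] at h6 ⊢
    omega
  have hz : z ∈ N ⊔ Submodule.span (ZMod p) {y} := by rw [htop]; exact Submodule.mem_top
  obtain ⟨n, hn, w, hw, rfl⟩ := Submodule.mem_sup.mp hz
  obtain ⟨a, rfl⟩ := Submodule.mem_span_singleton.mp hw
  exact ⟨a, n, hn, add_comm _ _⟩

/-- the pointwise fixer of a `G`-stable subspace. -/
def fixN (N : Submodule (ZMod p) V) : Subgroup G where
  carrier := {σ | ∀ x ∈ N, σ • x = x}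
  mul_mem' := by
    intro σ τ hσ hτ x hx
    rw [mul_smul, hτ x hx, hσ x hx]
  one_mem' := fun x _ => one_smul G x
  inv_mem' := by
    intro σ hσ x hx
    conv_lhs => rw [← hσ x hx]
    rw [inv_smul_smul]

/-- the elements acting trivially modulo a `G`-stable subspace. -/
def cofixN (N : Submodule (ZMod p) V) (hN : ∀ σ : G, ∀ x ∈ N, σ • x ∈ N) : Subgroup G where
  carrier := {σ | ∀ x : V, σ • x - x ∈ N}
  mul_mem' := by
    intro σ τ hσ hτ x
    have e : (σ * τ) • x - x = σ • (τ • x - x) + (σ • x - x) := by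
      rw [mul_smul, smul_sub]; abel
    rw [e]
    exact N.add_mem (hN σ _ (hτ x)) (hσ x)
  one_mem' := fun x => by rw [one_smul, sub_self]; exact N.zero_mem
  inv_mem' := by
    intro σ hσ x
    have e : σ⁻¹ • x - x = -(σ⁻¹ • (σ • x - x)) := by
      rw [smul_sub, inv_smul_smul]; abel
    rw [e]
    exact N.neg_mem (hN σ⁻¹ _ (hσ x))

theorem mem_fixN {N : Submodule (ZMod p) V} {σ : G} :
    σ ∈ fixN (G := G) N ↔ ∀ x ∈ N, σ • x = x := Iff.rfl

theorem mem_cofixN {N : Submodule (ZMod p) V} {hN : ∀ σ : G, ∀ x ∈ N, σ • x ∈ N} {σ : G} :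
    σ ∈ cofixN N hN ↔ ∀ x : V, σ • x - x ∈ N := Iff.rfl

theorem fixN_normal (N : Submodule (ZMod p) V) (hN : ∀ σ : G, ∀ x ∈ N, σ • x ∈ N) :
    (fixN (G := G) N).Normal := by
  refine ⟨fun σ hσ τ x hx => ?_⟩
  rw [mul_smul, mul_smul, hσ _ (hN τ⁻¹ x hx), smul_inv_smul]

theorem cofixN_normal (N : Submodule (ZMod p) V) (hN : ∀ σ : G, ∀ x ∈ N, σ • x ∈ N) :
    (cofixN N hN).Normal := by
  refine ⟨fun σ hσ τ x => ?_⟩
  have e : (τ * σ * τ⁻¹) • x - x = τ • (σ • (τ⁻¹ • x) - τ⁻¹ • x) := by
    rw [mul_smul, mul_smul, smul_sub, smul_inv_smul]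
  rw [e]
  exact hN τ _ (hσ _)

/-- a unipotent element acts trivially on a stable line and on the quotient by it. -/
theorem unipotent_mem (hV : Nat.card V = p ^ 2) {N : Submodule (ZMod p) V}
    (hN : ∀ σ : G, ∀ x ∈ N, σ • x ∈ N) (hN0 : N ≠ ⊥) (hN1 : N ≠ ⊤) {σ : G}
    (h : ∀ x : V, σ • (σ • x - x) = σ • x - x) : σ ∈ fixN (G := G) N ∧ σ ∈ cofixN N hN := by
  -- `f x := σ • x - x` satisfies `f (f x) = 0`
  have hff : ∀ x : V, σ • (σ • x - x) - (σ • x - x) = 0 := fun x => by rw [h x, sub_self]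
  have hfsmul : ∀ (a : ZMod p) (x : V), σ • (a • x) - a • x = a • (σ • x - x) := fun a x => by
    rw [smul_zmod_smul, smul_sub]
  obtain ⟨t, htN, ht0, hgen⟩ := exists_generator hV hN0 hN1
  -- on `N`
  have hfix : ∀ x ∈ N, σ • x = x := by
    obtain ⟨c, hc⟩ := hgen _ (N.sub_mem (hN σ t htN) htN)
    have h1 := hff t
    rw [hc, hfsmul, hc, smul_smul] at h1
    have hc0 : c = 0 := by
      rcases smul_eq_zero.mp h1 with h2 | h2
      · exact mul_self_eq_zero.mp h2
      · exact absurd h2 ht0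
    have ht : σ • t = t := by
      rw [hc0, zero_smul] at hc
      exact sub_eq_zero.mp hc
    intro x hx
    obtain ⟨a, rfl⟩ := hgen x hx
    rw [smul_zmod_smul, ht]
  refine ⟨hfix, fun x => ?_⟩
  by_cases hx : x ∈ N
  · rw [hfix x hx, sub_self]; exact N.zero_mem
  · obtain ⟨a, n, hn, hdec⟩ := exists_decomp hV hN0 hx (σ • x - x)
    have h1 := hff x
    have e : σ • (a • x + n) - (a • x + n) = a • (σ • x - x) := by
      rw [smul_add, hfix n hn, add_sub_add_right_eq_sub, hfsmul]
    rw [hdec, e, hdec, smul_add, smul_smul] at h1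
    -- `(a * a) • x ∈ N`, so `a = 0`
    have ha : a = 0 := by
      by_contra ha
      apply hx
      have h2 : (a * a) • x = -(a • n) := eq_neg_of_add_eq_zero_left h1
      have h3 : (a * a) • x ∈ N := by rw [h2]; exact N.neg_mem (N.smul_mem a hn)
      have h4 := N.smul_mem (a * a)⁻¹ h3
      rwa [smul_smul, inv_mul_cancel₀ (mul_ne_zero ha ha), one_smul] at h4
    rw [hdec, ha, zero_smul, zero_add]
    exact hn

/-- the case distinction at `p`: a group moving `V` by a proper additive subgroup `V₁` fixes the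
stable line `N` pointwise or acts trivially on `V / N`. -/
theorem split (hV : Nat.card V = p ^ 2) {N : Submodule (ZMod p) V}
    (hN : ∀ σ : G, ∀ x ∈ N, σ • x ∈ N) (hN0 : N ≠ ⊥) (hN1 : N ≠ ⊤)
    (V1 : AddSubgroup V) (hV1 : ∃ x : V, x ∉ V1) (I : Subgroup G)
    (hI : ∀ σ ∈ I, ∀ x : V, σ • x - x ∈ V1) : I ≤ fixN (G := G) N ∨ I ≤ cofixN N hN := by
  by_cases hcap : ∀ x ∈ N, x ∈ V1 → x = 0
  · left
    intro σ hσ x hx
    exact sub_eq_zero.mp (hcap _ (N.sub_mem (hN σ x hx) hx) (hI σ hσ x))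
  · right
    obtain ⟨s, hsN, hsV1, hs0⟩ : ∃ s ∈ N, s ∈ V1 ∧ s ≠ 0 := by
      by_contra hcon
      exact hcap fun x hx hx1 => by
        by_contra hx0
        exact hcon ⟨x, hx, hx1, hx0⟩
    obtain ⟨t, htN, ht0, hgen⟩ := exists_generator hV hN0 hN1
    -- `N ⊆ V₁`
    have hNV1 : ∀ x ∈ N, x ∈ V1 := by
      obtain ⟨c, rfl⟩ := hgen s hsN
      have hc0 : c ≠ 0 := fun h => hs0 (by rw [h, zero_smul])
      have ht1 : t ∈ V1 := by
        have := zmod_smul_mem V1 c⁻¹ hsV1
        rwa [smul_smul, inv_mul_cancel₀ hc0, one_smul] at this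
      intro x hx
      obtain ⟨a, rfl⟩ := hgen x hx
      exact zmod_smul_mem V1 a ht1
    -- `V₁ ⊆ N`
    have hV1N : ∀ y ∈ V1, y ∈ N := by
      intro y hy
      by_contra hyN
      obtain ⟨x, hx⟩ := hV1
      obtain ⟨a, n, hn, rfl⟩ := exists_decomp hV hN0 hyN x
      exact hx (V1.add_mem (zmod_smul_mem V1 a hy) (hNV1 n hn))
    intro σ hσ x
    exact hV1N _ (hI σ hσ x)

end LinAlg

/-! ## Galois descent of a point -/

section Descent

/-- A point fixed by the Galois group of a finite Galois extension `L/F` is defined over `F`. -/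
theorem exists_rat_point {F L : Type*} [Field F] [Field L] [Algebra F L] [DecidableEq F]
    [DecidableEq L] [FiniteDimensional F L] [IsGalois F L] (W' : WeierstrassCurve.Affine F)
    (T : (W'⁄L).Point) (hT : ∀ σ : L ≃ₐ[F] L, σ • T = T) :
    ∃ T0 : (W'⁄F).Point, Point.map (W' := W') (Algebra.ofId F L) T0 = T := by
  rcases T with _ | ⟨x, y, h⟩
  · exact ⟨0, rfl⟩
  · have hx : ∀ σ : L ≃ₐ[F] L, σ x = x := fun σ => by
      have h1 := hT σ
      exact (Point.some.inj h1).1
    have hy : ∀ σ : L ≃ₐ[F] L, σ y = y := fun σ => by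
      have h1 := hT σ
      exact (Point.some.inj h1).2
    obtain ⟨x0, rfl⟩ := IntermediateField.mem_bot.mp ((IsGalois.mem_bot_iff_fixed x).mpr hx)
    obtain ⟨y0, rfl⟩ := IntermediateField.mem_bot.mp ((IsGalois.mem_bot_iff_fixed y).mpr hy)
    have h0 : (W'⁄F).Nonsingular x0 y0 :=
      (W'.baseChange_nonsingular (f := Algebra.ofId F L) (Algebra.ofId F L).injective x0 y0).mp h
    exact ⟨Point.some x0 y0 h0, rfl⟩

end Descent

/-! ## The theorem at a finite level -/

/-- **S13 at a finite level.**  Let `L` be a number field, Galois over `ℚ`, embedded in `ℚ̄` and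
containing the coordinates of the `p`-torsion points of the Frey curve.  If the `p`-torsion of the
Frey curve over `L` is reducible, it has a Galois-stable cofixed line. -/
theorem level_result (P : FreyPackage) (L : Type) [Field L] [NumberField L] [IsGalois ℚ L]
    [DecidableEq L] [Algebra L (AlgebraicClosure ℚ)] [IsScalarTower ℚ L (AlgebraicClosure ℚ)]
    (hL : FinLevel.Contains L (Ω := AlgebraicClosure ℚ) P.freyCurve P.p)
    (hred : ¬ GaloisRepIsIrreducible (K := L) ℚ P.freyCurve P.p) :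
    HasGaloisStableCofixedLine (K := L) ℚ P.freyCurve P.p := by
  have : Fact P.p.Prime := ⟨P.pp⟩
  have hp2 : P.p ≠ 2 := by have := P.hp5; omega
  have hcard : Nat.card (Submodule.torsionBy ℤ (P.freyCurve⁄L).Point P.p) = P.p ^ 2 :=
    (FinLevel.card_torsion_level hL).trans (Torsion.frey_card_torsion P (AlgebraicClosure ℚ))
  -- a stable line
  have hnt : Nontrivial (Submodule.torsionBy ℤ (P.freyCurve⁄L).Point P.p) := by
    have hfin : Finite (Submodule.torsionBy ℤ (P.freyCurve⁄L).Point P.p) := by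
      apply Nat.finite_of_card_ne_zero
      rw [hcard]
      exact pow_ne_zero 2 P.hp0
    rw [← Finite.one_lt_card_iff_nontrivial, hcard]
    exact Nat.one_lt_pow (by norm_num) P.pp.one_lt
  have hexN : ∃ N : Submodule (ZMod P.p) (Submodule.torsionBy ℤ (P.freyCurve⁄L).Point P.p),
      IsGaloisStable ℚ N ∧ N ≠ ⊥ ∧ N ≠ ⊤ := by
    by_contra hcon
    refine hred ⟨hnt, fun N hN => ?_⟩
    by_contra h
    exact hcon ⟨N, hN, fun h0 => h (Or.inl h0), fun h1 => h (Or.inr h1)⟩
  obtain ⟨N, hNst, hN0, hN1⟩ := hexN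
  have hNst' : ∀ σ : L ≃ₐ[ℚ] L, ∀ x ∈ N, σ • x ∈ N := hNst
  have htors : ∀ x : Submodule.torsionBy ℤ (P.freyCurve⁄L).Point P.p,
      P.p • (x.1 : (P.freyCurve⁄L).Point) = 0 := fun x => by
    have := (Submodule.mem_torsionBy_iff _ _).mp x.2
    rwa [natCast_zsmul] at this
  -- inertia at `q ≠ 2, p`
  have hodd : ∀ q : ℕ, q.Prime → q ≠ 2 → q ≠ P.p → ∀ A : ValuationSubring L, A.LiesOverPrime q →
      A.inertiaSubgroupIn ℚ ≤ fixN N ⊓ cofixN N hNst' := by
    intro q hq hq2 hqp A hA σ hσ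
    have hfix : ∀ x : Submodule.torsionBy ℤ (P.freyCurve⁄L).Point P.p, σ • x = x := fun x =>
      Subtype.ext (LevelL.frey_smul_eq P A hq hq2 hqp hA hσ x.1 (htors x))
    refine ⟨fun x _ => hfix x, fun x => ?_⟩
    rw [hfix x, sub_self]
    exact N.zero_mem
  -- inertia at `2`
  have htwo : ∀ A : ValuationSubring L, A.LiesOverPrime 2 →
      A.inertiaSubgroupIn ℚ ≤ fixN N ⊓ cofixN N hNst' := by
    intro A hA σ hσ
    refine unipotent_mem hcard hNst' hN0 hN1 fun x => ?_
    exact Subtype.ext (Two.frey_inertia_unipotent P A hA hσ x.1 (htors x))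
  -- inertia at `p`
  obtain ⟨Ap, hAp⟩ := Minkowski.exists_liesOverPrime L P.pp
  have hW := LevelL.frey_intCoeffs P Ap P.pp hp2 hAp
  let V1 : AddSubgroup (Submodule.torsionBy ℤ (P.freyCurve⁄L).Point P.p) :=
    { carrier := {x | x.1 = 0 ∨ KerRed.InKer Ap.valuation (P.freyCurve⁄L) x.1}
      zero_mem' := Or.inl rfl
      add_mem' := by
        rintro ⟨x, hx⟩ ⟨y, hy⟩ (h1 | h1) (h2 | h2)
        · left; show x + y = 0; rw [show x = 0 from h1, show y = 0 from h2, add_zero]
        · right; show KerRed.InKer _ _ (x + y); rw [show x = 0 from h1, zero_add]; exact h2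
        · right; show KerRed.InKer _ _ (x + y); rw [show y = 0 from h2, add_zero]; exact h1
        · exact KerRed.InKer.add hW h1 h2
      neg_mem' := by
        rintro ⟨x, hx⟩ (h1 | h1)
        · left; show -x = 0; rw [show x = 0 from h1, _root_.neg_zero]
        · right; exact KerRed.InKer.neg h1 }
  have hV1 : ∃ x : Submodule.torsionBy ℤ (P.freyCurve⁄L).Point P.p, x ∉ V1 := by
    obtain ⟨T, hT0, hTk⟩ := SSDiv.frey_exists_not_inKer_of_card P Ap hAp hcard N hNst hN0 hN1
    refine ⟨T, ?_⟩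
    rintro (h | h)
    · exact hT0 (Subtype.ext h)
    · exact hTk h
  have hpI : ∀ σ ∈ Ap.inertiaSubgroupIn ℚ,
      ∀ x : Submodule.torsionBy ℤ (P.freyCurve⁄L).Point P.p, σ • x - x ∈ V1 := fun σ hσ x =>
    LevelL.frey_smul_sub_mem_kernel P Ap P.pp hp2 hAp hσ x.1 (htors x)
  have hsplit := split hcard hNst' hN0 hN1 V1 hV1 (Ap.inertiaSubgroupIn ℚ) hpI
  -- Minkowski
  have hmink : ∀ H : Subgroup (L ≃ₐ[ℚ] L), H.Normal →
      fixN N ⊓ cofixN N hNst' ≤ H → Ap.inertiaSubgroupIn ℚ ≤ H → H = ⊤ := by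
    intro H hHn hH hHp
    refine Minkowski.eq_top_of_inertia_le H fun q hq => ?_
    by_cases hqp : q = P.p
    · subst hqp
      exact ⟨Ap, hAp, hHp⟩
    · obtain ⟨A, hA⟩ := Minkowski.exists_liesOverPrime L hq
      refine ⟨A, hA, ?_⟩
      by_cases hq2 : q = 2
      · subst hq2
        exact (htwo A hA).trans hH
      · exact (hodd q hq hq2 hqp A hA).trans hH
  rcases hsplit with hI | hI
  · -- `N` is fixed pointwise: a rational point of order `p`
    exfalso
    have htop := hmink _ (fixN_normal N hNst') inf_le_left hI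
    obtain ⟨x, hxN, hx0⟩ := (Submodule.ne_bot_iff N).mp hN0
    have hfix : ∀ σ : L ≃ₐ[ℚ] L, σ • x = x := fun σ =>
      (mem_fixN.mp (htop ▸ Subgroup.mem_top σ)) x hxN
    have hfix' : ∀ σ : L ≃ₐ[ℚ] L, σ • (x.1 : (P.freyCurve⁄L).Point) = x.1 := fun σ =>
      congrArg Subtype.val (hfix σ)
    obtain ⟨T0, hT0⟩ := exists_rat_point P.freyCurve x.1 hfix'
    refine RatTors.frey_no_rational_torsion P T0 ?_ ?_
    · rintro rfl
      exact hx0 (Subtype.ext hT0.symm)
    · apply Point.map_injective (W' := P.freyCurve) (Algebra.ofId ℚ L)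
      rw [map_nsmul, hT0, htors x, _root_.map_zero]
  · -- `N` is cofixed
    have htop := hmink _ (cofixN_normal N hNst') inf_le_right hI
    exact ⟨N, hNst, hN0, hN1, fun σ x => mem_cofixN.mp (htop ▸ Subgroup.mem_top σ) x⟩

end Fermat.Agent.S13.Assembly
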