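import Mathlib
import Fermat.Prelude.Def_FLTPrelim_GaloisRep
import Fermat.Prelude.Def_FLTPrelim_FreyPackage
import Fermat.Agent.S13.RatTors

/-!
# Galois descent of points (S13, T13c)

A point of a Weierstrass curve over a Galois extension `L / F` which is fixed by every
element of `Gal(L/F)` (frozen action `σ • T = Point.map σ.toAlgHom T`) is the base change of a
point over `F`.  Together with transfer lemmas for `≠ 0` and for torsion.

Consequence for the Frey curve (with `RatTors.frey_no_rational_torsion`): over any Galois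
extension `L / ℚ`, no nonzero `p`-torsion point is fixed by the whole Galois group
(`frey_exists_smul_ne`), i.e. a Galois-stable line is never pointwise fixed.
-/

set_option autoImplicit false

open WeierstrassCurve WeierstrassCurve.Affine WeierstrassCurve.Affine.Point

namespace Fermat.Agent.S13.Descent

variable {R F L : Type*} [CommRing R] [Field F] [Field L] [Algebra R F] [Algebra R L]
  [Algebra F L] [IsScalarTower R F L] [DecidableEq F] [DecidableEq L]

omit [DecidableEq F] in
/-- The frozen Galois action on an affine point, in coordinates. -/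
theorem smul_some (W' : Affine R) (σ : L ≃ₐ[F] L) {x y : L} (h : (W'⁄L).Nonsingular x y) :
    ∃ h' : (W'⁄L).Nonsingular (σ x) (σ y),
      σ • (Point.some x y h : (W'⁄L).Point) = Point.some (σ x) (σ y) h' :=
  ⟨_, rfl⟩

/-- **Galois descent of points.**  A point over `L` fixed by `Gal(L/F)` comes from `F`. -/
theorem exists_map_of_fixed [IsGalois F L] (W' : Affine R) (T : (W'⁄L).Point)
    (hT : ∀ σ : L ≃ₐ[F] L, σ • T = T) :
    ∃ T0 : (W'⁄F).Point, Point.map (W' := W') (Algebra.ofId F L) T0 = T := by
  rcases T with _ | ⟨x, y, h⟩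
  · exact ⟨0, rfl⟩
  · have hx : ∀ σ : L ≃ₐ[F] L, σ x = x := fun σ => by
      obtain ⟨h', e⟩ := smul_some W' σ h
      have := (hT σ)
      rw [e] at this
      exact (Point.some.inj this).1
    have hy : ∀ σ : L ≃ₐ[F] L, σ y = y := fun σ => by
      obtain ⟨h', e⟩ := smul_some W' σ h
      have := (hT σ)
      rw [e] at this
      exact (Point.some.inj this).2
    obtain ⟨x0, rfl⟩ := (InfiniteGalois.mem_range_algebraMap_iff_fixed (k := F) x).2 hx
    obtain ⟨y0, rfl⟩ := (InfiniteGalois.mem_range_algebraMap_iff_fixed (k := F) y).2 hy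
    have h0 : (W'⁄F).Nonsingular x0 y0 :=
      (W'.baseChange_nonsingular (Algebra.ofId F L).injective x0 y0).1 h
    exact ⟨Point.some x0 y0 h0, rfl⟩

/-- `exists_map_of_fixed` in the exact shape of the S13-B skeleton (base ring `= F`; the
finite-dimensionality hypothesis is not used). -/
theorem exists_rat_point {F L : Type*} [Field F] [Field L] [Algebra F L] [DecidableEq F]
    [DecidableEq L] [FiniteDimensional F L] [IsGalois F L] (W' : WeierstrassCurve.Affine F)
    (T : (W'⁄L).Point) (hT : ∀ σ : L ≃ₐ[F] L, σ • T = T) :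
    ∃ T0 : (W'⁄F).Point, Point.map (W' := W') (Algebra.ofId F L) T0 = T :=
  exists_map_of_fixed W' T hT

/-- Base change of points is injective: transfer of `≠ 0`. -/
theorem map_ne_zero_iff (W' : Affine R) (T0 : (W'⁄F).Point) :
    Point.map (W' := W') (Algebra.ofId F L) T0 ≠ 0 ↔ T0 ≠ 0 := by
  rw [← Point.map_zero (W' := W') (Algebra.ofId F L)]
  exact (Point.map_injective (W' := W') (Algebra.ofId F L)).ne_iff

/-- Transfer of torsion along base change. -/
theorem nsmul_map_eq_zero_iff (W' : Affine R) (n : ℕ) (T0 : (W'⁄F).Point) :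
    n • Point.map (W' := W') (Algebra.ofId F L) T0 = 0 ↔ n • T0 = 0 := by
  rw [← map_nsmul, ← Point.map_zero (W' := W') (Algebra.ofId F L)]
  exact (Point.map_injective (W' := W') (Algebra.ofId F L)).eq_iff

/-- Transfer of torsion along base change (`ℤ`-multiples). -/
theorem zsmul_map_eq_zero_iff (W' : Affine R) (n : ℤ) (T0 : (W'⁄F).Point) :
    n • Point.map (W' := W') (Algebra.ofId F L) T0 = 0 ↔ n • T0 = 0 := by
  rw [← map_zsmul, ← Point.map_zero (W' := W') (Algebra.ofId F L)]
  exact (Point.map_injective (W' := W') (Algebra.ofId F L)).eq_iff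

/-- **Descent of a fixed torsion point**: a nonzero `n`-torsion point over `L` fixed by
`Gal(L/F)` gives a nonzero `n`-torsion point over `F`. -/
theorem exists_rational_torsion_of_fixed [IsGalois F L] (W' : Affine R) (n : ℕ)
    (T : (W'⁄L).Point) (hT0 : T ≠ 0) (hnT : n • T = 0)
    (hT : ∀ σ : L ≃ₐ[F] L, σ • T = T) :
    ∃ T0 : (W'⁄F).Point, T0 ≠ 0 ∧ n • T0 = 0 := by
  obtain ⟨T0, rfl⟩ := exists_map_of_fixed W' T hT
  exact ⟨T0, (map_ne_zero_iff W' T0).1 hT0, (nsmul_map_eq_zero_iff W' n T0).1 hnT⟩

/-- The same for an element of the frozen torsion submodule. -/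
theorem exists_rational_torsion_of_fixed' [IsGalois F L] (W' : Affine R) (n : ℕ)
    (T : Submodule.torsionBy ℤ (W'⁄L).Point n) (hT0 : T ≠ 0)
    (hT : ∀ σ : L ≃ₐ[F] L, σ • T = T) :
    ∃ T0 : (W'⁄F).Point, T0 ≠ 0 ∧ n • T0 = 0 := by
  refine exists_rational_torsion_of_fixed W' n (T : (W'⁄L).Point) ?_ ?_ ?_
  · exact fun h => hT0 (Subtype.ext h)
  · have := T.2
    rw [Submodule.mem_torsionBy_iff] at this
    exact_mod_cast this
  · intro σ
    exact congrArg Subtype.val (hT σ)

/-- `ℚ̄ / ℚ` is Galois, for the `Algebra ℚ (AlgebraicClosure ℚ)` instance found by instance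
resolution (the one used by the frozen statements). -/
theorem isGalois_algebraicClosure_rat : IsGalois ℚ (AlgebraicClosure ℚ) := by
  have h : (DivisionRing.toRatAlgebra : Algebra ℚ (AlgebraicClosure ℚ)) =
      AlgebraicClosure.instAlgebra ℚ := Subsingleton.elim _ _
  rw [h]; infer_instance

/-- Descent of a fixed torsion point from `ℚ̄` to `ℚ` (frozen instances). -/
theorem exists_rational_torsion_of_fixed_algebraicClosure (W' : Affine ℚ) (n : ℕ)
    (T : Submodule.torsionBy ℤ (W'⁄(AlgebraicClosure ℚ)).Point n) (hT0 : T ≠ 0)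
    (hT : ∀ σ : AlgebraicClosure ℚ ≃ₐ[ℚ] AlgebraicClosure ℚ, σ • T = T) :
    ∃ T0 : (W'⁄ℚ).Point, T0 ≠ 0 ∧ n • T0 = 0 :=
  haveI := isGalois_algebraicClosure_rat
  exists_rational_torsion_of_fixed' W' n T hT0 hT

/-! ### The Frey curve: no Galois-fixed point of order `p` -/

/-- Over a Galois extension `L / ℚ`, a nonzero `p`-torsion point of the Frey curve is moved by
some element of the Galois group (point form). -/
theorem frey_exists_smul_ne_point (P : FreyPackage) {L : Type*} [Field L] [Algebra ℚ L]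
    [IsGalois ℚ L] [DecidableEq L] (T : (P.freyCurve⁄L).Point) (hT0 : T ≠ 0)
    (hpT : P.p • T = 0) : ∃ σ : L ≃ₐ[ℚ] L, σ • T ≠ T := by
  by_contra hcon
  push Not at hcon
  obtain ⟨T0, hT0', hpT0⟩ := exists_rational_torsion_of_fixed (F := ℚ) (L := L)
    P.freyCurve P.p T hT0 hpT hcon
  exact RatTors.frey_no_rational_torsion P T0 hT0' hpT0

/-- Over a Galois extension `L / ℚ`, a nonzero element of the `p`-torsion module of the Frey
curve is moved by some element of the Galois group (frozen torsion-module form). -/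
theorem frey_exists_smul_ne (P : FreyPackage) {L : Type*} [Field L] [Algebra ℚ L]
    [IsGalois ℚ L] [DecidableEq L] (T : Submodule.torsionBy ℤ (P.freyCurve⁄L).Point P.p)
    (hT0 : T ≠ 0) : ∃ σ : L ≃ₐ[ℚ] L, σ • T ≠ T := by
  by_contra hcon
  push Not at hcon
  obtain ⟨T0, hT0', hpT0⟩ := exists_rational_torsion_of_fixed' (F := ℚ) (L := L)
    P.freyCurve P.p T hT0 hcon
  exact RatTors.frey_no_rational_torsion P T0 hT0' hpT0

/-- The same over `ℚ̄` with the instances of the frozen statements. -/
theorem frey_exists_smul_ne_algebraicClosure (P : FreyPackage)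
    (T : Submodule.torsionBy ℤ (P.freyCurve⁄(AlgebraicClosure ℚ)).Point P.p) (hT0 : T ≠ 0) :
    ∃ σ : AlgebraicClosure ℚ ≃ₐ[ℚ] AlgebraicClosure ℚ, σ • T ≠ T :=
  haveI := isGalois_algebraicClosure_rat
  frey_exists_smul_ne P T hT0

end Fermat.Agent.S13.Descent
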