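import Mathlib
import Fermat.Agent.S05.XPair

/-!
# Multiplication by `n` on a Weierstrass curve via Mathlib's division polynomials

Everything downstream of the "pointwise chain" (`ChainHyp`): from the multiplication formula at
points where no `ΨSq k` vanishes we deduce, by density, two polynomial identities and then the
multiplication formula at every point.
-/

set_option autoImplicit false

namespace Fermat.Agent.S13.DivAll

open WeierstrassCurve Polynomial
open Fermat.Agent.S05

variable {K : Type*} [Field K]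

/-- `Φ_n` with a natural index. -/
noncomputable def Ph (W : WeierstrassCurve K) (n : ℕ) : K[X] := W.Φ (n : ℤ)

/-- `ΨSq_n` with a natural index. -/
noncomputable def Ps (W : WeierstrassCurve K) (n : ℕ) : K[X] := W.ΨSq (n : ℤ)

/-- value of `Φ_n` at `x`. -/
noncomputable def fv (W : WeierstrassCurve K) (x : K) (n : ℕ) : K := (Ph W n).eval x

/-- value of `ΨSq_n` at `x`. -/
noncomputable def gv (W : WeierstrassCurve K) (x : K) (n : ℕ) : K := (Ps W n).eval x

theorem Ph_zero (W : WeierstrassCurve K) : Ph W 0 = 1 := by simp [Ph]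
theorem Ph_one (W : WeierstrassCurve K) : Ph W 1 = X := by simp [Ph]
theorem Ps_zero (W : WeierstrassCurve K) : Ps W 0 = 0 := by simp [Ps]
theorem Ps_one (W : WeierstrassCurve K) : Ps W 1 = 1 := by simp [Ps]

theorem fv_zero (W : WeierstrassCurve K) (x : K) : fv W x 0 = 1 := by simp [fv, Ph_zero]
theorem fv_one (W : WeierstrassCurve K) (x : K) : fv W x 1 = x := by simp [fv, Ph_one]
theorem gv_zero (W : WeierstrassCurve K) (x : K) : gv W x 0 = 0 := by simp [gv, Ps_zero]
theorem gv_one (W : WeierstrassCurve K) (x : K) : gv W x 1 = 1 := by simp [gv, Ps_one]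

/-- **(I0)**: `ΨSq_{m+2} ΨSq_m = (Φ_{m+1} - X ΨSq_{m+1})²`, Mathlib's definition of `Φ`. -/
theorem I0 (W : WeierstrassCurve K) (m : ℕ) :
    Ps W (m + 2) * Ps W m = (Ph W (m + 1) - X * Ps W (m + 1)) ^ 2 := by
  simp only [Ph, Ps, WeierstrassCurve.Φ, WeierstrassCurve.ΨSq]
  have e1 : ((m + 1 : ℕ) : ℤ) + 1 = ((m + 2 : ℕ) : ℤ) := by push_cast; ring
  have e2 : ((m + 1 : ℕ) : ℤ) - 1 = (m : ℤ) := by push_cast; ring
  rw [e1, e2]
  rcases Nat.even_or_odd m with hm | hm
  · have h1 : ¬ Even ((m + 1 : ℕ) : ℤ) := by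
      rw [Int.even_coe_nat]; exact Nat.not_even_iff_odd.mpr hm.add_one
    have h2 : Even ((m + 2 : ℕ) : ℤ) := by
      rw [Int.even_coe_nat]; exact hm.add (by decide)
    have h0 : Even (m : ℤ) := by rw [Int.even_coe_nat]; exact hm
    simp only [h1, h2, h0, if_true, if_false]
    ring
  · have h1 : Even ((m + 1 : ℕ) : ℤ) := by
      rw [Int.even_coe_nat]; exact hm.add_one
    have h2 : ¬ Even ((m + 2 : ℕ) : ℤ) := by
      rw [Int.even_coe_nat]; exact Nat.not_even_iff_odd.mpr (hm.add_even (by decide))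
    have h0 : ¬ Even (m : ℤ) := by rw [Int.even_coe_nat]; exact Nat.not_even_iff_odd.mpr hm
    simp only [h1, h2, h0, if_true, if_false]
    ring

theorem I0_eval (W : WeierstrassCurve K) (x : K) (m : ℕ) :
    gv W x (m + 2) * gv W x m = (fv W x (m + 1) - x * gv W x (m + 1)) ^ 2 := by
  have := congrArg (Polynomial.eval x) (I0 W m)
  simpa [gv, fv] using this

/-! ### Homogenised pair formulas -/

/-- homogenised numerator of the sum formula. -/
def sumH (W : WeierstrassCurve K) (f g t : K) : K :=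
  2 * f * t * (f + t * g) + W.b₂ * f * t * g + W.b₄ * (f + t * g) * g + W.b₆ * g ^ 2

/-- homogenised numerator of the product formula. -/
def prodH (W : WeierstrassCurve K) (f g t : K) : K :=
  f ^ 2 * t ^ 2 - W.b₄ * f * t * g - W.b₆ * (f + t * g) * g - W.b₈ * g ^ 2

theorem sumH_eq (W : WeierstrassCurve K) (u g t : K) :
    sumH W (u * g) g t = g ^ 2 * XPair.sumNum W u t := by
  simp only [sumH, XPair.sumNum]; ring

theorem prodH_eq (W : WeierstrassCurve K) (u g t : K) :
    prodH W (u * g) g t = g ^ 2 * XPair.prodNum W u t := by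
  simp only [prodH, XPair.prodNum]; ring

theorem sumH_zero (W : WeierstrassCurve K) (f t : K) : sumH W f 0 t = 2 * t * f ^ 2 := by
  simp only [sumH]; ring

theorem sumH_self (W : WeierstrassCurve K) (g t : K) :
    sumH W (t * g) g t = g ^ 2 * XPair.dblDen W t := by
  rw [sumH_eq, XPair.sumNum_self]

theorem prodH_self (W : WeierstrassCurve K) (g t : K) :
    prodH W (t * g) g t = g ^ 2 * XPair.dblNum W t := by
  rw [prodH_eq, XPair.prodNum_self]

/-- the polynomial version of `sumH` at index `n`. -/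
noncomputable def sumHP (W : WeierstrassCurve K) (n : ℕ) : K[X] :=
  2 * Ph W n * X * (Ph W n + X * Ps W n) + C W.b₂ * Ph W n * X * Ps W n +
    C W.b₄ * (Ph W n + X * Ps W n) * Ps W n + C W.b₆ * Ps W n ^ 2

/-- the polynomial version of `prodH` at index `n`. -/
noncomputable def prodHP (W : WeierstrassCurve K) (n : ℕ) : K[X] :=
  Ph W n ^ 2 * X ^ 2 - C W.b₄ * Ph W n * X * Ps W n - C W.b₆ * (Ph W n + X * Ps W n) * Ps W n -
    C W.b₈ * Ps W n ^ 2

theorem eval_sumHP (W : WeierstrassCurve K) (n : ℕ) (x : K) :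
    (sumHP W n).eval x = sumH W (fv W x n) (gv W x n) x := by
  simp [sumHP, sumH, fv, gv]

theorem eval_prodHP (W : WeierstrassCurve K) (n : ℕ) (x : K) :
    (prodHP W n).eval x = prodH W (fv W x n) (gv W x n) x := by
  simp [prodHP, prodH, fv, gv]

/-- dblNum and dblDen have no common zero on a nonsingular curve. -/
theorem dblNum_ne_zero_of_dblDen_eq_zero (W : WeierstrassCurve K) (hΔ : W.Δ ≠ 0) {x : K}
    (h : XPair.dblDen W x = 0) : XPair.dblNum W x ≠ 0 := by
  intro h2
  apply hΔ
  have key : (12 * x ^ 3 - W.b₂ * x ^ 2 - 10 * W.b₄ * x + W.b₂ * W.b₄ - 27 * W.b₆) *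
      XPair.dblDen W x - (48 * x ^ 2 + 8 * W.b₂ * x + 32 * W.b₄ - W.b₂ ^ 2) * XPair.dblNum W x
      = W.Δ := by
    simp only [XPair.dblDen, XPair.dblNum, WeierstrassCurve.Δ]
    linear_combination ((12 : K) * x ^ 2 + 2 * W.b₂ * x + 8 * W.b₄) * W.b_relation
  rw [← key, h, h2]; ring

variable [DecidableEq K]

/-- The pointwise chain: the multiplication formula at points where no `ΨSq k`, `k ≤ N`,
vanishes. -/
def ChainHyp (W : WeierstrassCurve K) : Prop :=
  ∀ (N : ℕ) (x y : K) (h : W.toAffine.Nonsingular x y),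
    (∀ k : ℕ, 1 ≤ k → k ≤ N → gv W x k ≠ 0) →
    ∀ k : ℕ, 1 ≤ k → k ≤ N → ∃ (x' y' : K) (h' : W.toAffine.Nonsingular x' y'),
      k • (Affine.Point.some x y h : W.toAffine.Point) = Affine.Point.some x' y' h' ∧
        x' * gv W x k = fv W x k

/-- (I1), (I2) at a point where `ΨSq_k ≠ 0` for `k ≤ m + 3`. -/
theorem I12_of_good {W : WeierstrassCurve K} (hC : ChainHyp W) (m : ℕ) {x y : K}
    (h : W.toAffine.Nonsingular x y) (hg : ∀ k : ℕ, 1 ≤ k → k ≤ m + 3 → gv W x k ≠ 0) :
    fv W x (m + 3) * gv W x (m + 1) + fv W x (m + 1) * gv W x (m + 3) =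
        sumH W (fv W x (m + 2)) (gv W x (m + 2)) x ∧
      fv W x (m + 3) * fv W x (m + 1) = prodH W (fv W x (m + 2)) (gv W x (m + 2)) x := by
  obtain ⟨x1, y1, h1, e1, r1⟩ := hC (m + 3) x y h hg (m + 1) (by omega) (by omega)
  obtain ⟨x2, y2, h2, e2, r2⟩ := hC (m + 3) x y h hg (m + 2) (by omega) (by omega)
  obtain ⟨x3, y3, h3, e3, r3⟩ := hC (m + 3) x y h hg (m + 3) (by omega) (by omega)
  have g1 := hg (m + 1) (by omega) (by omega)
  have g2 := hg (m + 2) (by omega) (by omega)
  have g3 := hg (m + 3) (by omega) (by omega)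
  have i0 := I0_eval W x (m + 1)
  have hne : x2 ≠ x := by
    intro hx
    rw [← r2, hx, sub_self] at i0
    have : gv W x (m + 1 + 2) * gv W x (m + 1) ≠ 0 := mul_ne_zero g3 g1
    exact this (by rw [i0]; ring)
  obtain ⟨xp, yp, xm, ym, hp, hm, ep, em, hs, hpr⟩ := XPair.add_sub_of_X_ne W h2 h hne
  have e3' : (Affine.Point.some x3 y3 h3 : W.toAffine.Point) = Affine.Point.some xp yp hp := by
    rw [← e3, ← ep, ← e2]
    exact succ_nsmul _ (m + 2)
  have e1' : (Affine.Point.some x1 y1 h1 : W.toAffine.Point) = Affine.Point.some xm ym hm := by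
    rw [← e1, ← em, ← e2]
    have := succ_nsmul (Affine.Point.some x y h : W.toAffine.Point) (m + 1)
    rw [this, add_sub_cancel_right]
  have hx3 : x3 = xp := by
    injection e3'
  have hx1 : x1 = xm := by
    injection e1'
  subst hx3 hx1
  have i0' : gv W x (m + 3) * gv W x (m + 1) = gv W x (m + 2) ^ 2 * (x2 - x) ^ 2 := by
    have : gv W x (m + 1 + 2) = gv W x (m + 3) := rfl
    rw [← this, i0, ← r2]; ring
  constructor
  · rw [← r3, ← r1, ← r2, sumH_eq, ← hs]
    linear_combination (x3 + x1) * i0'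
  · rw [← r3, ← r1, ← r2, prodH_eq, ← hpr]
    linear_combination (x3 * x1) * i0'

omit [DecidableEq K] in
theorem Ps_ne_zero (W : WeierstrassCurve K) [CharZero K] {k : ℕ} (hk : 1 ≤ k) : Ps W k ≠ 0 := by
  apply W.ΨSq_ne_zero
  have : (k : K) ≠ 0 := Nat.cast_ne_zero.mpr (by omega)
  exact_mod_cast this

omit [DecidableEq K] in
/-- over an algebraically closed field every `x` is the abscissa of a point. -/
theorem exists_point (W : WeierstrassCurve K) [IsAlgClosed K] (hΔ : W.Δ ≠ 0) (x : K) :
    ∃ y : K, W.toAffine.Nonsingular x y := by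
  let q : K[X] := X ^ 2 + C (W.a₁ * x + W.a₃) * X - C (x ^ 3 + W.a₂ * x ^ 2 + W.a₄ * x + W.a₆)
  have hdeg : q.degree = 2 := by
    simp only [q]
    compute_degree!
  obtain ⟨y, hy⟩ := IsAlgClosed.exists_root q (by rw [hdeg]; norm_num)
  refine ⟨y, (Affine.equation_iff_nonsingular_of_Δ_ne_zero hΔ).mp ?_⟩
  rw [Affine.equation_iff]
  simp only [q, IsRoot.def, eval_sub, eval_add, eval_pow, eval_X, eval_mul, eval_C] at hy
  linear_combination hy

/-- **(I1)** as a polynomial identity. -/
theorem I1 {W : WeierstrassCurve K} [IsAlgClosed K] [CharZero K] (hΔ : W.Δ ≠ 0)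
    (hC : ChainHyp W) (m : ℕ) :
    Ph W (m + 2) * Ps W m + Ph W m * Ps W (m + 2) = sumHP W (m + 1) := by
  rcases m with _ | m
  · simp only [zero_add, Ps_zero, Ph_zero, sumHP, Ph_one, Ps_one, mul_zero, one_mul]
    simp only [Ps, WeierstrassCurve.ΨSq_two, Nat.cast_ofNat, WeierstrassCurve.Ψ₂Sq]
    have h4 : (C (4 : K) : K[X]) = 4 := map_ofNat C 4
    have h2 : (C (2 * W.b₄) : K[X]) = 2 * C W.b₄ := by rw [C_mul]; congr 1
    rw [h4, h2]
    ring
  · rw [← sub_eq_zero]
    set D : K[X] := Ph W (m + 1 + 2) * Ps W (m + 1) + Ph W (m + 1) * Ps W (m + 1 + 2) -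
      sumHP W (m + 1 + 1) with hD
    have hQ : (∏ k ∈ Finset.Icc 1 (m + 3), Ps W k) ≠ 0 :=
      Finset.prod_ne_zero_iff.mpr fun k hk => Ps_ne_zero W (Finset.mem_Icc.mp hk).1
    have hprod : D * ∏ k ∈ Finset.Icc 1 (m + 3), Ps W k = 0 := by
      apply Polynomial.funext
      intro x
      rw [eval_mul, eval_zero, eval_prod]
      by_cases hg : ∀ k : ℕ, 1 ≤ k → k ≤ m + 3 → gv W x k ≠ 0
      · obtain ⟨y, h⟩ := exists_point W hΔ x
        have := (I12_of_good hC m h hg).1
        refine mul_eq_zero.mpr (Or.inl ?_)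
        rw [hD, eval_sub, eval_add, eval_mul, eval_mul, eval_sumHP]
        simp only [fv, gv] at this ⊢
        rw [show m + 1 + 2 = m + 3 from rfl, show m + 1 + 1 = m + 2 from rfl, this, sub_self]
      · push Not at hg
        obtain ⟨k, hk1, hk2, hk0⟩ := hg
        refine mul_eq_zero.mpr (Or.inr ?_)
        exact Finset.prod_eq_zero (Finset.mem_Icc.mpr ⟨hk1, hk2⟩) hk0
    exact (mul_eq_zero.mp hprod).resolve_right hQ

/-- **(I2)** as a polynomial identity. -/
theorem I2 {W : WeierstrassCurve K} [IsAlgClosed K] [CharZero K] (hΔ : W.Δ ≠ 0)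
    (hC : ChainHyp W) (m : ℕ) :
    Ph W (m + 2) * Ph W m = prodHP W (m + 1) := by
  rcases m with _ | m
  · simp only [zero_add, Ph_zero, prodHP, Ph_one, Ps_one, mul_one]
    simp only [Ph, WeierstrassCurve.Φ_two, Nat.cast_ofNat]
    have h2 : (C (2 * W.b₆) : K[X]) = 2 * C W.b₆ := by rw [C_mul]; congr 1
    rw [h2]
    ring
  · rw [← sub_eq_zero]
    set D : K[X] := Ph W (m + 1 + 2) * Ph W (m + 1) - prodHP W (m + 1 + 1) with hD
    have hQ : (∏ k ∈ Finset.Icc 1 (m + 3), Ps W k) ≠ 0 :=
      Finset.prod_ne_zero_iff.mpr fun k hk => Ps_ne_zero W (Finset.mem_Icc.mp hk).1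
    have hprod : D * ∏ k ∈ Finset.Icc 1 (m + 3), Ps W k = 0 := by
      apply Polynomial.funext
      intro x
      rw [eval_mul, eval_zero, eval_prod]
      by_cases hg : ∀ k : ℕ, 1 ≤ k → k ≤ m + 3 → gv W x k ≠ 0
      · obtain ⟨y, h⟩ := exists_point W hΔ x
        have := (I12_of_good hC m h hg).2
        refine mul_eq_zero.mpr (Or.inl ?_)
        rw [hD, eval_sub, eval_mul, eval_prodHP]
        simp only [fv, gv] at this ⊢
        rw [show m + 1 + 2 = m + 3 from rfl, show m + 1 + 1 = m + 2 from rfl, this, sub_self]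
      · push Not at hg
        obtain ⟨k, hk1, hk2, hk0⟩ := hg
        refine mul_eq_zero.mpr (Or.inr ?_)
        exact Finset.prod_eq_zero (Finset.mem_Icc.mpr ⟨hk1, hk2⟩) hk0
    exact (mul_eq_zero.mp hprod).resolve_right hQ

/-! ### The multiplication formula at every point -/

/-- the multiplication formula for `Q = n • P` in projective form (`x` the abscissa of `P`). -/
def St (W : WeierstrassCurve K) (x : K) (n : ℕ) (Q : W.toAffine.Point) : Prop :=
  (Q = 0 → gv W x n = 0 ∧ fv W x n ≠ 0) ∧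
  (∀ (x' y' : K) (h' : W.toAffine.Nonsingular x' y'), Q = Affine.Point.some x' y' h' →
      gv W x n ≠ 0 ∧ x' * gv W x n = fv W x n)

theorem St_step {W : WeierstrassCurve K} [IsAlgClosed K] [CharZero K] (hΔ : W.Δ ≠ 0)
    (hC : ChainHyp W) {x y : K} (h : W.toAffine.Nonsingular x y) (m : ℕ)
    (h0 : St W x m (m • (Affine.Point.some x y h : W.toAffine.Point)))
    (h1 : St W x (m + 1) ((m + 1) • (Affine.Point.some x y h : W.toAffine.Point))) :
    St W x (m + 2) ((m + 2) • (Affine.Point.some x y h : W.toAffine.Point)) := by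
  set P : W.toAffine.Point := Affine.Point.some x y h with hP
  have i0 := I0_eval W x m
  have i1 : fv W x (m + 2) * gv W x m + fv W x m * gv W x (m + 2) =
      sumH W (fv W x (m + 1)) (gv W x (m + 1)) x := by
    have := congrArg (Polynomial.eval x) (I1 hΔ hC m)
    rw [eval_sumHP] at this
    simpa [fv, gv] using this
  have i2 : fv W x (m + 2) * fv W x m = prodH W (fv W x (m + 1)) (gv W x (m + 1)) x := by
    have := congrArg (Polynomial.eval x) (I2 hΔ hC m)
    rw [eval_prodHP] at this
    simpa [fv, gv] using this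
  have hs2 : (m + 2) • P = (m + 1) • P + P := succ_nsmul P (m + 1)
  have hs1 : (m + 1) • P = m • P + P := succ_nsmul P m
  rcases hQ1 : (m + 1) • P with _ | ⟨u, v, hn⟩
  · -- (m+1)P = O
    have hQ1' : (m + 1) • P = 0 := hQ1
    obtain ⟨g1, f1⟩ := h1.1 hQ1'
    have hQ0n : m • P = -P := eq_neg_of_add_eq_zero_left (by rw [← hs1]; exact hQ1')
    have hQ0 : m • P = Affine.Point.some x (W.toAffine.negY x y)
        ((Affine.nonsingular_neg ..).mpr h) := by
      rw [hQ0n, hP, Affine.Point.neg_some]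
    obtain ⟨g0, r0⟩ := h0.2 _ _ _ hQ0
    have hQ2 : (m + 2) • P = P := by rw [hs2, hQ1', zero_add]
    rw [hQ2]
    refine ⟨fun hz => absurd hz (Affine.Point.some_ne_zero _), ?_⟩
    intro x' y' h' he
    have hx : x = x' := by
      rw [hP] at he
      injection he
    subst hx
    rw [g1, mul_zero, sub_zero] at i0
    rw [g1, sumH_zero] at i1
    have g2 : gv W x (m + 2) ≠ 0 := by
      intro hz
      rw [hz, zero_mul] at i0
      exact f1 (pow_eq_zero_iff (two_ne_zero)|>.mp i0.symm)
    refine ⟨g2, ?_⟩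
    apply mul_right_cancel₀ g0
    linear_combination (-1 : K) * i1 + (2 * x) * i0 - gv W x (m + 2) * r0
  · -- (m+1)P = (u, v)
    have hQ1' : (m + 1) • P = Affine.Point.some u v hn := hQ1
    obtain ⟨g1, r1⟩ := h1.2 _ _ _ hQ1'
    rcases hQ0 : m • P with _ | ⟨u', v', hn'⟩
    · -- mP = O, so (m+1)P = P
      have hQ0' : m • P = 0 := hQ0
      obtain ⟨g0, f0⟩ := h0.1 hQ0'
      have hPe : (Affine.Point.some u v hn : W.toAffine.Point) = Affine.Point.some x y h := by
        rw [← hQ1', hs1, hQ0', zero_add]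
      have hux : u = x := by injection hPe
      subst hux
      have hQ2 : (m + 2) • P = P + P := by rw [hs2, hQ1', hPe]
      rw [g0, mul_zero, zero_add, ← r1, sumH_self] at i1
      rw [← r1, prodH_self] at i2
      by_cases hd : XPair.dblDen W u = 0
      · have hPP : P + P = 0 := (XPair.add_self_eq_zero_iff W h).mpr hd
        rw [hQ2, hPP]
        refine ⟨fun _ => ⟨?_, ?_⟩, fun x' y' h' he => absurd he.symm (Affine.Point.some_ne_zero _)⟩
        · rw [hd, mul_zero] at i1
          exact (mul_eq_zero.mp i1).resolve_left f0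
        · intro hz
          rw [hz, zero_mul] at i2
          have := dblNum_ne_zero_of_dblDen_eq_zero W hΔ hd
          exact (mul_ne_zero (pow_ne_zero 2 g1) this) i2.symm
      · have hy : y ≠ W.toAffine.negY u y := (XPair.dblDen_ne_zero_iff W h.1).mp hd
        obtain ⟨x2, y2, h2, e2, -, r2⟩ := XPair.add_self_of_Y_ne W h hy
        rw [hQ2, e2]
        refine ⟨fun hz => absurd hz (Affine.Point.some_ne_zero _), ?_⟩
        intro x' y' h' he
        have hx : x2 = x' := by injection he
        subst hx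
        have g2 : gv W u (m + 2) ≠ 0 := by
          intro hz
          rw [hz, mul_zero] at i1
          exact (mul_ne_zero (pow_ne_zero 2 g1) hd) i1.symm
        refine ⟨g2, ?_⟩
        apply mul_right_cancel₀ f0
        linear_combination (-1 : K) * i2 + x2 * i1 + gv W u (m + 1) ^ 2 * r2
    · -- mP = (u', v')
      have hQ0' : m • P = Affine.Point.some u' v' hn' := hQ0
      obtain ⟨g0, r0⟩ := h0.2 _ _ _ hQ0'
      by_cases hux : u = x
      · subst hux
        have hvy : v ≠ y := by
          intro hvy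
          subst hvy
          have : m • P + P = P := by rw [← hs1, hQ1']
          rw [add_eq_right] at this
          rw [this] at hQ0'
          exact Affine.Point.some_ne_zero _ hQ0'.symm
        have hv : v = W.toAffine.negY u y :=
          (Affine.Y_eq_of_X_eq hn.1 h.1 rfl).resolve_left hvy
        subst hv
        have hQ2 : (m + 2) • P = 0 := by
          rw [hs2, hQ1', hP, ← Affine.Point.neg_some h, neg_add_cancel]
        rw [hQ2]
        refine ⟨fun _ => ⟨?_, ?_⟩, fun x' y' h' he => absurd he.symm (Affine.Point.some_ne_zero _)⟩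
        · rw [← r1, sub_self] at i0
          have : gv W u (m + 2) * gv W u m = 0 := by rw [i0]; ring
          exact (mul_eq_zero.mp this).resolve_right g0
        · have g2 : gv W u (m + 2) = 0 := by
            rw [← r1, sub_self] at i0
            have : gv W u (m + 2) * gv W u m = 0 := by rw [i0]; ring
            exact (mul_eq_zero.mp this).resolve_right g0
          have hd : XPair.dblDen W u ≠ 0 := (XPair.dblDen_ne_zero_iff W h.1).mpr (Ne.symm hvy)
          rw [g2, mul_zero, add_zero, ← r1, sumH_self] at i1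
          intro hz
          rw [hz, zero_mul] at i1
          exact (mul_ne_zero (pow_ne_zero 2 g1) hd) i1.symm
      · obtain ⟨xp, yp, xm, ym, hp, hm, ep, em, hs, -⟩ := XPair.add_sub_of_X_ne W hn h hux
        have hQ2 : (m + 2) • P = Affine.Point.some xp yp hp := by rw [hs2, hQ1', ← ep]
        have hQ0'' : (Affine.Point.some u' v' hn' : W.toAffine.Point) =
            Affine.Point.some xm ym hm := by
          rw [← hQ0', ← em, ← hQ1', hs1, add_sub_cancel_right]
        have hxm : u' = xm := by injection hQ0''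
        subst hxm
        rw [hQ2]
        refine ⟨fun hz => absurd hz (Affine.Point.some_ne_zero _), ?_⟩
        intro x' y' h' he
        have hx : xp = x' := by injection he
        subst hx
        have i0' : gv W x (m + 2) * gv W x m = gv W x (m + 1) ^ 2 * (u - x) ^ 2 := by
          rw [i0, ← r1]; ring
        have g2 : gv W x (m + 2) ≠ 0 := by
          intro hz
          rw [hz, zero_mul] at i0'
          exact (mul_ne_zero (pow_ne_zero 2 g1) (pow_ne_zero 2 (sub_ne_zero.mpr hux))) i0'.symm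
        refine ⟨g2, ?_⟩
        rw [← r1, sumH_eq, ← hs] at i1
        apply mul_right_cancel₀ g0
        linear_combination (-1 : K) * i1 + (xp + u') * i0' - gv W x (m + 2) * r0

theorem St_all {W : WeierstrassCurve K} [IsAlgClosed K] [CharZero K] (hΔ : W.Δ ≠ 0)
    (hC : ChainHyp W) {x y : K} (h : W.toAffine.Nonsingular x y) (n : ℕ) :
    St W x n (n • (Affine.Point.some x y h : W.toAffine.Point)) := by
  have key : ∀ n : ℕ, St W x n (n • (Affine.Point.some x y h : W.toAffine.Point)) ∧
      St W x (n + 1) ((n + 1) • (Affine.Point.some x y h : W.toAffine.Point)) := by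
    intro n
    induction n with
    | zero =>
      refine ⟨⟨fun _ => ⟨gv_zero W x, ?_⟩, fun x' y' h' he => ?_⟩,
        ⟨fun hz => ?_, fun x' y' h' he => ?_⟩⟩
      · rw [fv_zero]; exact one_ne_zero
      · rw [zero_nsmul] at he
        exact absurd he.symm (Affine.Point.some_ne_zero _)
      · rw [zero_add, one_nsmul] at hz
        exact absurd hz (Affine.Point.some_ne_zero _)
      · rw [zero_add, one_nsmul] at he
        have hx : x = x' := by injection he
        subst hx
        rw [zero_add, gv_one, fv_one]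
        exact ⟨one_ne_zero, mul_one x⟩
    | succ n ih => exact ⟨ih.2, St_step hΔ hC h n ih.1 ih.2⟩
  exact (key n).1

/-- **Multiplication by `n`, vanishing criterion.** -/
theorem nsmul_eq_zero_iff {W : WeierstrassCurve K} [IsAlgClosed K] [CharZero K] (hΔ : W.Δ ≠ 0)
    (hC : ChainHyp W) {x y : K} (h : W.toAffine.Nonsingular x y) (n : ℕ) :
    n • (Affine.Point.some x y h : W.toAffine.Point) = 0 ↔ (W.ΨSq (n : ℤ)).eval x = 0 := by
  have hs := St_all hΔ hC h n
  constructor
  · intro h0
    exact (hs.1 h0).1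
  · intro hg
    rcases hQ : n • (Affine.Point.some x y h : W.toAffine.Point) with _ | ⟨u, v, hn⟩
    · rfl
    · exact absurd hg (hs.2 u v hn hQ).1

/-- **Multiplication by `n`, the abscissa.** -/
theorem nsmul_some {W : WeierstrassCurve K} [IsAlgClosed K] [CharZero K] (hΔ : W.Δ ≠ 0)
    (hC : ChainHyp W) {x y : K} (h : W.toAffine.Nonsingular x y) (n : ℕ) {x' y' : K}
    {h' : W.toAffine.Nonsingular x' y'}
    (he : n • (Affine.Point.some x y h : W.toAffine.Point) = Affine.Point.some x' y' h') :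
    (W.ΨSq (n : ℤ)).eval x ≠ 0 ∧ x' * (W.ΨSq (n : ℤ)).eval x = (W.Φ (n : ℤ)).eval x :=
  (St_all hΔ hC h n).2 x' y' h' he

omit [DecidableEq K] in
theorem ΨSq_eval_odd (W : WeierstrassCurve K) {n : ℕ} (hn : Odd n) (x : K) :
    (W.ΨSq (n : ℤ)).eval x = ((W.preΨ' n).eval x) ^ 2 := by
  rw [WeierstrassCurve.ΨSq_ofNat, if_neg (Nat.not_even_iff_odd.mpr hn), mul_one, eval_pow]

/-- For odd `n`: `n • P = 0` iff the abscissa of `P` is a root of `preΨ' n`. -/
theorem nsmul_eq_zero_iff_odd {W : WeierstrassCurve K} [IsAlgClosed K] [CharZero K]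
    (hΔ : W.Δ ≠ 0) (hC : ChainHyp W) {x y : K} (h : W.toAffine.Nonsingular x y) {n : ℕ}
    (hn : Odd n) :
    n • (Affine.Point.some x y h : W.toAffine.Point) = 0 ↔ (W.preΨ' n).eval x = 0 := by
  rw [nsmul_eq_zero_iff hΔ hC h n, ΨSq_eval_odd W hn, sq_eq_zero_iff]

/-- **Existence of torsion points** of odd order `n ≥ 3`. -/
theorem exists_torsion {W : WeierstrassCurve K} [IsAlgClosed K] [CharZero K] (hΔ : W.Δ ≠ 0)
    (hC : ChainHyp W) {n : ℕ} (hn : Odd n) (hn3 : 3 ≤ n) :
    ∃ P : W.toAffine.Point, P ≠ 0 ∧ n • P = 0 := by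
  have hn0 : (n : K) ≠ 0 := Nat.cast_ne_zero.mpr (by omega)
  have hdeg : 0 < (W.preΨ' n).natDegree := W.natDegree_preΨ'_pos (by omega) hn0
  obtain ⟨x, hx⟩ := IsAlgClosed.exists_root (W.preΨ' n)
    (by
      intro hd
      rw [Polynomial.degree_eq_natDegree (W.preΨ'_ne_zero hn0)] at hd
      have : (W.preΨ' n).natDegree = 0 := by exact_mod_cast hd
      omega)
  obtain ⟨y, h⟩ := exists_point W hΔ x
  exact ⟨Affine.Point.some x y h, Affine.Point.some_ne_zero _,
    (nsmul_eq_zero_iff_odd hΔ hC h hn).mpr hx⟩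

/-! ### Counting torsion points -/

/-- the quadratic polynomial in `y` whose roots are the ordinates above `x`. -/
noncomputable def ypoly (W : WeierstrassCurve K) (x : K) : K[X] :=
  X ^ 2 + C (W.a₁ * x + W.a₃) * X - C (x ^ 3 + W.a₂ * x ^ 2 + W.a₄ * x + W.a₆)

omit [DecidableEq K] in
theorem ypoly_natDegree (W : WeierstrassCurve K) (x : K) : (ypoly W x).natDegree = 2 := by
  unfold ypoly
  compute_degree!

omit [DecidableEq K] in
theorem ypoly_ne_zero (W : WeierstrassCurve K) (x : K) : ypoly W x ≠ 0 := by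
  intro h
  have := ypoly_natDegree W x
  rw [h, natDegree_zero] at this
  omega

omit [DecidableEq K] in
theorem ypoly_root (W : WeierstrassCurve K) {x y : K} (h : W.toAffine.Equation x y) :
    (ypoly W x).IsRoot y := by
  rw [Affine.equation_iff] at h
  simp only [ypoly, IsRoot.def, eval_sub, eval_add, eval_pow, eval_X, eval_mul, eval_C]
  linear_combination h

/-- the finite set of candidate coordinates of nonzero `n`-torsion points. -/
noncomputable def cand (W : WeierstrassCurve K) (n : ℕ) : Finset (K × K) :=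
  (W.preΨ' n).roots.toFinset.biUnion fun x => (ypoly W x).roots.toFinset.image (Prod.mk x)

theorem cand_card_le (W : WeierstrassCurve K) {n : ℕ} (hn : Odd n) :
    (cand W n).card ≤ n ^ 2 - 1 := by
  have h1 : (cand W n).card ≤ ∑ _x ∈ (W.preΨ' n).roots.toFinset, 2 := by
    refine Finset.card_biUnion_le.trans (Finset.sum_le_sum fun x _ => ?_)
    refine Finset.card_image_le.trans ((Multiset.toFinset_card_le _).trans ?_)
    exact (Polynomial.card_roots' _).trans (ypoly_natDegree W x).le
  have h2 : (W.preΨ' n).roots.toFinset.card ≤ (n ^ 2 - 1) / 2 := by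
    refine (Multiset.toFinset_card_le _).trans ((Polynomial.card_roots' _).trans ?_)
    have := W.natDegree_preΨ'_le n
    rwa [if_neg (Nat.not_even_iff_odd.mpr hn)] at this
  rw [Finset.sum_const, smul_eq_mul] at h1
  have h3 : (n ^ 2 - 1) / 2 * 2 ≤ n ^ 2 - 1 := Nat.div_mul_le_self _ _
  calc (cand W n).card ≤ (W.preΨ' n).roots.toFinset.card * 2 := h1
    _ ≤ (n ^ 2 - 1) / 2 * 2 := Nat.mul_le_mul_right 2 h2
    _ ≤ n ^ 2 - 1 := h3

/-- the point with given coordinates (the origin if the coordinates are not on the curve). -/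
noncomputable def mkPt (W : WeierstrassCurve K) (xy : K × K) : W.toAffine.Point :=
  open Classical in
  if h : W.toAffine.Nonsingular xy.1 xy.2 then Affine.Point.some xy.1 xy.2 h else 0

theorem torsion_subset {W : WeierstrassCurve K} [IsAlgClosed K] [CharZero K] (hΔ : W.Δ ≠ 0)
    (hC : ChainHyp W) {n : ℕ} (hn : Odd n) :
    {P : W.toAffine.Point | n • P = 0} ⊆ insert 0 (mkPt W '' (cand W n : Set (K × K))) := by
  intro P hP
  rcases P with _ | ⟨x, y, h⟩
  · exact Set.mem_insert _ _
  · refine Set.mem_insert_of_mem _ ⟨(x, y), ?_, ?_⟩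
    · have hn0 : (n : K) ≠ 0 := by
        have : n ≠ 0 := by rintro rfl; exact absurd hn (by decide)
        exact Nat.cast_ne_zero.mpr this
      have hx : (W.preΨ' n).eval x = 0 := (nsmul_eq_zero_iff_odd hΔ hC h hn).mp hP
      simp only [cand, Finset.coe_biUnion, Finset.mem_coe, Multiset.mem_toFinset, Finset.coe_image,
        Set.mem_iUnion, Set.mem_image, exists_prop]
      refine ⟨x, (Polynomial.mem_roots (W.preΨ'_ne_zero hn0)).mpr hx, y, ?_, rfl⟩
      exact (Polynomial.mem_roots (ypoly_ne_zero W x)).mpr (ypoly_root W h.1)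
    · simp only [mkPt, dif_pos h]

/-- **The `n`-torsion is finite** (`n` odd). -/
theorem torsion_finite {W : WeierstrassCurve K} [IsAlgClosed K] [CharZero K] (hΔ : W.Δ ≠ 0)
    (hC : ChainHyp W) {n : ℕ} (hn : Odd n) :
    {P : W.toAffine.Point | n • P = 0}.Finite :=
  Set.Finite.subset (((cand W n).finite_toSet.image _).insert 0) (torsion_subset hΔ hC hn)

/-- **At most `n²` points of `n`-torsion** (`n` odd). -/
theorem torsion_ncard_le {W : WeierstrassCurve K} [IsAlgClosed K] [CharZero K] (hΔ : W.Δ ≠ 0)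
    (hC : ChainHyp W) {n : ℕ} (hn : Odd n) :
    {P : W.toAffine.Point | n • P = 0}.ncard ≤ n ^ 2 := by
  have hfin : (insert (0 : W.toAffine.Point) (mkPt W '' (cand W n : Set (K × K)))).Finite :=
    ((cand W n).finite_toSet.image _).insert 0
  have h1 := Set.ncard_le_ncard (torsion_subset hΔ hC hn) hfin
  have h2 : (insert (0 : W.toAffine.Point) (mkPt W '' (cand W n : Set (K × K)))).ncard ≤
      (mkPt W '' (cand W n : Set (K × K))).ncard + 1 := Set.ncard_insert_le _ _
  have h3 : (mkPt W '' (cand W n : Set (K × K))).ncard ≤ (cand W n : Set (K × K)).ncard :=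
    Set.ncard_image_le (cand W n).finite_toSet
  have h4 : (cand W n : Set (K × K)).ncard = (cand W n).card := Set.ncard_coe_finset _
  have h5 := cand_card_le W hn
  have hn1 : 1 ≤ n ^ 2 := Nat.one_le_pow _ _ (by
    rcases hn with ⟨k, rfl⟩; omega)
  omega

end Fermat.Agent.S13.DivAll
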