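import Mathlib
import Fermat.Agent.S13.DivChain

/-!
# S13: the division polynomial formula `x(kP) ΨSq_k(x) = Φ_k(x)`

Bridge from the pointwise chain of `DivChain` to Mathlib's univariate polynomials `ΨSq`, `Φ`:
if `ΨSq_k(x) ≠ 0` for `1 ≤ k ≤ N`, then `k • P ≠ 0` and `x(kP) ΨSq_k(x) = Φ_k(x)` for
`1 ≤ k ≤ N`.
-/

set_option autoImplicit false

namespace Fermat.Agent.S13.DivChainHyp

open WeierstrassCurve Polynomial
open Fermat.Agent.S05.XPair Fermat.Agent.S13.DivChain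

variable {K : Type*} [Field K] (W : WeierstrassCurve K)

theorem psiVal_zero (x y : K) : psiVal W x y 0 = 0 := by
  simp [psiVal]

/-- `ΨSq_n(x) = ψ_n(P)²`. -/
theorem eval_ΨSq {x y : K} (h : W.toAffine.Equation x y) (n : ℕ) :
    (W.ΨSq (n : ℤ)).eval x = psiVal W x y n ^ 2 := by
  rw [ΨSq_ofNat]
  by_cases hn : Even n
  · simp only [psiVal, if_pos hn, eval_mul, eval_pow, eval_Ψ₂Sq W h]
    ring
  · simp only [psiVal, if_neg hn, eval_mul, eval_pow, eval_one]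
    ring

/-- `Φ_{n+1}(x) = x ψ_{n+1}(P)² - ψ_{n+2}(P) ψ_n(P)`. -/
theorem eval_Φ {x y : K} (h : W.toAffine.Equation x y) (n : ℕ) :
    (W.Φ ((n : ℤ) + 1)).eval x =
      x * psiVal W x y (n + 1) ^ 2 - psiVal W x y (n + 2) * psiVal W x y n := by
  rw [Φ_ofNat]
  by_cases hn : Even n
  · have h1 : ¬ Even (n + 1) := by rw [Nat.even_iff] at *; omega
    have h2 : Even (n + 2) := by rw [Nat.even_iff] at *; omega
    simp only [psiVal, if_pos hn, if_neg h1, if_pos h2, eval_sub, eval_mul, eval_pow, eval_X,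
      eval_one, eval_Ψ₂Sq W h]
    ring
  · have h1 : Even (n + 1) := by rw [Nat.even_iff] at *; omega
    have h2 : ¬ Even (n + 2) := by rw [Nat.even_iff] at *; omega
    simp only [psiVal, if_neg hn, if_pos h1, if_neg h2, eval_sub, eval_mul, eval_pow, eval_X,
      eval_one, eval_Ψ₂Sq W h]
    ring

variable [DecidableEq K]

/-- if `ΨSq_k(x) ≠ 0` for `1 ≤ k ≤ N`, then `k • P ≠ 0` for `1 ≤ k ≤ N`. -/
theorem nsmul_ne_zero_of_ΨSq_ne_zero {x y : K} (h : W.toAffine.Nonsingular x y) {N : ℕ}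
    (hΨ : ∀ k : ℕ, 1 ≤ k → k ≤ N → (W.ΨSq (k : ℤ)).eval x ≠ 0) :
    ∀ k : ℕ, 0 < k → k < N + 1 → k • (Affine.Point.some x y h) ≠ 0 := by
  intro k
  induction k using Nat.strong_induction_on with
  | _ k ih =>
  intro hk hkN h0
  have hlt : ∀ j, 0 < j → j < k → j • (Affine.Point.some x y h) ≠ 0 :=
    fun j hj hjk => ih j hjk hj (by omega)
  have hk2 : 2 ≤ k := by
    rcases (by omega : k = 1 ∨ 2 ≤ k) with rfl | h2
    · rw [one_nsmul] at h0
      exact absurd h0 (Affine.Point.some_ne_zero h)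
    · exact h2
  have hz := psiVal_eq_zero W h hk2 hlt h0
  exact hΨ k (by omega) (by omega) (by rw [eval_ΨSq W h.1, hz]; ring)

/-- **The chain hypothesis**: if `ΨSq_k(x) ≠ 0` for `1 ≤ k ≤ N`, then for `1 ≤ k ≤ N`:
`k • P ≠ 0` and `x(kP) ΨSq_k(x) = Φ_k(x)`. -/
theorem chainHyp (N : ℕ) (x y : K) (h : W.toAffine.Nonsingular x y)
    (hΨ : ∀ k : ℕ, 1 ≤ k → k ≤ N → (W.ΨSq (k : ℤ)).eval x ≠ 0) (k : ℕ) (hk1 : 1 ≤ k)
    (hkN : k ≤ N) :
    k • (Affine.Point.some x y h : W.toAffine.Point) ≠ 0 ∧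
      xc W (k • Affine.Point.some x y h) * (W.ΨSq (k : ℤ)).eval x = (W.Φ (k : ℤ)).eval x := by
  have hN := nsmul_ne_zero_of_ΨSq_ne_zero W h hΨ
  refine ⟨hN k (by omega) (by omega), ?_⟩
  obtain ⟨n, rfl⟩ : ∃ n, k = n + 1 := ⟨k - 1, by omega⟩
  rw [eval_ΨSq W h.1]
  push_cast
  rw [eval_Φ W h.1]
  rcases Nat.eq_zero_or_pos n with rfl | hn
  · simp [psiVal_one, psiVal_zero]
  · have key := psiVal_mul W h hN (k := n) (by omega) (by omega)
    linear_combination key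

/-- the same in coordinates. -/
theorem chainHyp' (N : ℕ) (x y : K) (h : W.toAffine.Nonsingular x y)
    (hΨ : ∀ k : ℕ, 1 ≤ k → k ≤ N → (W.ΨSq (k : ℤ)).eval x ≠ 0) (k : ℕ) (hk1 : 1 ≤ k)
    (hkN : k ≤ N) (x' y' : K) (h' : W.toAffine.Nonsingular x' y')
    (hk : k • (Affine.Point.some x y h : W.toAffine.Point) = Affine.Point.some x' y' h') :
    x' * (W.ΨSq (k : ℤ)).eval x = (W.Φ (k : ℤ)).eval x := by
  have key := (chainHyp W N x y h hΨ k hk1 hkN).2
  rw [hk] at key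
  exact key

end Fermat.Agent.S13.DivChainHyp
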