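import Mathlib
import Fermat.Agent.S13.DivAll
import Fermat.Agent.S13.DivChainHyp
import Fermat.Agent.S13.FreyDisc
import Fermat.Prelude.Def_FLTPrelim_GaloisRep

/-!
# S13: the exact number of `n`-torsion points, by division polynomials

For a Weierstrass curve `W` with `Δ ≠ 0` over an algebraically closed field of characteristic
zero and an odd `n ≥ 3`, the group of `n`-torsion points has exactly `n ^ 2` elements.

* `≤ n ^ 2`: abscissae of nonzero torsion points are roots of `preΨ' n` (`DivAll`).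
* `≥ n ^ 2`: for all but finitely many `x₀` the polynomial `Φ_n - x₀ ΨSq_n` (of degree `n ^ 2`) is
  squarefree, because the Wronskian `Φ_n' ΨSq_n - Φ_n ΨSq_n'` is a nonzero polynomial; each of its
  `n ^ 2` roots is the abscissa of a point `T` with `n • T = Q`, where `Q` is a fixed point of
  abscissa `x₀`; the differences of these points are `n ^ 2` distinct torsion points.
-/

set_option autoImplicit false

namespace Fermat.Agent.S13.DivCard

open WeierstrassCurve Polynomial
open Fermat.Agent.S05 Fermat.Agent.S13.DivAll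

variable {K : Type*} [Field K]

/-! ### The pointwise chain -/

/-- The pointwise chain holds for every Weierstrass curve (`DivChainHyp`). -/
theorem chainHyp_holds [DecidableEq K] (W : WeierstrassCurve K) : ChainHyp W := by
  intro N x y h hΨ k hk1 hkN
  have hc := DivChainHyp.chainHyp W N x y h hΨ k hk1 hkN
  rcases hQ : k • (Affine.Point.some x y h : W.toAffine.Point) with _ | ⟨x', y', h'⟩
  · exact absurd hQ hc.1
  · refine ⟨x', y', h', rfl, ?_⟩
    have h2 := hc.2
    rw [hQ] at h2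
    exact h2

/-! ### The Wronskian of `Φ_n` and `ΨSq_n` -/

/-- The Wronskian of `Φ_n` and `ΨSq_n`. -/
noncomputable def wr (W : WeierstrassCurve K) (n : ℕ) : K[X] :=
  derivative (W.Φ (n : ℤ)) * W.ΨSq (n : ℤ) - W.Φ (n : ℤ) * derivative (W.ΨSq (n : ℤ))

theorem wr_coeff (W : WeierstrassCurve K) {n : ℕ} (hn : 2 ≤ n) :
    (wr W n).coeff (2 * n ^ 2 - 2) = (n : K) ^ 2 := by
  have hd : 4 ≤ n ^ 2 := by nlinarith
  have hA : (W.Φ (n : ℤ)).natDegree ≤ n ^ 2 := by simp
  have hB : (W.ΨSq (n : ℤ)).natDegree ≤ n ^ 2 - 1 := by simpa using W.natDegree_ΨSq_le (n : ℤ)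
  have hA' : (derivative (W.Φ (n : ℤ))).natDegree ≤ n ^ 2 - 1 :=
    (natDegree_derivative_le _).trans (Nat.sub_le_sub_right hA 1)
  have hB' : (derivative (W.ΨSq (n : ℤ))).natDegree ≤ n ^ 2 - 2 :=
    (natDegree_derivative_le _).trans (by omega)
  have cA : (W.Φ (n : ℤ)).coeff (n ^ 2) = 1 := by simpa using W.coeff_Φ (n : ℤ)
  have cB : (W.ΨSq (n : ℤ)).coeff (n ^ 2 - 1) = (n : K) ^ 2 := by
    simpa using W.coeff_ΨSq (n : ℤ)
  have k1 : ((n ^ 2 - 1 : ℕ) : K) + 1 = (n : K) ^ 2 := by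
    rw [← Nat.cast_succ, Nat.succ_eq_add_one, Nat.sub_add_cancel (by omega)]
    push_cast
    ring
  have k2 : ((n ^ 2 - 2 : ℕ) : K) + 1 = (n : K) ^ 2 - 1 := by
    have h : ((n ^ 2 - 2 : ℕ) : K) = (n : K) ^ 2 - 2 := by
      rw [Nat.cast_sub (by omega)]
      push_cast
      ring
    rw [h]
    ring
  have c1 : (derivative (W.Φ (n : ℤ)) * W.ΨSq (n : ℤ)).coeff (2 * n ^ 2 - 2) =
      (n : K) ^ 2 * (n : K) ^ 2 := by
    rw [show 2 * n ^ 2 - 2 = (n ^ 2 - 1) + (n ^ 2 - 1) by omega,
      coeff_mul_add_eq_of_natDegree_le hA' hB, coeff_derivative, cB,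
      show n ^ 2 - 1 + 1 = n ^ 2 by omega, cA, k1, one_mul]
  have c2 : (W.Φ (n : ℤ) * derivative (W.ΨSq (n : ℤ))).coeff (2 * n ^ 2 - 2) =
      (n : K) ^ 2 * ((n : K) ^ 2 - 1) := by
    rw [show 2 * n ^ 2 - 2 = n ^ 2 + (n ^ 2 - 2) by omega,
      coeff_mul_add_eq_of_natDegree_le hA hB', coeff_derivative, cA,
      show n ^ 2 - 2 + 1 = n ^ 2 - 1 by omega, cB, k2, one_mul]
  rw [wr, coeff_sub, c1, c2]
  ring

theorem wr_ne_zero [CharZero K] (W : WeierstrassCurve K) {n : ℕ} (hn : 2 ≤ n) : wr W n ≠ 0 := by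
  intro h
  have hc := wr_coeff W hn
  rw [h, coeff_zero] at hc
  have hn0 : (n : K) ≠ 0 := Nat.cast_ne_zero.mpr (by omega)
  exact pow_ne_zero 2 hn0 hc.symm

/-! ### Points with the same abscissa -/

theorem eq_or_eq_neg_of_xc [DecidableEq K] (W : WeierstrassCurve K) {S T : W.toAffine.Point}
    (hS : S ≠ 0) (hT : T ≠ 0) (h : XPair.xc W S = XPair.xc W T) : S = T ∨ S = -T := by
  rcases S with _ | ⟨x₁, y₁, h₁⟩
  · exact absurd rfl hS
  rcases T with _ | ⟨x₂, y₂, h₂⟩
  · exact absurd rfl hT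
  have hx : x₁ = x₂ := h
  subst hx
  rcases Affine.Y_eq_of_X_eq h₁.1 h₂.1 rfl with hy | hy
  · left
    subst hy
    rfl
  · right
    rw [Affine.Point.neg_some]
    subst hy
    rfl

/-! ### The fibre of multiplication by `n` -/

/-- `n ^ 2` distinct `n`-torsion points. -/
theorem exists_torsion_finset [DecidableEq K] [IsAlgClosed K] [CharZero K]
    (W : WeierstrassCurve K) (hΔ : W.Δ ≠ 0) {n : ℕ} (hn : 2 ≤ n) :
    ∃ s : Finset W.toAffine.Point, s.card = n ^ 2 ∧ ∀ T ∈ s, n • T = 0 := by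
  classical
  have hC := chainHyp_holds W
  have hd : 4 ≤ n ^ 2 := by nlinarith
  have hn0 : ((n : ℤ) : K) ≠ 0 := by
    have : (n : K) ≠ 0 := Nat.cast_ne_zero.mpr (by omega)
    exact_mod_cast this
  have hdA : (W.Φ (n : ℤ)).natDegree = n ^ 2 := by simp
  have hdB : (W.ΨSq (n : ℤ)).natDegree = n ^ 2 - 1 := by simpa using W.natDegree_ΨSq hn0
  -- `Φ_n` and `ΨSq_n` have no common root
  have hnc : ∀ r : K, (W.ΨSq (n : ℤ)).eval r = 0 → (W.Φ (n : ℤ)).eval r ≠ 0 := by
    intro r hB0
    obtain ⟨y, h⟩ := exists_point W hΔ r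
    have h0 : n • (Affine.Point.some r y h : W.toAffine.Point) = 0 :=
      (nsmul_eq_zero_iff hΔ hC h n).mpr hB0
    exact ((St_all hΔ hC h n).1 h0).2
  -- the value `x₀`
  obtain ⟨x0, hx0⟩ := Infinite.exists_notMem_finset
    ((wr W n).roots.toFinset.image fun r => (W.Φ (n : ℤ)).eval r / (W.ΨSq (n : ℤ)).eval r)
  set F : K[X] := W.Φ (n : ℤ) - C x0 * W.ΨSq (n : ℤ) with hF
  have hdF : F.natDegree = n ^ 2 := by
    rw [hF, natDegree_sub_eq_left_of_natDegree_lt, hdA]
    calc (C x0 * W.ΨSq (n : ℤ)).natDegree ≤ (W.ΨSq (n : ℤ)).natDegree := natDegree_C_mul_le _ _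
      _ < (W.Φ (n : ℤ)).natDegree := by rw [hdA, hdB]; omega
  have hF0 : F ≠ 0 := by
    intro h
    rw [h, natDegree_zero] at hdF
    omega
  have hFroot : ∀ r, F.IsRoot r →
      (W.Φ (n : ℤ)).eval r = x0 * (W.ΨSq (n : ℤ)).eval r ∧ (W.ΨSq (n : ℤ)).eval r ≠ 0 := by
    intro r hr
    have h1 : (W.Φ (n : ℤ)).eval r = x0 * (W.ΨSq (n : ℤ)).eval r := by
      have h : F.eval r = 0 := hr
      rw [hF, eval_sub, eval_mul, eval_C] at h
      linear_combination h
    exact ⟨h1, fun hB0 => hnc r hB0 (by rw [h1, hB0, mul_zero])⟩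
  have hnodup : F.roots.Nodup := by
    rw [Multiset.nodup_iff_count_le_one]
    intro r
    rw [count_roots]
    by_contra hlt
    rw [not_le] at hlt
    obtain ⟨hr, hr'⟩ := (one_lt_rootMultiplicity_iff_isRoot hF0).mp hlt
    obtain ⟨h1, hB0⟩ := hFroot r hr
    have h2 : (derivative (W.Φ (n : ℤ))).eval r = x0 * (derivative (W.ΨSq (n : ℤ))).eval r := by
      have h : (derivative F).eval r = 0 := hr'
      rw [hF, derivative_sub, derivative_C_mul, eval_sub, eval_mul, eval_C] at h
      linear_combination h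
    have hw : (wr W n).eval r = 0 := by
      simp only [wr, eval_sub, eval_mul]
      rw [h1, h2]
      ring
    apply hx0
    rw [Finset.mem_image]
    refine ⟨r, ?_, ?_⟩
    · rw [Multiset.mem_toFinset, mem_roots (wr_ne_zero W hn)]
      exact hw
    · rw [h1]
      field_simp
  have hcard : F.roots.toFinset.card = n ^ 2 := by
    rw [Multiset.toFinset_card_of_nodup hnodup, IsAlgClosed.card_roots_eq_natDegree, hdF]
  -- a point above each root
  have hpt : ∀ r ∈ F.roots.toFinset, ∃ T : W.toAffine.Point, XPair.xc W T = r ∧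
      n • T ≠ 0 ∧ XPair.xc W (n • T) = x0 := by
    intro r hr
    rw [Multiset.mem_toFinset, mem_roots hF0] at hr
    obtain ⟨h1, hB0⟩ := hFroot r hr
    obtain ⟨y, h⟩ := exists_point W hΔ r
    have hne : n • (Affine.Point.some r y h : W.toAffine.Point) ≠ 0 :=
      fun h0 => hB0 ((nsmul_eq_zero_iff hΔ hC h n).mp h0)
    refine ⟨Affine.Point.some r y h, rfl, hne, ?_⟩
    rcases hQ : n • (Affine.Point.some r y h : W.toAffine.Point) with _ | ⟨x', y', h'⟩
    · exact absurd hQ hne
    · have h3 := (nsmul_some hΔ hC h n hQ).2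
      change x' = x0
      exact mul_right_cancel₀ hB0 (h3.trans h1)
  -- the reference point
  obtain ⟨r0, hr0⟩ : F.roots.toFinset.Nonempty := by
    rw [← Finset.card_pos, hcard]
    omega
  obtain ⟨T0, -, hnT0, hxT0⟩ := hpt r0 hr0
  have hpt' : ∀ r : K, ∃ T : W.toAffine.Point, r ∈ F.roots.toFinset →
      n • T = n • T0 ∧ XPair.xc W T = r := by
    intro r
    by_cases hr : r ∈ F.roots.toFinset
    · obtain ⟨T, hxT, hnT, hxnT⟩ := hpt r hr
      rcases eq_or_eq_neg_of_xc W hnT hnT0 (hxnT.trans hxT0.symm) with h | h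
      · exact ⟨T, fun _ => ⟨h, hxT⟩⟩
      · refine ⟨-T, fun _ => ⟨?_, ?_⟩⟩
        · rw [smul_neg, h, neg_neg]
        · rw [XPair.xc_neg, hxT]
    · exact ⟨0, fun h => absurd h hr⟩
  choose g hg using hpt'
  refine ⟨F.roots.toFinset.image fun r => g r - g r0, ?_, ?_⟩
  · rw [Finset.card_image_of_injOn, hcard]
    intro r hr r' hr' he
    have he' : g r = g r' := sub_left_injective he
    rw [← (hg r hr).2, ← (hg r' hr').2, he']
  · intro T hT
    obtain ⟨r, hr, rfl⟩ := Finset.mem_image.mp hT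
    rw [smul_sub, (hg r hr).1, (hg r0 hr0).1, sub_self]

/-! ### The exact count -/

/-- **Exactly `n ^ 2` points of `n`-torsion** (`n ≥ 3` odd). -/
theorem torsion_ncard_eq [DecidableEq K] [IsAlgClosed K] [CharZero K]
    (W : WeierstrassCurve K) (hΔ : W.Δ ≠ 0) {n : ℕ} (hn : Odd n) (hn3 : 3 ≤ n) :
    {P : W.toAffine.Point | n • P = 0}.ncard = n ^ 2 := by
  apply le_antisymm (torsion_ncard_le hΔ (chainHyp_holds W) hn)
  obtain ⟨s, hs, hs0⟩ := exists_torsion_finset W hΔ (by omega : 2 ≤ n)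
  have hfin := torsion_finite hΔ (chainHyp_holds W) hn
  have hsub : (s : Set W.toAffine.Point) ⊆ {P | n • P = 0} := fun T hT => hs0 T hT
  have h := Set.ncard_le_ncard hsub hfin
  rwa [Set.ncard_coe_finset, hs] at h

/-- **The `n`-torsion subgroup has exactly `n ^ 2` elements** (`n ≥ 3` odd), in the
`Submodule.torsionBy` form. -/
theorem card_torsionBy [DecidableEq K] [IsAlgClosed K] [CharZero K]
    (W : WeierstrassCurve K) (hΔ : W.Δ ≠ 0) {n : ℕ} (hn : Odd n) (hn3 : 3 ≤ n) :
    Nat.card (Submodule.torsionBy ℤ W.toAffine.Point (n : ℤ)) = n ^ 2 := by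
  have e : {T : W.toAffine.Point // n • T = 0} ≃
      Submodule.torsionBy ℤ W.toAffine.Point (n : ℤ) :=
    Equiv.subtypeEquivRight fun T => by
      rw [Submodule.mem_torsionBy_iff, natCast_zsmul]
  rw [← Nat.card_congr e, ← torsion_ncard_eq W hΔ hn hn3]
  rfl

/-- The `n`-torsion subgroup is finite. -/
theorem finite_torsionBy [DecidableEq K] [IsAlgClosed K] [CharZero K]
    (W : WeierstrassCurve K) (hΔ : W.Δ ≠ 0) {n : ℕ} (hn : Odd n) (hn3 : 3 ≤ n) :
    Finite (Submodule.torsionBy ℤ W.toAffine.Point (n : ℤ)) :=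
  Nat.finite_of_card_ne_zero (by
    rw [card_torsionBy W hΔ hn hn3]
    exact pow_ne_zero 2 (by omega))

/-! ### The Frey curve -/

section Frey

open WeierstrassCurve.Affine

/-- **The `p`-torsion of the Frey curve over an algebraically closed field has exactly `p ^ 2`
points** (frozen spelling of the torsion module). -/
theorem frey_card_torsion (P : FreyPackage) (K : Type*) [Field K] [DecidableEq K] [Algebra ℚ K]
    [IsAlgClosed K] :
    Nat.card (Submodule.torsionBy ℤ (P.freyCurve⁄K).Point P.p) = P.p ^ 2 := by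
  have : CharZero K := algebraRat.charZero K
  have hp5 := P.hp5
  have hodd : Odd P.p := P.pp.odd_of_ne_two (by omega)
  exact card_torsionBy (P.freyCurve.baseChange K) (FreyDisc.freyK_Δ_ne_zero P K) hodd (by omega)

/-- The `p`-torsion of the Frey curve over an algebraically closed field is finite. -/
theorem frey_finite_torsion (P : FreyPackage) (K : Type*) [Field K] [DecidableEq K] [Algebra ℚ K]
    [IsAlgClosed K] :
    Finite (Submodule.torsionBy ℤ (P.freyCurve⁄K).Point P.p) :=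
  Nat.finite_of_card_ne_zero (by
    rw [frey_card_torsion P K]
    exact pow_ne_zero 2 P.pp.ne_zero)

/-- The `p`-torsion of the Frey curve over an algebraically closed field is nontrivial. -/
theorem frey_exists_torsion (P : FreyPackage) (K : Type*) [Field K] [DecidableEq K] [Algebra ℚ K]
    [IsAlgClosed K] :
    ∃ T : (P.freyCurve⁄K).Point, T ≠ 0 ∧ P.p • T = 0 := by
  have : CharZero K := algebraRat.charZero K
  have hp5 := P.hp5
  have hodd : Odd P.p := P.pp.odd_of_ne_two (by omega)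
  exact exists_torsion (W := P.freyCurve.baseChange K) (FreyDisc.freyK_Δ_ne_zero P K)
    (chainHyp_holds _) hodd (by omega)

example (P : FreyPackage) :
    Nat.card (Submodule.torsionBy ℤ (P.freyCurve⁄(AlgebraicClosure ℚ)).Point P.p) = P.p ^ 2 :=
  frey_card_torsion P (AlgebraicClosure ℚ)

end Frey

end Fermat.Agent.S13.DivCard
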