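import Mathlib

/-!
# S13, module T13b: abstract linear algebra for a stable line in a plane over `𝔽_p`

`V` is a `ZMod p`-module with `p ^ 2` elements (`p` prime), a group `G` acts additively on `V`,
and `N` is a `G`-stable submodule with `N ≠ ⊥`, `N ≠ ⊤` (a stable line).

* `fixN N hN`: the subgroup of `G` fixing `N` pointwise; `cofixN N hN`: the subgroup of `G` acting
  trivially on `V ⧸ N` (`σ • x - x ∈ N` for all `x`).  Both are normal.
* `unipotent_mem`: if `(σ - 1) ^ 2 = 0` on `V`, then `σ ∈ fixN N hN` and `σ ∈ cofixN N hN`.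
* `split`: if `V1` is a proper additive subgroup of `V` and `I` is a subgroup of `G` with
  `σ • x - x ∈ V1` for all `σ ∈ I`, `x ∈ V`, then `I ≤ fixN N hN` or `I ≤ cofixN N hN`.
-/

set_option autoImplicit false

namespace Fermat.Agent.S13.LinAlg

open Module

variable {p : ℕ} [Fact p.Prime] {V : Type*} [AddCommGroup V] [Module (ZMod p) V]
  {G : Type*} [Group G] [DistribMulAction G V]

/-- The action of `σ` commutes with `ZMod p`-scalars. -/
theorem smul_zmod_smul (σ : G) (c : ZMod p) (x : V) : σ • (c • x) = c • (σ • x) :=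
  ZMod.map_smul (DistribSMul.toAddMonoidHom V σ) c x

/-- the pointwise fixer of a `G`-stable subspace -/
def fixN (N : Submodule (ZMod p) V) (hN : ∀ σ : G, ∀ x ∈ N, σ • x ∈ N) : Subgroup G where
  carrier := {σ | ∀ x ∈ N, σ • x = x}
  mul_mem' := fun {g h} hg hh x hx => by rw [mul_smul, hh x hx, hg x hx]
  one_mem' := fun x _ => one_smul G x
  inv_mem' := fun {g} hg x hx => by
    have := hg x hx
    rw [inv_smul_eq_iff]
    exact this.symm

/-- the elements acting trivially modulo a `G`-stable subspace -/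
def cofixN (N : Submodule (ZMod p) V) (hN : ∀ σ : G, ∀ x ∈ N, σ • x ∈ N) : Subgroup G where
  carrier := {σ | ∀ x : V, σ • x - x ∈ N}
  mul_mem' := fun {g h} hg hh v => by
    have : (g * h) • v - v = (g • (h • v) - h • v) + (h • v - v) := by
      rw [mul_smul]; abel
    rw [this]
    exact N.add_mem (hg _) (hh v)
  one_mem' := fun v => by rw [one_smul, sub_self]; exact N.zero_mem
  inv_mem' := fun {g} hg v => by
    have h1 : g⁻¹ • (g • v - v) ∈ N := hN g⁻¹ _ (hg v)
    have h2 : g⁻¹ • v - v = -(g⁻¹ • (g • v - v)) := by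
      rw [smul_sub, inv_smul_smul]; abel
    rw [h2]
    exact N.neg_mem h1

theorem mem_fixN {N : Submodule (ZMod p) V} {hN : ∀ σ : G, ∀ x ∈ N, σ • x ∈ N} {σ : G} :
    σ ∈ fixN N hN ↔ ∀ x ∈ N, σ • x = x := Iff.rfl

theorem mem_cofixN {N : Submodule (ZMod p) V} {hN : ∀ σ : G, ∀ x ∈ N, σ • x ∈ N} {σ : G} :
    σ ∈ cofixN N hN ↔ ∀ x : V, σ • x - x ∈ N := Iff.rfl

instance fixN_normal (N : Submodule (ZMod p) V) (hN : ∀ σ : G, ∀ x ∈ N, σ • x ∈ N) :
    (fixN N hN).Normal := by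
  refine ⟨fun g hg h x hx => ?_⟩
  have h1 : h⁻¹ • x ∈ N := hN h⁻¹ x hx
  rw [mul_smul, mul_smul, hg _ h1, smul_inv_smul]

instance cofixN_normal (N : Submodule (ZMod p) V) (hN : ∀ σ : G, ∀ x ∈ N, σ • x ∈ N) :
    (cofixN N hN).Normal := by
  refine ⟨fun g hg h v => ?_⟩
  have h1 : g • (h⁻¹ • v) - h⁻¹ • v ∈ N := hg (h⁻¹ • v)
  have h2 : (h * g * h⁻¹) • v - v = h • (g • (h⁻¹ • v) - h⁻¹ • v) := by
    rw [mul_smul, mul_smul, smul_sub, smul_inv_smul]
  rw [h2]
  exact hN h _ h1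

/-! ### Dimension count -/

omit [Fact p.Prime] [AddCommGroup V] [Module (ZMod p) V] in
theorem finite_of_card (hp : p.Prime) (hV : Nat.card V = p ^ 2) : Finite V := by
  refine Nat.finite_of_card_ne_zero ?_
  rw [hV]
  exact pow_ne_zero 2 hp.ne_zero

theorem finrank_eq_two (hV : Nat.card V = p ^ 2) : finrank (ZMod p) V = 2 := by
  have := finite_of_card (Fact.out : p.Prime) hV
  have h := FiniteField.pow_finrank_eq_natCard p V
  rw [hV] at h
  exact Nat.pow_right_injective (Fact.out : p.Prime).two_le h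

theorem finrank_line (hV : Nat.card V = p ^ 2) {N : Submodule (ZMod p) V} (hN0 : N ≠ ⊥)
    (hN1 : N ≠ ⊤) : finrank (ZMod p) N = 1 := by
  have := finite_of_card (Fact.out : p.Prime) hV
  have h2 := finrank_eq_two hV
  have hlt : finrank (ZMod p) N < finrank (ZMod p) V := Submodule.finrank_lt hN1
  have hpos : 0 < finrank (ZMod p) N := by
    obtain ⟨x, hx, hx0⟩ := Submodule.exists_mem_ne_zero_of_ne_bot hN0
    exact Module.finrank_pos_iff_exists_ne_zero.mpr ⟨⟨x, hx⟩, fun h => hx0 (congrArg Subtype.val h)⟩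
  omega

/-- A proper submodule containing a line is that line. -/
theorem eq_of_le_of_ne_top (hV : Nat.card V = p ^ 2) {N W : Submodule (ZMod p) V} (hN0 : N ≠ ⊥)
    (hNW : N ≤ W) (hW : W ≠ ⊤) : N = W := by
  have := finite_of_card (Fact.out : p.Prime) hV
  have hW0 : W ≠ ⊥ := fun h => hN0 (le_bot_iff.mp (h ▸ hNW))
  have hN1 : N ≠ ⊤ := fun h => hW (top_le_iff.mp (h ▸ hNW))
  exact Submodule.eq_of_le_of_finrank_eq hNW
    ((finrank_line hV hN0 hN1).trans (finrank_line hV hW0 hW).symm)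

/-- A line either meets a submodule trivially or is contained in it. -/
theorem inf_eq_bot_or_le (hV : Nat.card V = p ^ 2) {N : Submodule (ZMod p) V} (hN1 : N ≠ ⊤)
    (W : Submodule (ZMod p) V) : N ⊓ W = ⊥ ∨ N ≤ W := by
  by_cases h : N ⊓ W = ⊥
  · exact Or.inl h
  · right
    have : N ⊓ W = N := eq_of_le_of_ne_top hV h inf_le_left hN1
    rw [← this]
    exact inf_le_right

/-- Every element of a line is a multiple of any of its nonzero elements. -/
theorem exists_smul_eq_of_mem (hV : Nat.card V = p ^ 2) {N : Submodule (ZMod p) V} (hN0 : N ≠ ⊥)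
    (hN1 : N ≠ ⊤) {t w : V} (ht : t ∈ N) (ht0 : t ≠ 0) (hw : w ∈ N) : ∃ c : ZMod p, c • t = w := by
  have := finite_of_card (Fact.out : p.Prime) hV
  have h1 := finrank_line hV hN0 hN1
  obtain ⟨c, hc⟩ := exists_smul_eq_of_finrank_eq_one h1 (x := (⟨t, ht⟩ : N))
    (fun h => ht0 (congrArg Subtype.val h)) ⟨w, hw⟩
  exact ⟨c, congrArg Subtype.val hc⟩

/-- A line and a vector outside it span the plane. -/
theorem exists_add_of_not_mem (hV : Nat.card V = p ^ 2) {N : Submodule (ZMod p) V} (hN0 : N ≠ ⊥)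
    {v : V} (hv : v ∉ N) (w : V) : ∃ (a : ZMod p) (n : V), n ∈ N ∧ w = a • v + n := by
  have hlt : N < N ⊔ Submodule.span (ZMod p) {v} := by
    refine lt_of_le_of_ne le_sup_left fun h => hv ?_
    rw [h]
    exact Submodule.mem_sup_right (Submodule.mem_span_singleton_self v)
  have htop : N ⊔ Submodule.span (ZMod p) {v} = ⊤ := by
    by_contra hne
    have := eq_of_le_of_ne_top hV hN0 le_sup_left hne
    exact hlt.ne this
  have hw : w ∈ N ⊔ Submodule.span (ZMod p) {v} := by rw [htop]; trivial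
  obtain ⟨n, hn, s, hs, rfl⟩ := Submodule.mem_sup.mp hw
  obtain ⟨a, rfl⟩ := Submodule.mem_span_singleton.mp hs
  exact ⟨a, n, hn, add_comm _ _⟩

/-! ### Unipotent elements -/

/-- If `(σ - 1) ^ 2 = 0` on `V`, then `σ` fixes the stable line `N` pointwise. -/
theorem unipotent_mem_fixN (hV : Nat.card V = p ^ 2) {N : Submodule (ZMod p) V}
    (hN : ∀ σ : G, ∀ x ∈ N, σ • x ∈ N) (hN0 : N ≠ ⊥) (hN1 : N ≠ ⊤) {σ : G}
    (h : ∀ x : V, σ • (σ • x - x) = σ • x - x) : σ ∈ fixN N hN := by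
  intro x hx
  by_cases hx0 : x = 0
  · rw [hx0, smul_zero]
  obtain ⟨c, hc⟩ := exists_smul_eq_of_mem hV hN0 hN1 hx hx0 (hN σ x hx)
  have h1 := h x
  rw [← hc] at h1
  have h2 : σ • (c • x - x) = c • (c • x) - c • x := by
    rw [smul_sub, smul_zmod_smul, ← hc]
  rw [h2] at h1
  have h3 : ((c - 1) * (c - 1)) • x = 0 := by
    have : ((c - 1) * (c - 1)) • x = (c • (c • x) - c • x) - (c • x - x) := by
      rw [mul_smul, sub_smul, sub_smul, one_smul, smul_sub, one_smul]
    rw [this, h1, sub_self]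
  rcases smul_eq_zero.mp h3 with h4 | h4
  · have h5 : c - 1 = 0 := by
      rcases mul_eq_zero.mp h4 with h | h <;> exact h
    rw [← hc, sub_eq_zero.mp h5, one_smul]
  · exact absurd h4 hx0

/-- If `(σ - 1) ^ 2 = 0` on `V`, then `σ` acts trivially on `V ⧸ N`. -/
theorem unipotent_mem_cofixN (hV : Nat.card V = p ^ 2) {N : Submodule (ZMod p) V}
    (hN : ∀ σ : G, ∀ x ∈ N, σ • x ∈ N) (hN0 : N ≠ ⊥) (hN1 : N ≠ ⊤) {σ : G}
    (h : ∀ x : V, σ • (σ • x - x) = σ • x - x) : σ ∈ cofixN N hN := by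
  have hfix : ∀ x ∈ N, σ • x = x := unipotent_mem_fixN hV hN hN0 hN1 h
  intro v
  by_cases hv : v ∈ N
  · rw [hfix v hv, sub_self]; exact N.zero_mem
  obtain ⟨a, n, hn, hgv⟩ := exists_add_of_not_mem hV hN0 hv (σ • v)
  have h1 := h v
  have e1 : σ • v - v = (a - 1) • v + n := by
    rw [hgv, sub_smul, one_smul]; abel
  have e2 : σ • ((a - 1) • v + n) = (a - 1) • (a • v + n) + n := by
    rw [smul_add, smul_zmod_smul, hgv, hfix n hn]
  rw [e1, e2] at h1
  have h3 : ((a - 1) * (a - 1)) • v = -((a - 1) • n) := by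
    have : ((a - 1) * (a - 1)) • v =
        ((a - 1) • (a • v + n) + n) - ((a - 1) • v + n) - (a - 1) • n := by
      module
    rw [this, h1, sub_self, zero_sub]
  have h4 : ((a - 1) * (a - 1)) • v ∈ N := by
    rw [h3]; exact N.neg_mem (N.smul_mem _ hn)
  have h5 : (a - 1) * (a - 1) = 0 := by
    by_contra hne
    apply hv
    have := N.smul_mem ((a - 1) * (a - 1))⁻¹ h4
    rwa [smul_smul, inv_mul_cancel₀ hne, one_smul] at this
  have h6 : a - 1 = 0 := by
    rcases mul_eq_zero.mp h5 with h | h <;> exact h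
  rw [e1, h6, zero_smul, zero_add]
  exact hn

/-- a unipotent element acts trivially on a stable line and on the quotient by it -/
theorem unipotent_mem (hV : Nat.card V = p ^ 2) {N : Submodule (ZMod p) V}
    (hN : ∀ σ : G, ∀ x ∈ N, σ • x ∈ N) (hN0 : N ≠ ⊥) (hN1 : N ≠ ⊤) {σ : G}
    (h : ∀ x : V, σ • (σ • x - x) = σ • x - x) : σ ∈ fixN N hN ∧ σ ∈ cofixN N hN :=
  ⟨unipotent_mem_fixN hV hN hN0 hN1 h, unipotent_mem_cofixN hV hN hN0 hN1 h⟩

/-! ### The split at `p` -/

/-- If all `σ ∈ I` move `V` into a proper submodule `W`, then either all of them fix the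
stable line `N` pointwise, or all of them act trivially on `V ⧸ N`. -/
theorem split_submodule (hV : Nat.card V = p ^ 2) {N : Submodule (ZMod p) V}
    (hN : ∀ σ : G, ∀ x ∈ N, σ • x ∈ N) (hN0 : N ≠ ⊥) (hN1 : N ≠ ⊤)
    (W : Submodule (ZMod p) V) (hW : W ≠ ⊤) (I : Subgroup G)
    (hI : ∀ σ ∈ I, ∀ x : V, σ • x - x ∈ W) : I ≤ fixN N hN ∨ I ≤ cofixN N hN := by
  rcases inf_eq_bot_or_le hV hN1 W with h | h
  · left
    intro σ hσ x hx
    have h1 : σ • x - x ∈ N ⊓ W := ⟨N.sub_mem (hN σ x hx) hx, hI σ hσ x⟩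
    rw [h, Submodule.mem_bot] at h1
    exact sub_eq_zero.mp h1
  · right
    have hEq : N = W := eq_of_le_of_ne_top hV hN0 h hW
    intro σ hσ v
    show σ • v - v ∈ N
    rw [hEq]
    exact hI σ hσ v

/-- the case distinction at `p` -/
theorem split (hV : Nat.card V = p ^ 2) {N : Submodule (ZMod p) V}
    (hN : ∀ σ : G, ∀ x ∈ N, σ • x ∈ N) (hN0 : N ≠ ⊥) (hN1 : N ≠ ⊤)
    (V1 : AddSubgroup V) (hV1 : ∃ x : V, x ∉ V1) (I : Subgroup G)
    (hI : ∀ σ ∈ I, ∀ x : V, σ • x - x ∈ V1) : I ≤ fixN N hN ∨ I ≤ cofixN N hN := by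
  have hne : AddSubgroup.toZModSubmodule p V1 ≠ ⊤ := by
    intro h
    obtain ⟨x, hx⟩ := hV1
    apply hx
    have : x ∈ AddSubgroup.toZModSubmodule p V1 := by rw [h]; trivial
    exact this
  exact split_submodule hV hN hN0 hN1 (AddSubgroup.toZModSubmodule p V1) hne I
    (fun σ hσ v => hI σ hσ v)

end Fermat.Agent.S13.LinAlg
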