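import Fermat.Agent.S05.PairLaw

/-!
# The pair law at a node, without inverting `2` (valuation core of S13, prime `2`)

Same statement as `Fermat.Agent.S05.PairLaw.pair_law`, but for the equation
`y ^ 2 + a₁ x y = x ^ 3 + a₂ x ^ 2 + a₄ x` in its own `x`-coordinate (no completion of the
square), so that no hypothesis on `v 2` is needed: with `a = b₂ = a₁ ^ 2 + 4 a₂` (`v a = 1`) and
`b = a₄` (`0 < v b < 1`) the `x`-coordinates `r₁ = x(P + Q)`, `r₂ = x(P - Q)` satisfy
`(r₁ + r₂) (X₁ - X₂) ^ 2 = 2 (X₁ X₂ + b) (X₁ + X₂) + a X₁ X₂` and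
`r₁ r₂ (X₁ - X₂) ^ 2 = (X₁ X₂ - b) ^ 2`, and the duplication formula is
`x(2P) · X (4 X ^ 2 + a X + 4 b) = (X ^ 2 - b) ^ 2`.
-/

set_option autoImplicit false

namespace Fermat.Agent.S13.PairLaw2

open Fermat.Agent.S05.PairLaw

variable {L : Type*} [Field L] {Γ₀ : Type*} [LinearOrderedCommGroupWithZero Γ₀]
variable {v : Valuation L Γ₀}

theorem v_two_le : v (2 : L) ≤ 1 := by
  have : (2 : L) = 1 + 1 := by norm_num
  rw [this]
  exact Valuation.map_add_le v (by rw [map_one]) (by rw [map_one])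

theorem v_four_le : v (4 : L) ≤ 1 := by
  have : (4 : L) = 2 * 2 := by norm_num
  rw [this, map_mul]
  exact mul_le_one' v_two_le v_two_le

section Ingredients

variable {a b X₁ X₂ : L}

theorem v_S_le (ha : v a = 1) (h12 : v X₂ ≤ v X₁) {g : Γ₀}
    (h1 : max (v X₁ * v X₂) (v b) * v X₁ ≤ g) (h2 : v X₁ * v X₂ ≤ g) :
    v (2 * ((X₁ * X₂ + b) * (X₁ + X₂)) + a * X₁ * X₂) ≤ g := by
  refine Valuation.map_add_le v ?_ ?_
  · rw [map_mul, map_mul]
    refine le_trans ?_ h1
    have h3 : v (X₁ * X₂ + b) ≤ max (v X₁ * v X₂) (v b) := by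
      rw [← map_mul]; exact Valuation.map_add v _ _
    have h4 : v (X₁ + X₂) ≤ v X₁ := Valuation.map_add_le v le_rfl h12
    calc v 2 * (v (X₁ * X₂ + b) * v (X₁ + X₂))
        ≤ 1 * (max (v X₁ * v X₂) (v b) * v X₁) := by gcongr; exact v_two_le
      _ = max (v X₁ * v X₂) (v b) * v X₁ := one_mul _
  · rw [map_mul, map_mul, ha, one_mul]
    exact h2

theorem v_S_eq (ha : v a = 1) (h12 : v X₂ ≤ v X₁)
    (h : max (v X₁ * v X₂) (v b) * v X₁ < v X₁ * v X₂) :
    v (2 * ((X₁ * X₂ + b) * (X₁ + X₂)) + a * X₁ * X₂) = v X₁ * v X₂ := by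
  have h0 : v (a * X₁ * X₂) = v X₁ * v X₂ := by
    rw [map_mul, map_mul, ha, one_mul]
  rw [← h0]
  refine Valuation.map_add_eq_of_lt_right v ?_
  rw [h0]
  refine lt_of_le_of_lt ?_ h
  rw [map_mul, map_mul]
  have h3 : v (X₁ * X₂ + b) ≤ max (v X₁ * v X₂) (v b) := by
    rw [← map_mul]; exact Valuation.map_add v _ _
  have h4 : v (X₁ + X₂) ≤ v X₁ := Valuation.map_add_le v le_rfl h12
  calc v 2 * (v (X₁ * X₂ + b) * v (X₁ + X₂))
      ≤ 1 * (max (v X₁ * v X₂) (v b) * v X₁) := by gcongr; exact v_two_le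
    _ = max (v X₁ * v X₂) (v b) * v X₁ := one_mul _

end Ingredients

/-- **Pair law, `x`-coordinate form (no hypothesis on `v 2`).** -/
theorem pair_law2 {a b : L} (ha : v a = 1) (hb0 : b ≠ 0) (hb1 : v b < 1)
    {X₁ X₂ r₁ r₂ : L} (hX : X₁ ≠ X₂)
    (hs : (r₁ + r₂) * (X₁ - X₂) ^ 2 = 2 * ((X₁ * X₂ + b) * (X₁ + X₂)) + a * X₁ * X₂)
    (hp : r₁ * r₂ * (X₁ - X₂) ^ 2 = (X₁ * X₂ - b) ^ 2) :
    (kap v b r₁ = Fm (v b) (kap v b X₁) (kap v b X₂) ∧
        kap v b r₂ = Fd (kap v b X₁) (kap v b X₂)) ∨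
      (kap v b r₁ = Fd (kap v b X₁) (kap v b X₂) ∧
        kap v b r₂ = Fm (v b) (kap v b X₁) (kap v b X₂)) := by
  wlog h12 : v X₂ ≤ v X₁ generalizing X₁ X₂
  · have := this (X₁ := X₂) (X₂ := X₁) hX.symm (by linear_combination hs)
      (by linear_combination hp) (le_of_not_ge h12)
    rwa [Fm_comm, Fd_comm] at this
  have hα : (X₁ - X₂) ^ 2 ≠ 0 := pow_ne_zero 2 (sub_ne_zero.mpr hX)
  have hD0 : v (X₁ - X₂) ≠ 0 := (Valuation.ne_zero_iff v).mpr (sub_ne_zero.mpr hX)
  refine master (zero_lt_iff.mpr ((Valuation.ne_zero_iff v).mpr hb0)) hb1 h12 hD0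
    (Valuation.map_sub_le v le_rfl h12) (Valuation.map_sub_eq_of_lt_left v)
    v_N_le v_N_eq_left v_N_eq_right (fun g h1 h2 => v_S_le ha h12 h1 h2)
    (v_S_eq ha h12) ?_ ?_ ?_ ?_
  · intro h
    have := quad_one (v := v) hs hp (by rw [map_pow, map_pow]; exact h)
    rwa [map_pow, map_pow] at this
  · intro c h1 h2
    exact quad_two (v := v) hα hs hp c (by rw [map_pow]; exact h1)
      (by rw [map_pow, map_pow]; exact h2)
  · intro c h1 h2
    exact quad_three (v := v) hα hs hp c (by rw [map_pow]; exact h1)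
      (by rw [map_pow, map_pow]; exact h2)
  · intro h1 h2
    exact quad_four (v := v) hα hs hp (by rw [map_pow]; exact h1)
      (by rw [map_pow, map_pow]; exact h2)

/-- **Doubling law, `x`-coordinate form.**  If `r = x(2P)`, i.e.
`r · X (4 X ^ 2 + a X + 4 b) = (X ^ 2 - b) ^ 2` with nonzero denominator, then `kap r` is the
folded square of `kap X`. -/
theorem dbl_law2 {a b : L} (ha : v a = 1) (hb0 : b ≠ 0) (hb1 : v b < 1) {X r : L}
    (hD : X * (4 * X ^ 2 + a * X + 4 * b) ≠ 0)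
    (hr : r * (X * (4 * X ^ 2 + a * X + 4 * b)) = (X ^ 2 - b) ^ 2) :
    kap v b r = Fm (v b) (kap v b X) (kap v b X) := by
  have hβ0 : 0 < v b := zero_lt_iff.mpr ((Valuation.ne_zero_iff v).mpr hb0)
  have hY2 : v (X * (4 * X ^ 2 + a * X + 4 * b)) = v X * v (4 * X ^ 2 + a * X + 4 * b) :=
    map_mul _ _ _
  have haX : v (a * X) = v X := by rw [map_mul, ha, one_mul]
  have h4X2 : v (4 * X ^ 2) ≤ v X * v X := by
    rw [map_mul, map_pow, sq]
    calc v 4 * (v X * v X) ≤ 1 * (v X * v X) := by gcongr; exact v_four_le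
      _ = v X * v X := one_mul _
  have h4b : v (4 * b) ≤ v b := by
    rw [map_mul]
    calc v 4 * v b ≤ 1 * v b := by gcongr; exact v_four_le
      _ = v b := one_mul _
  refine master_dbl (Y2 := v (X * (4 * X ^ 2 + a * X + 4 * b))) (N := v (X * X - b)) hβ0 hb1
    ((Valuation.ne_zero_iff v).mpr hD) ?_ ?_ ?_ v_N_le v_N_eq_left v_N_eq_right ?_
  · intro hx1
    rw [hY2]
    have h11 : 1 ≤ v X * v X := hx1.trans (le_mul_of_one_le_right'' hx1)
    have : v (4 * X ^ 2 + a * X + 4 * b) ≤ v X * v X := by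
      refine Valuation.map_add_le v (Valuation.map_add_le v h4X2 ?_)
        (h4b.trans (hb1.le.trans h11))
      rw [haX]
      exact le_mul_of_one_le_right'' hx1
    gcongr
  · intro hxb hx1
    have hx0 : 0 < v X := hβ0.trans hxb
    rw [hY2]
    have h1 : v (4 * X ^ 2 + 4 * b) < v (a * X) := by
      rw [haX]
      refine lt_of_le_of_lt (Valuation.map_add v _ _) (max_lt ?_ (lt_of_le_of_lt h4b hxb))
      exact lt_of_le_of_lt h4X2 (mul_lt_of_lt_one_right'' hx0 hx1)
    have h2 : v (4 * X ^ 2 + a * X + 4 * b) = v X := by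
      rw [show 4 * X ^ 2 + a * X + 4 * b = a * X + (4 * X ^ 2 + 4 * b) by ring,
        Valuation.map_add_eq_of_lt_left v h1, haX]
    rw [h2]
  · intro hxb
    rw [hY2]
    have hx1 : v X ≤ 1 := hxb.trans hb1.le
    have : v (4 * X ^ 2 + a * X + 4 * b) ≤ v b := by
      refine Valuation.map_add_le v (Valuation.map_add_le v ?_ ?_) h4b
      · exact h4X2.trans ((mul_le_of_le_one_right'' hx1).trans hxb)
      · rw [haX]; exact hxb
    gcongr
  · have h := congrArg v hr
    have hN : v ((X ^ 2 - b) ^ 2) = v (X * X - b) ^ 2 := by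
      rw [Valuation.map_pow, sq X]
    rw [map_mul, hN] at h
    exact h

/-- If the denominator of the duplication formula vanishes (`2P = O`), the folded square of
`kap X` is `1`. -/
theorem dbl_law2_zero {a b : L} (ha : v a = 1) (hb0 : b ≠ 0) (hb1 : v b < 1) {X : L}
    (hE : X * (4 * X ^ 2 + a * X + 4 * b) = 0) :
    Fm (v b) (kap v b X) (kap v b X) = 1 := by
  have hβ0 : 0 < v b := zero_lt_iff.mpr ((Valuation.ne_zero_iff v).mpr hb0)
  rcases le_or_gt 1 (v X) with hx1 | hx1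
  · rw [kap_eq_one hb1.le hx1, Fm_one_one hb1.le]
  · rcases le_or_gt (v X) (v b) with hxb | hxb
    · rw [kap_eq_beta hb1.le hxb, Fm_beta_beta hβ0 hb1]
    · exfalso
      have hx0 : 0 < v X := hβ0.trans hxb
      have hX0 : X ≠ 0 := by
        rintro rfl
        rw [map_zero] at hxb
        exact absurd hxb (not_lt.mpr zero_le)
      have h3 : 4 * X ^ 2 + a * X + 4 * b = 0 := (mul_eq_zero.mp hE).resolve_left hX0
      have haX : v (a * X) = v X := by rw [map_mul, ha, one_mul]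
      have h4X2 : v (4 * X ^ 2) < v X := by
        rw [map_mul, map_pow, sq]
        calc v 4 * (v X * v X) ≤ 1 * (v X * v X) := by gcongr; exact v_four_le
          _ = v X * v X := one_mul _
          _ < v X := mul_lt_of_lt_one_right'' hx0 hx1
      have h4b : v (4 * b) < v X := by
        rw [map_mul]
        calc v 4 * v b ≤ 1 * v b := by gcongr; exact v_four_le
          _ = v b := one_mul _
          _ < v X := hxb
      have h1 : v (4 * X ^ 2 + 4 * b) < v (a * X) := by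
        rw [haX]
        exact lt_of_le_of_lt (Valuation.map_add v _ _) (max_lt h4X2 h4b)
      have h2 : v (4 * X ^ 2 + a * X + 4 * b) = v X := by
        rw [show 4 * X ^ 2 + a * X + 4 * b = a * X + (4 * X ^ 2 + 4 * b) by ring,
          Valuation.map_add_eq_of_lt_left v h1, haX]
      rw [h3, map_zero] at h2
      exact hx0.ne h2

end Fermat.Agent.S13.PairLaw2
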