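import Fermat.Agent.S13.Gen
import Fermat.Agent.S13.Special

/-!
# S13 (A1, glue): torsion points are the roots of the denominator of `x(n • G)`

For an elliptic curve `E` over a field `K` of characteristic zero and `R E n` the rational
function with `x(n • G) = R E n (x)` (`Gen.lean`), specialisation at a `K`-rational point
(`Special.spec_poly`, with the Zorn place `GenPt.exists_place_at`) gives, for every affine point
`P₀ = (x₀, y₀)` of `E(K)` and every `n ≥ 1`:

* `n • P₀ = 0 ↔ (R E n).denom.eval x₀ = 0`;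
* `n • P₀ = (x₁, y₁) → x₁ * (R E n).denom.eval x₀ = (R E n).num.eval x₀`.
-/

set_option autoImplicit false

namespace Fermat.Agent.S13.Roots

open WeierstrassCurve Polynomial Fermat.Agent.S05 Fermat.Agent.S13.GenPt Fermat.Agent.S13.Gen
  Fermat.Agent.S13.Special

variable {K : Type*} [Field K] [DecidableEq K] (E : WeierstrassCurve K) [E.IsElliptic]
  [CharZero K] [DecidableEq (FF E)]

/-- **(A1)** for the rational functions `R E n`. -/
theorem spec_R {n : ℕ} (hn : 1 ≤ n) {x₀ y₀ : K} (h₀ : E.toAffine.Nonsingular x₀ y₀) :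
    (n • (Affine.Point.some x₀ y₀ h₀ : E.toAffine.Point) = 0 ↔ (R E n).denom.eval x₀ = 0) ∧
      ∀ {x₁ y₁ : K} (h₁ : E.toAffine.Nonsingular x₁ y₁),
        n • (Affine.Point.some x₀ y₀ h₀ : E.toAffine.Point) = Affine.Point.some x₁ y₁ h₁ →
          x₁ * (R E n).denom.eval x₀ = (R E n).num.eval x₀ := by
  obtain ⟨B, hB, -, -, hξ, hη⟩ := exists_place_at E h₀.1
  have hvK : ∀ c : K, c ≠ 0 → B.valuation (algebraMap K (FF E) c) = 1 :=
    fun c hc => valuation_const B hB hc
  obtain ⟨xn, yn, hnn, hnG⟩ := exists_some (EF E) (nsmul_G_ne_zero E (by omega : n ≠ 0))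
  have hx : xn * (R E n).denom.eval₂ (algebraMap K (FF E)) (gx E) =
      (R E n).num.eval₂ (algebraMap K (FF E)) (gx E) := by
    have h1 := ratEmb_R E hn
    rw [hnG, XPair.xc_some, ratEmb_eq_div] at h1
    have hd : aeval (gx E) (R E n).denom ≠ 0 := aeval_gx_ne_zero E (R E n).denom_ne_zero
    rw [← Polynomial.aeval_def, ← Polynomial.aeval_def, ← h1]
    field_simp
  exact spec_poly (W := E) (φ := algebraMap K (FF E)) (v := B.valuation) hvK h₀
    (gen_nonsingular E) hξ hη hnn hnG (RatFunc.isCoprime_num_denom _) hx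

/-- `n • P₀ = 0` iff `x₀` is a root of the denominator of `R E n`. -/
theorem nsmul_eq_zero_iff {n : ℕ} (hn : 1 ≤ n) {x₀ y₀ : K} (h₀ : E.toAffine.Nonsingular x₀ y₀) :
    n • (Affine.Point.some x₀ y₀ h₀ : E.toAffine.Point) = 0 ↔ (R E n).denom.eval x₀ = 0 :=
  (spec_R E hn h₀).1

/-- The `x`-coordinate of `n • P₀` is the value of `R E n` at `x₀`. -/
theorem xc_nsmul {n : ℕ} (hn : 1 ≤ n) {x₀ y₀ : K} (h₀ : E.toAffine.Nonsingular x₀ y₀)
    {x₁ y₁ : K} (h₁ : E.toAffine.Nonsingular x₁ y₁)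
    (h : n • (Affine.Point.some x₀ y₀ h₀ : E.toAffine.Point) = Affine.Point.some x₁ y₁ h₁) :
    x₁ * (R E n).denom.eval x₀ = (R E n).num.eval x₀ :=
  (spec_R E hn h₀).2 h₁ h

end Fermat.Agent.S13.Roots
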