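import Mathlib
import Fermat.Agent.S13.SSExcl
import Fermat.Agent.S51.Galois

/-!
# S13 (T7, frozen shape): a Galois-stable line excludes `V₁ = V`

`exists_not_inKer_of_stable`: for a valuation `v` above `p` of an algebraic closure `K` of `ℚ`,
the multiplication-by-`p` package of `SSExcl`, and a Galois-stable submodule `N ≠ ⊥, ⊤` of the
frozen torsion module `V` (of cardinality `< p ^ 3`), some nonzero element of `V` is not in the
kernel of reduction.
-/

set_option autoImplicit false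

namespace Fermat.Agent.S13.SSLine

open Polynomial WeierstrassCurve WeierstrassCurve.Affine WeierstrassCurve.Affine.Point
open Fermat.Agent.S05 Fermat.Agent.S05.KerRed Fermat.Agent.S13.SSExcl

variable {K : Type*} [Field K] [DecidableEq K] [Algebra ℚ K]
  {Γ₀ : Type*} [LinearOrderedCommGroupWithZero Γ₀]

/-- **(SS)** in the frozen shape, from the package of `SSExcl.exists_torsion_not_inKer`. -/
theorem exists_not_inKer_of_stable [IsGalois ℚ K] [IsAlgClosed K] (v : Valuation K Γ₀)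
    (W' : WeierstrassCurve ℚ) (hW : IntCoeffs v (W'⁄K)) (hΔ : (W'⁄K).Δ ≠ 0)
    {p : ℕ} (hp : p.Prime) (hp2 : p ≠ 2) (hvp : v (p : K) < 1)
    (A B : K[X]) (hcop : IsCoprime A B) (hdeg : A.natDegree = B.natDegree + 1)
    (hlead : B.leadingCoeff = (p : K) ^ 2 * A.leadingCoeff)
    (hspec : ∀ P : (W'⁄K).Point, P ≠ 0 → B.eval (xc (W'⁄K) P) ≠ 0 →
      p • P ≠ 0 ∧ xc (W'⁄K) (p • P) * B.eval (xc (W'⁄K) P) = A.eval (xc (W'⁄K) P))
    (S : Finset K) (hB : B = C B.leadingCoeff * ∏ s ∈ S, (X - C s) ^ 2)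
    (hS : ∀ s ∈ S, ∃ P : (W'⁄K).Point, P ≠ 0 ∧ p • P = 0 ∧ xc (W'⁄K) P = s)
    (hS' : ∀ P : (W'⁄K).Point, P ≠ 0 → p • P = 0 → xc (W'⁄K) P ∈ S)
    [Finite (Submodule.torsionBy ℤ (W'⁄K).Point p)]
    (hcard : Nat.card (Submodule.torsionBy ℤ (W'⁄K).Point p) < p ^ 3)
    (N : Submodule (ZMod p) (Submodule.torsionBy ℤ (W'⁄K).Point p))
    (hN : IsGaloisStable ℚ N) (hbot : N ≠ ⊥) (htop : N ≠ ⊤) :
    ∃ T : Submodule.torsionBy ℤ (W'⁄K).Point p, T ≠ 0 ∧ ¬ InKer v (W'⁄K) T.1 := by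
  haveI : Fact p.Prime := ⟨hp⟩
  obtain ⟨t, htN, ht0, hline⟩ := Fermat.Agent.S51.line_of_proper p hcard N hbot htop
  have hmem : ∀ u : Submodule.torsionBy ℤ (W'⁄K).Point p, p • (u.1 : (W'⁄K).Point) = 0 := by
    intro u
    have := (Submodule.mem_torsionBy_iff _ _).mp u.2
    rwa [natCast_zsmul] at this
  have hT0 : (t.1 : (W'⁄K).Point) ≠ 0 := fun h => ht0 (Subtype.ext h)
  have hstable : ∀ σ : K ≃ₐ[ℚ] K, ∃ c : ℕ, σ • (t.1 : (W'⁄K).Point) = c • t.1 := by
    intro σ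
    obtain ⟨k, hk⟩ := hline (σ • t) (hN σ t htN)
    refine ⟨k, ?_⟩
    have h1 : ((σ • t : Submodule.torsionBy ℤ (W'⁄K).Point p) : (W'⁄K).Point) = σ • t.1 := rfl
    have h2 : ((k • t : Submodule.torsionBy ℤ (W'⁄K).Point p) : (W'⁄K).Point) = k • t.1 :=
      Submodule.coe_smul_of_tower k t
    exact h1.symm.trans ((congrArg Subtype.val hk).trans h2)
  obtain ⟨t', -, ht'N⟩ : ∃ t' ∈ (⊤ : Submodule (ZMod p) (Submodule.torsionBy ℤ (W'⁄K).Point p)),
      t' ∉ N := by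
    by_contra hcon
    push Not at hcon
    exact htop (top_le_iff.mp fun x hx => hcon x hx)
  have hT' : ∀ n : ℕ, (t'.1 : (W'⁄K).Point) ≠ n • t.1 := by
    intro n h
    apply ht'N
    have : t' = n • t := by
      apply Subtype.ext
      exact h.trans (Submodule.coe_smul_of_tower n t).symm
    rw [this]
    exact N.smul_of_tower_mem n htN
  obtain ⟨P0, hP0, hpP0, hv⟩ := exists_torsion_not_inKer v W' hW hΔ hp hp2 hvp A B hcop hdeg hlead
    hspec S hB hS hS' t.1 hT0 (hmem t) hstable t'.1 (hmem t') hT'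
  refine ⟨⟨P0, ?_⟩, ?_, ?_⟩
  · rw [Submodule.mem_torsionBy_iff, natCast_zsmul]
    exact hpP0
  · intro h
    exact hP0 (congrArg Subtype.val h)
  · intro h
    exact absurd hv (not_le.mpr h)

end Fermat.Agent.S13.SSLine
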