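import Fermat.Agent.S05.NodeModel
import Fermat.Agent.S05.InertiaAPI
import Fermat.Agent.S05.KerRed
import Fermat.Agent.S05.GoodRed
import Fermat.Agent.S05.BadCore
import Fermat.Agent.S05.NodeKapB

/-!
# S13, module T11: the inertia groups at `q ≠ 2, p` act trivially on the `p`-torsion of the Frey
curve, over an arbitrary field `K` over `ℚ`

This is the statement of S05 with `AlgebraicClosure ℚ` replaced by any field `K` with an
`Algebra ℚ K` structure (for instance a number field), for a valuation subring `A` of `K` lying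
over `q` and `σ` in the inertia subgroup of `A`.  The proof is the proof of S05: all the
ingredients (`NodeModel`, `KerRed`, `GoodRed`, `BadCore`, `NodeKapB`) are generic in the field.
-/

set_option autoImplicit false

open WeierstrassCurve WeierstrassCurve.Affine WeierstrassCurve.Affine.Point
open FreyPackage

namespace Fermat.Agent.S13.UnramGen

open Fermat.Agent.S05 Fermat.Agent.S05.XPair Fermat.Agent.S05.NodeModel

variable (P : FreyPackage) {K : Type*} [Field K] [DecidableEq K] [Algebra ℚ K]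
  (A : ValuationSubring K) {q : ℕ}

omit [DecidableEq K] [Algebra ℚ K] in
/-- The valuation of an integer is `< 1` iff `q` divides it. -/
theorem val_intCast_lt_one_iff (hq : q.Prime) (hA : A.LiesOverPrime q) (n : ℤ) :
    A.valuation ((n : ℤ) : K) < 1 ↔ (q : ℤ) ∣ n := by
  rw [← A.mem_nonunits_iff]
  exact InertiaAPI.intCast_mem_nonunits_iff hq hA

omit [DecidableEq K] [Algebra ℚ K] in
/-- The prime `p` is a unit at `q ≠ p`. -/
theorem val_p_eq_one (hq : q.Prime) (hqp : q ≠ P.p) (hA : A.LiesOverPrime q) :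
    A.valuation ((P.p : ℕ) : K) = 1 := by
  have hnd : ¬ (q : ℤ) ∣ (P.p : ℤ) := by
    intro hd
    have hd' : q ∣ P.p := by exact_mod_cast hd
    exact hqp ((Nat.prime_dvd_prime_iff_eq hq P.pp).mp hd')
  have := v_intCast_eq_one A.valuation (val_intCast_lt_one_iff A hq hA) hnd
  exact_mod_cast this

/-- **Multiplicative reduction** (`q ∣ abc`, `q ≠ 2, p`), over any field `K` over `ℚ`. -/
theorem frey_inertia_smul_eq_of_dvd (hq : q.Prime) (hq2 : q ≠ 2) (hqp : q ≠ P.p)
    (hA : A.LiesOverPrime q) (hbad : (q : ℤ) ∣ P.a * P.b * P.c) {σ : K ≃ₐ[ℚ] K}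
    (hσ : σ ∈ A.inertiaSubgroupIn ℚ) (T : (P.freyCurve⁄K).Point) (hpT : P.p • T = 0) :
    σ • T = T := by
  have hv := val_intCast_lt_one_iff A hq hA
  rcases T with _ | ⟨x, y, h⟩
  · rfl
  obtain ⟨h₁, h₂, h₃, h₄, h₆⟩ := frey_integral P A.valuation hq hq2 hv
  have h2 := v_two A.valuation hq hq2 hv
  have hvp := val_p_eq_one P A hq hqp hA
  obtain ⟨ρ, u, hr, hρ, hAn, hBn, hqu, hu0⟩ := exists_node P A.valuation hq hq2 hv hbad
  have hu1 : A.valuation ((u : ℤ) : K) < 1 := (hv u).mpr hqu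
  have : CharZero K := algebraRat.charZero K
  have hu0' : ((u : ℤ) : K) ≠ 0 := by exact_mod_cast hu0
  have hp2 : P.p ≠ 2 := by have := P.hp5; omega
  -- `x` is integral: the kernel of reduction has no `p`-torsion
  have hx : A.valuation x ≤ 1 := by
    by_contra hcon
    rw [not_le] at hcon
    exact no_torsion_in_kernel A.valuation _ h₁ h₂ h₃ h₄ h₆ P.pp P.hp5 hvp h hcon hpT
  have hXle : A.valuation (4 * (x - algebraMap ℚ K ρ)) ≤ 1 := by
    obtain ⟨h4, -, -⟩ := v_ofNat_pow A.valuation h2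
    rw [map_mul, h4, one_mul]
    exact Valuation.map_sub_le _ hx hρ
  -- the position of `T` relative to the node
  have hκ : A.valuation (4 * (x - algebraMap ℚ K ρ)) = 1 ∨
      ∃ j : ℕ, A.valuation (4 * (x - algebraMap ℚ K ρ)) = A.valuation ((u : ℤ) : K) ^ j ∧
        A.valuation (Bn (freyK P K) (algebraMap ℚ K ρ)) <
          A.valuation (4 * (x - algebraMap ℚ K ρ)) ∧
        A.valuation (4 * (x - algebraMap ℚ K ρ)) < 1 := by
    rcases NodeKapB.node_torsion_val (v := A.valuation) (E := freyK P K)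
        (r := algebraMap ℚ K ρ) h2 hr hAn hu0' hu1 P.pp hp2 hBn
        (T := Point.some x y h) (Point.some_ne_zero h) hpT with hge | ⟨hlt, hlt1, j, hj⟩
    · exact Or.inl (le_antisymm hXle hge)
    · exact Or.inr ⟨2 * j, hj.trans (map_pow _ _ _), hlt, hlt1⟩
  -- the action of `σ`
  have hσz : ∀ z : K, A.valuation z ≤ 1 →
      A.valuation ((σ : K ≃ₐ[ℚ] K).toRingEquiv.toRingHom z - z) < 1 := fun z hz =>
    A.mem_nonunits_iff.mp (InertiaAPI.apply_sub_mem_nonunits hσ ((A.valuation_le_one_iff z).mp hz))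
  have h' : (freyK P K).toAffine.Nonsingular (σ x) (σ y) :=
    ((P.freyCurve.toAffine).baseChange_nonsingular (f := σ.toAlgHom) σ.injective x y).mpr h
  have hT' : P.p • (Point.some (σ x) (σ y) h' : (freyK P K).toAffine.Point) = 0 := by
    have e := GoodRed.smul_nsmul (W' := P.freyCurve.toAffine) σ P.p (Point.some x y h)
    rw [hpT] at e
    exact e.symm
  exact BadCore.node_fixed_coord A.valuation (freyK P K) h₁ h₂ h₃ h₄ h₆ h2 P.pp
    P.hp5 hvp hr hρ hAn hu1 hu0' hBn
    (σ : K ≃ₐ[ℚ] K).toRingEquiv.toRingHom hσz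
    (map_intCast σ u) (σ.commutes ρ)
    (by rw [frey_a₁]; exact map_one _) (by rw [frey_a₃]; exact _root_.map_zero _) h h' hpT hT' hκ

/-- **Good reduction** (`q ∤ abc`, `q ≠ 2, p`), over any field `K` over `ℚ`. -/
theorem frey_inertia_smul_eq_of_not_dvd (hq : q.Prime) (hq2 : q ≠ 2) (hqp : q ≠ P.p)
    (hA : A.LiesOverPrime q) (hgood : ¬ (q : ℤ) ∣ P.a * P.b * P.c) {σ : K ≃ₐ[ℚ] K}
    (hσ : σ ∈ A.inertiaSubgroupIn ℚ) (T : (P.freyCurve⁄K).Point) (hpT : P.p • T = 0) :
    σ • T = T := by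
  have hv := val_intCast_lt_one_iff A hq hA
  obtain ⟨h₁, h₂, h₃, h₄, h₆⟩ := frey_integral P A.valuation hq hq2 hv
  have hvp := val_p_eq_one P A hq hqp hA
  refine GoodRed.smul_eq_of_good (W' := P.freyCurve.toAffine) A hσ h₁ h₂ h₃ h₄ h₆
    (n := P.p) ?_ ?_ T hpT
  · intro x y h hx ht
    exact no_torsion_in_kernel A.valuation _ h₁ h₂ h₃ h₄ h₆ P.pp P.hp5 hvp h hx ht
  · intro x y h hx
    have := frey_nonsing_of_good P A.valuation hq hq2 hv hgood h.1 hx
    rw [Affine.evalEval_polynomialX, Affine.evalEval_polynomialY]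
    exact this

/-- **T11.**  For a prime `q ≠ 2, p`, a valuation subring `A` lying over `q` of an arbitrary field
`K` over `ℚ`, and `σ` in the inertia subgroup of `A`: `σ` fixes every `p`-torsion point of the
Frey curve over `K`.  (For `K = AlgebraicClosure ℚ` this is S05.) -/
theorem frey_inertia_smul_eq (hq : q.Prime) (hq2 : q ≠ 2) (hqp : q ≠ P.p)
    (hA : A.LiesOverPrime q) {σ : K ≃ₐ[ℚ] K}
    (hσ : σ ∈ A.inertiaSubgroupIn ℚ) (T : (P.freyCurve⁄K).Point) (hpT : P.p • T = 0) :
    σ • T = T := by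
  by_cases hbad : (q : ℤ) ∣ P.a * P.b * P.c
  · exact frey_inertia_smul_eq_of_dvd P A hq hq2 hqp hA hbad hσ T hpT
  · exact frey_inertia_smul_eq_of_not_dvd P A hq hq2 hqp hA hbad hσ T hpT

/-- The same statement in the shape of the frozen `GaloisRepUnramifiedAt`, for any field `K`. -/
theorem frey_galoisRepUnramifiedAt (hq : q.Prime) (hq2 : q ≠ 2) (hqp : q ≠ P.p) :
    WeierstrassCurve.Affine.Point.GaloisRepUnramifiedAt (K := K) ℚ P.freyCurve P.p q := by
  intro A hA σ hσ T
  apply Subtype.ext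
  have htors : P.p • T.1 = 0 := by
    have := (Submodule.mem_torsionBy_iff _ _).mp T.2
    rwa [natCast_zsmul] at this
  exact frey_inertia_smul_eq P A hq hq2 hqp hA hσ T.1 htors

end Fermat.Agent.S13.UnramGen
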